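/-
Galois representations attached to weight two eigensystems with character: shared definitions.

Everything lives on the group `Γ(M)`, where `M` is a multiple of an auxiliary `n ∈ {2, 3}`.
-/
import Mathlib
import Fermat.Agent.Modular.Defs
import Fermat.Agent.HeckeH.Transfer
import Fermat.Prelude.Def_ModularCurve_LaurentCoeff

/-!
# Definitions for eigensystems with character of level `Γ(M)`

`IsLevel n M`, functions of level `Γ(M)` with coefficients in a ring (`MemR`, `MemB`, `qser`),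
values of `℘` at torsion points and the Hauptmodul `tFun` with its cusp values, parabolic
homomorphisms `Par`, characters `Chr`, multiplier functions `IsCFun`, the Hecke operators
`heckeFun` and `heckeHom`, their polynomials `opMap` and eigen characters `EigChr`.
-/

set_option autoImplicit false

noncomputable section

open UpperHalfPlane CongruenceSubgroup Matrix.SpecialLinearGroup
open scoped MatrixGroups PeriodPair

namespace FLTAgent.Gamma1

open FLTAgent.Modular

/-- The standing hypotheses on the level and the auxiliary level. -/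
structure IsLevel (n M : ℕ) : Prop where
  aux : n = 2 ∨ n = 3
  dvd : n ∣ M
  three_le : 3 ≤ M

/-- The composite of `f` with the Möbius transformation of `γ`. -/
def comp (f : ℍ → ℂ) (γ : SL(2, ℤ)) : ℍ → ℂ := fun z => f (γ • z)

/-- Holomorphic on `ℍ`. -/
def IsHol (f : ℍ → ℂ) : Prop := DifferentiableOn ℂ (f ∘ ofComplex) {z : ℂ | 0 < z.im}

/-- An expansion in `exp (2πiz/M)` with coefficients in `S`. -/
def HasExpIn (M : ℕ) (S : Subring ℂ) (f : ℍ → ℂ) : Prop :=
  ∃ y : LaurentSeries ℂ, HasQExp M f y ∧ ∀ k, y.coeff k ∈ S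

open Classical in
/-- The expansion in `exp (2πiz/M)` (junk `0` if there is none). -/
def qser (M : ℕ) (f : ℍ → ℂ) : LaurentSeries ℂ :=
  if h : ∃ y, HasQExp M f y then h.choose else 0

/-- Holomorphic functions on `ℍ`, invariant under `Γ(M)`, all whose expansions at the cusps have
coefficients in `S`. -/
structure MemR (M : ℕ) (S : Subring ℂ) (f : ℍ → ℂ) : Prop where
  hol : IsHol f
  inv : ∀ γ ∈ Gamma M, comp f γ = f
  expansion : ∀ γ : SL(2, ℤ), HasExpIn M S (comp f γ)

/-- The part of `MemR` invariant under `Γ(n)`. -/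
def MemB (n M : ℕ) (S : Subring ℂ) (f : ℍ → ℂ) : Prop :=
  MemR M S f ∧ ∀ γ ∈ Gamma n, comp f γ = f

/-- `exp (2πi/M)`. -/
def zeta (M : ℕ) : ℂ := Complex.exp (2 * Real.pi * Complex.I / M)

/-- The ring `ℤ[ζ, 1/M]`. -/
def zr (M : ℕ) : Subring ℂ := Subring.closure {zeta M, (M : ℂ)⁻¹}

/-- The algebraic numbers. -/
def algC : Subring ℂ := (algebraicClosure ℚ ℂ).toSubfield.toSubring

/-- The image of a subring of `ℚ̄` in `ℂ`. -/
def placeC (ι : AlgebraicClosure ℚ →+* ℂ) (A : ValuationSubring (AlgebraicClosure ℚ)) :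
    Subring ℂ :=
  A.toSubring.map ι

/-! ### The functions attached to torsion points -/

/-- The lattice `ℤ z + ℤ`. -/
def periodPair (z : ℍ) : PeriodPair where
  ω₁ := z
  ω₂ := 1
  indep := by
    rw [LinearIndependent.pair_iff]
    intro s t h
    simp only [Complex.real_smul, mul_one] at h
    have hs : s = 0 := by
      have := congrArg Complex.im h
      simpa [z.im_pos.ne'] using this
    subst hs
    exact ⟨rfl, by simpa using h⟩

/-- Pairs modulo `M`, standing for torsion points. -/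
abbrev Vec (M : ℕ) : Type := ZMod M × ZMod M

/-- `℘` at the torsion point `(v₁ z + v₂) / M`. -/
def wp {M : ℕ} (v : Vec M) (z : ℍ) : ℂ :=
  ℘[periodPair z] (((v.1.val : ℂ) * z + (v.2.val : ℂ)) / M)

/-- Difference of two values of `℘` at torsion points. -/
def wpDiff {M : ℕ} (v w : Vec M) (z : ℍ) : ℂ := wp v z - wp w z

/-- Ratio of two differences: a function of weight zero. -/
def ratio {M : ℕ} (v w v' w' : Vec M) (z : ℍ) : ℂ := wpDiff v w z / wpDiff v' w' z

/-- Admissible pairs: distinct up to sign and nonzero. -/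
def Sep {M : ℕ} (v w : Vec M) : Prop := v ≠ 0 ∧ w ≠ 0 ∧ v ≠ w ∧ v ≠ -w

/-- The right action of `SL(2, ℤ)` on pairs. -/
def vecMulZ {M : ℕ} (v : Vec M) (γ : SL(2, ℤ)) : Vec M :=
  (v.1 * ((γ 0 0 : ℤ) : ZMod M) + v.2 * ((γ 1 0 : ℤ) : ZMod M),
    v.1 * ((γ 0 1 : ℤ) : ZMod M) + v.2 * ((γ 1 1 : ℤ) : ZMod M))

/-- The point `(x, y)` of order `n`, in level `M`. -/
def base (n M : ℕ) (x y : ℕ) : Vec M := ((x * (M / n) : ℕ), (y * (M / n) : ℕ))

/-- The Hauptmodul of level `n`: `(℘ₐ - ℘_b) / (℘_c - ℘_b)`. -/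
def tFun (n M : ℕ) : ℍ → ℂ := ratio (base n M 0 1) (base n M 1 0) (base n M 1 1) (base n M 1 0)

/-- The finite values of the Hauptmodul at the cusps. -/
def cuspVals (n M : ℕ) : Set ℂ :=
  {c | ∃ γ : SL(2, ℤ), (∀ k < (0 : ℤ), (qser M (comp (tFun n M) γ)).coeff k = 0) ∧
    c = (qser M (comp (tFun n M) γ)).coeff 0}

/-! ### Homomorphisms of `Γ(M)` killing parabolic elements -/

/-- Homomorphisms `Γ(M) → A` killing all parabolic elements. -/
def Par (M : ℕ) (A : Type*) [AddCommGroup A] : AddSubgroup (Additive (Gamma M) →+ A) where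
  carrier := {φ | ∀ (γ : SL(2, ℤ)) (δ : Gamma M),
    (δ : SL(2, ℤ)) = γ * ModularGroup.T ^ (M : ℤ) * γ⁻¹ → φ (Additive.ofMul δ) = 0}
  zero_mem' := fun _ _ _ => rfl
  add_mem' := fun {φ ψ} hφ hψ γ δ h => by
    show φ (Additive.ofMul δ) + ψ (Additive.ofMul δ) = 0
    rw [hφ γ δ h, hψ γ δ h, add_zero]
  neg_mem' := fun {φ} hφ γ δ h => by
    show -φ (Additive.ofMul δ) = 0
    rw [hφ γ δ h, neg_zero]

/-- Characters of order dividing `ℓ`. -/
def Chr (M ℓ : ℕ) : AddSubgroup (Additive (Gamma M) →+ Additive ℂˣ) where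
  carrier := {φ | φ ∈ Par M (Additive ℂˣ) ∧ ℓ • φ = 0}
  zero_mem' := ⟨zero_mem _, smul_zero _⟩
  add_mem' := fun {φ ψ} hφ hψ => ⟨add_mem hφ.1 hψ.1, by
    rw [smul_add, hφ.2, hψ.2]; simp⟩
  neg_mem' := fun {φ} hφ => ⟨neg_mem hφ.1, by rw [smul_neg, hφ.2]; simp⟩

/-- The value of a character. -/
def chrVal {M : ℕ} (φ : Additive (Gamma M) →+ Additive ℂˣ) (γ : Gamma M) : ℂ :=
  ((Additive.toMul (φ (Additive.ofMul γ)) : ℂˣ) : ℂ)

/-- Multiplier functions: holomorphic on `ℍ`, meromorphic at the cusps. -/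
structure IsCFun (M : ℕ) (φ : Additive (Gamma M) →+ Additive ℂˣ) (y : ℍ → ℂ) : Prop where
  hol : IsHol y
  smul : ∀ (γ : Gamma M) (z : ℍ), y ((γ : SL(2, ℤ)) • z) = chrVal φ γ * y z
  expansion : ∀ γ : SL(2, ℤ), HasExpIn M ⊤ (comp y γ)

/-- A lift of the diagonal matrix `(d⁻¹, d)` modulo `M` (junk `1` if there is none). -/
def dia (M d : ℕ) : SL(2, ℤ) :=
  open Classical in
  if h : ∃ γ : SL(2, ℤ), ((γ 0 1 : ℤ) : ZMod M) = 0 ∧ ((γ 1 0 : ℤ) : ZMod M) = 0 ∧
      ((γ 1 1 : ℤ) : ZMod M) = (d : ZMod M) then h.choose else 1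

/-- The representatives of the Hecke double coset of `Γ(M)` at `p`. -/
def heckeRep (M p : ℕ) : Option (Fin p) → HeckeH.M2
  | none => ((dia M p : SL(2, ℤ)) : HeckeH.M2) * !![(p : ℤ), 0; 0, 1]
  | some b => !![1, (M : ℤ) * (b : ℤ); 0, (p : ℤ)]

/-- The Hecke operator on multiplier functions. -/
def heckeFun (M p : ℕ) (y : ℍ → ℂ) (z : ℍ) : ℂ :=
  y (dia M p • ofComplex ((p : ℂ) * z)) *
    ∏ b : Fin p, y (ofComplex (((z : ℂ) + ((M * (b : ℕ) : ℕ) : ℂ)) / (p : ℂ)))

/-- Conjugation of a homomorphism by an element of `SL(2, ℤ)`. -/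
def conjHom {M : ℕ} {A : Type*} [AddCommGroup A] (g : SL(2, ℤ))
    (φ : Additive (Gamma M) →+ A) : Additive (Gamma M) →+ A where
  toFun δ := φ (Additive.ofMul ⟨g * ((Additive.toMul δ : Gamma M) : SL(2, ℤ)) * g⁻¹,
    (Gamma_normal M).conj_mem _ (Additive.toMul δ).2 g⟩)
  map_zero' := by
    convert φ.map_zero
    apply Additive.toMul.injective
    apply Subtype.ext
    simp
  map_add' δ δ' := by
    rw [← map_add]
    congr 1
    apply Additive.toMul.injective
    apply Subtype.ext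
    simp [mul_assoc]

/-- `conjHom` as a linear map. -/
def conjLin {M : ℕ} {A : Type*} [AddCommGroup A] (g : SL(2, ℤ)) :
    (Additive (Gamma M) →+ A) →ₗ[ℤ] (Additive (Gamma M) →+ A) :=
  ({ toFun := conjHom g
     map_zero' := rfl
     map_add' := fun _ _ => rfl } : (Additive (Gamma M) →+ A) →+
      (Additive (Gamma M) →+ A)).toIntLinearMap

open Classical in
/-- The Hecke operator at `p` on homomorphisms (junk `0` if the representatives do not fit). -/
def heckeHom (M p : ℕ) {A : Type*} [AddCommGroup A] :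
    (Additive (Gamma M) →+ A) →ₗ[ℤ] (Additive (Gamma M) →+ A) :=
  if h : ∃ B : HeckeH.Reps (Gamma M) (Option (Fin p)), B.β = heckeRep M p then
    h.choose.transfer ℤ else 0

/-- Indices of the operators: `(p, true)` is `T_p`, `(p, false)` is the diamond operator. -/
abbrev OpIndex (M : ℕ) : Type := {p : ℕ // p.Prime ∧ ¬ p ∣ M} × Bool

/-- The operator attached to an index. -/
def opGen (M : ℕ) (A : Type*) [AddCommGroup A] :
    OpIndex M → Module.End ℤ (Additive (Gamma M) →+ A)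
  | (p, true) => heckeHom M p
  | (p, false) => conjLin (dia M p)

/-- Noncommutative polynomials in the operators. -/
def opMap (M : ℕ) (A : Type*) [AddCommGroup A] :
    FreeAlgebra ℤ (OpIndex M) →ₐ[ℤ] Module.End ℤ (Additive (Gamma M) →+ A) :=
  FreeAlgebra.lift ℤ (opGen M A)

/-- The eigen system given by the values `a` of `T_p` and `c` of the diamond operators. -/
def eigGen {M : ℕ} {k : Type*} (a c : ℕ → k) : OpIndex M → k
  | (p, true) => a p
  | (p, false) => c p

/-- The evaluation of polynomials in the operators at an eigen system. -/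
def eigMap (M : ℕ) {k : Type*} [CommRing k] (a c : ℕ → k) :
    FreeAlgebra ℤ (OpIndex M) →ₐ[ℤ] k :=
  FreeAlgebra.lift ℤ (eigGen a c)

/-- The characters in the eigen system `(a, c)`. -/
def EigChr (M ℓ : ℕ) {k : Type*} [CommRing k] (a c : ℕ → k) :
    AddSubgroup (Additive (Gamma M) →+ Additive ℂˣ) where
  carrier := {φ | φ ∈ Chr M ℓ ∧
    ∀ P, eigMap M a c P = 0 → opMap M (Additive ℂˣ) P φ = 0}
  zero_mem' := ⟨zero_mem _, fun _ _ => map_zero _⟩
  add_mem' := fun {φ ψ} hφ hψ => ⟨add_mem hφ.1 hψ.1, fun P hP => by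
    rw [map_add, hφ.2 P hP, hψ.2 P hP, add_zero]⟩
  neg_mem' := fun {φ} hφ => ⟨neg_mem hφ.1, fun P hP => by rw [map_neg, hφ.2 P hP, neg_zero]⟩

end FLTAgent.Gamma1
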