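/-
Reduction `SL(2, ℤ) → SL(2, ℤ/M)` is surjective.
-/
import Mathlib

/-!
# Strong approximation for `SL(2)`

`exists_lift_SL`: every element of `SL(2, ℤ/M)` lifts to `SL(2, ℤ)`, by lifting the bottom row to
a coprime pair (`exists_isCoprime_add_mul`) and correcting the top row.
-/

set_option autoImplicit false

open scoped MatrixGroups

namespace FLTAgent.Gamma1

/-- A coprime lift. -/
theorem exists_isCoprime_add_mul {c d m : ℤ} (hc : c ≠ 0)
    (h : ∀ q : ℤ, Prime q → q ∣ c → q ∣ d → ¬ q ∣ m) : ∃ t : ℤ, IsCoprime c (d + t * m) := by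
  classical
  let S := c.natAbs.primeFactors.filter fun q : ℕ => ¬ (q : ℤ) ∣ d
  refine ⟨((∏ q ∈ S, q : ℕ) : ℤ), isCoprime_of_prime_dvd (fun h0 => hc h0.1) ?_⟩
  intro z hz hzc hzd
  have hzp : z.natAbs.Prime := Int.prime_iff_natAbs_prime.mp hz
  have key : ∀ q : ℤ, (q.natAbs : ℤ) ∣ d ↔ q ∣ d := fun q => Int.natAbs_dvd
  by_cases hd : z ∣ d
  · have hzm : ¬ z ∣ m := h z hz hzc hd
    have h1 : z ∣ ((∏ q ∈ S, q : ℕ) : ℤ) * m := (dvd_add_right hd).mp hzd
    rcases hz.dvd_mul.mp h1 with h2 | h2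
    · have h3 : z.natAbs ∣ ∏ q ∈ S, q := Int.natCast_dvd_natCast.mp (Int.natAbs_dvd.mpr h2)
      obtain ⟨q, hq, hzq⟩ := (Prime.dvd_finsetProd_iff hzp.prime _).mp h3
      rw [Finset.mem_filter, Nat.mem_primeFactors] at hq
      have : z.natAbs = q := (Nat.prime_dvd_prime_iff_eq hzp hq.1.1).mp hzq
      exact hq.2 (this ▸ (key z).mpr hd)
    · exact hzm h2
  · have hmem : z.natAbs ∈ S := by
      rw [Finset.mem_filter, Nat.mem_primeFactors]
      exact ⟨⟨hzp, Int.natAbs_dvd_natAbs.mpr hzc, Int.natAbs_ne_zero.mpr hc⟩,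
        fun h' => hd ((key z).mp h')⟩
    have h2 : z ∣ ((∏ q ∈ S, q : ℕ) : ℤ) :=
      Int.natAbs_dvd.mp (Int.natCast_dvd_natCast.mpr (Finset.dvd_prod_of_mem _ hmem))
    exact hd ((dvd_add_left (h2.mul_right m)).mp hzd)

/-- Every element of `SL(2, ℤ/M)` lifts to `SL(2, ℤ)`. -/
theorem exists_lift_SL (M : ℕ) [NeZero M] (g : SL(2, ZMod M)) :
    ∃ γ : SL(2, ℤ), ∀ i j, ((γ i j : ℤ) : ZMod M) = g i j := by
  obtain ⟨a, ha⟩ := ZMod.intCast_surjective (g 0 0)
  obtain ⟨b, hb⟩ := ZMod.intCast_surjective (g 0 1)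
  obtain ⟨c₀, hc₀⟩ := ZMod.intCast_surjective (g 1 0)
  obtain ⟨d₀, hd₀⟩ := ZMod.intCast_surjective (g 1 1)
  obtain ⟨c, hc, hc0⟩ : ∃ c : ℤ, (c : ZMod M) = g 1 0 ∧ c ≠ 0 := by
    by_cases h0 : c₀ = 0
    · exact ⟨(M : ℤ), by rw [← hc₀, h0]; simp, by simpa using NeZero.ne M⟩
    · exact ⟨c₀, hc₀, h0⟩
  have hdet : g 0 0 * g 1 1 - g 0 1 * g 1 0 = 1 := by
    rw [← Matrix.det_fin_two]; exact g.2
  obtain ⟨t, ht⟩ := exists_isCoprime_add_mul (c := c) (d := d₀) (m := M) hc0 (by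
    intro q hq hqc hqd hqm
    obtain ⟨k, hk⟩ : (M : ℤ) ∣ a * d₀ - b * c - 1 := by
      rw [← ZMod.intCast_zmod_eq_zero_iff_dvd]
      push_cast
      rw [ha, hb, hc, hd₀, hdet, sub_self]
    apply hq.not_isUnit
    apply isUnit_of_dvd_one
    rw [show (1 : ℤ) = a * d₀ - b * c - (M : ℤ) * k by linarith]
    exact dvd_sub (dvd_sub (hqd.mul_left a) (hqc.mul_left b)) (hqm.mul_right k))
  set d := d₀ + t * (M : ℤ) with hddef
  have hd : (d : ZMod M) = g 1 1 := by simp [hddef, hd₀]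
  obtain ⟨u, v, huv⟩ := ht
  -- `(x₀, y₀)` is one top row, corrected by a multiple of the bottom row.
  set l : ℤ := u * (a - v) + v * (b + u) with hl
  have hmod : (c : ZMod M) * ((b : ZMod M) + u) = (d : ZMod M) * ((a : ZMod M) - v) := by
    have h1 : ((u * c + v * d : ℤ) : ZMod M) = 1 := by rw [huv]; norm_num
    push_cast at h1
    rw [← ha, ← hb, ← hc, ← hd] at hdet
    linear_combination -hdet + h1
  let γ : SL(2, ℤ) := ⟨!![v + l * c, -u + l * d; c, d], by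
    rw [Matrix.det_fin_two_of]; linear_combination huv⟩
  refine ⟨γ, ?_⟩
  have h1 : ((u * c + v * d : ℤ) : ZMod M) = 1 := by rw [huv]; norm_num
  push_cast at h1
  intro i j
  fin_cases i <;> fin_cases j
  · simp only [γ]
    simp
    rw [← ha, hl]
    push_cast
    linear_combination (v : ZMod M) * hmod + ((a : ZMod M) - v) * h1
  · simp only [γ]
    simp
    rw [← hb, hl]
    push_cast
    linear_combination -(u : ZMod M) * hmod + ((b : ZMod M) + u) * h1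
  · simpa [γ] using hc
  · simpa [γ] using hd

end FLTAgent.Gamma1
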