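/-
Expansions of functions of level `Γ(M)` and the rings they form.
-/
import Fermat.Agent.Gamma1.Defs
import Fermat.Agent.Gamma1.Lift
import Fermat.Agent.Modular.Mero
import Fermat.Agent.ModularCosets.Holo

/-!
# Rings of functions of level `Γ(M)` and their expansions

`ringR` and `ringB` are the rings of functions of level `M`, resp. those invariant under `Γ(n)`,
with all expansions having coefficients in `S`. `serHom` and `serS` give the expansion at a cusp;
`serHom_injective`: it determines the function. `MemR.comp_eq_of_cast_eq`: translates depend on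
`γ` only modulo `M` up to sign; `qser_comp_T_zpow`: translation twists the expansion.
-/

set_option autoImplicit false
set_option linter.unusedSectionVars false

noncomputable section

open UpperHalfPlane CongruenceSubgroup Filter ModularCurve
open scoped MatrixGroups

namespace FLTAgent.Gamma1

open FLTAgent.Modular

variable {n M : ℕ} [NeZero M] {S T : Subring ℂ} {f g : ℍ → ℂ}

theorem natM_pos : (0 : ℝ) < (M : ℝ) := Nat.cast_pos.mpr (Nat.pos_of_ne_zero (NeZero.ne M))

theorem qser_eq {y : LaurentSeries ℂ} (h : HasQExp M f y) : qser M f = y := by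
  have hex : ∃ y, HasQExp M f y := ⟨y, h⟩
  rw [qser, dif_pos hex]
  exact hex.choose_spec.unique natM_pos h

theorem HasExpIn.hasQExp (h : HasExpIn M S f) : HasQExp M f (qser M f) := by
  obtain ⟨y, hy, -⟩ := h
  rwa [qser_eq hy]

theorem HasExpIn.coeff_mem (h : HasExpIn M S f) (k : ℤ) : (qser M f).coeff k ∈ S := by
  obtain ⟨y, hy, hk⟩ := h
  rw [qser_eq hy]
  exact hk k

theorem HasExpIn.mono (h : HasExpIn M S f) (hST : S ≤ T) : HasExpIn M T f := by
  obtain ⟨y, hy, hk⟩ := h
  exact ⟨y, hy, fun k => hST (hk k)⟩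

/-- A series with coefficients in a subring is the image of a series over the subring. -/
theorem exists_coeffMap_eq {y : LaurentSeries ℂ} (h : ∀ k, y.coeff k ∈ S) :
    ∃ y' : LaurentSeries S, coeffMap S.subtype y' = y :=
  ⟨{ coeff := fun k => ⟨y.coeff k, h k⟩
     isPWO_support' := y.isPWO_support'.mono fun _ hk hk0 => hk (Subtype.ext hk0) },
    HahnSeries.ext rfl⟩

theorem coeff_mul_mem {y z : LaurentSeries ℂ} (hy : ∀ k, y.coeff k ∈ S) (hz : ∀ k, z.coeff k ∈ S)
    (k : ℤ) : (y * z).coeff k ∈ S := by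
  obtain ⟨y', rfl⟩ := exists_coeffMap_eq hy
  obtain ⟨z', rfl⟩ := exists_coeffMap_eq hz
  rw [← map_mul, coeffMap_coeff]
  exact ((y' * z').coeff k).2

theorem hasExpIn_const {c : ℂ} (hc : c ∈ S) : HasExpIn M S fun _ => c := by
  refine ⟨_, hasQExp_const M c, fun k => ?_⟩
  rw [algebraMap_laurentSeries_eq_single, HahnSeries.coeff_single]
  split_ifs
  exacts [hc, S.zero_mem]

theorem HasExpIn.add (hf : HasExpIn M S f) (hg : HasExpIn M S g) : HasExpIn M S (f + g) :=
  ⟨_, hf.hasQExp.add hg.hasQExp, fun k => by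
    rw [HahnSeries.coeff_add]; exact S.add_mem (hf.coeff_mem k) (hg.coeff_mem k)⟩

theorem HasExpIn.neg (hf : HasExpIn M S f) : HasExpIn M S (-f) :=
  ⟨_, hf.hasQExp.neg, fun k => by
    rw [HahnSeries.coeff_neg]; exact S.neg_mem (hf.coeff_mem k)⟩

theorem HasExpIn.mul (hf : HasExpIn M S f) (hg : HasExpIn M S g) : HasExpIn M S (f * g) :=
  ⟨_, hf.hasQExp.mul hg.hasQExp, coeff_mul_mem hf.coeff_mem hg.coeff_mem⟩

omit [NeZero M] in
theorem isHol_comp (hf : IsHol f) (γ : SL(2, ℤ)) : IsHol (comp f γ) := by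
  rw [IsHol, ← UpperHalfPlane.mdifferentiable_iff] at hf ⊢
  exact hf.comp (UpperHalfPlane.mdifferentiable_smul
    (g := (γ : GL (Fin 2) ℝ)) (by simp))

omit [NeZero M] in
theorem comp_comp (f : ℍ → ℂ) (γ δ : SL(2, ℤ)) : comp (comp f γ) δ = comp f (γ * δ) := by
  funext z
  simp [comp, mul_smul]

omit [NeZero M] in
@[simp] theorem comp_one (f : ℍ → ℂ) : comp f 1 = f := by
  funext z
  simp [comp]

omit [NeZero M] in
theorem comp_neg (f : ℍ → ℂ) (γ : SL(2, ℤ)) : comp f (-γ) = comp f γ := by
  funext z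
  exact congrArg f (ModularGroup.SL_neg_smul γ z)

/-- Composition with a fixed element, as a ring homomorphism. -/
def compHom (γ : SL(2, ℤ)) : (ℍ → ℂ) →+* (ℍ → ℂ) where
  toFun f := comp f γ
  map_one' := rfl
  map_mul' _ _ := rfl
  map_zero' := rfl
  map_add' _ _ := rfl

omit [NeZero M] in
@[simp] theorem compHom_apply (γ : SL(2, ℤ)) (f : ℍ → ℂ) : compHom γ f = comp f γ := rfl

theorem MemR.mono (h : MemR M S f) (hST : S ≤ T) : MemR M T f :=
  ⟨h.hol, h.inv, fun γ => (h.expansion γ).mono hST⟩

omit [NeZero M] in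
theorem memR_const {c : ℂ} (hc : c ∈ S) [NeZero M] : MemR M S fun _ => c :=
  ⟨differentiableOn_const (c := c), fun _ _ => rfl, fun _ => hasExpIn_const hc⟩

theorem MemR.add (hf : MemR M S f) (hg : MemR M S g) : MemR M S (f + g) :=
  ⟨DifferentiableOn.add hf.hol hg.hol,
    fun γ hγ => by rw [← compHom_apply, map_add, compHom_apply, compHom_apply, hf.inv γ hγ,
      hg.inv γ hγ],
    fun γ => (hf.expansion γ).add (hg.expansion γ)⟩

theorem MemR.neg (hf : MemR M S f) : MemR M S (-f) :=
  ⟨DifferentiableOn.neg hf.hol,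
    fun γ hγ => by rw [← compHom_apply, map_neg, compHom_apply, hf.inv γ hγ],
    fun γ => (hf.expansion γ).neg⟩

theorem MemR.mul (hf : MemR M S f) (hg : MemR M S g) : MemR M S (f * g) :=
  ⟨DifferentiableOn.mul hf.hol hg.hol,
    fun γ hγ => by rw [← compHom_apply, map_mul, compHom_apply, compHom_apply, hf.inv γ hγ,
      hg.inv γ hγ],
    fun γ => (hf.expansion γ).mul (hg.expansion γ)⟩

theorem MemR.comp_sl (hf : MemR M S f) (g : SL(2, ℤ)) : MemR M S (comp f g) := by
  refine ⟨isHol_comp hf.hol g, fun γ hγ => ?_, fun γ => ?_⟩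
  · rw [comp_comp]
    have h := (Gamma_normal M).conj_mem γ hγ g
    rw [show g * γ = g * γ * g⁻¹ * g by group, ← comp_comp, hf.inv _ h]
  · rw [comp_comp]
    exact hf.expansion _

variable (M S) in
/-- The functions of level `M` with coefficients in `S`. -/
def ringR : Subring (ℍ → ℂ) where
  carrier := {f | MemR M S f}
  zero_mem' := memR_const S.zero_mem
  one_mem' := memR_const S.one_mem
  add_mem' := MemR.add
  mul_mem' := MemR.mul
  neg_mem' := MemR.neg

theorem mem_ringR : f ∈ ringR M S ↔ MemR M S f := Iff.rfl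

theorem ringR_mono (hST : S ≤ T) : ringR M S ≤ ringR M T := fun _ h => MemR.mono h hST

variable (n M S) in
/-- The functions invariant under `Γ(n)`. -/
def ringB : Subring (ℍ → ℂ) where
  carrier := {f | MemB n M S f}
  zero_mem' := ⟨(ringR M S).zero_mem, fun _ _ => rfl⟩
  one_mem' := ⟨(ringR M S).one_mem, fun _ _ => rfl⟩
  add_mem' := fun hf hg => ⟨hf.1.add hg.1, fun γ hγ => by
    rw [← compHom_apply, map_add, compHom_apply, compHom_apply, hf.2 γ hγ, hg.2 γ hγ]⟩
  mul_mem' := fun hf hg => ⟨hf.1.mul hg.1, fun γ hγ => by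
    rw [← compHom_apply, map_mul, compHom_apply, compHom_apply, hf.2 γ hγ, hg.2 γ hγ]⟩
  neg_mem' := fun hf => ⟨hf.1.neg, fun γ hγ => by
    rw [← compHom_apply, map_neg, compHom_apply, hf.2 γ hγ]⟩

theorem mem_ringB : f ∈ ringB n M S ↔ MemB n M S f := Iff.rfl

theorem ringB_mono (hST : S ≤ T) : ringB n M S ≤ ringB n M T :=
  fun _ h => ⟨h.1.mono hST, h.2⟩

theorem ringB_le : ringB n M S ≤ ringR M S := fun _ h => h.1

variable (M S) in
/-- The expansion at the cusp given by `γ`. -/
def serHom (γ : SL(2, ℤ)) : ringR M S →+* LaurentSeries ℂ where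
  toFun f := qser M (comp (f : ℍ → ℂ) γ)
  map_one' := qser_eq (hasQExp_one M)
  map_mul' a b := qser_eq ((a.2.expansion γ).hasQExp.mul (b.2.expansion γ).hasQExp)
  map_zero' := qser_eq (hasQExp_zero M)
  map_add' a b := qser_eq ((a.2.expansion γ).hasQExp.add (b.2.expansion γ).hasQExp)

theorem serHom_apply (γ : SL(2, ℤ)) (a : ringR M S) :
    serHom M S γ a = qser M (comp (a : ℍ → ℂ) γ) := rfl

theorem serHom_injective (γ : SL(2, ℤ)) : Function.Injective (serHom M S γ) := by
  rw [injective_iff_map_eq_zero]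
  intro a ha
  have h : comp (a : ℍ → ℂ) γ = 0 :=
    ModularCosets.eq_zero_of_hasQExp_zero (isHol_comp a.2.hol γ)
      (by
        rw [serHom_apply] at ha
        exact ha ▸ (a.2.expansion γ).hasQExp)
  refine Subtype.ext ?_
  have h2 := congrArg (compHom γ⁻¹) h
  rw [compHom_apply, comp_comp, mul_inv_cancel, comp_one, map_zero] at h2
  exact h2

theorem eq_of_qser_eq {γ : SL(2, ℤ)} (hf : MemR M S f) (hg : MemR M S g)
    (h : qser M (comp f γ) = qser M (comp g γ)) : f = g :=
  congrArg Subtype.val (@serHom_injective M _ S γ ⟨f, hf⟩ ⟨g, hg⟩ h)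

theorem coeffMap_subtype_injective :
    Function.Injective (coeffMap S.subtype) := fun x y h => HahnSeries.ext (funext fun k =>
  Subtype.ext (by simpa using congrArg (fun w => w.coeff k) h))

variable (M S) in
/-- The series of a function, over the coefficient ring. -/
def serSFun (γ : SL(2, ℤ)) (f : ringR M S) : LaurentSeries S where
  coeff k := ⟨(serHom M S γ f).coeff k, (f.2.expansion γ).coeff_mem k⟩
  isPWO_support' :=
    (serHom M S γ f).isPWO_support'.mono fun _ hk hk0 => hk (Subtype.ext hk0)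

theorem coeffMap_serSFun (γ : SL(2, ℤ)) (f : ringR M S) :
    coeffMap S.subtype (serSFun M S γ f) = serHom M S γ f := HahnSeries.ext rfl

variable (M S) in
/-- The expansion at a cusp, over the coefficient ring. -/
def serS (γ : SL(2, ℤ)) : ringR M S →+* LaurentSeries S where
  toFun := serSFun M S γ
  map_one' := coeffMap_subtype_injective (by rw [coeffMap_serSFun, map_one, map_one])
  map_mul' a b := coeffMap_subtype_injective (by
    rw [coeffMap_serSFun, map_mul, map_mul, coeffMap_serSFun, coeffMap_serSFun])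
  map_zero' := coeffMap_subtype_injective (by rw [coeffMap_serSFun, map_zero, map_zero])
  map_add' a b := coeffMap_subtype_injective (by
    rw [coeffMap_serSFun, map_add, map_add, coeffMap_serSFun, coeffMap_serSFun])

theorem coeffMap_serS (γ : SL(2, ℤ)) (f : ringR M S) :
    coeffMap S.subtype (serS M S γ f) = serHom M S γ f := coeffMap_serSFun γ f

theorem coe_serS_coeff (γ : SL(2, ℤ)) (f : ringR M S) (k : ℤ) :
    (((serS M S γ f).coeff k : S) : ℂ) = (serHom M S γ f).coeff k := rfl

theorem qser_const (c : ℂ) : qser M (fun _ => c) = HahnSeries.C c := by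
  rw [qser_eq (hasQExp_const M c), algebraMap_laurentSeries_eq_single]
  rfl

/-- Functions of level `M` only depend on the class of `γ` modulo `M`, up to sign. -/
theorem MemR.comp_eq_of_cast_eq (hf : MemR M S f) {γ δ : SL(2, ℤ)}
    (h : ∀ i j, ((γ i j : ℤ) : ZMod M) = ((δ i j : ℤ) : ZMod M)) : comp f γ = comp f δ := by
  have hmem : γ * δ⁻¹ ∈ Gamma M := by
    rw [Gamma_mem', map_mul, map_inv, mul_inv_eq_one]
    exact Matrix.SpecialLinearGroup.ext _ _ h
  have h2 := congrArg (compHom δ) (hf.inv _ hmem)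
  rw [compHom_apply, comp_comp, inv_mul_cancel_right] at h2
  exact h2

/-- Translation twists the expansion. -/
theorem qser_comp_T_zpow {hf : HasExpIn M S f} (i : ℤ) (k : ℤ) :
    (qser M (comp f (ModularGroup.T ^ i))).coeff k =
      zeta M ^ (i * k) * (qser M f).coeff k := by
  obtain ⟨C, hC⟩ := hf.hasQExp
  set y := ModularCosets.twist
    (Units.mk0 (zeta M) (Complex.exp_ne_zero _) ^ i) (qser M f) with hy
  have h : HasQExp M (comp f (ModularGroup.T ^ i)) y := by
    refine ⟨C, fun z hz => ?_⟩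
    have him : C < (ModularGroup.T ^ i • z).im := by rwa [ModularGroup.im_T_zpow_smul]
    convert hC _ him using 1
    · funext m
      rw [hy, ModularCosets.twist_coeff, qPow, qPow, ModularGroup.coe_T_zpow_smul_eq]
      rw [← zpow_mul, Units.val_zpow_eq_zpow_val, Units.val_mk0, zeta, ← Complex.exp_int_mul]
      rw [show (M : ℝ) = ((M : ℕ) : ℝ) from rfl]
      push_cast
      rw [mul_comm (Complex.exp _) ((qser M f).coeff m), mul_assoc, ← Complex.exp_add]
      congr 2
      field_simp
      ring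
    · rfl
  rw [qser_eq h, hy, ModularCosets.twist_coeff, ← zpow_mul, Units.val_zpow_eq_zpow_val,
    Units.val_mk0]

end FLTAgent.Gamma1
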