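/-
Multiplier functions on `Γ(M)`: characters, periodicity at the cusps, roots.
-/
import Fermat.Agent.Gamma1.Ser
import Fermat.Agent.Torsion.Mult

/-!
# Multiplier functions on `Γ(M)`

`isCFun_unique'`: a nonzero multiplier function determines its character. `exists_chr_of_root'`:
an `ℓ`-th root of a function of level `M` with cusp orders divisible by `ℓ` is a multiplier
function, and such roots exist when all zeros have order divisible by `ℓ`
(`exists_root_of_dvd_order'`). `eq_const_of_bounded`, and `exists_finset_span_cFun'`: multiplier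
functions with bounded poles form a finite-dimensional space.
-/

set_option autoImplicit false
set_option linter.unusedSectionVars false

noncomputable section

open UpperHalfPlane CongruenceSubgroup Filter Topology
open scoped MatrixGroups ModularForm

namespace FLTAgent.Gamma1

open FLTAgent.Modular

variable {M ℓ : ℕ} {f g y : ℍ → ℂ}

theorem IsHol.analyticAt (hf : IsHol f) (z : ℍ) : AnalyticAt ℂ (f ∘ ofComplex) (z : ℂ) :=
  DifferentiableOn.analyticAt hf (isOpen_upperHalfPlaneSet.mem_nhds z.im_pos)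

theorem IsHol.isMero (hf : IsHol f) : IsMero f := fun z => (hf.analyticAt z).meromorphicNFAt

theorem IsHol.analyticOrderAt_ne_top (hf : IsHol f) (hne : f ≠ 0) (z : ℍ) :
    analyticOrderAt (f ∘ ofComplex) (z : ℂ) ≠ ⊤ := by
  intro htop
  refine hne (funext fun w => ?_)
  have h := (DifferentiableOn.analyticOnNhd hf isOpen_upperHalfPlaneSet).eqOn_zero_of_preconnected_of_eventuallyEq_zero
    isPreconnected_upperHalfPlaneSet z.im_pos (analyticOrderAt_eq_top.mp htop) w.im_pos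
  simpa [ofComplex_apply] using h

theorem IsHol.meromorphicOrderAt_eq (hf : IsHol f) (hne : f ≠ 0) (z : ℍ) :
    meromorphicOrderAt (f ∘ ofComplex) (z : ℂ) =
      ((analyticOrderNatAt (f ∘ ofComplex) (z : ℂ) : ℤ) : WithTop ℤ) := by
  rw [(hf.analyticAt z).meromorphicOrderAt_eq,
    ← Nat.cast_analyticOrderNatAt (hf.analyticOrderAt_ne_top hne z)]
  rfl

theorem IsHol.meromorphicOrderAt_ne_top (hf : IsHol f) (hne : f ≠ 0) (z : ℍ) :
    meromorphicOrderAt (f ∘ ofComplex) (z : ℂ) ≠ ⊤ := by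
  rw [hf.meromorphicOrderAt_eq hne z]
  exact WithTop.coe_ne_top

/-- A meromorphic root of a holomorphic function without zeros of order prime to `ℓ`. -/
theorem exists_root_of_dvd_order' [NeZero ℓ] (hf : IsHol f) (hne : f ≠ 0)
    (hord : ∀ z : ℍ, ℓ ∣ analyticOrderNatAt (f ∘ ofComplex) (z : ℂ)) :
    ∃ g : ℍ → ℂ, IsHol g ∧ g ^ ℓ = f := by
  have hℓ : ℓ ≠ 0 := NeZero.ne ℓ
  obtain ⟨g, hg, hgf⟩ := Torsion.exists_root hf.isMero (hf.meromorphicOrderAt_ne_top hne) hℓ
    (fun z => by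
      rw [ordH, hf.meromorphicOrderAt_eq hne z, WithTop.untop₀_coe]
      exact Int.natCast_dvd_natCast.mpr (hord z))
  have han : ∀ z : ℍ, AnalyticAt ℂ (g ∘ ofComplex) (z : ℂ) := by
    intro z
    rw [← (hg z).meromorphicOrderAt_nonneg_iff_analyticAt]
    have h2 := meromorphicOrderAt_congr (hgf z)
    rw [show (g ^ ℓ) ∘ ofComplex = (g ∘ ofComplex) ^ ℓ from rfl,
      meromorphicOrderAt_pow (hg z).meromorphicAt, hf.meromorphicOrderAt_eq hne z] at h2
    by_cases htop : meromorphicOrderAt (g ∘ ofComplex) (z : ℂ) = ⊤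
    · rw [htop]; exact le_top
    obtain ⟨j, hj⟩ := WithTop.ne_top_iff_exists.mp htop
    rw [← hj, ← WithTop.coe_natCast, ← WithTop.coe_mul, WithTop.coe_inj] at h2
    rw [← hj, ← WithTop.coe_zero, WithTop.coe_le_coe]
    by_contra hlt
    have : (ℓ : ℤ) * j < 0 :=
      mul_neg_of_pos_of_neg (by exact_mod_cast Nat.pos_of_ne_zero hℓ) (not_le.mp hlt)
    omega
  refine ⟨g, fun x hx => (han ⟨x, hx⟩).differentiableAt.differentiableWithinAt, funext fun z => ?_⟩
  exact Torsion.eq_of_eqOffDiscrete_of_analyticAt (h := g ^ ℓ) (Torsion.isMero_pow hg ℓ) hgf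
    (hf.analyticAt z)

/-! ### Characters -/

variable {φ : Additive (Gamma M) →+ Additive ℂˣ}

theorem chrVal_mul (φ : Additive (Gamma M) →+ Additive ℂˣ) (γ δ : Gamma M) :
    chrVal φ (γ * δ) = chrVal φ γ * chrVal φ δ := by
  rw [chrVal, chrVal, chrVal, ofMul_mul, map_add, toMul_add, Units.val_mul]

theorem chrVal_ne_zero (φ : Additive (Gamma M) →+ Additive ℂˣ) (γ : Gamma M) :
    chrVal φ γ ≠ 0 := Units.ne_zero _

theorem chrVal_one (φ : Additive (Gamma M) →+ Additive ℂˣ) : chrVal φ 1 = 1 := by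
  rw [chrVal, ofMul_one, map_zero, toMul_zero, Units.val_one]

theorem chrVal_pow_eq_one (hφ : φ ∈ Chr M ℓ) (γ : Gamma M) : chrVal φ γ ^ ℓ = 1 := by
  have h : Additive.toMul (φ (Additive.ofMul γ)) ^ ℓ = (1 : ℂˣ) :=
    congrArg Additive.toMul (DFunLike.congr_fun hφ.2 (Additive.ofMul γ))
  rw [chrVal, ← Units.val_pow_eq_pow_val, h, Units.val_one]

theorem norm_chrVal [NeZero ℓ] (hφ : φ ∈ Chr M ℓ) (γ : Gamma M) : ‖chrVal φ γ‖ = 1 := by
  refine (pow_eq_one_iff_of_nonneg (norm_nonneg _) (NeZero.ne ℓ)).mp ?_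
  rw [← norm_pow, chrVal_pow_eq_one hφ, norm_one]

theorem T_zpow_mem_Gamma (M : ℕ) : ModularGroup.T ^ (M : ℤ) ∈ Gamma M := by
  rw [Gamma_mem, ModularGroup.coe_T_zpow]
  simp

/-- The parabolic element at the cusp of `γ`. -/
def parab (M : ℕ) (γ : SL(2, ℤ)) : Gamma M :=
  ⟨γ * ModularGroup.T ^ (M : ℤ) * γ⁻¹,
    (Gamma_normal M).conj_mem _ (T_zpow_mem_Gamma M) γ⟩

theorem chrVal_parab (hφ : φ ∈ Chr M ℓ) (γ : SL(2, ℤ)) : chrVal φ (parab M γ) = 1 := by
  rw [chrVal, hφ.1 γ (parab M γ) rfl, toMul_zero, Units.val_one]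

theorem smul_vadd_natCast (M : ℕ) (γ : SL(2, ℤ)) (z : ℍ) :
    γ • ((M : ℝ) +ᵥ z) = (parab M γ : SL(2, ℤ)) • (γ • z) := by
  rw [show (M : ℝ) = ((M : ℤ) : ℝ) by simp]
  exact Torsion.shift_smul γ (M : ℤ) z

theorem comp_vadd (hy : ∀ (γ : Gamma M) (z : ℍ), y ((γ : SL(2, ℤ)) • z) = chrVal φ γ * y z)
    (hφ : φ ∈ Chr M ℓ) (γ : SL(2, ℤ)) (z : ℍ) :
    comp y γ ((M : ℝ) +ᵥ z) = comp y γ z := by
  rw [comp, comp, smul_vadd_natCast, hy, chrVal_parab hφ, one_mul]

theorem qPow_vadd [NeZero M] (k : ℤ) (z : ℍ) :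
    qPow (M : ℝ) k ((M : ℝ) +ᵥ z) = qPow (M : ℝ) k z :=
  Torsion.qPow_shift natM_pos.ne' k z

theorem hasExpIn_top_of_periodic [NeZero M] (hf : IsHol f)
    (hper : ∀ z : ℍ, f ((M : ℝ) +ᵥ z) = f z) (n : ℤ)
    (hbd : IsBoundedAtImInfty fun z : ℍ => qPow (M : ℝ) n z * f z) : HasExpIn M ⊤ f := by
  obtain ⟨s, hs, -⟩ := exists_hasQExp_of_periodic natM_pos hper
    (Eventually.of_forall hf.analyticAt) n hbd
  exact ⟨s, hs, fun k => Subring.mem_top _⟩

theorem exists_apply_ne_zero (hne : y ≠ 0) : ∃ z, y z ≠ 0 := Function.ne_iff.mp hne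

/-- A nonzero multiplier function determines its character. -/
theorem isCFun_unique' {ψ : Additive (Gamma M) →+ Additive ℂˣ} (hy : IsCFun M φ y)
    (hy' : IsCFun M ψ y) (hne : y ≠ 0) : φ = ψ := by
  obtain ⟨z, hz⟩ := exists_apply_ne_zero hne
  refine AddMonoidHom.ext fun δ => Additive.toMul.injective (Units.ext ?_)
  exact mul_right_cancel₀ hz ((hy.smul (Additive.toMul δ) z).symm.trans (hy'.smul _ z))

/-- The `ℓ`-th power of a multiplier function. -/
theorem memR_pow_of_isCFun [NeZero M] (hφ : φ ∈ Chr M ℓ) (hy : IsCFun M φ y) :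
    MemR M ⊤ (y ^ ℓ) := by
  refine ⟨?_, fun γ hγ => funext fun z => ?_, fun γ => ?_⟩
  · show DifferentiableOn ℂ ((y ∘ ofComplex) ^ ℓ) _
    exact hy.hol.pow ℓ
  · show (y ^ ℓ) (γ • z) = (y ^ ℓ) z
    rw [Pi.pow_apply, Pi.pow_apply, hy.smul ⟨γ, hγ⟩, mul_pow, chrVal_pow_eq_one hφ, one_mul]
  · exact ⟨_, (hy.expansion γ).hasQExp.pow ℓ, fun k => Subring.mem_top _⟩

theorem qser_comp_ne_zero [NeZero M] {S : Subring ℂ} (hf : MemR M S f) (hne : f ≠ 0)
    (γ : SL(2, ℤ)) : qser M (comp f γ) ≠ 0 := by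
  intro h0
  have h1 : serHom M S γ ⟨f, hf⟩ = serHom M S γ 0 := by
    rw [serHom_apply, map_zero]; exact h0
  exact hne (congrArg Subtype.val (serHom_injective γ h1))

theorem analyticAt_qPow (h : ℝ) (k : ℤ) (z : ℍ) :
    AnalyticAt ℂ (qPow h k ∘ ofComplex) (z : ℂ) := by
  refine (((Function.Periodic.differentiable_qParam (h := h)).analyticAt (z : ℂ)).zpow
    (n := k) (Function.Periodic.qParam_ne_zero _)).congr ?_
  filter_upwards [isOpen_upperHalfPlaneSet.mem_nhds z.im_pos] with w hw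
  rw [Function.comp_apply, qPow_eq_zpow, ofComplex_apply_of_im_pos hw]
  rfl

/-- A root of a function of level `M` with cusp orders divisible by `ℓ` is a multiplier
function. -/
theorem exists_chr_of_root' [NeZero ℓ] [NeZero M] (hf : MemR M ⊤ f) (hne : f ≠ 0)
    (hcusp : ∀ γ : SL(2, ℤ), (ℓ : ℤ) ∣ (qser M (comp f γ)).order) (hg : IsHol g)
    (hgf : g ^ ℓ = f) :
    ∃ φ ∈ Chr M ℓ, IsCFun M φ g := by
  have hℓ : ℓ ≠ 0 := NeZero.ne ℓ
  have hg0 : g ≠ 0 := fun h => hne (by rw [← hgf, h, zero_pow hℓ])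
  obtain ⟨z₀, hz₀⟩ := exists_apply_ne_zero hg0
  have hroot : ∀ δ : Gamma M, ∃ a : ℂ, a ^ ℓ = 1 ∧
      ∀ z, g ((δ : SL(2, ℤ)) • z) = a * g z := by
    intro δ
    refine Torsion.exists_eq_const_mul_of_pow_eq (f := comp g δ) (hg.isMero.comp_sl _) hg.isMero
      (hg.meromorphicOrderAt_ne_top hg0) hℓ (fun z => ?_)
    have : comp g δ ^ ℓ = g ^ ℓ := by
      conv_rhs => rw [hgf, ← hf.inv δ δ.2, ← hgf]
      rfl
    rw [this]
  choose a ha hga using hroot
  have ha0 : ∀ δ, a δ ≠ 0 := fun δ h => by simpa [h, zero_pow hℓ] using ha δ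
  let ψ : Gamma M →* ℂˣ :=
    { toFun := fun δ => Units.mk0 (a δ) (ha0 δ)
      map_one' := Units.ext (mul_right_cancel₀ hz₀ (by
        show a 1 * g z₀ = 1 * g z₀
        rw [← hga, one_mul, OneMemClass.coe_one, one_smul]))
      map_mul' := fun δ ε => Units.ext (mul_right_cancel₀ hz₀ (by
        show a (δ * ε) * g z₀ = a δ * a ε * g z₀
        rw [← hga, Subgroup.coe_mul, mul_smul, hga, hga, mul_assoc])) }
  have key : ∀ γ : SL(2, ℤ), a (parab M γ) = 1 ∧ HasExpIn M ⊤ (comp g γ) := by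
    intro γ
    obtain ⟨j, hj⟩ := hcusp γ
    set s := qser M (comp f γ) with hs
    have hlim : Tendsto (fun z : ℍ => comp f γ z * qPow (M : ℝ) (-((ℓ : ℤ) * j)) z) atImInfty
        (𝓝 (s.coeff s.order)) := by
      rw [← hj]
      exact (hf.expansion γ).hasQExp.tendsto_leading natM_pos
        fun k hk => HahnSeries.coeff_eq_zero_of_lt_order hk
    have hL : s.coeff s.order ≠ 0 :=
      mt HahnSeries.coeff_order_eq_zero.1 (qser_comp_ne_zero hf hne γ)
    let v : ℍ → ℂ := fun z => comp g γ z * qPow (M : ℝ) (-j) z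
    have hcont : ∀ᶠ z : ℍ in atImInfty, ContinuousAt (v ∘ ofComplex) (z : ℂ) :=
      Eventually.of_forall fun z =>
        (((isHol_comp hg γ).analyticAt z).mul (analyticAt_qPow _ _ z)).continuousAt
    have hlim' : Tendsto (fun z => v z ^ ℓ) atImInfty (𝓝 (s.coeff s.order)) := by
      refine hlim.congr fun z => ?_
      rw [mul_pow, ← Torsion.qPow_natCast_mul, mul_neg, ← hgf]
      rfl
    have hshift : ∀ z, v ((M : ℝ) +ᵥ z) = a (parab M γ) * v z := fun z => by
      show g (γ • ((M : ℝ) +ᵥ z)) * _ = _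
      rw [smul_vadd_natCast, hga, qPow_vadd, mul_assoc]
      rfl
    obtain ⟨h1, L', -, hv⟩ := Torsion.eq_one_and_tendsto_of_pow_tendsto hℓ hcont hL hlim' hshift
    refine ⟨h1, hasExpIn_top_of_periodic (isHol_comp hg γ) (fun z => ?_) (-j) ?_⟩
    · rw [comp, comp, smul_vadd_natCast, hga, h1, one_mul]
    · exact ((hv.congr fun z => mul_comm _ _).isBigO_one ℝ)
  refine ⟨MonoidHom.toAdditive ψ, ⟨fun γ δ hδ => ?_, ?_⟩, hg, fun δ z => hga δ z,
    fun γ => (key γ).2⟩
  · obtain rfl : δ = parab M γ := Subtype.ext hδ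
    exact congrArg Additive.ofMul (Units.ext (key γ).1 : ψ (parab M γ) = 1)
  · refine AddMonoidHom.ext fun δ => Additive.toMul.injective (Units.ext ?_)
    show (((ψ (Additive.toMul δ)) ^ ℓ : ℂˣ) : ℂ) = 1
    rw [Units.val_pow_eq_pow_val]
    exact ha _

/-- An invariant holomorphic function bounded at the cusps is constant. -/
theorem eq_const_of_bounded [NeZero M] (hd : IsHol f) (hinv : ∀ γ ∈ Gamma M, comp f γ = f)
    (hb : ∀ γ : SL(2, ℤ), IsBoundedAtImInfty (comp f γ)) : ∃ c : ℂ, f = fun _ => c := by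
  have hsl : ∀ γ : SL(2, ℤ), f ∣[(0 : ℤ)] γ = comp f γ := fun γ => by
    funext z
    rw [ModularForm.SL_slash_apply, neg_zero, zpow_zero, mul_one, comp]
  let F : ModularForm (Gamma M : Subgroup (GL (Fin 2) ℝ)) 0 :=
    { toFun := f
      slash_action_eq' := by
        rintro _ ⟨γ, hγ, rfl⟩
        exact (hsl γ).trans (hinv γ hγ)
      holo' := UpperHalfPlane.mdifferentiable_iff.mpr hd
      bdd_at_cusps' := fun {c} hc => by
        rw [Subgroup.IsArithmetic.isCusp_iff_isCusp_SL2Z] at hc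
        rw [OnePoint.isBoundedAt_iff_forall_SL2Z hc]
        intro γ _
        rw [hsl γ]
        exact hb γ }
  obtain ⟨c, hc⟩ := ModularForm.eq_const_of_weight_zero F
  exact ⟨c, hc⟩

theorem eq_const_of_noPole' [NeZero M] (hf : MemR M ⊤ f)
    (hp : ∀ γ : SL(2, ℤ), ∀ k < (0 : ℤ), (qser M (comp f γ)).coeff k = 0) :
    ∃ c : ℂ, f = fun _ => c :=
  eq_const_of_bounded hf.hol hf.inv fun γ =>
    (((hf.expansion γ).hasQExp.tendsto_leading natM_pos (hp γ)).congr fun z => by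
      rw [neg_zero, qPow_zero, mul_one]).isBigO_one ℝ

/-- The multiplier functions with poles of order at most `m`. -/
def cFunSpace [NeZero M] (φ : Additive (Gamma M) →+ Additive ℂˣ) (m : ℕ) :
    Submodule ℂ (ℍ → ℂ) where
  carrier := {y | IsCFun M φ y ∧
    ∀ γ : SL(2, ℤ), ∀ k < -(m : ℤ), (qser M (comp y γ)).coeff k = 0}
  zero_mem' := ⟨⟨differentiableOn_const (c := (0 : ℂ)), fun _ _ => (mul_zero _).symm,
    fun _ => ⟨0, hasQExp_zero _, fun _ => Subring.mem_top _⟩⟩, fun γ k _ => by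
      rw [show qser M (comp (0 : ℍ → ℂ) γ) = 0 from qser_eq (hasQExp_zero _)]
      rfl⟩
  add_mem' {y y'} hy hy' := ⟨⟨DifferentiableOn.add hy.1.hol hy'.1.hol, fun γ z => by
      rw [Pi.add_apply, Pi.add_apply, hy.1.smul, hy'.1.smul, mul_add],
      fun γ => (hy.1.expansion γ).add (hy'.1.expansion γ)⟩, fun γ k hk => by
      rw [show qser M (comp (y + y') γ) = qser M (comp y γ) + qser M (comp y' γ) from
        qser_eq ((hy.1.expansion γ).hasQExp.add (hy'.1.expansion γ).hasQExp),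
        HahnSeries.coeff_add, hy.2 γ k hk, hy'.2 γ k hk, add_zero]⟩
  smul_mem' c y hy := ⟨⟨DifferentiableOn.const_smul hy.1.hol c, fun γ z => by
      rw [Pi.smul_apply, Pi.smul_apply, hy.1.smul, smul_eq_mul, smul_eq_mul]; ring,
      fun γ => ⟨_, (hy.1.expansion γ).hasQExp.const_mul c, fun _ => Subring.mem_top _⟩⟩,
    fun γ k hk => by
      rw [show qser M (comp (c • y) γ) = c • qser M (comp y γ) from
        qser_eq ((hy.1.expansion γ).hasQExp.const_mul c), HahnSeries.coeff_smul,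
        hy.2 γ k hk, smul_zero]⟩

theorem finiteDimensional_cFunSpace [NeZero M] [NeZero ℓ] (hφ : φ ∈ Chr M ℓ) (m : ℕ) :
    FiniteDimensional ℂ (cFunSpace φ m) := by
  let R := SL(2, ℤ) ⧸ Gamma M
  let L : cFunSpace φ m →ₗ[ℂ] (R × Fin (m + 1) → ℂ) :=
    { toFun := fun y qi => (qser M (comp (y : ℍ → ℂ) qi.1.out)).coeff (-((qi.2 : ℕ) : ℤ))
      map_add' := fun y y' => funext fun qi => by
        rw [Pi.add_apply, ← HahnSeries.coeff_add]
        exact congrArg (fun s => HahnSeries.coeff s _) (qser_eq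
          ((y.2.1.expansion _).hasQExp.add (y'.2.1.expansion _).hasQExp))
      map_smul' := fun c y => funext fun qi => by
        rw [RingHom.id_apply, Pi.smul_apply, ← HahnSeries.coeff_smul]
        exact congrArg (fun s => HahnSeries.coeff s _) (qser_eq
          ((y.2.1.expansion _).hasQExp.const_mul c)) }
  refine FiniteDimensional.of_injective L ((injective_iff_map_eq_zero L).mpr ?_)
  rintro ⟨y, hy, hbd⟩ hL
  have hvan : ∀ γ : SL(2, ℤ), Tendsto (comp y γ) atImInfty (𝓝 0) := by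
    intro γ
    set q : R := QuotientGroup.mk γ with hq
    have h1 : q.out⁻¹ * γ ∈ Gamma M := QuotientGroup.eq.mp (q.out_eq.trans hq)
    set δ : Gamma M := ⟨q.out * (q.out⁻¹ * γ) * q.out⁻¹,
      (Gamma_normal M).conj_mem _ h1 q.out⟩
    have hγ : comp y γ = fun z => chrVal φ δ * comp y q.out z := funext fun z => by
      rw [comp, comp, ← hy.smul δ, ← mul_smul]
      congr 2
      simp [δ]
    have h2 : ∀ k < (1 : ℤ), (qser M (comp y q.out)).coeff k = 0 := by
      intro k hk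
      rcases lt_or_ge k (-(m : ℤ)) with h | h
      · exact hbd _ k h
      · have h3 : (qser M (comp y q.out)).coeff (-(((-k).toNat : ℕ) : ℤ)) = 0 :=
          congrFun hL (q, ⟨(-k).toNat, by omega⟩)
        rwa [Int.toNat_of_nonneg (by omega), neg_neg] at h3
    have h4 := (hy.expansion q.out).hasQExp.tendsto_leading natM_pos h2
    have h5 : Tendsto (fun z : ℍ => comp y q.out z * qPow (M : ℝ) (-1) z * qPow (M : ℝ) 1 z)
        atImInfty (𝓝 ((qser M (comp y q.out)).coeff 1 * 0)) := h4.mul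
          ((tendsto_qParam_atImInfty natM_pos).congr fun z => (qPow_one_eq_qParam _ z).symm)
    rw [mul_zero] at h5
    rw [hγ]
    simpa using (h5.congr fun z => by
      rw [mul_assoc, ← qPow_add, neg_add_cancel, qPow_zero, mul_one]).const_mul (chrVal φ δ)
  have hpow := memR_pow_of_isCFun hφ hy
  have hpl : ∀ γ : SL(2, ℤ), Tendsto (comp (y ^ ℓ) γ) atImInfty (𝓝 0) := fun γ => by
    have := (hvan γ).pow ℓ
    rwa [zero_pow (NeZero.ne ℓ)] at this
  obtain ⟨c, hc⟩ := eq_const_of_bounded hpow.hol hpow.inv fun γ => (hpl γ).isBigO_one ℝ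
  have hc0 : c = 0 := by
    have h6 := hpl 1
    rw [hc] at h6
    exact tendsto_nhds_unique tendsto_const_nhds h6
  refine Subtype.ext (funext fun z => ?_)
  have h7 := congrFun hc z
  rw [hc0, Pi.pow_apply] at h7
  exact pow_eq_zero_iff (NeZero.ne ℓ) |>.mp h7

theorem exists_finset_span_cFun' [NeZero M] [NeZero ℓ] (hφ : φ ∈ Chr M ℓ) (m : ℕ) :
    ∃ B : Finset (ℍ → ℂ), ∀ y, IsCFun M φ y →
      (∀ γ : SL(2, ℤ), ∀ k < -(m : ℤ), (qser M (comp y γ)).coeff k = 0) →
      y ∈ Submodule.span ℂ (B : Set (ℍ → ℂ)) := by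
  have := finiteDimensional_cFunSpace hφ m
  obtain ⟨B, hB⟩ := (Module.Finite.iff_fg (R := ℂ) (N := cFunSpace φ m)).mp inferInstance
  exact ⟨B, fun y hy hb => hB.symm ▸ (show y ∈ cFunSpace φ m from ⟨hy, hb⟩)⟩

end FLTAgent.Gamma1
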