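/-
A multiplier function for every character of `Γ(M)`: a twisted Eisenstein series of weight twelve
divided by the discriminant.
-/
import Fermat.Agent.Gamma1.MultBasic
import Fermat.Agent.Torsion.Eisenstein
import Fermat.Agent.Modular.JFun

/-!
# A multiplier function for every character

`exists_cFun'`: for a character `φ` of `Γ(M)` of order dividing `ℓ`, the Eisenstein series of
weight twelve twisted by `φ` (`twEis`), divided by the discriminant, is a nonzero multiplier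
function. It is not zero by its limit at a suitable sequence of points
(`exists_twEis_ne_zero`).
-/

set_option autoImplicit false
set_option linter.unusedSectionVars false

noncomputable section

open UpperHalfPlane CongruenceSubgroup Filter Topology Complex Matrix EisensteinSeries
open scoped MatrixGroups

namespace FLTAgent.Gamma1

open FLTAgent.Modular
open FLTAgent.Torsion (botRow botRow_mul)

variable {M ℓ : ℕ} (φ : Additive (Gamma M) →+ Additive ℂˣ)

open Classical in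
/-- The coefficients of the twisted series. -/
def twCoeff (v : Fin 2 → ℤ) : ℂ :=
  if h : ∃ δ : Gamma M, botRow (δ : SL(2, ℤ)) = v then (chrVal φ h.choose)⁻¹ else 0

/-- The twisted Eisenstein series of weight twelve. -/
def twEis (z : ℍ) : ℂ := ∑' v : Fin 2 → ℤ, twCoeff φ v * eisSummand 12 v z

/-- Right multiplication by `g` on rows. -/
def rowEquiv (g : SL(2, ℤ)) : (Fin 2 → ℤ) ≃ (Fin 2 → ℤ) where
  toFun v := v ᵥ* (g : Matrix (Fin 2) (Fin 2) ℤ)
  invFun v := v ᵥ* ((g⁻¹ : SL(2, ℤ)) : Matrix (Fin 2) (Fin 2) ℤ)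
  left_inv v := by
    simp_rw [Matrix.vecMul_vecMul, ← Matrix.SpecialLinearGroup.coe_mul, mul_inv_cancel,
      Matrix.SpecialLinearGroup.coe_one, Matrix.vecMul_one]
  right_inv v := by
    simp_rw [Matrix.vecMul_vecMul, ← Matrix.SpecialLinearGroup.coe_mul, inv_mul_cancel,
      Matrix.SpecialLinearGroup.coe_one, Matrix.vecMul_one]

variable {φ}

theorem chrVal_zpow (φ : Additive (Gamma M) →+ Additive ℂˣ) (γ : Gamma M) (i : ℤ) :
    chrVal φ (γ ^ i) = chrVal φ γ ^ i := by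
  rw [chrVal, chrVal, ofMul_zpow, map_zsmul, toMul_zsmul, Units.val_zpow_eq_zpow_val]

theorem chrVal_eq_of_botRow (hφ : φ ∈ Chr M ℓ) {δ δ' : Gamma M}
    (h : botRow (δ' : SL(2, ℤ)) = botRow (δ : SL(2, ℤ))) : chrVal φ δ' = chrVal φ δ := by
  have hb : botRow (((δ' * δ⁻¹ : Gamma M)) : SL(2, ℤ)) = botRow 1 := by
    rw [Subgroup.coe_mul, botRow_mul, h, ← botRow_mul, Subgroup.coe_inv, mul_inv_cancel]
  set N : Gamma M := δ' * δ⁻¹ with hN
  have h0 : (N : SL(2, ℤ)) 1 0 = 0 := by simpa [botRow] using congrFun hb 0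
  have h1 : (N : SL(2, ℤ)) 1 1 = 1 := by simpa [botRow] using congrFun hb 1
  have h00 : (N : SL(2, ℤ)) 0 0 = 1 := by
    have hd := (N : SL(2, ℤ)).2
    rw [Matrix.det_fin_two, h0, h1] at hd
    linarith
  obtain ⟨i, hi⟩ : (M : ℤ) ∣ (N : SL(2, ℤ)) 0 1 :=
    (ZMod.intCast_zmod_eq_zero_iff_dvd _ _).mp ((Gamma_mem.mp N.2).2.1)
  have hNT : N = parab M 1 ^ i := by
    apply Subtype.ext
    rw [SubgroupClass.coe_zpow, show (parab M 1 : SL(2, ℤ)) =
      1 * ModularGroup.T ^ (M : ℤ) * 1⁻¹ from rfl, one_mul, inv_one, mul_one, ← _root_.zpow_mul]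
    refine Matrix.SpecialLinearGroup.ext _ _ fun a b => ?_
    rw [ModularGroup.coe_T_zpow]
    fin_cases a <;> fin_cases b <;> simp [h0, h1, h00, hi]
  have hval : chrVal φ N = 1 := by rw [hNT, chrVal_zpow, chrVal_parab hφ, _root_.one_zpow]
  rw [show δ' = N * δ by rw [hN, inv_mul_cancel_right], chrVal_mul, hval, one_mul]

theorem twCoeff_botRow (hφ : φ ∈ Chr M ℓ) (δ : Gamma M) :
    twCoeff φ (botRow (δ : SL(2, ℤ))) = (chrVal φ δ)⁻¹ := by
  have hex : ∃ δ' : Gamma M, botRow (δ' : SL(2, ℤ)) = botRow (δ : SL(2, ℤ)) := ⟨δ, rfl⟩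
  rw [twCoeff, dif_pos hex, chrVal_eq_of_botRow hφ hex.choose_spec]

theorem twCoeff_vecMul (hφ : φ ∈ Chr M ℓ) (v : Fin 2 → ℤ) (γ : Gamma M) :
    twCoeff φ v =
      chrVal φ γ * twCoeff φ (v ᵥ* ((γ : SL(2, ℤ)) : Matrix (Fin 2) (Fin 2) ℤ)) := by
  by_cases h : ∃ δ : Gamma M, botRow (δ : SL(2, ℤ)) = v
  · obtain ⟨δ, rfl⟩ := h
    rw [← botRow_mul, ← Subgroup.coe_mul, twCoeff_botRow hφ, twCoeff_botRow hφ, chrVal_mul]
    have := chrVal_ne_zero φ γ
    field_simp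
  · have h' : ¬ ∃ δ : Gamma M,
        botRow (δ : SL(2, ℤ)) = v ᵥ* ((γ : SL(2, ℤ)) : Matrix (Fin 2) (Fin 2) ℤ) := by
      rintro ⟨δ, hδ⟩
      refine h ⟨δ * γ⁻¹, ?_⟩
      rw [Subgroup.coe_mul, botRow_mul, hδ, Matrix.vecMul_vecMul, Subgroup.coe_inv,
        ← Matrix.SpecialLinearGroup.coe_mul, mul_inv_cancel, Matrix.SpecialLinearGroup.coe_one,
        Matrix.vecMul_one]
    rw [twCoeff, twCoeff, dif_neg h, dif_neg h', mul_zero]

theorem twEis_smul (hφ : φ ∈ Chr M ℓ) (γ : Gamma M) (z : ℍ) :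
    twEis φ ((γ : SL(2, ℤ)) • z) =
      chrVal φ γ * denom (γ : SL(2, ℤ)) z ^ (12 : ℤ) * twEis φ z := by
  set g : SL(2, ℤ) := (γ : SL(2, ℤ)) with hg
  calc twEis φ (g • z)
      = ∑' v, chrVal φ γ * denom g z ^ (12 : ℤ) *
          (twCoeff φ (rowEquiv g v) * eisSummand 12 (rowEquiv g v) z) := by
        refine tsum_congr fun v => ?_
        rw [twCoeff_vecMul hφ v γ, eisSummand_SL2_apply]
        simp only [rowEquiv, Equiv.coe_fn_mk]
        ring
    _ = chrVal φ γ * denom g z ^ (12 : ℤ) * twEis φ z := by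
        rw [tsum_mul_left, twEis,
          ← (rowEquiv g).tsum_eq (fun v => twCoeff φ v * eisSummand 12 v z)]

variable [NeZero ℓ]

theorem norm_twCoeff_le (hφ : φ ∈ Chr M ℓ) (v : Fin 2 → ℤ) : ‖twCoeff φ v‖ ≤ 1 := by
  unfold twCoeff
  split <;> simp [norm_chrVal hφ]

theorem summable_norm_eis12 (z : ℍ) : Summable fun v : Fin 2 → ℤ => ‖eisSummand 12 v z‖ :=
  EisensteinSeries.summable_norm_eisSummand (by norm_num) z

theorem norm_eis12_le {A B : ℝ} (hB : 0 < B) {z : ℍ} (hz : z ∈ verticalStrip A B)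
    (v : Fin 2 → ℤ) :
    ‖eisSummand 12 v z‖ ≤ r ⟨⟨A, B⟩, hB⟩ ^ (-12 : ℝ) * ‖v‖ ^ (-12 : ℝ) := by
  have h := summand_bound_of_mem_verticalStrip (k := (12 : ℝ)) (by norm_num) v hB hz
  rw [eisSummand, norm_zpow, ← Real.rpow_intCast]
  simpa using h

theorem summable_rpow12 : Summable fun v : Fin 2 → ℤ => ‖v‖ ^ (-12 : ℝ) :=
  summable_one_div_norm_rpow (by norm_num)

theorem norm_twTerm_le (hφ : φ ∈ Chr M ℓ) {A B : ℝ} (hB : 0 < B) {z : ℍ}
    (hz : z ∈ verticalStrip A B) (v : Fin 2 → ℤ) :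
    ‖twCoeff φ v * eisSummand 12 v z‖ ≤ r ⟨⟨A, B⟩, hB⟩ ^ (-12 : ℝ) * ‖v‖ ^ (-12 : ℝ) := by
  rw [norm_mul]
  calc ‖twCoeff φ v‖ * ‖eisSummand 12 v z‖ ≤ 1 * ‖eisSummand 12 v z‖ :=
        mul_le_mul_of_nonneg_right (norm_twCoeff_le hφ v) (norm_nonneg _)
    _ ≤ _ := by rw [one_mul]; exact norm_eis12_le hB hz v

theorem summable_twTerm (hφ : φ ∈ Chr M ℓ) (z : ℍ) :
    Summable fun v => ‖twCoeff φ v * eisSummand 12 v z‖ :=
  (summable_norm_eis12 z).of_nonneg_of_le (fun v => norm_nonneg _) fun v => by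
    rw [norm_mul]
    exact mul_le_of_le_one_left (norm_nonneg _) (norm_twCoeff_le hφ v)

theorem isHol_twEis (hφ : φ ∈ Chr M ℓ) : IsHol (twEis φ) := by
  intro x hx
  refine DifferentiableAt.differentiableWithinAt ?_
  set z : ℍ := ⟨x, hx⟩
  set A := |z.re| + 1 with hA
  set B := z.im / 2 with hB
  have hB0 : 0 < B := by have := z.im_pos; positivity
  set U : Set ℂ := {w | |w.re| < A ∧ B < w.im} with hU
  have hUo : IsOpen U := (isOpen_lt (Complex.continuous_re.abs) continuous_const).inter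
    (isOpen_lt continuous_const Complex.continuous_im)
  have hzU : (z : ℂ) ∈ U := ⟨by simp [hA], by have := z.im_pos; simp [hB]; linarith⟩
  have hUH : ∀ w ∈ U, 0 < w.im := fun w hw => hB0.trans hw.2
  have hsum : Summable fun v : Fin 2 → ℤ => r ⟨⟨A, B⟩, hB0⟩ ^ (-12 : ℝ) * ‖v‖ ^ (-12 : ℝ) :=
    summable_rpow12.mul_left _
  have hd : DifferentiableOn ℂ
      (fun w : ℂ => ∑' v, twCoeff φ v * eisSummand 12 v (ofComplex w)) U := by
    refine differentiableOn_tsum_of_summable_norm hsum (fun v => ?_) hUo (fun v w hw => ?_)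
    · refine DifferentiableOn.const_mul ?_ _
      by_cases hv : v = 0
      · subst hv
        simp [eisSummand]
      intro w hw
      have hev : (fun w : ℂ => eisSummand 12 v (ofComplex w)) =ᶠ[𝓝 w]
          fun w : ℂ => ((v 0 : ℂ) * w + v 1) ^ (-12 : ℤ) := by
        filter_upwards [isOpen_upperHalfPlaneSet.mem_nhds (hUH w hw)] with x hx
        simp [eisSummand, ofComplex_apply_of_im_pos hx]
      refine (DifferentiableAt.congr_of_eventuallyEq ?_ hev).differentiableWithinAt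
      refine (((differentiableAt_id.const_mul _).add_const _)).zpow (Or.inl ?_)
      have := linear_ne_zero (cd := fun i => (v i : ℝ)) (⟨w, hUH w hw⟩ : ℍ)
        (by
          intro h0
          exact hv (funext fun i => by simpa using congrFun h0 i))
      simpa using this
    · refine norm_twTerm_le hφ hB0 ?_ v
      have h := hUH w hw
      rw [mem_verticalStrip_iff, ofComplex_apply_of_im_pos h]
      exact ⟨hw.1.le, hw.2.le⟩
  exact hd.differentiableAt (hUo.mem_nhds hzU)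

/-- The majorant of the twisted series. -/
def twMajor (z : ℍ) : ℝ := ∑' v : Fin 2 → ℤ, ‖eisSummand 12 v z‖

theorem norm_twEis_smul_le (hφ : φ ∈ Chr M ℓ) (δ : SL(2, ℤ)) (z : ℍ) :
    ‖twEis φ (δ • z)‖ ≤ ‖denom δ z‖ ^ (12 : ℤ) * twMajor z := by
  refine (norm_tsum_le_tsum_norm (summable_twTerm hφ _)).trans ?_
  rw [twMajor, ← (rowEquiv δ).tsum_eq (fun v => ‖eisSummand 12 v z‖), ← tsum_mul_left]
  refine (summable_twTerm hφ _).tsum_le_tsum (fun v => ?_)
    (((rowEquiv δ).summable_iff.2 (summable_norm_eis12 z)).mul_left _)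
  rw [norm_mul, eisSummand_SL2_apply, norm_mul, norm_zpow]
  calc ‖twCoeff φ v‖ * (‖denom δ z‖ ^ (12 : ℤ) * ‖eisSummand 12 (v ᵥ* δ.1) z‖)
      ≤ 1 * (‖denom δ z‖ ^ (12 : ℤ) * ‖eisSummand 12 (v ᵥ* δ.1) z‖) :=
        mul_le_mul_of_nonneg_right (norm_twCoeff_le hφ v) (by positivity)
    _ = _ := by rw [one_mul]; rfl

theorem twMajor_T_zpow (m : ℤ) (z : ℍ) : twMajor (ModularGroup.T ^ m • z) = twMajor z := by
  rw [twMajor, twMajor,
    ← (rowEquiv (ModularGroup.T ^ m)).tsum_eq (fun v => ‖eisSummand 12 v z‖)]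
  refine tsum_congr fun v => ?_
  rw [eisSummand_SL2_apply, norm_mul]
  have hd : denom ((ModularGroup.T ^ m : SL(2, ℤ)) : GL (Fin 2) ℝ) z = 1 := by
    rw [ModularGroup.denom_apply]
    simp [ModularGroup.coe_T_zpow]
  rw [hd]
  simp [rowEquiv]

theorem exists_twMajor_le : ∃ C : ℝ, ∀ z : ℍ, 1 ≤ z.im → twMajor z ≤ C := by
  refine ⟨r ⟨⟨1, 1⟩, one_pos⟩ ^ (-12 : ℝ) * ∑' v : Fin 2 → ℤ, ‖v‖ ^ (-12 : ℝ), fun z hz => ?_⟩
  obtain ⟨n, hn⟩ := ModularGroup_T_zpow_mem_verticalStrip z (N := 1) one_pos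
  rw [← twMajor_T_zpow (((1 : ℕ) : ℤ) * n) z, twMajor, ← tsum_mul_left]
  refine (summable_norm_eis12 _).tsum_le_tsum (fun v => norm_eis12_le one_pos ?_ v)
    (summable_rpow12.mul_left _)
  rw [Nat.cast_one] at hn
  exact ⟨hn.1, hz.trans hn.2⟩

theorem twCoeff_limit (hφ : φ ∈ Chr M ℓ) (hM : 3 ≤ M) (v : Fin 2 → ℤ) :
    (if v 0 = 0 then twCoeff φ v * ((v 1 : ℂ)) ^ (-12 : ℤ) else 0) =
      if v = ![0, 1] then 1 else 0 := by
  have hb : botRow ((1 : Gamma M) : SL(2, ℤ)) = ![0, 1] := by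
    funext i; fin_cases i <;> simp [botRow]
  by_cases h : v = ![0, 1]
  · subst h
    have h1 := twCoeff_botRow hφ (1 : Gamma M)
    rw [hb, chrVal_one, inv_one] at h1
    simp [h1]
  rw [if_neg h]
  by_cases h0 : v 0 = 0
  swap
  · rw [if_neg h0]
  rw [if_pos h0, twCoeff, dif_neg, zero_mul]
  rintro ⟨δ, hδ⟩
  have hd := (δ : SL(2, ℤ)).2
  have e0 : (δ : SL(2, ℤ)) 1 0 = 0 := by rw [← h0, ← hδ]; rfl
  rw [Matrix.det_fin_two, e0, mul_zero, sub_zero] at hd
  have e1 : v 1 = (δ : SL(2, ℤ)) 1 1 := by rw [← hδ]; rfl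
  rcases Int.eq_one_or_neg_one_of_mul_eq_one ((mul_comm _ _).trans hd) with h2 | h2
  · exact h (funext fun i => by fin_cases i <;> simp [h0, e1, h2])
  · have h3 := (Gamma_mem.mp δ.2).2.2.2
    rw [h2, Int.cast_neg, Int.cast_one, neg_eq_iff_add_eq_zero, one_add_one_eq_two] at h3
    have h4 : ((2 : ℕ) : ZMod M) = 0 := by exact_mod_cast h3
    have := Nat.le_of_dvd two_pos ((ZMod.natCast_eq_zero_iff 2 M).mp h4)
    omega

theorem exists_twEis_ne_zero (hφ : φ ∈ Chr M ℓ) (hM : 3 ≤ M) : ∃ z : ℍ, twEis φ z ≠ 0 := by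
  let zk : ℕ → ℍ := fun k => ⟨Complex.I * ((k + 1 : ℕ) : ℂ), by simp; positivity⟩
  have hlim : Tendsto (fun k => twEis φ (zk k)) atTop
      (𝓝 (∑' v : Fin 2 → ℤ, if v 0 = 0 then twCoeff φ v * ((v 1 : ℂ)) ^ (-12 : ℤ) else 0)) := by
    refine tendsto_tsum_of_dominated_convergence
      (bound := fun v => r ⟨⟨0, 1⟩, one_pos⟩ ^ (-12 : ℝ) * ‖v‖ ^ (-12 : ℝ))
      (summable_rpow12.mul_left _) (fun v => ?_)
      (Eventually.of_forall fun k v => norm_twTerm_le hφ one_pos ?_ v)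
    · by_cases h0 : v 0 = 0
      · rw [if_pos h0]
        simp only [eisSummand, h0, Int.cast_zero, zero_mul, zero_add]
        exact tendsto_const_nhds
      · rw [if_neg h0, tendsto_zero_iff_norm_tendsto_zero]
        have hb : ∀ k : ℕ, ‖twCoeff φ v * eisSummand 12 v (zk k)‖ ≤ 1 / ((k : ℝ) + 1) := by
          intro k
          rw [norm_mul]
          refine (mul_le_of_le_one_left (norm_nonneg _) (norm_twCoeff_le hφ v)).trans ?_
          have h1 : (1 : ℝ) ≤ |(v 0 : ℝ)| := by exact_mod_cast Int.one_le_abs h0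
          have hk : (1 : ℝ) ≤ (k : ℝ) + 1 := by
            have : (0 : ℝ) ≤ k := Nat.cast_nonneg k
            linarith
          have h2 : (k : ℝ) + 1 ≤ ‖(v 0 : ℂ) * (zk k : ℂ) + v 1‖ := by
            refine le_trans ?_ (Complex.abs_im_le_norm _)
            have him : ((v 0 : ℂ) * (zk k : ℂ) + v 1).im = (v 0 : ℝ) * ((k : ℝ) + 1) := by
              simp [zk]
            rw [him, abs_mul, abs_of_nonneg (zero_le_one.trans hk)]
            exact le_mul_of_one_le_left (zero_le_one.trans hk) h1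
          rw [eisSummand, norm_zpow, _root_.zpow_neg, one_div]
          refine inv_anti₀ (zero_lt_one.trans_le hk) (h2.trans ?_)
          exact le_self_pow₀ (hk.trans h2) (by norm_num : (12 : ℕ) ≠ 0)
        exact squeeze_zero (fun k => norm_nonneg _) hb tendsto_one_div_add_atTop_nhds_zero_nat
    · rw [mem_verticalStrip_iff]
      constructor
      · simp [zk, UpperHalfPlane.re]
      · show (1 : ℝ) ≤ (Complex.I * ((k + 1 : ℕ) : ℂ)).im
        simp
  rw [tsum_congr (twCoeff_limit hφ hM), tsum_ite_eq] at hlim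
  obtain ⟨k, hk⟩ := (hlim.eventually_ne one_ne_zero).exists
  exact ⟨zk k, hk⟩

/-- Every character is the multiplier of a nonzero function. -/
theorem exists_cFun' (hM : 3 ≤ M) (hφ : φ ∈ Chr M ℓ) : ∃ y, IsCFun M φ y ∧ y ≠ 0 := by
  have : NeZero M := ⟨by omega⟩
  set D : ℍ → ℂ := ModularForm.discriminant with hD
  have hDsl : ∀ (γ : SL(2, ℤ)) (z : ℍ), D (γ • z) = denom γ z ^ (12 : ℤ) * D z := by
    intro γ z
    have h := SlashInvariantForm.slash_action_eqn'' (Γ := 𝒮ℒ) (k := 12) CuspForm.discriminant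
      (γ := (γ : GL (Fin 2) ℝ)) ⟨γ, rfl⟩ z
    simp only [CuspForm.coe_discriminant] at h
    rw [ModularGroup.sl_moeb]
    exact h
  have hD0 : ∀ z, D z ≠ 0 := ModularForm.discriminant_ne_zero
  let y : ℍ → ℂ := fun z => twEis φ z * (D z)⁻¹
  have hyhol : IsHol y := DifferentiableOn.mul (isHol_twEis hφ) (DifferentiableOn.inv
    (UpperHalfPlane.mdifferentiable_iff.1 (CuspFormClass.holo CuspForm.discriminant))
    fun x _ => by simpa using hD0 (ofComplex x))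
  have hysm : ∀ (γ : Gamma M) (z : ℍ), y ((γ : SL(2, ℤ)) • z) = chrVal φ γ * y z := by
    intro γ z
    show twEis φ _ * (D _)⁻¹ = _ * (twEis φ z * (D z)⁻¹)
    rw [twEis_smul hφ, hDsl]
    have : denom ((γ : SL(2, ℤ)) : GL (Fin 2) ℝ) z ≠ 0 := denom_ne_zero _ _
    field_simp [hD0 z]
  refine ⟨y, ⟨hyhol, hysm, fun γ => ?_⟩, fun h0 => ?_⟩
  swap
  · obtain ⟨z, hz⟩ := exists_twEis_ne_zero hφ hM
    exact mul_ne_zero hz (inv_ne_zero (hD0 z)) (congrFun h0 z)
  refine hasExpIn_top_of_periodic (isHol_comp hyhol γ) (comp_vadd hysm hφ γ) (M : ℤ) ?_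
  obtain ⟨C, hC⟩ := exists_twMajor_le
  have hlim : Tendsto (fun z : ℍ => qPow (M : ℝ) (M : ℤ) z * (D z)⁻¹) atImInfty (𝓝 1) := by
    have h1 := hasQExp_discriminant.tendsto_leading one_pos (m := 1) fun k hk => by
      rw [qMon, HahnSeries.coeff_single_mul, one_mul,
        psC, ModularCurve.ofPowerSeries_coeff_of_neg _ (by omega : k - 1 < 0)]
    have hc : (qMon 1 * psC (ModularCurve.dedekindEtaUnit.map (Int.castRingHom ℂ))).coeff 1 = 1 := by
      rw [qMon, HahnSeries.coeff_single_mul, one_mul, sub_self, psC,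
        show (0 : ℤ) = ((0 : ℕ) : ℤ) from rfl, HahnSeries.ofPowerSeries_apply_coeff]
      simp [ModularCurve.constantCoeff_dedekindEtaUnit]
    rw [hc] at h1
    simpa using (h1.inv₀ one_ne_zero).congr fun z => by
      rw [mul_inv, qPow_neg, inv_inv, mul_comm,
        ← qPow_mul_period 1 (NeZero.ne M) 1 z, mul_one, mul_one]
  have hev : ∀ᶠ z : ℍ in atImInfty, 1 ≤ z.im ∧ ‖qPow (M : ℝ) (M : ℤ) z * (D z)⁻¹‖ ≤ 2 := by
    have h1 : ∀ᶠ z : ℍ in atImInfty, 1 ≤ z.im := (atImInfty_mem _).2 ⟨1, fun z hz => hz⟩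
    exact h1.and (hlim.norm.eventually (eventually_le_nhds (by norm_num)))
  rw [Filter.Eventually, atImInfty_mem] at hev
  obtain ⟨A, hA⟩ := hev
  refine isBoundedAtImInfty_iff.mpr ⟨C * 2, A, fun z hz => ?_⟩
  obtain ⟨hz1, hz2⟩ := hA z hz
  have hd : 0 < ‖denom (γ : GL (Fin 2) ℝ) z‖ ^ (12 : ℤ) :=
    zpow_pos (norm_pos_iff.2 (denom_ne_zero _ _)) _
  have hC0 : 0 ≤ C := (tsum_nonneg fun v => norm_nonneg _).trans (hC z hz1)
  show ‖qPow (M : ℝ) (M : ℤ) z * (twEis φ (γ • z) * (D (γ • z))⁻¹)‖ ≤ C * 2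
  rw [hDsl, mul_inv, norm_mul, norm_mul, norm_mul, norm_inv, norm_zpow]
  calc ‖qPow (M : ℝ) (M : ℤ) z‖ * (‖twEis φ (γ • z)‖ *
        ((‖denom (γ : GL (Fin 2) ℝ) z‖ ^ (12 : ℤ))⁻¹ * ‖(D z)⁻¹‖))
      = (‖twEis φ (γ • z)‖ * (‖denom (γ : GL (Fin 2) ℝ) z‖ ^ (12 : ℤ))⁻¹) *
          ‖qPow (M : ℝ) (M : ℤ) z * (D z)⁻¹‖ := by rw [norm_mul]; ring
    _ ≤ C * 2 := by
        refine mul_le_mul ?_ hz2 (norm_nonneg _) hC0
        rw [← div_eq_mul_inv, div_le_iff₀ hd, mul_comm C]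
        exact (norm_twEis_smul_le hφ γ z).trans (mul_le_mul_of_nonneg_left (hC z hz1) hd.le)

end FLTAgent.Gamma1
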