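/-
Multiplier functions on `Γ(M)`: public analytic statements.
-/
import Fermat.Agent.Gamma1.Defs
import Fermat.Agent.Gamma1.MultBasic
import Fermat.Agent.Gamma1.MultEis

/-!
# Multiplier functions: summary of results

Restates the results of `MultBasic` and `MultEis`: existence (`exists_cFun`) and uniqueness of the
character (`isCFun_unique`), roots (`exists_root_of_dvd_order`, `exists_chr_of_root`), constancy
without poles (`eq_const_of_noPole`) and finiteness (`exists_finset_span_cFun`).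
-/

set_option autoImplicit false

noncomputable section

open UpperHalfPlane CongruenceSubgroup
open scoped MatrixGroups

namespace FLTAgent.Gamma1

open FLTAgent.Modular

variable {n M ℓ : ℕ}

/-- Every character is the multiplier of a function (an Eisenstein series of weight twelve with
character, divided by the discriminant). -/
theorem exists_cFun (h : IsLevel n M) [NeZero ℓ] {φ : Additive (Gamma M) →+ Additive ℂˣ}
    (hφ : φ ∈ Chr M ℓ) : ∃ y, IsCFun M φ y ∧ y ≠ 0 := exists_cFun' h.three_le hφ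

theorem isCFun_unique {φ ψ : Additive (Gamma M) →+ Additive ℂˣ} {y : ℍ → ℂ}
    (hy : IsCFun M φ y) (hy' : IsCFun M ψ y) (hne : y ≠ 0) : φ = ψ := isCFun_unique' hy hy' hne

/-- A holomorphic function all whose zeros have order divisible by `ℓ` is an `ℓ`-th power. -/
theorem exists_root_of_dvd_order [NeZero ℓ] {f : ℍ → ℂ} (hf : IsHol f) (hne : f ≠ 0)
    (hord : ∀ z : ℍ, ℓ ∣ analyticOrderNatAt (f ∘ ofComplex) (z : ℂ)) :
    ∃ g : ℍ → ℂ, IsHol g ∧ g ^ ℓ = f :=
  exists_root_of_dvd_order' hf hne hord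

/-- A root of a function of level `M` whose orders at the cusps are divisible by `ℓ` is a
multiplier function. -/
theorem exists_chr_of_root [NeZero ℓ] (hM : 3 ≤ M) {f g : ℍ → ℂ} (hf : MemR M ⊤ f)
    (hne : f ≠ 0) (hcusp : ∀ γ : SL(2, ℤ), (ℓ : ℤ) ∣ (qser M (comp f γ)).order) (hg : IsHol g)
    (hgf : g ^ ℓ = f) :
    ∃ φ ∈ Chr M ℓ, IsCFun M φ g :=
  haveI : NeZero M := ⟨by omega⟩
  exists_chr_of_root' hf hne hcusp hg hgf

/-- A function of level `M` without poles at the cusps is constant. -/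
theorem eq_const_of_noPole (hM : 3 ≤ M) {f : ℍ → ℂ} (hf : MemR M ⊤ f)
    (hp : ∀ γ : SL(2, ℤ), ∀ k < (0 : ℤ), (qser M (comp f γ)).coeff k = 0) :
    ∃ c : ℂ, f = fun _ => c :=
  haveI : NeZero M := ⟨by omega⟩
  eq_const_of_noPole' hf hp

/-- Multiplier functions with bounded poles form a finite-dimensional space. -/
theorem exists_finset_span_cFun [NeZero ℓ] (hM : 3 ≤ M)
    {φ : Additive (Gamma M) →+ Additive ℂˣ} (hφ : φ ∈ Chr M ℓ) (m : ℕ) :
    ∃ B : Finset (ℍ → ℂ), ∀ y, IsCFun M φ y →
      (∀ γ : SL(2, ℤ), ∀ k < -(m : ℤ), (qser M (comp y γ)).coeff k = 0) →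
      y ∈ Submodule.span ℂ (B : Set (ℍ → ℂ)) :=
  haveI : NeZero M := ⟨by omega⟩
  exists_finset_span_cFun' hφ m

end FLTAgent.Gamma1
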