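/-
Values of `℘` at torsion points of `ℤ z + ℤ`: the double series as a power series in
`exp (2πiz/M)`, up to a term not depending on the point.
-/
import Fermat.Agent.Gamma1.Defs

/-!
# `℘` at torsion points as power series

`hasSum_wpDiff`: differences of values of `℘` at torsion points of `ℤ z + ℤ` are power series in
`exp (2πi z / M)` with the coefficients `wpCoeff`. The lattice sum is taken row by row with
`hasSum_inv_sq` and each row is expanded (`hasSum_rowTerm`).
-/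

set_option autoImplicit false
set_option linter.unusedSectionVars false

noncomputable section

open UpperHalfPlane Filter Topology Function
open scoped PeriodPair

namespace FLTAgent.Gamma1

/-- `exp (2πiw)`. -/
def e2 (w : ℂ) : ℂ := Complex.exp (2 * Real.pi * Complex.I * w)

/-- `t / (1 - t)²`. -/
def phiT (t : ℂ) : ℂ := t / (1 - t) ^ 2

theorem e2_add (a b : ℂ) : e2 (a + b) = e2 a * e2 b := by
  rw [e2, e2, e2, ← Complex.exp_add]; ring_nf

theorem e2_neg (a : ℂ) : e2 (-a) = (e2 a)⁻¹ := by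
  rw [e2, e2, ← Complex.exp_neg]; ring_nf

theorem e2_intCast (n : ℤ) : e2 (n : ℂ) = 1 := by
  rw [e2, show (2 : ℂ) * Real.pi * Complex.I * n = n * (2 * Real.pi * Complex.I) by ring]
  exact Complex.exp_int_mul_two_pi_mul_I n

theorem e2_add_int (a : ℂ) (n : ℤ) : e2 (a + n) = e2 a := by rw [e2_add, e2_intCast, mul_one]

theorem e2_eq_one_iff (a : ℂ) : e2 a = 1 ↔ ∃ n : ℤ, a = n := by
  refine ⟨fun h => ?_, fun ⟨n, hn⟩ => hn ▸ e2_intCast n⟩
  obtain ⟨n, hn⟩ := Complex.exp_eq_one_iff.mp h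
  refine ⟨n, mul_left_cancel₀ Complex.two_pi_I_ne_zero ?_⟩
  rw [hn]; ring

theorem e2_ne_zero (a : ℂ) : e2 a ≠ 0 := Complex.exp_ne_zero _

theorem phiT_inv (t : ℂ) : phiT t⁻¹ = phiT t := by
  rcases eq_or_ne t 0 with rfl | ht
  · simp [phiT]
  rcases eq_or_ne t 1 with rfl | h1
  · simp
  have h1' : (1 : ℂ) - t ≠ 0 := sub_ne_zero.mpr (Ne.symm h1)
  have h2' : t - 1 ≠ 0 := sub_ne_zero.mpr h1
  rw [phiT, phiT]
  field_simp
  ring

theorem norm_e2_lt_one {a : ℂ} (ha : 0 < a.im) : ‖e2 a‖ < 1 := by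
  rw [e2, Complex.norm_exp, Real.exp_lt_one_iff]
  have : (2 * (Real.pi : ℂ) * Complex.I * a).re = -(2 * Real.pi * a.im) := by
    simp [Complex.mul_re, Complex.mul_im]
  rw [this]
  have := Real.pi_pos
  nlinarith

/-- `(2πi)²`. -/
def cTwo : ℂ := (2 * Real.pi * Complex.I) ^ 2

theorem cTwo_ne_zero : cTwo ≠ 0 := pow_ne_zero _ Complex.two_pi_I_ne_zero

theorem summable_inv_sq (w : ℂ) : Summable fun n : ℤ => 1 / (w + n) ^ 2 := by
  have h := EisensteinSeries.linear_right_summable w 1 (k := 2) le_rfl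
  refine h.congr fun n => ?_
  simp [one_div]

theorem tsum_inv_sq_upper {w : ℂ} (hw : 0 < w.im) :
    ∑' n : ℤ, 1 / (w + n) ^ 2 = cTwo * phiT (e2 w) := by
  have h := EisensteinSeries.qExpansion_identity (k := 1) le_rfl ⟨w, hw⟩
  simp only [pow_one, Nat.factorial_one, Nat.cast_one, div_one] at h
  rw [h, cTwo, show (-2 * (Real.pi : ℂ) * Complex.I) ^ (1 + 1) = (2 * Real.pi * Complex.I) ^ 2 by
    ring]
  congr 1
  exact (hasSum_coe_mul_geometric_of_norm_lt_one (norm_e2_lt_one hw)).tsum_eq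

/-- `∑ 1/(w + n)² = (2πi)² t/(1 - t)²` for `t = exp (2πiw)`. -/
theorem hasSum_inv_sq {w : ℂ} (hw : ∀ n : ℤ, w ≠ n) :
    HasSum (fun n : ℤ => 1 / (w + n) ^ 2) (cTwo * phiT (e2 w)) := by
  refine (summable_inv_sq w).hasSum_iff.mpr ?_
  rcases lt_trichotomy 0 w.im with him | him | him
  · exact tsum_inv_sq_upper him
  · -- a limit from above
    have hreal : w = (w.re : ℂ) := Complex.ext rfl (by simp [← him])
    set γ : ℝ → ℂ := fun ε => w + ε * Complex.I with hγ
    have hlim : Tendsto γ (𝓝[>] (0 : ℝ)) (𝓝 w) := by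
      have : Continuous γ := by rw [hγ]; fun_prop
      have h0 := this.tendsto 0
      simp only [hγ, Complex.ofReal_zero, zero_mul, add_zero] at h0
      exact h0.mono_left nhdsWithin_le_nhds
    have hne : ∀ n : ℤ, w + n ≠ 0 := fun n h => hw (-n) (by push_cast; linear_combination h)
    have h1 : Tendsto (fun ε => ∑' n : ℤ, 1 / (γ ε + n) ^ 2) (𝓝[>] (0 : ℝ))
        (𝓝 (∑' n : ℤ, 1 / (w + n) ^ 2)) := by
      refine tendsto_tsum_of_dominated_convergence (summable_inv_sq w).norm (fun n => ?_) ?_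
      · refine Tendsto.div tendsto_const_nhds ((hlim.add tendsto_const_nhds).pow 2)
          (pow_ne_zero 2 (hne n))
      · refine Eventually.of_forall fun ε n => ?_
        simp only [one_div, norm_inv, norm_pow]
        refine inv_anti₀ (pow_pos (norm_pos_iff.mpr (hne n)) 2) (pow_le_pow_left₀ (norm_nonneg _) ?_ 2)
        rw [Complex.norm_def, Complex.norm_def]
        refine Real.sqrt_le_sqrt ?_
        simp [hγ, Complex.normSq_apply, ← him]
        nlinarith [sq_nonneg ε]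
    have h2 : Tendsto (fun ε => cTwo * phiT (e2 (γ ε))) (𝓝[>] (0 : ℝ)) (𝓝 (cTwo * phiT (e2 w))) := by
      have he : Tendsto (fun ε => e2 (γ ε)) (𝓝[>] (0 : ℝ)) (𝓝 (e2 w)) := by
        refine (Continuous.tendsto ?_ w).comp hlim
        unfold e2; fun_prop
      refine (he.div ((tendsto_const_nhds.sub he).pow 2) (pow_ne_zero 2 (sub_ne_zero.mpr fun h => ?_))).const_mul _
      obtain ⟨n, hn⟩ := (e2_eq_one_iff w).mp h.symm
      exact hw n hn
    refine tendsto_nhds_unique h1 (h2.congr' ?_)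
    filter_upwards [self_mem_nhdsWithin] with ε hε
    exact (tsum_inv_sq_upper (by simpa [hγ, ← him] using hε)).symm
  · rw [show phiT (e2 w) = phiT (e2 (-w)) by rw [e2_neg, phiT_inv],
      ← tsum_inv_sq_upper (w := -w) (by simpa using him),
      ← (Equiv.neg ℤ).tsum_eq (fun n : ℤ => 1 / (-w + n) ^ 2)]
    refine tsum_congr fun n => ?_
    simp only [Equiv.neg_apply, Int.cast_neg]
    rw [show (-w + -(n : ℂ)) ^ 2 = (w + n) ^ 2 by ring]

/-- The summand at `d` of the sum over a class modulo `M`. -/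
def rowTerm (M : ℕ) (a : ZMod M) (b : ℕ) (z : ℍ) (d : ℤ) : ℂ :=
  if (d : ZMod M) = a then phiT (e2 (((d : ℂ) * z + b) / M)) else 0

/-- The coefficients of the series of `℘`. -/
def wpCoeff {M : ℕ} (v : Vec M) (n : ℕ) : ℂ :=
  if n = 0 then (if v.1 = 0 then phiT (zeta M ^ v.2.val) else 0)
  else ∑ p ∈ n.divisorsAntidiagonal, (p.2 : ℂ) *
    ((if (p.1 : ZMod M) = v.1 then zeta M ^ (p.2 * v.2.val) else 0) +
      if (p.1 : ZMod M) = -v.1 then zeta M ^ (p.2 * (-v.2).val) else 0)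

variable {M : ℕ} [NeZero M]

theorem zeta_eq_e2 : zeta M = e2 (1 / M) := by
  rw [zeta, e2]; ring_nf

theorem zeta_pow_M : zeta M ^ M = 1 := by
  rw [zeta, ← Complex.exp_nat_mul, mul_div_cancel₀ _ (Nat.cast_ne_zero.mpr (NeZero.ne M)),
    Complex.exp_two_pi_mul_I]

theorem zeta_pow_congr {a b : ℕ} (h : (a : ZMod M) = b) : zeta M ^ a = zeta M ^ b := by
  have h' : a % M = b % M := (ZMod.natCast_eq_natCast_iff' a b M).mp h
  rw [← Nat.mod_add_div a M, ← Nat.mod_add_div b M, pow_add, pow_add, pow_mul, pow_mul, zeta_pow_M,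
    one_pow, one_pow, h']

theorem zeta_pow_neg (x : ZMod M) : zeta M ^ (-x).val = (zeta M ^ x.val)⁻¹ := by
  refine eq_inv_of_mul_eq_one_left ?_
  rw [← pow_add]
  refine (zeta_pow_congr (b := 0) ?_).trans (pow_zero _)
  push_cast
  rw [ZMod.natCast_rightInverse, ZMod.natCast_rightInverse, neg_add_cancel]

theorem e2_point (d : ℤ) (b : ℕ) (z : ℍ) :
    e2 (((d : ℂ) * z + b) / M) = e2 ((z : ℂ) / M) ^ d * zeta M ^ b := by
  rw [zeta_eq_e2, e2, e2, e2, ← Complex.exp_int_mul, ← Complex.exp_nat_mul, ← Complex.exp_add]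
  ring_nf

theorem norm_x_lt_one (z : ℍ) : ‖e2 ((z : ℂ) / M)‖ < 1 :=
  norm_e2_lt_one (by
    rw [Complex.div_natCast_im]
    exact div_pos z.im_pos (Nat.cast_pos.mpr (Nat.pos_of_ne_zero (NeZero.ne M))))

theorem norm_zeta_pow (j : ℕ) : ‖zeta M ^ j‖ = 1 := by
  rw [norm_pow, zeta, Complex.norm_exp]
  simp [Complex.mul_re, Complex.mul_im, Complex.div_natCast_re]

theorem hasSum_pnat_geometric {t : ℂ} (ht : ‖t‖ < 1) :
    HasSum (fun r : ℕ+ => ((r : ℕ) : ℂ) * t ^ (r : ℕ)) (phiT t) := by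
  refine (PNat.coe_injective.hasSum_iff (f := fun r : ℕ => (r : ℂ) * t ^ r) fun r hr => ?_).mpr
    (hasSum_coe_mul_geometric_of_norm_lt_one ht)
  have : r = 0 := by
    by_contra h
    exact hr ⟨⟨r, Nat.pos_of_ne_zero h⟩, rfl⟩
  simp [this]

/-- The sum over the class `v₁` is the power series with coefficients `wpCoeff v`. -/
theorem hasSum_rowTerm (v : Vec M) (z : ℍ) :
    ∃ G : ℂ, HasSum (rowTerm M v.1 v.2.val z) G ∧
      HasSum (fun n : ℕ => wpCoeff v n * e2 ((z : ℂ) / M) ^ n) G := by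
  classical
  set x := e2 ((z : ℂ) / M) with hx
  set cp : ℕ+ → ℂ := fun d => if ((d : ℕ) : ZMod M) = v.1 then (1 : ℂ) else 0 with hcp
  set cm : ℕ+ → ℂ := fun d => if ((d : ℕ) : ZMod M) = -v.1 then (1 : ℂ) else 0 with hcm
  have hsum : ∀ (c : ℕ+ → ℂ) (j : ℕ), (∀ d, ‖c d‖ ≤ 1) → Summable fun p : ℕ+ × ℕ+ =>
      c p.1 * (((p.2 : ℕ) : ℂ) * (x ^ (p.1 : ℕ) * zeta M ^ j) ^ (p.2 : ℕ)) := by
    intro c j hc
    have hx1 : ‖x‖ < 1 := norm_x_lt_one z
    have hx0 : 0 < ‖x‖ := norm_pos_iff.mpr (e2_ne_zero _)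
    have h1 : Summable fun d : ℕ+ => ‖x‖ ^ (d : ℕ) :=
      (summable_geometric_of_lt_one (norm_nonneg _) hx1).comp_injective PNat.coe_injective
    have h2 : Summable fun r : ℕ+ => ((r : ℕ) : ℝ) * ‖x‖ ^ (r : ℕ) * ‖x‖⁻¹ := by
      have h : Summable fun r : ℕ => (r : ℝ) * ‖x‖ ^ r :=
        (summable_pow_mul_geometric_of_norm_lt_one 1 (by simpa using hx1 : ‖(‖x‖ : ℝ)‖ < 1)).congr
          fun r => by rw [pow_one]
      exact ((h.comp_injective PNat.coe_injective).mul_right ‖x‖⁻¹).congr fun r => rfl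
    refine Summable.of_norm_bounded
      (h1.mul_of_nonneg h2 (fun d => by positivity) fun r => by positivity) ?_
    rintro ⟨d, r⟩
    rw [norm_mul, norm_mul, Complex.norm_natCast, norm_pow, norm_mul, norm_pow, norm_zeta_pow,
      mul_one, ← pow_mul]
    refine (mul_le_mul_of_nonneg_right (hc d) (by positivity)).trans ?_
    rw [one_mul, ← mul_assoc, ← mul_assoc, mul_comm (‖x‖ ^ (d : ℕ)) ((r : ℕ) : ℝ), mul_assoc,
      mul_assoc]
    refine mul_le_mul_of_nonneg_left ?_ (by positivity)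
    rw [← mul_assoc, ← pow_add, le_mul_inv_iff₀ hx0, ← pow_succ]
    refine pow_le_pow_of_le_one (norm_nonneg _) hx1.le ?_
    have := d.pos
    have := r.pos
    nlinarith
  have hb : ∀ (P : Prop) [Decidable P], ‖(if P then (1 : ℂ) else 0)‖ ≤ 1 := by
    intro P _; split_ifs <;> simp
  obtain ⟨Tp, hTp⟩ := hsum cp v.2.val fun d => hb _
  obtain ⟨Tm, hTm⟩ := hsum cm (-v.2).val fun d => hb _
  have hfib : ∀ (c : ℕ+ → ℂ) (j : ℕ) (d : ℕ+), HasSum
      (fun r : ℕ+ => c d * (((r : ℕ) : ℂ) * (x ^ (d : ℕ) * zeta M ^ j) ^ (r : ℕ)))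
      (c d * phiT (x ^ (d : ℕ) * zeta M ^ j)) := fun c j d => by
    refine (hasSum_pnat_geometric ?_).mul_left _
    rw [norm_mul, norm_pow, norm_zeta_pow, mul_one]
    exact pow_lt_one₀ (norm_nonneg _) (norm_x_lt_one z) d.ne_zero
  have hP := hTp.prod_fiberwise (hfib cp v.2.val)
  have hN := hTm.prod_fiberwise (hfib cm (-v.2).val)
  refine ⟨Tp + rowTerm M v.1 v.2.val z 0 + Tm, ?_, ?_⟩
  · refine HasSum.of_add_one_of_neg_add_one ?_ ?_
    · refine (Equiv.pnatEquivNat.symm.hasSum_iff.mpr hP).congr_fun fun n => ?_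
      simp only [Function.comp_apply, Equiv.pnatEquivNat_symm_apply, hcp, rowTerm, Nat.succPNat_coe,
        Nat.succ_eq_add_one, e2_point, ite_mul, one_mul, zero_mul]
      refine if_congr (by push_cast; rfl) ?_ rfl
      rw [← hx, ← zpow_natCast x (n + 1)]
      push_cast; rfl
    · refine (Equiv.pnatEquivNat.symm.hasSum_iff.mpr hN).congr_fun fun n => ?_
      simp only [Function.comp_apply, Equiv.pnatEquivNat_symm_apply, hcm, rowTerm, Nat.succPNat_coe,
        Nat.succ_eq_add_one, e2_point, ite_mul, one_mul, zero_mul]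
      refine if_congr ?_ ?_ rfl
      · push_cast; exact neg_eq_iff_eq_neg
      · rw [← hx, zeta_pow_neg, ← phiT_inv, mul_inv]
        congr 2
        rw [zpow_neg, inv_inv, ← zpow_natCast x (n + 1)]
        push_cast; rfl
  · -- regroup by `n = d r`
    have hc0 : wpCoeff v 0 * x ^ 0 = rowTerm M v.1 v.2.val z 0 := by
      rw [pow_zero, mul_one, wpCoeff, if_pos rfl, rowTerm, Int.cast_zero, e2_point, zpow_zero,
        one_mul]
      exact if_congr eq_comm rfl rfl
    have hreg : HasSum (fun n : ℕ+ => wpCoeff v n * x ^ (n : ℕ)) (Tp + Tm) := by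
      have h := (sigmaAntidiagonalEquivProd.hasSum_iff.mpr (hTp.add hTm))
      refine h.sigma fun n => ?_
      convert hasSum_fintype _ using 1
      rw [wpCoeff, if_neg n.ne_zero, Finset.sum_mul,
        ← Finset.sum_coe_sort (Nat.divisorsAntidiagonal (n : ℕ))]
      refine Finset.sum_congr rfl fun p _ => ?_
      obtain ⟨⟨d, r⟩, hp⟩ := p
      have hdr : d * r = (n : ℕ) := (Nat.mem_divisorsAntidiagonal.mp hp).1
      simp only [Function.comp_apply, sigmaAntidiagonalEquivProd, Equiv.coe_fn_mk,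
        divisorsAntidiagonalFactors, PNat.mk_coe, hcp, hcm, ← hdr]
      rw [mul_pow, mul_pow, ← pow_mul x d r, ← pow_mul (zeta M), ← pow_mul (zeta M),
        mul_comm v.2.val r, mul_comm (-v.2).val r]
      by_cases h1 : (d : ZMod M) = v.1 <;> by_cases h2 : (d : ZMod M) = -v.1
      · rw [if_pos h1, if_pos h2]
        erw [if_pos (show ((d : ℕ) : ZMod M) = v.1 from h1),
          if_pos (show ((d : ℕ) : ZMod M) = -v.1 from h2)]
        ring
      · rw [if_pos h1, if_neg h2]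
        erw [if_pos (show ((d : ℕ) : ZMod M) = v.1 from h1),
          if_neg (show ¬ ((d : ℕ) : ZMod M) = -v.1 from h2)]
        ring
      · rw [if_neg h1, if_pos h2]
        erw [if_neg (show ¬ ((d : ℕ) : ZMod M) = v.1 from h1),
          if_pos (show ((d : ℕ) : ZMod M) = -v.1 from h2)]
        ring
      · rw [if_neg h1, if_neg h2]
        erw [if_neg (show ¬ ((d : ℕ) : ZMod M) = v.1 from h1),
          if_neg (show ¬ ((d : ℕ) : ZMod M) = -v.1 from h2)]
        ring
    have h0 : Tp + rowTerm M v.1 v.2.val z 0 + Tm = rowTerm M v.1 v.2.val z 0 + (Tp + Tm) := by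
      ring
    rw [h0, ← hc0]
    refine ((hasSum_nat_add_iff' (f := fun n : ℕ => wpCoeff v n * x ^ n) 1).mp ?_)
    simp only [Finset.sum_range_one, add_sub_cancel_left]
    exact (Equiv.pnatEquivNat.symm.hasSum_iff.mpr hreg).congr_fun fun n => rfl

theorem hasSum_rows (v : Vec M) (z : ℍ) :
    ∃ G : ℂ, HasSum (fun n : ℕ => wpCoeff v n * e2 ((z : ℂ) / M) ^ n) G ∧
      HasSum (fun m : ℤ => cTwo * phiT (e2 (((((v.1.val : ℤ) - m * M : ℤ) : ℂ) * z + v.2.val) / M)))
        (cTwo * G) := by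
  obtain ⟨G, h1, h2⟩ := hasSum_rowTerm v z
  refine ⟨G, h2, HasSum.mul_left _ ?_⟩
  have hMz : (M : ℤ) ≠ 0 := Int.natCast_ne_zero.mpr (NeZero.ne M)
  have hinj : Injective fun m : ℤ => (v.1.val : ℤ) - m * M := fun m m' h =>
    mul_right_cancel₀ hMz (sub_right_injective h)
  refine ((hinj.hasSum_iff fun d hd => ?_).mpr h1).congr_fun fun m => ?_
  · rw [rowTerm, if_neg]
    intro h
    refine hd ?_
    rw [← ZMod.natCast_rightInverse v.1, ← Int.cast_natCast,
      ZMod.intCast_eq_intCast_iff_dvd_sub] at h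
    obtain ⟨k, hk⟩ := h
    exact ⟨k, show (v.1.val : ℤ) - k * M = d by linarith⟩
  · rw [Function.comp_apply, rowTerm, if_pos]
    push_cast
    rw [ZMod.natCast_self, mul_zero, sub_zero, ZMod.natCast_rightInverse]

/-- The torsion point. -/
def torsPt {M : ℕ} (v : Vec M) (z : ℍ) : ℂ := ((v.1.val : ℂ) * z + (v.2.val : ℂ)) / M

theorem torsPt_ne_int {v : Vec M} (hv : v ≠ 0) (z : ℍ) (m n : ℤ) :
    torsPt v z - m * z ≠ n := by
  intro h
  rw [torsPt, sub_eq_iff_eq_add, div_eq_iff (Nat.cast_ne_zero.mpr (NeZero.ne M))] at h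
  have him : ((v.1.val : ℝ)) * z.im = (m : ℝ) * M * z.im := by
    generalize v.1.val = a, v.2.val = b at h
    have := congrArg Complex.im h
    simp [Complex.mul_im] at this
    linear_combination this
  have hz := z.im_pos.ne'
  have h1 : (v.1.val : ℤ) = m * M := by
    have : ((v.1.val : ℤ) : ℝ) = ((m * M : ℤ) : ℝ) := by
      push_cast
      exact mul_right_cancel₀ hz (by linear_combination him)
    exact_mod_cast this
  have h2 : (v.2.val : ℤ) = n * M := by
    have : ((v.2.val : ℤ) : ℂ) = ((n * M : ℤ) : ℂ) := by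
      have h1' : ((v.1.val : ℕ) : ℂ) = (m : ℂ) * M := by exact_mod_cast congrArg (fun x : ℤ => (x : ℂ)) h1
      push_cast
      linear_combination h - (z : ℂ) * h1'
    exact_mod_cast this
  apply hv
  ext
  · have := congrArg (fun x : ℤ => (x : ZMod M)) h1
    simpa [ZMod.natCast_rightInverse v.1] using this
  · have := congrArg (fun x : ℤ => (x : ZMod M)) h2
    simpa [ZMod.natCast_rightInverse v.2] using this

/-- Differences of values of `℘` at torsion points as power series. -/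
theorem hasSum_wpDiff {v w : Vec M} (hv : v ≠ 0) (hw : w ≠ 0) (z : ℍ) :
    HasSum (fun n : ℕ => cTwo * ((wpCoeff v n - wpCoeff w n) * e2 ((z : ℂ) / M) ^ n))
      (wpDiff v w z) := by
  obtain ⟨Gv, hv1, hv2⟩ := hasSum_rows v z
  obtain ⟨Gw, hw1, hw2⟩ := hasSum_rows w z
  suffices h : wpDiff v w z = cTwo * Gv - cTwo * Gw by
    rw [h, ← mul_sub]
    exact ((hv1.sub hw1).mul_left _).congr_fun fun n => by ring
  set L := periodPair z with hL
  have h := (L.hasSum_weierstrassP (torsPt v z)).sub (L.hasSum_weierstrassP (torsPt w z))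
  rw [← L.latticeEquivProd.symm.toEquiv.hasSum_iff] at h
  have hrow : ∀ {u : Vec M}, u ≠ 0 → ∀ m : ℤ, HasSum
      (fun n : ℤ => 1 / (torsPt u z - (m * (z : ℂ) + n)) ^ 2)
      (cTwo * phiT (e2 (((((u.1.val : ℤ) - m * M : ℤ) : ℂ) * z + u.2.val) / M))) := by
    intro u hu m
    have h' := ((Equiv.neg ℤ).hasSum_iff (f := fun n : ℤ => 1 / (torsPt u z - m * z + n) ^ 2)).mpr
      (hasSum_inv_sq (w := torsPt u z - m * z) fun n => torsPt_ne_int hu z m n)
    have hM : (M : ℂ) ≠ 0 := Nat.cast_ne_zero.mpr (NeZero.ne M)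
    rw [show torsPt u z - (m : ℂ) * z =
      ((((u.1.val : ℤ) - m * M : ℤ) : ℂ) * z + u.2.val) / M by
        rw [torsPt]; push_cast; field_simp; ring] at h' 
    refine h'.congr_fun fun n => ?_
    simp only [Function.comp_apply, Equiv.neg_apply, Int.cast_neg]
    congr 2
    rw [torsPt]; push_cast; field_simp; ring
  have h2 := h.prod_fiberwise (g := fun m : ℤ =>
      cTwo * phiT (e2 (((((v.1.val : ℤ) - m * M : ℤ) : ℂ) * z + v.2.val) / M)) -
        cTwo * phiT (e2 (((((w.1.val : ℤ) - m * M : ℤ) : ℂ) * z + w.2.val) / M))) fun m => ?_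
  rotate_left
  · refine ((hrow hv m).sub (hrow hw m)).congr_fun fun n => ?_
    show (1 / (torsPt v z - ((L.latticeEquivProd.symm (m, n)) : ℂ)) ^ 2 - _) -
      (1 / (torsPt w z - ((L.latticeEquivProd.symm (m, n)) : ℂ)) ^ 2 - _) = _
    rw [L.latticeEquiv_symm_apply, show L.ω₁ = (z : ℂ) from rfl, show L.ω₂ = 1 from rfl, mul_one]
    ring
  exact h2.unique (hv2.sub hw2)

end FLTAgent.Gamma1
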