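/-
`℘` at torsion points: weight, series and leading coefficients of the differences and ratios.
-/
import Fermat.Agent.Gamma1.Ser
import Fermat.Agent.Gamma1.WpSum
import Fermat.Agent.Mazur.ModuliLattice

/-!
# Series and leading coefficients of differences of `℘`

`wp_smul'`: weight two homogeneity; `wpDiff_ne_zero'`: `℘` separates torsion points up to sign.
`gser` is the series of a difference and `rser` of a ratio: their coefficients lie in `ℤ[ζ, 1/M]`
(`rser_coeff_mem`), the order is read off the weights `wt` (`gser_order`, `rser_order`) and the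
leading coefficient is a unit there (`gser_lead`).
-/

set_option autoImplicit false
set_option linter.unusedSectionVars false

noncomputable section

open UpperHalfPlane CongruenceSubgroup Filter ModularCurve
open scoped MatrixGroups PeriodPair

namespace FLTAgent.Gamma1

open FLTAgent.Modular

/-- The lattice `a (ℤ z + ℤ)`. -/
abbrev scaled (z : ℍ) (a : ℂ) (ha : a ≠ 0) : PeriodPair := ModularPlaces.scaledPair z a ha

theorem scaled_one (z : ℍ) : scaled z 1 one_ne_zero = periodPair z := by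
  simp [scaled, ModularPlaces.scaledPair, periodPair]

theorem wpL_congr {L L' : PeriodPair} (h : L.lattice = L'.lattice) : ℘[L] = ℘[L'] := by
  funext u
  show ∑' l : L.lattice, _ = ∑' l : L'.lattice, _
  rw [h]

theorem mem_scaled (z : ℍ) {a : ℂ} (ha : a ≠ 0) {u : ℂ} :
    a * u ∈ (scaled z a ha).lattice ↔ u ∈ (periodPair z).lattice := by
  simp only [PeriodPair.mem_lattice, scaled, ModularPlaces.scaledPair, periodPair]
  refine exists₂_congr fun m n => ⟨fun h => ?_, fun h => ?_⟩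
  · refine mul_left_cancel₀ ha ?_
    linear_combination h
  · linear_combination a * h

/-- Homogeneity of `℘` in the lattice. -/
theorem wpL_scaled (z : ℍ) {a : ℂ} (ha : a ≠ 0) (u : ℂ) :
    ℘[scaled z a ha] (a * u) = (a ^ 2)⁻¹ * ℘[periodPair z] u := by
  let e : (periodPair z).lattice ≃ (scaled z a ha).lattice :=
    { toFun := fun l => ⟨a * l, (mem_scaled z ha).mpr l.2⟩
      invFun := fun l => ⟨a⁻¹ * l, (mem_scaled z ha).mp (by rw [mul_inv_cancel_left₀ ha]; exact l.2)⟩
      left_inv := fun l => Subtype.ext (inv_mul_cancel_left₀ ha _)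
      right_inv := fun l => Subtype.ext (mul_inv_cancel_left₀ ha _) }
  show ∑' l : (scaled z a ha).lattice, _ = _ * ∑' l : (periodPair z).lattice, _
  rw [← tsum_mul_left, ← e.tsum_eq]
  refine tsum_congr fun l => ?_
  show 1 / (a * u - a * (l : ℂ)) ^ 2 - 1 / (a * (l : ℂ)) ^ 2 = _
  rw [← mul_sub, mul_pow, mul_pow, one_div, one_div, mul_inv, mul_inv, one_div, one_div]
  ring

theorem den_smul_ne_zero (γ : SL(2, ℤ)) (z : ℍ) :
    ((γ 1 0 : ℤ) : ℂ) * z + ((γ 1 1 : ℤ) : ℂ) ≠ 0 := by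
  have := ModularPlaces.den_ne_zero γ z.im_pos
  simpa [ModularPlaces.den] using this

theorem coe_smul_mul_den (γ : SL(2, ℤ)) (z : ℍ) :
    ((γ • z : ℍ) : ℂ) * (((γ 1 0 : ℤ) : ℂ) * z + ((γ 1 1 : ℤ) : ℂ)) =
      ((γ 0 0 : ℤ) : ℂ) * z + ((γ 0 1 : ℤ) : ℂ) := by
  rw [ModularPlaces.coe_smul_eq_mob, ModularPlaces.mob]
  exact div_mul_cancel₀ _ (den_smul_ne_zero γ z)

theorem det_one (γ : SL(2, ℤ)) : γ 0 0 * γ 1 1 - γ 0 1 * γ 1 0 = 1 := by
  have := γ.2
  rwa [Matrix.det_fin_two] at this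

/-- The lattice of `γ z`. -/
theorem lattice_smul (γ : SL(2, ℤ)) (z : ℍ) :
    (scaled z (((γ 1 0 : ℤ) : ℂ) * z + ((γ 1 1 : ℤ) : ℂ))⁻¹ (inv_ne_zero (den_smul_ne_zero γ z))).lattice
      = (periodPair (γ • z)).lattice := by
  have hden := den_smul_ne_zero γ z
  have hz := coe_smul_mul_den γ z
  have hdet : ((γ 0 0 : ℤ) : ℂ) * (γ 1 1 : ℤ) - (γ 0 1 : ℤ) * (γ 1 0 : ℤ) = 1 := by
    exact_mod_cast det_one γ
  apply le_antisymm <;> rw [PeriodPair.lattice, Submodule.span_le] <;>
    rintro x (rfl | rfl) <;> simp only [SetLike.mem_coe, PeriodPair.mem_lattice, scaled,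
      ModularPlaces.scaledPair, periodPair]
  · refine ⟨γ 1 1, -γ 0 1, ?_⟩
    field_simp
    push_cast
    linear_combination (γ 1 1 : ℤ) * hz + (z : ℂ) * hdet
  · refine ⟨-γ 1 0, γ 0 0, ?_⟩
    field_simp
    push_cast
    linear_combination -((γ 1 0 : ℤ) : ℂ) * hz + hdet
  · refine ⟨γ 0 0, γ 0 1, ?_⟩
    field_simp
    linear_combination -hz
  · refine ⟨γ 1 0, γ 1 1, ?_⟩
    field_simp

variable {M : ℕ} [NeZero M]

/-- `℘` at a torsion point, by any representatives. -/
theorem wp_eq_of_cast {v : Vec M} {x y : ℤ} (hx : (x : ZMod M) = v.1) (hy : (y : ZMod M) = v.2)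
    (z : ℍ) : wp v z = ℘[periodPair z] (((x : ℂ) * z + y) / M) := by
  obtain ⟨k, hk⟩ := (ZMod.intCast_eq_intCast_iff_dvd_sub (v.1.val : ℤ) x M).mp
    (by rw [hx, Int.cast_natCast, ZMod.natCast_rightInverse])
  obtain ⟨l, hl⟩ := (ZMod.intCast_eq_intCast_iff_dvd_sub (v.2.val : ℤ) y M).mp
    (by rw [hy, Int.cast_natCast, ZMod.natCast_rightInverse])
  have hM : (M : ℂ) ≠ 0 := Nat.cast_ne_zero.mpr (NeZero.ne M)
  have hk' : (x : ℂ) - (v.1.val : ℂ) = M * k := by exact_mod_cast congrArg (fun t : ℤ => (t : ℂ)) hk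
  have hl' : (y : ℂ) - (v.2.val : ℂ) = M * l := by exact_mod_cast congrArg (fun t : ℤ => (t : ℂ)) hl
  rw [wp, show ((x : ℂ) * z + y) / M = ((v.1.val : ℂ) * z + v.2.val) / M + ((k : ℂ) * z + l) by
    field_simp; linear_combination (z : ℂ) * hk' + hl']
  exact ((periodPair z).weierstrassP_add_coe _
    ⟨_, PeriodPair.mem_lattice.mpr ⟨k, l, by simp [periodPair]⟩⟩).symm

/-- Weight two homogeneity of `℘` at torsion points. -/
theorem wp_smul' (v : Vec M) (γ : SL(2, ℤ)) (z : ℍ) :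
    wp v (γ • z) = (((γ 1 0 : ℤ) : ℂ) * z + ((γ 1 1 : ℤ) : ℂ)) ^ 2 * wp (vecMulZ v γ) z := by
  have hden := den_smul_ne_zero γ z
  rw [wp, ← wpL_congr (lattice_smul γ z),
    wp_eq_of_cast (x := (v.1.val : ℤ) * γ 0 0 + (v.2.val : ℤ) * γ 1 0)
      (y := (v.1.val : ℤ) * γ 0 1 + (v.2.val : ℤ) * γ 1 1)
      (by push_cast; rw [ZMod.natCast_rightInverse, ZMod.natCast_rightInverse]; rfl)
      (by push_cast; rw [ZMod.natCast_rightInverse, ZMod.natCast_rightInverse]; rfl)]
  have hM : (M : ℂ) ≠ 0 := Nat.cast_ne_zero.mpr (NeZero.ne M)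
  rw [show ((v.1.val : ℂ) * ((γ • z : ℍ) : ℂ) + v.2.val) / M =
      (((γ 1 0 : ℤ) : ℂ) * z + ((γ 1 1 : ℤ) : ℂ))⁻¹ *
        (((((v.1.val : ℤ) * γ 0 0 + (v.2.val : ℤ) * γ 1 0 : ℤ) : ℂ) * z +
          (((v.1.val : ℤ) * γ 0 1 + (v.2.val : ℤ) * γ 1 1 : ℤ) : ℂ)) / M) by
    push_cast
    field_simp
    linear_combination (v.1.val : ℂ) * coe_smul_mul_den γ z,
    wpL_scaled, inv_pow, inv_inv]

theorem wp_neg' (v : Vec M) (z : ℍ) : wp (-v) z = wp v z := by
  rw [wp_eq_of_cast (x := -(v.1.val : ℤ)) (y := -(v.2.val : ℤ)) (v := -v)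
    (by push_cast; rw [ZMod.natCast_rightInverse]; rfl)
    (by push_cast; rw [ZMod.natCast_rightInverse]; rfl), wp,
    ← (periodPair z).weierstrassP_neg (((v.1.val : ℂ) * z + v.2.val) / M)]
  congr 1
  push_cast
  ring

theorem latDisc_periodPair (z : ℍ) : (Mazur.latticeCurve (periodPair z)).Δ ≠ 0 := by
  rw [Mazur.latticeCurve_Δ, ← scaled_one]
  exact Mazur.latDisc_ne_zero z 1 one_ne_zero

theorem torsPt_notMem {v : Vec M} (hv : v ≠ 0) (z : ℍ) :
    torsPt v z ∉ (periodPair z).lattice := fun h => by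
  obtain ⟨m, n, hmn⟩ := PeriodPair.mem_lattice.mp h
  refine torsPt_ne_int hv z m n ?_
  rw [← hmn]
  simp [periodPair]

theorem torsPt_add_mem_iff {v w : Vec M} (z : ℍ) :
    (torsPt v z - torsPt w z ∈ (periodPair z).lattice ↔ v = w) ∧
      (torsPt v z + torsPt w z ∈ (periodPair z).lattice ↔ v = -w) := by
  have hpos : 0 < M := Nat.pos_of_ne_zero (NeZero.ne M)
  constructor
  · rw [show torsPt v z - torsPt w z =
      ((((v.1.val : ℤ) - w.1.val : ℤ) : ℂ) * (periodPair z).ω₁ +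
        (((v.2.val : ℤ) - w.2.val : ℤ) : ℂ) * (periodPair z).ω₂) / M by
      simp [torsPt, periodPair]; ring, Mazur.div_mem_lattice_iff _ hpos,
      ← ZMod.intCast_zmod_eq_zero_iff_dvd, ← ZMod.intCast_zmod_eq_zero_iff_dvd]
    push_cast
    simp only [ZMod.natCast_rightInverse _, sub_eq_zero]
    exact (Prod.ext_iff).symm
  · rw [show torsPt v z + torsPt w z =
      ((((v.1.val : ℤ) + w.1.val : ℤ) : ℂ) * (periodPair z).ω₁ +
        (((v.2.val : ℤ) + w.2.val : ℤ) : ℂ) * (periodPair z).ω₂) / M by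
      simp [torsPt, periodPair]; ring, Mazur.div_mem_lattice_iff _ hpos,
      ← ZMod.intCast_zmod_eq_zero_iff_dvd, ← ZMod.intCast_zmod_eq_zero_iff_dvd]
    push_cast
    simp only [ZMod.natCast_rightInverse _, ← eq_neg_iff_add_eq_zero]
    exact (Prod.ext_iff (x := v) (y := -w)).symm

theorem wp_eq_iff {v w : Vec M} (hv : v ≠ 0) (hw : w ≠ 0) (z : ℍ) :
    wp v z = wp w z ↔ v = w ∨ v = -w := by
  have h := Mazur.weierstrassP_eq_iff (periodPair z) (torsPt_notMem hv z) (torsPt_notMem hw z)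
    (latDisc_periodPair z)
  rw [(torsPt_add_mem_iff z).1, (torsPt_add_mem_iff z).2] at h
  exact h

theorem wpDiff_ne_zero' {v w : Vec M} (h : Sep v w) (z : ℍ) : wpDiff v w z ≠ 0 := fun h0 => by
  rcases (wp_eq_iff h.1 h.2.1 z).mp (sub_eq_zero.mp h0) with e | e
  exacts [h.2.2.1 e, h.2.2.2 e]

/-! ### The series -/

/-- The series of `(wp v - wp w) / (2πi)²`. -/
def gser (v w : Vec M) : LaurentSeries ℂ :=
  HahnSeries.ofPowerSeries ℤ ℂ (PowerSeries.mk fun n => wpCoeff v n - wpCoeff w n)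

theorem gser_coeff_nat (v w : Vec M) (n : ℕ) : (gser v w).coeff n = wpCoeff v n - wpCoeff w n := by
  rw [gser, HahnSeries.ofPowerSeries_apply_coeff, PowerSeries.coeff_mk]

theorem gser_coeff_neg (v w : Vec M) {k : ℤ} (hk : k < 0) : (gser v w).coeff k = 0 :=
  ofPowerSeries_coeff_of_neg _ hk

theorem e2_pow_eq_qPow (z : ℍ) (n : ℕ) : e2 ((z : ℂ) / M) ^ n = qPow M n z := by
  rw [e2, qPow, ← Complex.exp_nat_mul]
  push_cast
  ring_nf

theorem coeff_C_mul_gser (v w : Vec M) (k : ℤ) :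
    (HahnSeries.C cTwo * gser v w).coeff k = cTwo * (gser v w).coeff k :=
  HahnSeries.coeff_single_zero_mul

theorem hasQExp_wpDiff {v w : Vec M} (hv : v ≠ 0) (hw : w ≠ 0) :
    HasQExp M (wpDiff v w) (HahnSeries.C cTwo * gser v w) := by
  refine ⟨0, fun z _ => ?_⟩
  have h1 : ∀ k ∉ Set.range ((↑) : ℕ → ℤ),
      (HahnSeries.C cTwo * gser v w).coeff k * qPow (M : ℝ) k z = 0 := by
    intro k hk
    have hk' : k < 0 := by
      by_contra h
      exact hk ⟨k.toNat, Int.toNat_of_nonneg (not_lt.mp h)⟩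
    rw [coeff_C_mul_gser, gser_coeff_neg v w hk', mul_zero, zero_mul]
  refine (Function.Injective.hasSum_iff (g := ((↑) : ℕ → ℤ)) (fun a b h => Int.ofNat.inj h) h1).mp ?_
  refine (hasSum_wpDiff hv hw z).congr_fun fun n => ?_
  rw [Function.comp_apply, coeff_C_mul_gser, gser_coeff_nat, e2_pow_eq_qPow, mul_assoc]

theorem isHol_wpDiff {v w : Vec M} (hv : v ≠ 0) (hw : w ≠ 0) : IsHol (wpDiff v w) := by
  set c : ℕ → ℂ := fun n => cTwo * (wpCoeff v n - wpCoeff w n) with hc
  intro x hx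
  have hx' : 0 < x.im := hx
  set δ : ℝ := x.im / 2 with hδ
  have hδ0 : 0 < δ := by positivity
  set z₀ : ℍ := ⟨⟨0, δ⟩, hδ0⟩
  have hU : IsOpen {u : ℂ | δ < u.im} := isOpen_lt continuous_const Complex.continuous_im
  have hsum : Summable fun n => ‖c n * e2 ((z₀ : ℂ) / M) ^ n‖ :=
    ((hasSum_wpDiff hv hw z₀).summable.congr fun n => by rw [hc]; ring).norm
  have hd : DifferentiableOn ℂ (fun u : ℂ => ∑' n : ℕ, c n * e2 (u / M) ^ n) {u : ℂ | δ < u.im} := by
    refine Complex.differentiableOn_tsum_of_summable_norm hsum (fun n => ?_) hU fun n u hu => ?_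
    · refine Differentiable.differentiableOn ?_
      unfold e2; fun_prop
    · simp only [norm_mul, norm_pow]
      refine mul_le_mul_of_nonneg_left (pow_le_pow_left₀ (norm_nonneg _) ?_ n) (norm_nonneg _)
      rw [e2, e2, Complex.norm_exp, Complex.norm_exp]
      refine Real.exp_le_exp.mpr ?_
      simp [Complex.mul_re, Complex.mul_im, Complex.div_natCast_re, Complex.div_natCast_im, z₀]
      have hu' : δ ≤ u.im := le_of_lt hu
      gcongr
  have hxU : x ∈ {u : ℂ | δ < u.im} := by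
    show δ < x.im
    rw [hδ]; linarith
  refine DifferentiableAt.differentiableWithinAt (((hd x hxU).differentiableAt
    (hU.mem_nhds hxU)).congr_of_eventuallyEq ?_)
  filter_upwards [hU.mem_nhds hxU] with u hu
  have hu0 : 0 < u.im := hδ0.trans hu
  rw [Function.comp_apply, ofComplex_apply_of_im_pos hu0, ← (hasSum_wpDiff hv hw ⟨u, hu0⟩).tsum_eq]
  exact tsum_congr fun n => by rw [hc]; ring

/-! ### Units of `ℤ[ζ, 1/M]` and leading coefficients -/

theorem zeta_mem_zr : zeta M ∈ zr M := Subring.subset_closure (by simp)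

theorem invM_mem_zr : (M : ℂ)⁻¹ ∈ zr M := Subring.subset_closure (by simp)

theorem isPrimitiveRoot_zeta : IsPrimitiveRoot (zeta M) M :=
  Complex.isPrimitiveRoot_exp M (NeZero.ne M)

/-- A unit of `ℤ[ζ, 1/M]`. -/
def IsUZr (M : ℕ) (c : ℂ) : Prop := c ∈ zr M ∧ ∃ u ∈ zr M, c * u = 1

theorem IsUZr.ne_zero {c : ℂ} (h : IsUZr M c) : c ≠ 0 := by
  obtain ⟨-, u, -, hu⟩ := h
  exact left_ne_zero_of_mul (hu ▸ one_ne_zero)

theorem IsUZr.inv_mem {c : ℂ} (h : IsUZr M c) : c⁻¹ ∈ zr M := by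
  obtain ⟨-, u, hu, he⟩ := h
  rwa [inv_eq_of_mul_eq_one_right he]

theorem IsUZr.mul {c d : ℂ} (hc : IsUZr M c) (hd : IsUZr M d) : IsUZr M (c * d) :=
  ⟨mul_mem hc.1 hd.1, c⁻¹ * d⁻¹, mul_mem hc.inv_mem hd.inv_mem, by
    rw [mul_mul_mul_comm, mul_inv_cancel₀ hc.ne_zero, mul_inv_cancel₀ hd.ne_zero, one_mul]⟩

theorem IsUZr.neg {c : ℂ} (hc : IsUZr M c) : IsUZr M (-c) :=
  ⟨neg_mem hc.1, -c⁻¹, neg_mem hc.inv_mem, by rw [neg_mul_neg, mul_inv_cancel₀ hc.ne_zero]⟩

theorem IsUZr.inv {c : ℂ} (hc : IsUZr M c) : IsUZr M c⁻¹ :=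
  ⟨hc.inv_mem, c, hc.1, inv_mul_cancel₀ hc.ne_zero⟩

theorem isUZr_zeta_pow (j : ℕ) : IsUZr M (zeta M ^ j) :=
  ⟨pow_mem zeta_mem_zr _, zeta M ^ (-(j : ZMod M)).val, pow_mem zeta_mem_zr _, by
    rw [← pow_add]
    refine (zeta_pow_congr (b := 0) ?_).trans (pow_zero _)
    push_cast
    rw [ZMod.natCast_rightInverse, add_neg_cancel]⟩

theorem isUZr_one_sub {j : ℕ} (hj : (j : ZMod M) ≠ 0) : IsUZr M (1 - zeta M ^ j) := by
  set ω := zeta M ^ j with hω
  have hω1 : ω ≠ 1 := fun h => hj (by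
    rw [ZMod.natCast_eq_zero_iff]
    exact isPrimitiveRoot_zeta.pow_eq_one_iff_dvd j |>.mp h)
  have hωM : ω ^ M = 1 := by rw [hω, ← pow_mul, mul_comm, pow_mul, zeta_pow_M, one_pow]
  have hk : ∀ k : ℕ, (1 - ω) * ∑ i ∈ Finset.range k, (i : ℂ) * ω ^ i =
      ω * (∑ i ∈ Finset.range k, ω ^ i) - k * ω ^ k := by
    intro k
    induction k with
    | zero => simp
    | succ k ih =>
      rw [Finset.sum_range_succ, Finset.sum_range_succ, mul_add, ih]
      push_cast
      ring
  have hgeom : ∑ i ∈ Finset.range M, ω ^ i = 0 := by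
    rw [geom_sum_eq hω1, hωM, sub_self, zero_div]
  have hM : (M : ℂ) ≠ 0 := Nat.cast_ne_zero.mpr (NeZero.ne M)
  refine ⟨sub_mem (one_mem _) (pow_mem zeta_mem_zr _),
    -(M : ℂ)⁻¹ * ∑ i ∈ Finset.range M, (i : ℂ) * ω ^ i, ?_, ?_⟩
  · exact mul_mem (neg_mem invM_mem_zr)
      (sum_mem fun i _ => mul_mem (natCast_mem _ _) (pow_mem (pow_mem zeta_mem_zr _) _))
  · rw [mul_left_comm, hk, hgeom, hωM]
    field_simp
    ring

theorem isUZr_sub {a b : ℕ} (h : (a : ZMod M) ≠ b) : IsUZr M (zeta M ^ a - zeta M ^ b) := by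
  have e : zeta M ^ a - zeta M ^ b =
      zeta M ^ a * (1 - zeta M ^ ((b : ZMod M) - a).val) := by
    rw [mul_sub, mul_one, ← pow_add]
    congr 1
    refine zeta_pow_congr ?_
    push_cast
    rw [ZMod.natCast_rightInverse]
    ring
  rw [e]
  refine (isUZr_zeta_pow a).mul (isUZr_one_sub ?_)
  rw [ZMod.natCast_rightInverse, sub_ne_zero]
  exact h.symm

theorem phiT_zeta {x : ZMod M} (hx : x ≠ 0) : IsUZr M (phiT (zeta M ^ x.val)) := by
  have h : IsUZr M (1 - zeta M ^ x.val) := isUZr_one_sub (by rwa [ZMod.natCast_rightInverse])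
  rw [phiT, div_eq_mul_inv, sq]
  exact (isUZr_zeta_pow _).mul (h.mul h).inv

theorem wpCoeff_mem {v : Vec M} (hv : v ≠ 0) (n : ℕ) : wpCoeff v n ∈ zr M := by
  rw [wpCoeff]
  split_ifs with h1 h2
  · exact (phiT_zeta fun h => hv (Prod.ext h2 h)).1
  · exact zero_mem _
  · refine sum_mem fun p _ => mul_mem (natCast_mem _ _) (add_mem ?_ ?_) <;> split_ifs <;>
      first | exact pow_mem zeta_mem_zr _ | exact zero_mem _

/-- The distance of the first coordinate to `0`. -/
def wt (v : Vec M) : ℕ := min v.1.val (-v.1).val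

theorem wt_eq_zero_iff (v : Vec M) : wt v = 0 ↔ v.1 = 0 := by
  constructor
  · intro h
    rcases min_choice v.1.val (-v.1).val with e | e <;> rw [wt, e, ZMod.val_eq_zero] at h
    · exact h
    · exact neg_eq_zero.mp h
  · intro h
    simp [wt, h]

theorem wt_lt (v : Vec M) : wt v < M := (min_le_left _ _).trans_lt (ZMod.val_lt _)

theorem wt_le_of_cast {v : Vec M} {d : ℕ} (h : (d : ZMod M) = v.1 ∨ (d : ZMod M) = -v.1) :
    wt v ≤ d := by
  have hle : (d : ZMod M).val ≤ d := by rw [ZMod.val_natCast]; exact Nat.mod_le _ _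
  rcases h with h | h <;> rw [h] at hle
  · exact (min_le_left _ _).trans hle
  · exact (min_le_right _ _).trans hle

theorem wt_cast (v : Vec M) : (wt v : ZMod M) = v.1 ∨ (wt v : ZMod M) = -v.1 := by
  rcases min_choice v.1.val (-v.1).val with e | e <;> rw [wt, e, ZMod.natCast_rightInverse]
  · exact Or.inl rfl
  · exact Or.inr rfl

theorem wpCoeff_zero_of_lt {v : Vec M} {n : ℕ} (h : n < wt v) : wpCoeff v n = 0 := by
  rw [wpCoeff]
  split_ifs with h1 h2
  · rw [(wt_eq_zero_iff v).mpr h2] at h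
    omega
  · rfl
  · refine Finset.sum_eq_zero fun p hp => ?_
    have hle := Nat.le_of_dvd (Nat.pos_of_ne_zero h1) ((Dvd.intro _ (Nat.mem_divisorsAntidiagonal.mp hp).1))
    rw [if_neg fun e => absurd (wt_le_of_cast (Or.inl e)) (by omega),
      if_neg fun e => absurd (wt_le_of_cast (Or.inr e)) (by omega), add_zero, mul_zero]

/-- The coefficient at the weight. -/
theorem wpCoeff_wt {v : Vec M} (h0 : wt v ≠ 0) : wpCoeff v (wt v) =
    (if (wt v : ZMod M) = v.1 then zeta M ^ v.2.val else 0) +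
      if (wt v : ZMod M) = -v.1 then zeta M ^ (-v.2).val else 0 := by
  rw [wpCoeff, if_neg h0]
  rw [Finset.sum_eq_single (wt v, 1)]
  · simp
  · intro p hp hne
    have hm := (Nat.mem_divisorsAntidiagonal.mp hp).1
    have hlt : p.1 < wt v := by
      rcases lt_or_eq_of_le (Nat.le_of_dvd (Nat.pos_of_ne_zero h0)
        ((Dvd.intro _ (Nat.mem_divisorsAntidiagonal.mp hp).1))) with h | h
      · exact h
      · exfalso
        refine hne (Prod.ext h ?_)
        rw [h] at hm
        exact Nat.eq_of_mul_eq_mul_left (Nat.pos_of_ne_zero h0) (hm.trans (mul_one _).symm)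
    rw [if_neg fun e => absurd (wt_le_of_cast (Or.inl e)) (by omega),
      if_neg fun e => absurd (wt_le_of_cast (Or.inr e)) (by omega), add_zero, mul_zero]
  · intro h
    exact absurd (Nat.mem_divisorsAntidiagonal.mpr ⟨mul_one _, h0⟩) h

theorem wpCoeff_neg {n : ℕ} (v : Vec M) (hn : n ≠ 0) : wpCoeff (-v) n = wpCoeff v n := by
  rw [wpCoeff, wpCoeff, if_neg hn, if_neg hn]
  refine Finset.sum_congr rfl fun p _ => ?_
  simp only [Prod.fst_neg, Prod.snd_neg, neg_neg]
  rw [add_comm]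

/-- The coefficient of `ζ`s when the weights agree. -/
theorem lead_same {v w : Vec M} (hw : v.1 = w.1) (h0 : wt v ≠ 0) (h : v ≠ w) (h' : v ≠ -w)
    (hv : (wt v : ZMod M) = v.1) : IsUZr M (wpCoeff v (wt v) - wpCoeff w (wt v)) := by
  have hwt : wt w = wt v := by rw [wt, wt, hw]
  have hne : (v.2.val : ZMod M) ≠ (w.2.val : ℕ) := by
    rw [ZMod.natCast_rightInverse, ZMod.natCast_rightInverse]
    exact fun e => h (Prod.ext hw e)
  rw [wpCoeff_wt h0, ← hwt, wpCoeff_wt (by rwa [hwt]), hwt, if_pos hv, if_pos (hv.trans hw)]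
  by_cases h2 : (wt v : ZMod M) = -v.1
  · rw [if_pos h2, if_pos (by rw [h2, hw]), zeta_pow_neg, zeta_pow_neg]
    have hb := (isUZr_zeta_pow (M := M) v.2.val).ne_zero
    have hd := (isUZr_zeta_pow (M := M) w.2.val).ne_zero
    have e : zeta M ^ v.2.val + (zeta M ^ v.2.val)⁻¹ - (zeta M ^ w.2.val + (zeta M ^ w.2.val)⁻¹) =
        (zeta M ^ v.2.val - zeta M ^ w.2.val) *
          (1 - (zeta M ^ v.2.val)⁻¹ * (zeta M ^ w.2.val)⁻¹) := by
      field_simp
      ring
    rw [e, ← zeta_pow_neg, ← zeta_pow_neg, ← pow_add]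
    refine (isUZr_sub hne).mul (isUZr_one_sub ?_)
    push_cast
    rw [ZMod.natCast_rightInverse, ZMod.natCast_rightInverse]
    intro e0
    refine h' (Prod.ext ?_ ?_)
    · rw [Prod.fst_neg, ← hw, ← h2, hv]
    · rw [Prod.snd_neg]; linear_combination -e0
  · rw [if_neg h2, if_neg (by rw [← hw]; exact h2), add_zero, add_zero]
    exact isUZr_sub hne

theorem lead_lt {v w : Vec M} (hv : v ≠ 0) (h : wt v < wt w) :
    IsUZr M (wpCoeff v (wt v) - wpCoeff w (wt v)) := by
  rw [wpCoeff_zero_of_lt h, sub_zero]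
  by_cases h0 : wt v = 0
  · rw [h0, wpCoeff, if_pos rfl, if_pos ((wt_eq_zero_iff v).mp h0)]
    exact phiT_zeta fun e => hv (Prod.ext ((wt_eq_zero_iff v).mp h0) e)
  · have hne : ¬ ((wt v : ZMod M) = v.1 ∧ (wt v : ZMod M) = -v.1) := by
      rintro ⟨h1, h2⟩
      have hval : v.1.val = wt v := by rw [← h1, ZMod.val_cast_of_lt (wt_lt v)]
      have h2v : ((2 * wt v : ℕ) : ZMod M) = 0 := by
        rw [two_mul, Nat.cast_add]
        nth_rw 1 [h1]
        rw [h2, add_neg_cancel]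
      rw [ZMod.natCast_eq_zero_iff] at h2v
      obtain ⟨k, hk⟩ := h2v
      have hlt := wt_lt v
      have hk1 : k = 1 := by
        rcases k with _ | _ | k
        · omega
        · rfl
        · exfalso; nlinarith
      subst hk1
      have h3 : wt w ≤ wt v := by
        rcases Nat.lt_or_ge w.1.val (wt v + 1) with h4 | h4
        · exact (min_le_left _ _).trans (by omega)
        · refine (min_le_right _ _).trans ?_
          rw [ZMod.neg_val]
          split_ifs <;> omega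
      omega
    rw [wpCoeff_wt h0]
    rcases wt_cast v with h1 | h1
    · rw [if_pos h1, if_neg fun h2 => hne ⟨h1, h2⟩, add_zero]; exact isUZr_zeta_pow _
    · rw [if_neg fun h2 => hne ⟨h2, h1⟩, if_pos h1, zero_add]; exact isUZr_zeta_pow _

/-- The leading coefficient of a difference is a unit. -/
theorem gser_lead {v w : Vec M} (h : Sep v w) :
    IsUZr M ((gser v w).coeff (min (wt v) (wt w) : ℕ)) := by
  obtain ⟨hv, hw, hne, hne'⟩ := h
  rw [gser_coeff_nat]
  rcases lt_trichotomy (wt v) (wt w) with hlt | heq | hlt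
  · rw [min_eq_left hlt.le]
    exact lead_lt hv hlt
  · rw [heq, min_self, ← heq]
    by_cases h0 : wt v = 0
    · rw [h0, wpCoeff, wpCoeff, if_pos rfl, if_pos rfl, if_pos ((wt_eq_zero_iff v).mp h0),
        if_pos ((wt_eq_zero_iff w).mp (heq ▸ h0))]
      have hv1 := (wt_eq_zero_iff v).mp h0
      have hw1 := (wt_eq_zero_iff w).mp (heq ▸ h0)
      have hv2 : v.2 ≠ 0 := fun e => hv (Prod.ext hv1 e)
      have hw2 : w.2 ≠ 0 := fun e => hw (Prod.ext hw1 e)
      have ub := isUZr_one_sub (M := M) (j := v.2.val) (by rwa [ZMod.natCast_rightInverse])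
      have ud := isUZr_one_sub (M := M) (j := w.2.val) (by rwa [ZMod.natCast_rightInverse])
      have e : phiT (zeta M ^ v.2.val) - phiT (zeta M ^ w.2.val) =
          (zeta M ^ v.2.val - zeta M ^ w.2.val) * (1 - zeta M ^ (v.2.val + w.2.val)) *
            ((1 - zeta M ^ v.2.val) * (1 - zeta M ^ v.2.val) *
              ((1 - zeta M ^ w.2.val) * (1 - zeta M ^ w.2.val)))⁻¹ := by
        have := ub.ne_zero
        have := ud.ne_zero
        rw [phiT, phiT, pow_add]
        field_simp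
        ring
      rw [e]
      refine ((isUZr_sub ?_).mul (isUZr_one_sub ?_)).mul ((ub.mul ub).mul (ud.mul ud)).inv
      · rw [ZMod.natCast_rightInverse, ZMod.natCast_rightInverse]
        exact fun e => hne (Prod.ext (hv1.trans hw1.symm) e)
      · push_cast
        rw [ZMod.natCast_rightInverse, ZMod.natCast_rightInverse]
        intro e
        refine hne' (Prod.ext (by rw [Prod.fst_neg, hv1, hw1, neg_zero]) ?_)
        rw [Prod.snd_neg]; linear_combination e
    · have hsign : ∀ u : Vec M, ∃ u', (u' = u ∨ u' = -u) ∧ (wt u : ZMod M) = u'.1 := fun u => by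
        rcases wt_cast u with e | e
        exacts [⟨u, Or.inl rfl, e⟩, ⟨-u, Or.inr rfl, e⟩]
      obtain ⟨v', hv', ev⟩ := hsign v
      obtain ⟨w', hw', ew⟩ := hsign w
      have hwtv : wt v' = wt v := by
        rcases hv' with rfl | rfl
        · rfl
        · simp [wt, min_comm]
      have cv : wpCoeff v' (wt v) = wpCoeff v (wt v) := by
        rcases hv' with rfl | rfl
        exacts [rfl, wpCoeff_neg v h0]
      have cw : wpCoeff w' (wt v) = wpCoeff w (wt v) := by
        rcases hw' with rfl | rfl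
        exacts [rfl, wpCoeff_neg w h0]
      rw [← cv, ← cw, ← hwtv]
      refine lead_same (by rw [← ev, ← ew, heq]) (by rwa [hwtv]) ?_ ?_ (by rw [hwtv, ev])
      · rcases hv' with rfl | rfl <;> rcases hw' with rfl | rfl
        exacts [hne, hne', fun e => hne' (neg_eq_iff_eq_neg.mp e), fun e => hne (neg_inj.mp e)]
      · rcases hv' with rfl | rfl <;> rcases hw' with rfl | rfl
        exacts [hne', fun e => hne (e.trans (neg_neg w)), fun e => hne (neg_inj.mp e),
          fun e => hne' (neg_eq_iff_eq_neg.mp (e.trans (neg_neg w)))]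
  · rw [min_eq_right hlt.le, ← neg_sub]
    exact (lead_lt hw hlt).neg

theorem gser_coeff_eq_zero {v w : Vec M} {k : ℤ} (hk : k < (min (wt v) (wt w) : ℕ)) :
    (gser v w).coeff k = 0 := by
  rcases lt_or_ge k 0 with h | h
  · exact gser_coeff_neg v w h
  · lift k to ℕ using h
    have h' : k < min (wt v) (wt w) := by exact_mod_cast hk
    rw [gser_coeff_nat, wpCoeff_zero_of_lt (h'.trans_le (min_le_left _ _)),
      wpCoeff_zero_of_lt (h'.trans_le (min_le_right _ _)), sub_zero]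

theorem gser_ne_zero {v w : Vec M} (h : Sep v w) : gser v w ≠ 0 := fun e =>
  (gser_lead h).ne_zero (by rw [e, HahnSeries.coeff_zero])

theorem gser_order {v w : Vec M} (h : Sep v w) :
    (gser v w).order = (min (wt v) (wt w) : ℕ) := by
  refine le_antisymm (HahnSeries.order_le_of_coeff_ne_zero (gser_lead h).ne_zero) ?_
  by_contra hc
  exact (HahnSeries.coeff_order_eq_zero.not.mpr (gser_ne_zero h))
    (gser_coeff_eq_zero (not_le.mp hc))

/-- The series of a ratio. -/
def rser (v w v' w' : Vec M) : LaurentSeries ℂ := gser v w * (gser v' w')⁻¹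

theorem hasQExp_ratio {v w v' w' : Vec M} (h : Sep v w) (h' : Sep v' w') :
    HasQExp M (ratio v w v' w') (rser v w v' w') := by
  have hd := (hasQExp_wpDiff h.1 h.2.1).mul
    ((hasQExp_wpDiff h'.1 h'.2.1).inv natM_pos)
  have e : rser v w v' w' =
      HahnSeries.C cTwo * gser v w * (HahnSeries.C cTwo * gser v' w')⁻¹ := by
    have hC : (HahnSeries.C cTwo : LaurentSeries ℂ) ≠ 0 := HahnSeries.C_ne_zero cTwo_ne_zero
    rw [rser, mul_inv, mul_mul_mul_comm, mul_inv_cancel₀ hC, one_mul]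
  rw [e]
  exact hd

theorem qser_ratio {v w v' w' : Vec M} (h : Sep v w) (h' : Sep v' w') :
    qser M (ratio v w v' w') = rser v w v' w' := qser_eq (hasQExp_ratio h h')

theorem rser_coeff_mem {v w v' w' : Vec M} (h : Sep v w) (h' : Sep v' w') (k : ℤ) :
    (rser v w v' w').coeff k ∈ zr M := by
  have hmem : ∀ {a b : Vec M}, a ≠ 0 → b ≠ 0 → ∀ k, (gser a b).coeff k ∈ zr M := by
    intro a b ha hb k
    rcases lt_or_ge k 0 with hk | hk
    · rw [gser_coeff_neg a b hk]; exact zero_mem _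
    · lift k to ℕ using hk
      rw [gser_coeff_nat]; exact sub_mem (wpCoeff_mem ha k) (wpCoeff_mem hb k)
  obtain ⟨y, hy⟩ := exists_coeffMap_eq (hmem h.1 h.2.1)
  obtain ⟨y', hy'⟩ := exists_coeffMap_eq (hmem h'.1 h'.2.1)
  have hy0 : y' ≠ 0 := fun e => gser_ne_zero h' (by rw [← hy', e, map_zero])
  have hord : y'.order = (min (wt v') (wt w') : ℕ) := by
    refine le_antisymm (HahnSeries.order_le_of_coeff_ne_zero fun e => (gser_lead h').ne_zero ?_) ?_
    · rw [← hy', coeffMap_coeff, e, map_zero]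
    · by_contra hc
      refine HahnSeries.coeff_order_eq_zero.not.mpr hy0 (Subtype.ext ?_)
      have := gser_coeff_eq_zero (not_le.mp hc)
      rwa [← hy', coeffMap_coeff] at this
  have hu : IsUnit y' := by
    rw [HahnSeries.isUnit_iff, HahnSeries.leadingCoeff_eq, hord]
    have hl := gser_lead h'
    rw [← hy', coeffMap_coeff] at hl
    obtain ⟨-, u, hum, hue⟩ := hl
    exact IsUnit.of_mul_eq_one ⟨u, hum⟩ (Subtype.ext hue)
  obtain ⟨z, hz⟩ := hu.exists_right_inv
  have hz' : (gser v' w')⁻¹ = coeffMap (zr M).subtype z := by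
    refine inv_eq_of_mul_eq_one_right ?_
    rw [← hy', ← map_mul, hz, map_one]
  rw [rser, hz', ← hy, ← map_mul, coeffMap_coeff]
  exact ((y * z).coeff k).2

theorem rser_order {v w v' w' : Vec M} (h : Sep v w) (h' : Sep v' w') :
    (rser v w v' w').order =
      ((min (wt v) (wt w) : ℕ) : ℤ) - (min (wt v') (wt w') : ℕ) := by
  have hne : gser v w ≠ 0 := gser_ne_zero h
  have hne' : gser v' w' ≠ 0 := gser_ne_zero h'
  have e : rser v w v' w' * gser v' w' = gser v w := by
    rw [rser, inv_mul_cancel_right₀ hne']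
  have := congrArg HahnSeries.order e
  rw [HahnSeries.order_mul (left_ne_zero_of_mul (e ▸ hne)) hne', gser_order h, gser_order h']
    at this
  omega

theorem rser_lead {v w v' w' : Vec M} (h : Sep v w) (h' : Sep v' w') :
    (rser v w v' w').coeff (((min (wt v) (wt w) : ℕ) : ℤ) - (min (wt v') (wt w') : ℕ)) =
      (gser v w).coeff (min (wt v) (wt w) : ℕ) *
        ((gser v' w').coeff (min (wt v') (wt w') : ℕ))⁻¹ := by
  have hne' : gser v' w' ≠ 0 := gser_ne_zero h'
  have e : rser v w v' w' * gser v' w' = gser v w := by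
    rw [rser, inv_mul_cancel_right₀ hne']
  have := congrArg HahnSeries.leadingCoeff e
  rw [HahnSeries.leadingCoeff_mul, HahnSeries.leadingCoeff_eq, HahnSeries.leadingCoeff_eq,
    HahnSeries.leadingCoeff_eq, gser_order h, gser_order h', rser_order h h'] at this
  rw [← this, mul_inv_cancel_right₀ (gser_lead h').ne_zero]

end FLTAgent.Gamma1
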