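/-
Coefficientwise conjugation of the series of the ratios.
-/
import Fermat.Agent.Gamma1.WpSer

/-!
# Conjugation of the expansions of ratios

`map_rser`: a ring endomorphism of `ℂ` sending `ζ` to `ζ ^ s` maps the series of a ratio to that of
the ratio at the points with second coordinate multiplied by `s` (`conjVec`).
-/

set_option autoImplicit false
set_option linter.unusedSectionVars false

noncomputable section

open UpperHalfPlane ModularCurve
open scoped MatrixGroups

namespace FLTAgent.Gamma1

open FLTAgent.Modular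

variable {M : ℕ} [NeZero M]

/-- Multiplication of the second coordinate. -/
def conjVec (s : ℕ) (v : Vec M) : Vec M := (v.1, (s : ZMod M) * v.2)

theorem isUnit_of_conj {σ : ℂ →+* ℂ} {s : ℕ} (hs : σ (zeta M) = zeta M ^ s) :
    IsUnit (s : ZMod M) := by
  have h := (isPrimitiveRoot_zeta (M := M)).map_of_injective (f := σ) σ.injective
  rw [hs, isPrimitiveRoot_zeta.pow_iff_coprime (Nat.pos_of_ne_zero (NeZero.ne M))] at h
  exact (ZMod.unitOfCoprime s h).isUnit

theorem sep_conjVec {s : ℕ} (hu : IsUnit (s : ZMod M)) {v w : Vec M} (h : Sep v w) :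
    Sep (conjVec s v) (conjVec s w) := by
  have hinj : Function.Injective (conjVec (M := M) s) := fun a b e => by
    simp only [conjVec, Prod.mk.injEq] at e
    exact Prod.ext e.1 (hu.mul_left_cancel e.2)
  have h0 : conjVec (M := M) s 0 = 0 := by simp [conjVec]
  have hn : ∀ u : Vec M, conjVec s (-u) = -conjVec s u := fun u => by simp [conjVec]
  exact ⟨fun e => h.1 (hinj (e.trans h0.symm)), fun e => h.2.1 (hinj (e.trans h0.symm)),
    fun e => h.2.2.1 (hinj e), fun e => h.2.2.2 (hinj (e.trans (hn w).symm))⟩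

theorem map_wpCoeff {σ : ℂ →+* ℂ} {s : ℕ} (hs : σ (zeta M) = zeta M ^ s) (v : Vec M) (k : ℕ) :
    σ (wpCoeff v k) = wpCoeff (conjVec s v) k := by
  have hz : ∀ e e' : ℕ, ((s * e : ℕ) : ZMod M) = (e' : ZMod M) → σ (zeta M ^ e) = zeta M ^ e' :=
    fun e e' h => by rw [map_pow, hs, ← pow_mul]; exact zeta_pow_congr h
  rw [wpCoeff, wpCoeff]
  simp only [conjVec, phiT]
  split_ifs
  · rw [map_div₀, map_pow σ (1 - zeta M ^ v.2.val) 2, map_sub, map_one, hz v.2.val ((s : ZMod M) * v.2).val (by
      push_cast; rw [ZMod.natCast_rightInverse, ZMod.natCast_rightInverse])]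
  · exact map_zero σ
  · rw [map_sum]
    refine Finset.sum_congr rfl fun p _ => ?_
    rw [map_mul, map_natCast, map_add, apply_ite σ, apply_ite σ, map_zero,
      hz (p.2 * v.2.val) (p.2 * ((s : ZMod M) * v.2).val) (by
        push_cast; rw [ZMod.natCast_rightInverse, ZMod.natCast_rightInverse]; ring),
      hz (p.2 * (-v.2).val) (p.2 * (-((s : ZMod M) * v.2)).val) (by
        push_cast; rw [ZMod.natCast_rightInverse, ZMod.natCast_rightInverse]; ring)]

theorem map_gser {σ : ℂ →+* ℂ} {s : ℕ} (hs : σ (zeta M) = zeta M ^ s) (v w : Vec M) :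
    coeffMap σ (gser v w) = gser (conjVec s v) (conjVec s w) := by
  ext k
  rw [coeffMap_coeff]
  rcases lt_or_ge k 0 with hk | hk
  · rw [gser_coeff_neg v w hk, gser_coeff_neg _ _ hk, map_zero]
  · lift k to ℕ using hk
    rw [gser_coeff_nat, gser_coeff_nat, map_sub, map_wpCoeff hs, map_wpCoeff hs]

/-- Conjugation of the series of a ratio. -/
theorem map_rser {σ : ℂ →+* ℂ} {s : ℕ} (hs : σ (zeta M) = zeta M ^ s) (v w v' w' : Vec M) :
    coeffMap σ (rser v w v' w') =
      rser (conjVec s v) (conjVec s w) (conjVec s v') (conjVec s w') := by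
  rw [rser, rser, map_mul, map_inv₀, map_gser hs, map_gser hs]

end FLTAgent.Gamma1
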