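/-
`℘` at the points of order `2` and `3` as roots of the division polynomials.
-/
import Fermat.Agent.Gamma1.WpSer

/-!
# Division polynomials of orders `2` and `3`

`root_two` and `root_three`: `℘` at a point of order `2`, resp. `3`, is a root of
`4X³ - g₂X - g₃`, resp. of the third division polynomial. `roots_two` and `roots_three` express
`g₂` and `g₃` through distinct roots of these polynomials.
-/

set_option autoImplicit false
set_option linter.unusedSectionVars false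

noncomputable section

open UpperHalfPlane WeierstrassCurve WeierstrassCurve.Affine
open scoped MatrixGroups PeriodPair

namespace FLTAgent.Gamma1

open FLTAgent.Mazur (latticeCurve latPoint)

variable {M : ℕ} [NeZero M]

theorem torsPt_smul_mem {v : Vec M} {k : ℕ} (h : (k : ℕ) • v = 0) (z : ℍ) :
    (k : ℂ) * torsPt v z ∈ (periodPair z).lattice := by
  rw [show (k : ℂ) * torsPt v z =
    ((((k * v.1.val : ℕ) : ℤ) : ℂ) * (periodPair z).ω₁ +
      (((k * v.2.val : ℕ) : ℤ) : ℂ) * (periodPair z).ω₂) / M by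
    simp [torsPt, periodPair]; ring,
    Mazur.div_mem_lattice_iff _ (Nat.pos_of_ne_zero (NeZero.ne M))]
  have h1 := congrArg Prod.fst h
  have h2 := congrArg Prod.snd h
  simp only [Prod.fst_zero, Prod.snd_zero, nsmul_eq_mul] at h1 h2
  constructor <;> rw [Int.natCast_dvd_natCast, ← ZMod.natCast_eq_zero_iff, Nat.cast_mul,
    ZMod.natCast_rightInverse]
  exacts [h1, h2]

/-- `℘` at a point of order two is a root of `4X³ - g₂X - g₃`. -/
theorem root_two {v : Vec M} (hv : v ≠ 0) (h : (2 : ℕ) • v = 0) (z : ℍ) :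
    4 * wp v z ^ 3 - (periodPair z).g₂ * wp v z - (periodPair z).g₃ = 0 := by
  set L := periodPair z
  set u := torsPt v z
  have hu : u ∉ L.lattice := torsPt_notMem hv z
  have h2u : (2 : ℂ) * u ∈ L.lattice := by simpa using torsPt_smul_mem h z
  have h0 : ℘'[L] u = 0 := by
    have e := L.derivWeierstrassP_add_coe (-u) ⟨2 * u, h2u⟩
    rw [show -u + 2 * u = u by ring, L.derivWeierstrassP_neg] at e
    linear_combination e / 2
  have e := L.derivWeierstrassP_sq u hu
  rw [h0] at e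
  show 4 * ℘[L] u ^ 3 - L.g₂ * ℘[L] u - L.g₃ = 0
  linear_combination -e

/-- `℘` at a point of order three is a root of the third division polynomial. -/
theorem root_three {v : Vec M} (hv : v ≠ 0) (h : (3 : ℕ) • v = 0) (z : ℍ) :
    48 * wp v z ^ 4 - 24 * (periodPair z).g₂ * wp v z ^ 2 - 48 * (periodPair z).g₃ * wp v z -
      (periodPair z).g₂ ^ 2 = 0 := by
  classical
  set L := periodPair z
  have hΔ := latDisc_periodPair z
  set u := torsPt v z
  have hu : u ∉ L.lattice := torsPt_notMem hv z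
  have h3u : (3 : ℂ) * u ∈ L.lattice := by simpa using torsPt_smul_mem h z
  have hy : ℘'[L] u ≠ 0 := by
    intro h0
    have hp : latPoint L hΔ u + latPoint L hΔ u = 0 := by
      rw [Mazur.latPoint_of_notMem L hΔ hu]
      refine Point.add_of_Y_eq rfl ?_
      simp [negY, latticeCurve, h0]
    rw [← Mazur.latPoint_add] at hp
    have h2u : u + u ∈ L.lattice := by
      by_contra hne
      rw [Mazur.latPoint_of_notMem L hΔ hne] at hp
      exact Point.some_ne_zero _ hp
    refine hu ?_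
    have := sub_mem h3u h2u
    rwa [show 3 * u - (u + u) = u by ring] at this
  have hadd : latPoint L hΔ u + latPoint L hΔ u = latPoint L hΔ (-u) := by
    rw [← Mazur.latPoint_add, show u + u = -u + 3 * u by ring, Mazur.latPoint_add_mem L hΔ h3u]
  have hu' : -u ∉ L.lattice := fun h => hu (by simpa using neg_mem h)
  have hne : (℘'[L] u / 2) ≠ (latticeCurve L).negY (℘[L] u) (℘'[L] u / 2) := by
    simp only [negY, latticeCurve, zero_mul, sub_zero]
    intro e
    exact hy (by linear_combination e)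
  rw [Mazur.latPoint_of_notMem L hΔ hu, Mazur.latPoint_of_notMem L hΔ hu',
    Point.add_self_of_Y_ne hne] at hadd
  injection hadd with hX _
  rw [slope_of_Y_ne rfl hne, L.weierstrassP_neg] at hX
  simp only [addX, negY, latticeCurve, zero_mul, sub_zero, mul_zero, add_zero] at hX
  have e := L.derivWeierstrassP_sq u hu
  show 48 * ℘[L] u ^ 4 - 24 * L.g₂ * ℘[L] u ^ 2 - 48 * L.g₃ * ℘[L] u - L.g₂ ^ 2 = 0
  set x := ℘[L] u
  set y := ℘'[L] u
  have hy' : y / 2 - -(y / 2) = y := by ring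
  rw [hy'] at hX
  field_simp at hX
  linear_combination (-1 : ℂ) * hX - 48 * x * e

/-- Three distinct roots of `4X³ - g₂X - g₃`. -/
theorem roots_two {g₂ g₃ x y w : ℂ} (hxy : x ≠ y) (hxw : x ≠ w) (hyw : y ≠ w)
    (hx : 4 * x ^ 3 - g₂ * x - g₃ = 0) (hy : 4 * y ^ 3 - g₂ * y - g₃ = 0)
    (hw : 4 * w ^ 3 - g₂ * w - g₃ = 0) :
    x + y + w = 0 ∧ g₂ = 4 * (x ^ 2 + x * y + y ^ 2) ∧ g₃ = 4 * x ^ 3 - g₂ * x := by
  have e1 : g₂ = 4 * (x ^ 2 + x * y + y ^ 2) :=
    mul_left_cancel₀ (sub_ne_zero.mpr hxy) (by linear_combination hy - hx)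
  have e2 : g₂ = 4 * (x ^ 2 + x * w + w ^ 2) :=
    mul_left_cancel₀ (sub_ne_zero.mpr hxw) (by linear_combination hw - hx)
  refine ⟨mul_left_cancel₀ (sub_ne_zero.mpr hyw) ?_, e1, by linear_combination -hx⟩
  linear_combination (e2 - e1) / 4

/-- Four distinct roots of the third division polynomial. -/
theorem roots_three {g₂ g₃ x y w v : ℂ} (hxy : x ≠ y) (hxw : x ≠ w) (hxv : x ≠ v) (hyw : y ≠ w)
    (hyv : y ≠ v) (hwv : w ≠ v)
    (hx : 48 * x ^ 4 - 24 * g₂ * x ^ 2 - 48 * g₃ * x - g₂ ^ 2 = 0)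
    (hy : 48 * y ^ 4 - 24 * g₂ * y ^ 2 - 48 * g₃ * y - g₂ ^ 2 = 0)
    (hw : 48 * w ^ 4 - 24 * g₂ * w ^ 2 - 48 * g₃ * w - g₂ ^ 2 = 0)
    (hv : 48 * v ^ 4 - 24 * g₂ * v ^ 2 - 48 * g₃ * v - g₂ ^ 2 = 0) :
    x + y + w + v = 0 ∧
      g₂ = 2 * (x ^ 2 + y ^ 2 + w ^ 2 + x * y + x * w + y * w) ∧
      g₃ = (x + y) * (x ^ 2 + y ^ 2) - g₂ / 2 * (x + y) ∧
      ((x - y) * (w - v)) ^ 2 - (x - y) * (w - v) * ((w - y) * (x - v)) +
        ((w - y) * (x - v)) ^ 2 = 0 := by
  have exy : g₃ = (x + y) * (x ^ 2 + y ^ 2) - g₂ / 2 * (x + y) :=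
    mul_left_cancel₀ (sub_ne_zero.mpr hxy) (by linear_combination (hy - hx) / 48)
  have exw : g₃ = (x + w) * (x ^ 2 + w ^ 2) - g₂ / 2 * (x + w) :=
    mul_left_cancel₀ (sub_ne_zero.mpr hxw) (by linear_combination (hw - hx) / 48)
  have exv : g₃ = (x + v) * (x ^ 2 + v ^ 2) - g₂ / 2 * (x + v) :=
    mul_left_cancel₀ (sub_ne_zero.mpr hxv) (by linear_combination (hv - hx) / 48)
  have e3 : g₂ = 2 * (x ^ 2 + y ^ 2 + w ^ 2 + x * y + x * w + y * w) :=
    mul_left_cancel₀ (sub_ne_zero.mpr hyw) (by linear_combination 2 * (exy - exw))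
  have e4 : g₂ = 2 * (x ^ 2 + y ^ 2 + v ^ 2 + x * y + x * v + y * v) :=
    mul_left_cancel₀ (sub_ne_zero.mpr hyv) (by linear_combination 2 * (exy - exv))
  have hsum : x + y + w + v = 0 :=
    mul_left_cancel₀ (sub_ne_zero.mpr hwv) (by linear_combination (e4 - e3) / 2)
  refine ⟨hsum, e3, exy, ?_⟩
  have hv' : v = -(x + y + w) := by linear_combination hsum
  subst hv'
  rw [exy, e3] at hx
  linear_combination (-1 / 4 : ℂ) * hx

end FLTAgent.Gamma1
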