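/-
The Hauptmoduln of levels `2` and `3`: values at the cusps, invariance, integrality.
-/
import Fermat.Agent.Gamma1.WpRoots

/-!
# The Hauptmoduln of levels `2` and `3`

Ratios of differences transform by the right action on torsion points (`ratio_comp'`), so `tFun`
lies in the ring of `Γ(n)`-invariant functions over `ℤ[ζ, 1/M]` (`tFun_memB'`). `cusp_cases`: at
each cusp it has a pole or one of the values `0`, `1`, and for `n = 3` `crossVal`, the constant
cross ratio (`crossFun_eq_const`). Differences of these values and `t - c` are units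
(`cuspVals_sub_unit'`, `tFun_sub_unit'`); `tFun_leading'`: the pole at `∞`.
-/

set_option autoImplicit false
set_option linter.unusedSectionVars false

noncomputable section

open UpperHalfPlane CongruenceSubgroup ModularCurve
open scoped MatrixGroups

namespace FLTAgent.Gamma1

open FLTAgent.Modular

variable {n M : ℕ} [NeZero M]

omit [NeZero M] in
theorem vecMulZ_mul' (v : Vec M) (γ δ : SL(2, ℤ)) :
    vecMulZ v (γ * δ) = vecMulZ (vecMulZ v γ) δ := by
  simp only [vecMulZ, Matrix.SpecialLinearGroup.coe_mul, Matrix.mul_apply, Fin.sum_univ_two]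
  push_cast
  exact Prod.ext (by ring) (by ring)

omit [NeZero M] in
theorem vecMulZ_one (v : Vec M) : vecMulZ v 1 = v := by
  simp [vecMulZ]

omit [NeZero M] in
theorem vecMulZ_injective (γ : SL(2, ℤ)) : Function.Injective fun v : Vec M => vecMulZ v γ :=
  Function.LeftInverse.injective (g := fun v => vecMulZ v γ⁻¹) fun v => by
    show vecMulZ (vecMulZ v γ) γ⁻¹ = v
    rw [← vecMulZ_mul', mul_inv_cancel, vecMulZ_one]

omit [NeZero M] in
theorem vecMulZ_neg (v : Vec M) (γ : SL(2, ℤ)) : vecMulZ (-v) γ = -vecMulZ v γ :=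
  Prod.ext (by simp [vecMulZ]; ring) (by simp [vecMulZ]; ring)

omit [NeZero M] in
theorem vecMulZ_zero (γ : SL(2, ℤ)) : vecMulZ (0 : Vec M) γ = 0 := by
  simp [vecMulZ]

omit [NeZero M] in
theorem sep_vecMulZ' {v w : Vec M} (h : Sep v w) (γ : SL(2, ℤ)) :
    Sep (vecMulZ v γ) (vecMulZ w γ) :=
  ⟨fun e => h.1 (vecMulZ_injective γ (e.trans (vecMulZ_zero γ).symm)),
    fun e => h.2.1 (vecMulZ_injective γ (e.trans (vecMulZ_zero γ).symm)),
    fun e => h.2.2.1 (vecMulZ_injective γ e),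
    fun e => h.2.2.2 (vecMulZ_injective γ (e.trans (vecMulZ_neg w γ).symm))⟩

theorem ratio_comp' (v w v' w' : Vec M) (γ : SL(2, ℤ)) :
    comp (ratio v w v' w') γ =
      ratio (vecMulZ v γ) (vecMulZ w γ) (vecMulZ v' γ) (vecMulZ w' γ) := by
  funext z
  have hd := pow_ne_zero 2 (den_smul_ne_zero γ z)
  simp only [comp, ratio, wpDiff, wp_smul' _ γ z, ← mul_sub]
  rw [mul_div_mul_left _ _ hd]

theorem vecMulZ_of_mem {γ : SL(2, ℤ)} (hγ : γ ∈ Gamma M) (v : Vec M) : vecMulZ v γ = v := by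
  obtain ⟨h00, h01, h10, h11⟩ := Gamma_mem.mp hγ
  simp [vecMulZ, h00, h01, h10, h11]

theorem ratio_mem' {v w v' w' : Vec M} (h : Sep v w) (h' : Sep v' w') :
    MemR M (zr M) (ratio v w v' w') where
  hol := DifferentiableOn.div (isHol_wpDiff h.1 h.2.1) (isHol_wpDiff h'.1 h'.2.1)
    fun _ _ => wpDiff_ne_zero' h' _
  inv γ hγ := by
    rw [ratio_comp', vecMulZ_of_mem hγ, vecMulZ_of_mem hγ, vecMulZ_of_mem hγ, vecMulZ_of_mem hγ]
  expansion γ := by
    rw [ratio_comp']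
    exact ⟨_, hasQExp_ratio (sep_vecMulZ' h γ) (sep_vecMulZ' h' γ),
      rser_coeff_mem (sep_vecMulZ' h γ) (sep_vecMulZ' h' γ)⟩

theorem ratio_ne_zero {v w v' w' : Vec M} (h : Sep v w) (h' : Sep v' w') (z : ℍ) :
    ratio v w v' w' z ≠ 0 :=
  div_ne_zero (wpDiff_ne_zero' h z) (wpDiff_ne_zero' h' z)

theorem ratio_inv (v w v' w' : Vec M) (z : ℍ) :
    (ratio v w v' w' z)⁻¹ = ratio v' w' v w z := inv_div _ _

/-! ### Points of order `n` -/

/-- The point `(x, y)` of order `n`. -/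
def bz (n M : ℕ) (x y : ℤ) : Vec M :=
  ((x : ZMod M) * ((M / n : ℕ) : ZMod M), (y : ZMod M) * ((M / n : ℕ) : ZMod M))

theorem base_eq_bz (x y : ℕ) : base n M x y = bz n M x y := by
  simp only [base, bz, Nat.cast_mul, Int.cast_natCast]

theorem vecMulZ_bz (x y : ℤ) (γ : SL(2, ℤ)) :
    vecMulZ (bz n M x y) γ = bz n M (x * γ 0 0 + y * γ 1 0) (x * γ 0 1 + y * γ 1 1) := by
  simp only [vecMulZ, bz, Int.cast_add, Int.cast_mul]
  exact Prod.ext (by ring) (by ring)

section level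

variable (h : IsLevel n M)
include h

theorem level_mul : n * (M / n) = M := Nat.mul_div_cancel' h.dvd

theorem level_k_pos : 0 < M / n :=
  Nat.div_pos (Nat.le_of_dvd (Nat.pos_of_ne_zero (NeZero.ne M)) h.dvd)
    (by rcases h.aux with rfl | rfl <;> norm_num)

theorem cast_mul_k_eq_zero_iff (x : ℤ) :
    (x : ZMod M) * ((M / n : ℕ) : ZMod M) = 0 ↔ (n : ℤ) ∣ x := by
  rw [show (x : ZMod M) * ((M / n : ℕ) : ZMod M) = ((x * ((M / n : ℕ) : ℤ) : ℤ) : ZMod M) by
    rw [Int.cast_mul, Int.cast_natCast], ZMod.intCast_zmod_eq_zero_iff_dvd]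
  conv_lhs => rw [show (M : ℤ) = (n : ℤ) * (M / n : ℕ) by exact_mod_cast (level_mul h).symm]
  exact mul_dvd_mul_iff_right (by exact_mod_cast (level_k_pos h).ne')

theorem bz_eq_iff (x y x' y' : ℤ) :
    bz n M x y = bz n M x' y' ↔ (n : ℤ) ∣ x - x' ∧ (n : ℤ) ∣ y - y' := by
  rw [← cast_mul_k_eq_zero_iff h, ← cast_mul_k_eq_zero_iff h, bz, bz, Prod.mk.injEq]
  simp only [Int.cast_sub, sub_mul, sub_eq_zero]

theorem bz_eq_zero_iff (x y : ℤ) : bz n M x y = 0 ↔ (n : ℤ) ∣ x ∧ (n : ℤ) ∣ y := by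
  have e : bz n M 0 0 = 0 := by simp [bz]
  rw [← e, bz_eq_iff h, sub_zero, sub_zero]

theorem nsmul_bz (x y : ℤ) : (n : ℕ) • bz n M x y = 0 := by
  have hM : (n : ZMod M) * ((M / n : ℕ) : ZMod M) = 0 := by
    rw [← Nat.cast_mul, level_mul h, ZMod.natCast_self]
  rw [bz, Prod.smul_mk, nsmul_eq_mul, nsmul_eq_mul]
  exact Prod.ext (by simp only [Prod.fst_zero]; linear_combination (x : ZMod M) * hM)
    (by simp only [Prod.snd_zero]; linear_combination (y : ZMod M) * hM)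

theorem sep_bz {x y x' y' : ℤ} (hd : ¬ (n : ℤ) ∣ x * y' - y * x') :
    Sep (bz n M x y) (bz n M x' y') := by
  have hneg : -bz n M x' y' = bz n M (-x') (-y') := by simp [bz]
  refine ⟨?_, ?_, ?_, ?_⟩
  · rw [Ne, bz_eq_zero_iff h]
    exact fun e => hd (dvd_sub (e.1.mul_right _) (e.2.mul_right _))
  · rw [Ne, bz_eq_zero_iff h]
    exact fun e => hd (dvd_sub (e.2.mul_left _) (e.1.mul_left _))
  · rw [Ne, bz_eq_iff h]
    exact fun e => hd (by
      rw [show x * y' - y * x' = (x - x') * y' - (y - y') * x' by ring]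
      exact dvd_sub (e.1.mul_right _) (e.2.mul_right _))
  · rw [Ne, hneg, bz_eq_iff h]
    exact fun e => hd (by
      rw [show x * y' - y * x' = (x - -x') * y' - (y - -y') * x' by ring]
      exact dvd_sub (e.1.mul_right _) (e.2.mul_right _))

theorem not_dvd_one' : ¬ (n : ℤ) ∣ 1 ∧ ¬ (n : ℤ) ∣ -1 := by
  rcases h.aux with rfl | rfl <;> norm_num

theorem sep01_10 : Sep (bz n M 0 1) (bz n M 1 0) :=
  sep_bz h (by norm_num; exact (not_dvd_one' h).1)

theorem sep11_10 : Sep (bz n M 1 1) (bz n M 1 0) :=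
  sep_bz h (by norm_num; exact (not_dvd_one' h).1)

theorem sep01_11 : Sep (bz n M 0 1) (bz n M 1 1) :=
  sep_bz h (by norm_num; exact (not_dvd_one' h).1)

theorem sep01_12 : Sep (bz n M 0 1) (bz n M 1 2) :=
  sep_bz h (by norm_num; exact (not_dvd_one' h).1)

theorem sep11_12 : Sep (bz n M 1 1) (bz n M 1 2) :=
  sep_bz h (by norm_num; exact (not_dvd_one' h).1)

theorem sep10_12 (h3 : n = 3) : Sep (bz n M 1 0) (bz n M 1 2) :=
  sep_bz h (by subst h3; norm_num)

theorem tFun_eq : tFun n M =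
    ratio (bz n M 0 1) (bz n M 1 0) (bz n M 1 1) (bz n M 1 0) := by
  rw [tFun, base_eq_bz, base_eq_bz, base_eq_bz]
  simp

theorem vecMulZ_bz_of_mem {γ : SL(2, ℤ)} (hγ : γ ∈ Gamma n) (x y : ℤ) :
    vecMulZ (bz n M x y) γ = bz n M x y := by
  obtain ⟨h00, h01, h10, h11⟩ := Gamma_mem.mp hγ
  rw [vecMulZ_bz, bz_eq_iff h, ← ZMod.intCast_zmod_eq_zero_iff_dvd,
    ← ZMod.intCast_zmod_eq_zero_iff_dvd]
  constructor <;> push_cast [h00, h01, h10, h11] <;> ring

theorem memB_ratio {x₁ y₁ x₂ y₂ x₃ y₃ x₄ y₄ : ℤ} (hs : Sep (bz n M x₁ y₁) (bz n M x₂ y₂))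
    (hs' : Sep (bz n M x₃ y₃) (bz n M x₄ y₄)) :
    MemB n M (zr M) (ratio (bz n M x₁ y₁) (bz n M x₂ y₂) (bz n M x₃ y₃) (bz n M x₄ y₄)) :=
  ⟨ratio_mem' hs hs', fun γ hγ => by
    simp only [ratio_comp', vecMulZ_bz_of_mem h hγ]⟩

/-- The Hauptmodul is `Γ(n)`-invariant, with coefficients in `ℤ[ζ, 1/M]`. -/
theorem tFun_memB' : MemB n M (zr M) (tFun n M) := by
  rw [tFun_eq h]
  exact memB_ratio h (sep01_10 h) (sep11_10 h)

/-- The weight of a point of order `n`. -/
theorem wt_bz (x y : ℤ) : wt (bz n M x y) = if (n : ℤ) ∣ x then 0 else M / n := by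
  split_ifs with hx
  · rw [wt_eq_zero_iff]
    exact (cast_mul_k_eq_zero_iff h x).mpr hx
  · set k := M / n
    have hk := level_k_pos h
    have hM := level_mul h
    obtain ⟨r, hr, hxr⟩ : ∃ r : ℕ, (r = 1 ∨ r + 1 = n) ∧ (n : ℤ) ∣ x - r := by
      rcases h.aux with rfl | rfl
      · exact ⟨1, Or.inl rfl, by omega⟩
      · rcases (show (3 : ℤ) ∣ x - 1 ∨ (3 : ℤ) ∣ x - 2 by omega) with e | e
        · exact ⟨1, Or.inl rfl, e⟩
        · exact ⟨2, Or.inr rfl, e⟩
    have hn2 : 2 ≤ n := by rcases h.aux with rfl | rfl <;> norm_num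
    have h1 : (bz n M x y).1 = ((r * k : ℕ) : ZMod M) := by
      have := (cast_mul_k_eq_zero_iff h (x - r)).mpr hxr
      simp only [bz, Int.cast_sub, Int.cast_natCast, Nat.cast_mul] at this ⊢
      linear_combination this
    have h2 : -(bz n M x y).1 = (((n - r) * k : ℕ) : ZMod M) := by
      rw [h1, neg_eq_iff_add_eq_zero, ← Nat.cast_add, ← Nat.add_mul,
        Nat.add_sub_cancel' (by omega), hM, ZMod.natCast_self]
    have hlt : r * k < M ∧ (n - r) * k < M := by
      constructor <;> rw [← hM] <;> refine Nat.mul_lt_mul_of_lt_of_le ?_ le_rfl hk <;> omega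
    rw [wt, h2, h1, ZMod.val_cast_of_lt hlt.1, ZMod.val_cast_of_lt hlt.2]
    rcases hr with rfl | rfl
    · rw [one_mul]; exact min_eq_left (Nat.le_mul_of_pos_left _ (by omega))
    · rw [Nat.add_sub_cancel_left, one_mul]
      exact min_eq_right (Nat.le_mul_of_pos_left _ (by omega))

/-- The order at a cusp of a ratio. -/
theorem order_comp_ratio {x₁ y₁ x₂ y₂ x₃ y₃ x₄ y₄ : ℤ}
    (hs : Sep (bz n M x₁ y₁) (bz n M x₂ y₂)) (hs' : Sep (bz n M x₃ y₃) (bz n M x₄ y₄))
    (γ : SL(2, ℤ)) :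
    (qser M (comp (ratio (bz n M x₁ y₁) (bz n M x₂ y₂) (bz n M x₃ y₃) (bz n M x₄ y₄)) γ)).order =
      ((min (if (n : ℤ) ∣ x₁ * γ 0 0 + y₁ * γ 1 0 then 0 else M / n)
          (if (n : ℤ) ∣ x₂ * γ 0 0 + y₂ * γ 1 0 then 0 else M / n) : ℕ) : ℤ) -
        ((min (if (n : ℤ) ∣ x₃ * γ 0 0 + y₃ * γ 1 0 then 0 else M / n)
          (if (n : ℤ) ∣ x₄ * γ 0 0 + y₄ * γ 1 0 then 0 else M / n) : ℕ) : ℤ) := by
  rw [ratio_comp', qser_ratio (sep_vecMulZ' hs γ) (sep_vecMulZ' hs' γ),
    rser_order (sep_vecMulZ' hs γ) (sep_vecMulZ' hs' γ), vecMulZ_bz, vecMulZ_bz, vecMulZ_bz,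
    vecMulZ_bz, wt_bz h, wt_bz h, wt_bz h, wt_bz h]

/-- Not both entries of the first column are divisible by `n`. -/
theorem not_dvd_col (γ : SL(2, ℤ)) : ¬ ((n : ℤ) ∣ γ 0 0 ∧ (n : ℤ) ∣ γ 1 0) := fun e =>
  (not_dvd_one' h).1 (by
    rw [← det_one γ]
    exact dvd_sub (e.1.mul_right _) (e.2.mul_left _))

/-- A value at a cusp, read from a ratio with positive order there. -/
theorem value_of_eq {v w v' w' : Vec M} (hs : Sep v w) (hs' : Sep v' w') {α β : ℂ}
    (he : ∀ z, tFun n M z = α * ratio v w v' w' z + β) (γ : SL(2, ℤ))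
    (hord : 0 < (qser M (comp (ratio v w v' w') γ)).order) :
    (∀ k < (0 : ℤ), (qser M (comp (tFun n M) γ)).coeff k = 0) ∧
      (qser M (comp (tFun n M) γ)).coeff 0 = β := by
  have hq := ((ratio_mem' hs hs').expansion γ).hasQExp
  have e : qser M (comp (tFun n M) γ) =
      HahnSeries.C α * qser M (comp (ratio v w v' w') γ) + HahnSeries.C β := by
    refine qser_eq ?_
    have := ((ModularCosets.hasQExp_C (M : ℝ) α).mul hq).add (ModularCosets.hasQExp_C (M : ℝ) β)
    convert this using 1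
    funext z
    exact he (γ • z)
  have hc : ∀ k : ℤ, k ≤ 0 → (qser M (comp (ratio v w v' w') γ)).coeff k = 0 := fun k hk =>
    HahnSeries.coeff_eq_zero_of_lt_order (hk.trans_lt hord)
  constructor
  · intro k hk
    rw [e, HahnSeries.coeff_add, HahnSeries.C_apply, HahnSeries.coeff_single_zero_mul, hc k hk.le,
      mul_zero, zero_add, HahnSeries.C_apply, HahnSeries.coeff_single_of_ne hk.ne]
  · rw [e, HahnSeries.coeff_add, HahnSeries.C_apply, HahnSeries.coeff_single_zero_mul, hc 0 le_rfl,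
      mul_zero, zero_add, HahnSeries.C_apply, HahnSeries.coeff_single_same]

theorem tFun_sub_one (z : ℍ) :
    tFun n M z = 1 * ratio (bz n M 0 1) (bz n M 1 1) (bz n M 1 1) (bz n M 1 0) z + 1 := by
  have := wpDiff_ne_zero' (sep11_10 h) z
  rw [tFun_eq h, one_mul, ratio, ratio, div_add_one this]
  simp only [wpDiff]; ring

/-! ### The constant cross ratio of level three -/

/-- The cross ratio of the four points of order three. -/
def crossFun (n M : ℕ) : ℍ → ℂ :=
  ratio (bz n M 0 1) (bz n M 1 0) (bz n M 1 1) (bz n M 1 0) *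
    ratio (bz n M 1 1) (bz n M 1 2) (bz n M 0 1) (bz n M 1 2)

omit h in
/-- The third finite cusp value of level three. -/
def crossVal (n M : ℕ) : ℂ := (qser M (crossFun n M)).coeff 0

theorem crossFun_mem : MemR M (zr M) (crossFun n M) :=
  (ratio_mem' (sep01_10 h) (sep11_10 h)).mul (ratio_mem' (sep11_12 h) (sep01_12 h))

theorem crossVal_mem : crossVal n M ∈ zr M := by
  have := ((crossFun_mem h).expansion 1).coeff_mem 0
  rwa [comp_one] at this

theorem crossFun_eq_const (h3 : n = 3) :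
    crossFun n M = (fun _ => crossVal n M) ∧ crossVal n M * (1 - crossVal n M) = 1 := by
  have hsq : crossFun n M * crossFun n M - crossFun n M + 1 = 0 := by
    funext z
    have hne : ∀ {v w : Vec M}, Sep v w → wp v z ≠ wp w z := fun hs e =>
      wpDiff_ne_zero' hs z (sub_eq_zero.mpr e)
    have hr : ∀ x y : ℤ, (3 : ℕ) • bz n M x y = 0 := fun x y => h3 ▸ nsmul_bz h x y
    have key := (roots_three (hne (sep01_10 h)) (hne (sep01_11 h)) (hne (sep01_12 h))
      (hne (sep11_10 h)).symm (hne (sep10_12 h h3)) (hne (sep11_12 h))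
      (root_three (sep01_10 h).1 (hr 0 1) z) (root_three (sep01_10 h).2.1 (hr 1 0) z)
      (root_three (sep11_10 h).1 (hr 1 1) z) (root_three (sep01_12 h).2.1 (hr 1 2) z)).2.2.2
    have d1 := wpDiff_ne_zero' (sep11_10 h) z
    have d2 := wpDiff_ne_zero' (sep01_12 h) z
    simp only [Pi.add_apply, Pi.sub_apply, Pi.mul_apply, Pi.one_apply, Pi.zero_apply, crossFun,
      ratio]
    simp only [wpDiff] at d1 d2 ⊢
    field_simp
    linear_combination key
  have hq : HasQExp M (crossFun n M) (qser M (crossFun n M)) := by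
    have := ((crossFun_mem h).expansion 1).hasQExp
    rwa [comp_one] at this
  set R := qser M (crossFun n M) with hR
  have hser : R * R - R + 1 = 0 := by
    have h1 := ((hq.mul hq).add hq.neg).add (hasQExp_one (M : ℝ))
    rw [show crossFun n M * crossFun n M + -crossFun n M + 1 = 0 by
      rw [← sub_eq_add_neg]; exact hsq] at h1
    rw [sub_eq_add_neg]
    exact h1.unique natM_pos (hasQExp_zero (M : ℝ))
  obtain ⟨α, hα⟩ : ∃ α : ℂ, α * (1 - α) = 1 := by
    refine ⟨(1 + (Real.sqrt 3 : ℂ) * Complex.I) / 2, ?_⟩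
    have h3 : ((Real.sqrt 3 : ℝ) : ℂ) ^ 2 = 3 := by
      rw [← Complex.ofReal_pow, Real.sq_sqrt (by norm_num)]; norm_num
    linear_combination (1 / 4 : ℂ) * h3 - ((Real.sqrt 3 : ℂ) ^ 2 / 4) * Complex.I_sq
  have hfac : (R - HahnSeries.C α) * (R - HahnSeries.C (1 - α)) = 0 := by
    have e : HahnSeries.C α * HahnSeries.C (1 - α) = (1 : LaurentSeries ℂ) := by
      rw [← map_mul, hα, map_one]
    rw [map_sub, map_one] at e ⊢
    linear_combination hser + e
  obtain ⟨β, hβ, hRβ⟩ : ∃ β : ℂ, β * (1 - β) = 1 ∧ R = HahnSeries.C β := by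
    rcases mul_eq_zero.mp hfac with e | e
    · exact ⟨α, hα, sub_eq_zero.mp e⟩
    · exact ⟨1 - α, by linear_combination hα, sub_eq_zero.mp e⟩
  have hv : crossVal n M = β := by
    rw [crossVal, ← hR, hRβ, HahnSeries.C_apply, HahnSeries.coeff_single_same]
  refine ⟨eq_of_qser_eq (γ := 1) (crossFun_mem h) (memR_const (crossVal_mem h)) ?_, hv ▸ hβ⟩
  rw [comp_one, comp_one, ← hR, qser_const, hv, hRβ]

theorem tFun_sub_crossVal (h3 : n = 3) (z : ℍ) :
    tFun n M z = crossVal n M * ratio (bz n M 0 1) (bz n M 1 1) (bz n M 1 1) (bz n M 1 2) z +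
      crossVal n M := by
  have hc := congrFun (crossFun_eq_const h h3).1 z
  have d1 := wpDiff_ne_zero' (sep11_10 h) z
  have d2 := wpDiff_ne_zero' (sep01_12 h) z
  have d3 := wpDiff_ne_zero' (sep11_12 h) z
  simp only [crossFun, Pi.mul_apply] at hc
  rw [← hc, tFun_eq h]
  simp only [ratio]
  simp only [wpDiff] at d1 d2 d3 ⊢
  field_simp
  ring

/-- Behaviour at the cusps. -/
theorem cusp_cases (γ : SL(2, ℤ)) :
    ((n : ℤ) ∣ γ 1 0 ∧ (qser M (comp (tFun n M) γ)).order = -((M / n : ℕ) : ℤ)) ∨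
      ((∀ k < (0 : ℤ), (qser M (comp (tFun n M) γ)).coeff k = 0) ∧
        ((qser M (comp (tFun n M) γ)).coeff 0 = 0 ∨ (qser M (comp (tFun n M) γ)).coeff 0 = 1 ∨
          (n = 3 ∧ (qser M (comp (tFun n M) γ)).coeff 0 = crossVal n M))) := by
  have hk : (0 : ℤ) < ((M / n : ℕ) : ℤ) := by exact_mod_cast level_k_pos h
  have hcol := not_dvd_col h γ
  set a := γ 0 0
  set c := γ 1 0
  by_cases hc : (n : ℤ) ∣ c
  · left
    refine ⟨hc, ?_⟩
    have ha : ¬ (n : ℤ) ∣ a := fun e => hcol ⟨e, hc⟩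
    rw [tFun_eq h, order_comp_ratio h (sep01_10 h) (sep11_10 h)]
    simp [hc, ha, dvd_add_left hc, a, c]
  right
  by_cases ha : (n : ℤ) ∣ a
  · have hac : ¬ (n : ℤ) ∣ a + c := fun e => hc ((dvd_add_right ha).mp e)
    refine (value_of_eq h (sep01_11 h) (sep11_10 h) (tFun_sub_one h) γ ?_).imp_right
      fun e => Or.inr (Or.inl e)
    rw [order_comp_ratio h (sep01_11 h) (sep11_10 h)]
    simp [hc, ha, hac, a, c]
    omega
  by_cases hac : (n : ℤ) ∣ a + c
  · refine (value_of_eq h (sep01_10 h) (sep11_10 h) (α := 1) (β := 0)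
      (fun z => by rw [one_mul, add_zero, tFun_eq h]) γ ?_).imp_right Or.inl
    rw [order_comp_ratio h (sep01_10 h) (sep11_10 h)]
    simp [hc, ha, hac, a, c]
    omega
  rcases h.aux with rfl | rfl
  · exfalso
    push_cast at hc ha hac
    omega
  · have hac2 : (3 : ℤ) ∣ a + 2 * c := by
      push_cast at hc ha hac
      rcases (show a % 3 = 1 ∨ a % 3 = 2 by omega) with h1 | h1 <;>
        rcases (show c % 3 = 1 ∨ c % 3 = 2 by omega) with h2 | h2 <;> omega
    refine (value_of_eq h (sep01_11 h) (sep11_12 h) (tFun_sub_crossVal h rfl) γ ?_).imp_right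
      fun e => Or.inr (Or.inr ⟨rfl, e⟩)
    rw [order_comp_ratio h (sep01_11 h) (sep11_12 h)]
    push_cast at hc ha hac
    simp [hc, hac, hac2, a, c]
    omega

theorem tFun_pole_class' (γ : SL(2, ℤ))
    (hγ : ∃ k < (0 : ℤ), (qser M (comp (tFun n M) γ)).coeff k ≠ 0) :
    ∃ i : ℤ, γ * ModularGroup.T ^ i ∈ Gamma n ∨ -(γ * ModularGroup.T ^ i) ∈ Gamma n := by
  obtain ⟨k, hk, hne⟩ := hγ
  obtain ⟨hc, -⟩ := (cusp_cases h γ).resolve_right fun e => hne (e.1 k hk)
  refine ⟨-(γ 0 0 * γ 0 1), ?_⟩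
  have hdet : ((γ 0 0 : ℤ) : ZMod n) * ((γ 1 1 : ℤ) : ZMod n) = 1 := by
    have := congrArg (fun x : ℤ => (x : ZMod n)) (det_one γ)
    push_cast [(ZMod.intCast_zmod_eq_zero_iff_dvd _ _).mpr hc] at this
    linear_combination this
  have hc' : ((γ 1 0 : ℤ) : ZMod n) = 0 := (ZMod.intCast_zmod_eq_zero_iff_dvd _ _).mpr hc
  obtain ⟨ha, hd⟩ | ⟨ha, hd⟩ : (((γ 0 0 : ℤ) : ZMod n) = 1 ∧ ((γ 1 1 : ℤ) : ZMod n) = 1) ∨
      (((γ 0 0 : ℤ) : ZMod n) = -1 ∧ ((γ 1 1 : ℤ) : ZMod n) = -1) := by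
    generalize ((γ 0 0 : ℤ) : ZMod n) = u, ((γ 1 1 : ℤ) : ZMod n) = v at hdet ⊢
    rcases h.aux with rfl | rfl <;> revert u v <;> decide
  · refine Or.inl (Gamma_mem.mpr ?_)
    simp [ModularGroup.coe_T_zpow, Matrix.mul_apply, Fin.sum_univ_two, ha, hd, hc']
  · refine Or.inr (Gamma_mem.mpr ?_)
    simp [ModularGroup.coe_T_zpow, Matrix.mul_apply, Fin.sum_univ_two, ha, hd, hc']

/-- The finite cusp values are `0`, `1` and, for `n = 3`, `crossVal`. -/
theorem cuspVals_subset {c : ℂ} (hc : c ∈ cuspVals n M) :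
    c = 0 ∨ c = 1 ∨ (n = 3 ∧ c = crossVal n M) := by
  obtain ⟨γ, hγ, rfl⟩ := hc
  rcases cusp_cases h γ with ⟨-, hord⟩ | ⟨-, hv⟩
  · exfalso
    have hk := level_k_pos h
    have hne : qser M (comp (tFun n M) γ) ≠ 0 := fun e => by
      rw [e, HahnSeries.order_zero] at hord
      omega
    exact HahnSeries.coeff_order_eq_zero.not.mpr hne (hγ _ (by rw [hord]; omega))
  · exact hv

theorem cuspVals_finite' : (cuspVals n M).Finite := by
  refine ((Set.finite_singleton (crossVal n M)).insert 1 |>.insert 0).subset fun c hc => ?_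
  rcases cuspVals_subset h hc with e | e | ⟨-, e⟩ <;> simp [e]

theorem cuspVals_mem' {c : ℂ} (hc : c ∈ cuspVals n M) : c ∈ zr M := by
  rcases cuspVals_subset h hc with rfl | rfl | ⟨-, rfl⟩
  exacts [zero_mem _, one_mem _, crossVal_mem h]

theorem cuspVals_sub_unit' {c c' : ℂ} (hc : c ∈ cuspVals n M)
    (hc' : c' ∈ cuspVals n M) (hne : c ≠ c') : ∃ u ∈ zr M, (c - c') * u = 1 := by
  have hm := crossVal_mem (n := n) h
  rcases cuspVals_subset h hc with rfl | rfl | ⟨h3, rfl⟩ <;>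
    rcases cuspVals_subset h hc' with rfl | rfl | ⟨h3', rfl⟩
  · exact absurd rfl hne
  · exact ⟨-1, neg_mem (one_mem _), by ring⟩
  · exact ⟨-(1 - crossVal n M), neg_mem (sub_mem (one_mem _) hm),
      by linear_combination (crossFun_eq_const h h3').2⟩
  · exact ⟨1, one_mem _, by ring⟩
  · exact absurd rfl hne
  · exact ⟨crossVal n M, hm, by linear_combination (crossFun_eq_const h h3').2⟩
  · exact ⟨1 - crossVal n M, sub_mem (one_mem _) hm,
      by linear_combination (crossFun_eq_const h h3).2⟩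
  · exact ⟨-crossVal n M, neg_mem hm, by linear_combination (crossFun_eq_const h h3).2⟩
  · exact absurd rfl hne

theorem tFun_sub_unit' {c : ℂ} (hc : c ∈ cuspVals n M) :
    (∀ z, tFun n M z ≠ c) ∧ MemB n M (zr M) (fun z => (tFun n M z - c)⁻¹) := by
  rcases cuspVals_subset h hc with rfl | rfl | ⟨h3, rfl⟩
  · refine ⟨fun z => by rw [tFun_eq h]; exact ratio_ne_zero (sep01_10 h) (sep11_10 h) z, ?_⟩
    convert memB_ratio h (sep11_10 h) (sep01_10 h) using 1
    funext z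
    rw [sub_zero, tFun_eq h, ratio_inv]
  · have e : ∀ z, tFun n M z - 1 =
        ratio (bz n M 0 1) (bz n M 1 1) (bz n M 1 1) (bz n M 1 0) z := fun z => by
      rw [tFun_sub_one h]; ring
    refine ⟨fun z => sub_ne_zero.mp (by rw [e]; exact ratio_ne_zero (sep01_11 h) (sep11_10 h) z), ?_⟩
    convert memB_ratio h (sep11_10 h) (sep01_11 h) using 1
    funext z
    rw [e, ratio_inv]
  · set w := crossVal n M
    have hw := (crossFun_eq_const h h3).2
    have e : ∀ z, tFun n M z - w =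
        w * ratio (bz n M 0 1) (bz n M 1 1) (bz n M 1 1) (bz n M 1 2) z := fun z => by
      rw [tFun_sub_crossVal h h3]; ring
    refine ⟨fun z => sub_ne_zero.mp (by
      rw [e]; exact mul_ne_zero (left_ne_zero_of_mul_eq_one hw) (ratio_ne_zero (sep01_11 h) (sep11_12 h) z)),
      ?_⟩
    have hmem := (ringB n M (zr M)).mul_mem
      (show (fun _ : ℍ => 1 - w) ∈ ringB n M (zr M) from
        ⟨memR_const (sub_mem (one_mem _) (crossVal_mem h)), fun _ _ => rfl⟩)
      (show ratio (bz n M 1 1) (bz n M 1 2) (bz n M 0 1) (bz n M 1 1) ∈ ringB n M (zr M) from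
        memB_ratio h (sep11_12 h) (sep01_11 h))
    rw [mem_ringB] at hmem
    convert hmem using 1
    funext z
    rw [Pi.mul_apply, e, mul_inv, inv_eq_of_mul_eq_one_right hw, ratio_inv]

/-- A pole of order `M / n` at `∞`, with unit leading coefficient. -/
theorem tFun_leading' :
    (∀ k < -((M / n : ℕ) : ℤ), (qser M (tFun n M)).coeff k = 0) ∧
      ∃ u ∈ zr M, (qser M (tFun n M)).coeff (-((M / n : ℕ) : ℤ)) * u = 1 := by
  have e : qser M (tFun n M) = rser (bz n M 0 1) (bz n M 1 0) (bz n M 1 1) (bz n M 1 0) := by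
    rw [tFun_eq h, qser_ratio (sep01_10 h) (sep11_10 h)]
  have hn := (not_dvd_one' h).1
  have hmin : ((min (wt (bz n M 0 1)) (wt (bz n M 1 0)) : ℕ) : ℤ) -
      (min (wt (bz n M 1 1)) (wt (bz n M 1 0)) : ℕ) = -((M / n : ℕ) : ℤ) := by
    simp [wt_bz h, hn]
  rw [e]
  refine ⟨fun k hk => HahnSeries.coeff_eq_zero_of_lt_order ?_, ?_⟩
  · rwa [rser_order (sep01_10 h) (sep11_10 h), hmin]
  · rw [← hmin, rser_lead (sep01_10 h) (sep11_10 h)]
    exact ((gser_lead (sep01_10 h)).mul (gser_lead (sep11_10 h)).inv).2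

end level

end FLTAgent.Gamma1
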