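/-
The fibres of the Hauptmoduln of levels `2` and `3`, and their derivatives.
-/
import Fermat.Agent.Gamma1.WpHaupt
import Fermat.Agent.ModularPlaces.JMapLocal

/-!
# Fibres of the Hauptmoduln

`tFun_fibre'`: two points with the same value of the Hauptmodul are `Γ(n)`-equivalent; equal
values make the values of `℘` proportional (`exists_factor`), hence `g₂`, `g₃` and the lattices.
`tFun_deriv_ne_zero'`: the derivative does not vanish, since `Γ(n)` acts freely modulo signs.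
-/

set_option autoImplicit false
set_option linter.unusedSectionVars false

noncomputable section

open UpperHalfPlane CongruenceSubgroup Filter Topology
open scoped MatrixGroups PeriodPair

namespace FLTAgent.Gamma1

open FLTAgent.Modular

/-- Homothetic lattices `μ (ℤ z + ℤ) = ℤ z' + ℤ` come from `SL(2, ℤ)`. -/
theorem exists_smul_of_lattice_eq {z z' : ℍ} {μ : ℂ} (hμ : μ ≠ 0)
    (hL : (scaled z μ hμ).lattice = (periodPair z').lattice) :
    ∃ g : SL(2, ℤ), g • z = z' ∧ ((g 1 0 : ℤ) : ℂ) * z + ((g 1 1 : ℤ) : ℂ) = μ⁻¹ := by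
  set L := scaled z μ hμ
  set L' := periodPair z'
  obtain ⟨p, q, hpq⟩ : ∃ p q : ℤ, (p : ℂ) * (μ * z) + q * μ = z' := by
    have : (z' : ℂ) ∈ L.lattice := by rw [hL]; exact L'.ω₁_mem_lattice
    exact PeriodPair.mem_lattice.mp this
  obtain ⟨r, s, hrs⟩ : ∃ r s : ℤ, (r : ℂ) * (μ * z) + s * μ = 1 := by
    have : (1 : ℂ) ∈ L.lattice := by rw [hL]; exact L'.ω₂_mem_lattice
    exact PeriodPair.mem_lattice.mp this
  obtain ⟨t, u, htu⟩ : ∃ t u : ℤ, (t : ℂ) * z' + u * 1 = μ * z := by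
    have : μ * z ∈ L'.lattice := by rw [← hL]; exact L.ω₁_mem_lattice
    exact PeriodPair.mem_lattice.mp this
  obtain ⟨v, w, hvw⟩ : ∃ v w : ℤ, (v : ℂ) * z' + w * 1 = μ := by
    have : μ ∈ L'.lattice := by rw [← hL]; exact L.ω₂_mem_lattice
    exact PeriodPair.mem_lattice.mp this
  have key : ∀ e f : ℤ, (e : ℂ) * z + f = 0 → e = 0 ∧ f = 0 := by
    intro e f h0
    have he : e = 0 := by
      have h1 := congrArg Complex.im h0
      simp [z.im_pos.ne'] at h1
      exact h1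
    subst he
    exact ⟨rfl, by simpa using h0⟩
  obtain ⟨k1, k2⟩ := key (t * p + u * r - 1) (t * q + u * s) (by
    refine mul_left_cancel₀ hμ ?_
    push_cast
    linear_combination htu + (t : ℂ) * hpq + (u : ℂ) * hrs)
  obtain ⟨k3, k4⟩ := key (v * p + w * r) (v * q + w * s - 1) (by
    refine mul_left_cancel₀ hμ ?_
    push_cast
    linear_combination hvw + (v : ℂ) * hpq + (w : ℂ) * hrs)
  have hdet : (t * w - u * v) * (p * s - q * r) = 1 := by
    have e1 : t * p + u * r = 1 := by linarith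
    have e4 : v * q + w * s = 1 := by linarith
    linear_combination (v * q + w * s) * e1 + e4 - (v * p + w * r) * k2
  have h1 : μ⁻¹ = r * z + s := by
    refine inv_eq_of_mul_eq_one_right ?_
    linear_combination hrs
  have hz' : (z' : ℂ) * ((r : ℂ) * z + s) = p * z + q := by
    rw [← h1, ← hpq]; field_simp
  have hne : (r : ℂ) * z + s ≠ 0 := h1 ▸ inv_ne_zero hμ
  have hd : p * s - q * r = 1 := by
    rcases Int.eq_one_or_neg_one_of_mul_eq_one' hdet with ⟨_, h'⟩ | ⟨_, h'⟩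
    · exact h'
    exfalso
    have him : (z' : ℂ).im * Complex.normSq ((r : ℂ) * z + s)
        = ((p * s - q * r : ℤ) : ℝ) * (z : ℂ).im := by
      have h3 := congrArg (fun x => (x * (starRingEnd ℂ) ((r : ℂ) * z + s)).im) hz'
      simp only [mul_assoc, Complex.mul_conj] at h3
      rw [Complex.im_mul_ofReal] at h3
      rw [h3]
      push_cast
      simp [Complex.mul_im, Complex.add_re, Complex.add_im, Complex.mul_re]
      ring
    rw [h'] at him
    have := z.im_pos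
    push_cast at him
    simp only [UpperHalfPlane.coe_im] at him
    nlinarith [mul_nonneg z'.im_pos.le (Complex.normSq_nonneg ((r : ℂ) * z + s))]
  obtain ⟨g, hg⟩ : ∃ g : SL(2, ℤ), (g.1 : Matrix (Fin 2) (Fin 2) ℤ) = !![p, q; r, s] :=
    ⟨⟨!![p, q; r, s], by rw [Matrix.det_fin_two_of]; exact hd⟩, rfl⟩
  refine ⟨g, UpperHalfPlane.ext (mul_right_cancel₀ (den_smul_ne_zero g z) ?_), ?_⟩
  · rw [coe_smul_mul_den g z, hg]
    simpa using hz'.symm
  · rw [hg, h1]
    simp

variable {n M : ℕ} [NeZero M]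

/-- Equal values of the Hauptmodul make the values of `℘` proportional. -/
theorem exists_factor (h : IsLevel n M) {z z' : ℍ} (he : tFun n M z = tFun n M z') :
    ∃ l : ℂ, l ≠ 0 ∧ wp (bz n M 0 1) z' = l * wp (bz n M 0 1) z ∧
      wp (bz n M 1 0) z' = l * wp (bz n M 1 0) z ∧
      (periodPair z').g₂ = l ^ 2 * (periodPair z).g₂ ∧
      (periodPair z').g₃ = l ^ 3 * (periodPair z).g₃ := by
  set d1 := fun w => wpDiff (bz n M 0 1) (bz n M 1 0) w with hd1
  set d2 := fun w => wpDiff (bz n M 1 1) (bz n M 1 0) w with hd2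
  have hne1 : ∀ w, d1 w ≠ 0 := fun w => wpDiff_ne_zero' (sep01_10 h) w
  have hne2 : ∀ w, d2 w ≠ 0 := fun w => wpDiff_ne_zero' (sep11_10 h) w
  have ht : ∀ w, tFun n M w = d1 w / d2 w := fun w => by rw [tFun_eq h]; rfl
  rw [ht, ht] at he
  set l := d2 z' / d2 z with hl
  have e2 : d2 z' = l * d2 z := (div_mul_cancel₀ _ (hne2 z)).symm
  have e1 : d1 z' = l * d1 z := by
    rw [div_eq_div_iff (hne2 z) (hne2 z')] at he
    rw [hl, div_mul_eq_mul_div, eq_div_iff (hne2 z)]
    linear_combination -he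
  have hl0 : l ≠ 0 := div_ne_zero (hne2 z') (hne2 z)
  have hne : ∀ {v w : Vec M}, Sep v w → ∀ u, wp v u ≠ wp w u := fun hs u e =>
    wpDiff_ne_zero' hs u (sub_eq_zero.mpr e)
  refine ⟨l, hl0, ?_⟩
  simp only [hd1, hd2, wpDiff] at e1 e2
  rcases h.aux with h2 | h3
  · have hr : ∀ x y : ℤ, (2 : ℕ) • bz n M x y = 0 := fun x y => h2 ▸ nsmul_bz h x y
    have R := fun u => roots_two (hne (sep01_10 h) u) (hne (sep01_11 h) u)
      (hne (sep11_10 h) u).symm (root_two (sep01_10 h).1 (hr 0 1) u)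
      (root_two (sep01_10 h).2.1 (hr 1 0) u) (root_two (sep11_10 h).1 (hr 1 1) u)
    obtain ⟨S, G2, G3⟩ := R z
    obtain ⟨S', G2', G3'⟩ := R z'
    have ey : wp (bz n M 1 0) z' = l * wp (bz n M 1 0) z := by
      linear_combination (-(1 : ℂ) / 3) * e1 - (1 / 3 : ℂ) * e2 + (1 / 3 : ℂ) * S' - (l / 3) * S
    have ex : wp (bz n M 0 1) z' = l * wp (bz n M 0 1) z := by linear_combination e1 + ey
    refine ⟨ex, ey, ?_, ?_⟩
    · rw [G2', G2, ex, ey]; ring
    · rw [G3', G3, G2', G2, ex, ey]; ring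
  · have hr : ∀ x y : ℤ, (3 : ℕ) • bz n M x y = 0 := fun x y => h3 ▸ nsmul_bz h x y
    have R := fun u => roots_three (hne (sep01_10 h) u) (hne (sep01_11 h) u) (hne (sep01_12 h) u)
      (hne (sep11_10 h) u).symm (hne (sep10_12 h h3) u) (hne (sep11_12 h) u)
      (root_three (sep01_10 h).1 (hr 0 1) u) (root_three (sep01_10 h).2.1 (hr 1 0) u)
      (root_three (sep11_10 h).1 (hr 1 1) u) (root_three (sep01_12 h).2.1 (hr 1 2) u)
    obtain ⟨S, G2, G3, -⟩ := R z
    obtain ⟨S', G2', G3', -⟩ := R z'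
    have hc := (congrFun (crossFun_eq_const h h3).1 z).trans
      (congrFun (crossFun_eq_const h h3).1 z').symm
    simp only [crossFun, Pi.mul_apply, ratio, wpDiff] at hc
    have n1 := hne (sep01_10 h) z
    have n2 := hne (sep11_10 h) z
    have n4 := hne (sep01_12 h) z
    have n4' := hne (sep01_12 h) z'
    have n5 := hne (sep01_11 h) z
    rw [e1, e2, mul_div_mul_left _ _ hl0] at hc
    have hc2 := mul_left_cancel₀ (div_ne_zero (sub_ne_zero.mpr n1) (sub_ne_zero.mpr n2)) hc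
    rw [div_eq_div_iff (sub_ne_zero.mpr n4) (sub_ne_zero.mpr n4')] at hc2
    have e3 : wp (bz n M 1 1) z' - wp (bz n M 1 2) z' =
        l * (wp (bz n M 1 1) z - wp (bz n M 1 2) z) := by
      refine mul_right_cancel₀ (sub_ne_zero.mpr n5) ?_
      linear_combination -hc2 +
        (wp (bz n M 1 1) z - wp (bz n M 1 2) z) * (e1 - e2)
    have ey : wp (bz n M 1 0) z' = l * wp (bz n M 1 0) z := by
      linear_combination (1 / 4 : ℂ) * S' - (l / 4) * S - (1 / 4 : ℂ) * e1 - (1 / 2 : ℂ) * e2 +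
        (1 / 4 : ℂ) * e3
    have ex : wp (bz n M 0 1) z' = l * wp (bz n M 0 1) z := by linear_combination e1 + ey
    have ew : wp (bz n M 1 1) z' = l * wp (bz n M 1 1) z := by linear_combination e2 + ey
    refine ⟨ex, ey, ?_, ?_⟩
    · rw [G2', G2, ex, ey, ew]; ring
    · rw [G3', G3, G2', G2, ex, ey, ew]; ring

/-- The fibres of the Hauptmodul are orbits of `Γ(n)`. -/
theorem tFun_fibre' (h : IsLevel n M) {z z' : ℍ} (he : tFun n M z = tFun n M z') :
    ∃ γ ∈ Gamma n, γ • z = z' := by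
  obtain ⟨l, hl, ex, ey, G2, G3⟩ := exists_factor h he
  obtain ⟨μ, hμ⟩ := IsAlgClosed.exists_pow_nat_eq (k := ℂ) l⁻¹ (n := 2) (by norm_num)
  have hμ0 : μ ≠ 0 := fun e => inv_ne_zero hl (by rw [← hμ, e, zero_pow two_ne_zero])
  have hlμ : l = (μ ^ 2)⁻¹ := by rw [hμ, inv_inv]
  have hG : ∀ k : ℕ, 3 ≤ k → (scaled z μ hμ0).G k = (μ ^ k)⁻¹ * (periodPair z).G k := by
    intro k hk
    rw [← scaled_one z, scaled, scaled, ModularPlaces.G_scaledPair z hμ0 hk,
      ModularPlaces.G_scaledPair z one_ne_zero hk, one_pow, inv_one, one_mul]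
  have hL := ModularPlaces.lattice_eq_of_invariants (scaled z μ hμ0) (periodPair z')
    (by rw [G2, PeriodPair.g₂, PeriodPair.g₂, hG 4 (by norm_num), hlμ]; ring)
    (by rw [G3, PeriodPair.g₃, PeriodPair.g₃, hG 6 (by norm_num), hlμ]; ring)
  obtain ⟨g, hgz, hden⟩ := exists_smul_of_lattice_eq hμ0 hL
  have hfix : ∀ v : Vec M, v ≠ 0 → wp v z' = l * wp v z →
      vecMulZ v g = v ∨ vecMulZ v g = -v := by
    intro v hv hvl
    rw [← hgz, wp_smul', hden, inv_pow, ← hlμ] at hvl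
    exact (wp_eq_iff (fun e => hv (vecMulZ_injective g (e.trans (vecMulZ_zero g).symm))) hv z).mp
      (mul_left_cancel₀ hl hvl)
  have hA : ∀ x y : ℤ, bz n M x y ≠ 0 → wp (bz n M x y) z' = l * wp (bz n M x y) z →
      ((x * g 0 0 + y * g 1 0 : ℤ) : ZMod n) = x ∧ ((x * g 0 1 + y * g 1 1 : ℤ) : ZMod n) = y ∨
      ((x * g 0 0 + y * g 1 0 : ℤ) : ZMod n) = -x ∧
        ((x * g 0 1 + y * g 1 1 : ℤ) : ZMod n) = -y := by
    intro x y hv hvl
    have hneg : -bz n M x y = bz n M (-x) (-y) := by simp [bz]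
    have hd : ∀ p q : ℤ, (n : ℤ) ∣ p - q → (p : ZMod n) = q := fun p q e =>
      (ZMod.intCast_eq_intCast_iff_dvd_sub q p n).mpr e |>.symm
    rcases hfix _ hv hvl with e | e
    · rw [vecMulZ_bz, bz_eq_iff h] at e
      exact Or.inl ⟨hd _ _ e.1, hd _ _ e.2⟩
    · rw [vecMulZ_bz, hneg, bz_eq_iff h] at e
      refine Or.inr ⟨?_, ?_⟩
      · rw [hd _ _ e.1]; push_cast; rfl
      · rw [hd _ _ e.2]; push_cast; rfl
  have h01 := hA 0 1 (sep01_10 h).1 ex
  have h10 := hA 1 0 (sep01_10 h).2.1 ey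
  simp only [zero_mul, zero_add, one_mul, Int.cast_zero, Int.cast_one, add_zero, neg_zero] at h01 h10
  have hdet : ((g 0 0 : ℤ) : ZMod n) * ((g 1 1 : ℤ) : ZMod n) = 1 := by
    have := congrArg (fun x : ℤ => (x : ZMod n)) (det_one g)
    rcases h01 with ⟨hc, -⟩ | ⟨hc, -⟩ <;> push_cast [hc] at this <;> linear_combination this
  rcases h10 with ⟨ha, hb⟩ | ⟨ha, hb⟩
  · refine ⟨g, Gamma_mem.mpr ⟨ha, hb, ?_, ?_⟩, hgz⟩
    · rcases h01 with ⟨hc, -⟩ | ⟨hc, -⟩ <;> exact hc
    · rwa [ha, one_mul] at hdet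
  · refine ⟨-g, Gamma_mem.mpr ⟨?_, ?_, ?_, ?_⟩, by rw [ModularGroup.SL_neg_smul, hgz]⟩
    · simp [ha]
    · simp [hb]
    · rcases h01 with ⟨hc, -⟩ | ⟨hc, -⟩ <;> simp [hc]
    · simp only [Matrix.SpecialLinearGroup.coe_neg, Matrix.neg_apply, Int.cast_neg]
      rw [ha] at hdet
      linear_combination hdet

/-- `Γ(n)` acts freely modulo signs. -/
theorem smul_eq_self_of_mem (h : IsLevel n M) {γ : SL(2, ℤ)} (hγ : γ ∈ Gamma n) {z : ℍ}
    (hz : γ • z = z) (w : ℍ) : γ • w = w := by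
  have e := coe_smul_mul_den γ z
  rw [hz] at e
  have hdet := det_one γ
  obtain ⟨h00, h01, h10, h11⟩ := Gamma_mem.mp hγ
  set a := γ 0 0 with ha
  set b := γ 0 1 with hb
  set c := γ 1 0 with hc
  set d := γ 1 1 with hd
  set X := z.re
  set Y := z.im
  have hY : 0 < Y := z.im_pos
  have eim := congrArg Complex.im e
  have ere := congrArg Complex.re e
  simp [Complex.mul_im, Complex.mul_re] at eim ere
  clear_value a b c d
  have hc0 : c = 0 := by
    by_contra hne
    have hcR : (c : ℝ) ≠ 0 := Int.cast_ne_zero.mpr hne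
    have h2 : (a : ℝ) = 2 * c * X + d := mul_right_cancel₀ hY.ne' (by linear_combination -eim)
    have hneg : ((d - a) ^ 2 + 4 * b * c : ℤ) < (0 : ℤ) := by
      have : ((((d - a) ^ 2 + 4 * b * c : ℤ)) : ℝ) = -(4 * ((c : ℝ) * Y) ^ 2) := by
        push_cast
        rw [h2] at ere
        rw [h2]
        linear_combination -(4 * (c : ℝ)) * ere
      have hpos : (0 : ℝ) < ((c : ℝ) * Y) ^ 2 := by positivity
      exact_mod_cast (show (((d - a) ^ 2 + 4 * b * c : ℤ) : ℝ) < 0 by rw [this]; linarith)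
    have htr : (a + d) ^ 2 < 4 := by linarith [show (a + d) ^ 2 = (d - a) ^ 2 + 4 * b * c + 4 * (a * d - b * c) by ring]
    have htr1 : -1 ≤ a + d ∧ a + d ≤ 1 := ⟨by nlinarith, by nlinarith⟩
    have hcast : ∀ {x y : ℤ}, (x : ZMod n) = y → (n : ℤ) ∣ y - x := fun e =>
      (ZMod.intCast_eq_intCast_iff_dvd_sub _ _ n).mp e
    obtain ⟨a', ha'⟩ := hcast (show ((1 : ℤ) : ZMod n) = (a : ZMod n) by simp [h00])
    obtain ⟨b', hb'⟩ := hcast (show ((0 : ℤ) : ZMod n) = (b : ZMod n) by simp [h01])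
    obtain ⟨c', hc'⟩ := hcast (show ((0 : ℤ) : ZMod n) = (c : ZMod n) by simp [h10])
    obtain ⟨d', hd'⟩ := hcast (show ((1 : ℤ) : ZMod n) = (d : ZMod n) by simp [h11])
    obtain rfl : a = 1 + (n : ℤ) * a' := by linarith
    obtain rfl : b = (n : ℤ) * b' := by linarith
    obtain rfl : c = (n : ℤ) * c' := by linarith
    obtain rfl : d = 1 + (n : ℤ) * d' := by linarith
    rcases h.aux with rfl | rfl <;> push_cast at htr1 hdet
    · obtain rfl : d' = -1 - a' := by omega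
      obtain ⟨m, hm⟩ : ∃ m : ℤ, m = a' + a' * a' + b' * c' := ⟨_, rfl⟩
      have : 4 * m = -2 := by rw [hm]; linear_combination -hdet
      omega
    · obtain rfl : d' = -1 - a' := by omega
      obtain ⟨m, hm⟩ : ∃ m : ℤ, m = a' + a' * a' + b' * c' := ⟨_, rfl⟩
      have : 9 * m = -3 := by rw [hm]; linear_combination -hdet
      omega
  rw [hc0] at eim ere
  simp at eim ere
  have had : d = a := by exact_mod_cast mul_right_cancel₀ hY.ne' (show (d : ℝ) * Y = a * Y by linarith)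
  have hb0 : b = 0 := by
    have : (b : ℝ) = 0 := by rw [had] at ere; linarith
    exact_mod_cast this
  refine UpperHalfPlane.ext (mul_right_cancel₀ (den_smul_ne_zero γ w) ?_)
  rw [coe_smul_mul_den γ w, ← ha, ← hb, ← hc, ← hd, hc0, hb0, had]
  push_cast
  ring

/-- The derivative of the Hauptmodul does not vanish. -/
theorem tFun_deriv_ne_zero' (h : IsLevel n M) (z : ℍ) :
    deriv (tFun n M ∘ ofComplex) (z : ℂ) ≠ 0 := by
  intro hder
  have hU0 : IsOpen {w : ℂ | 0 < w.im} := isOpen_lt continuous_const Complex.continuous_im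
  have hanT : AnalyticOnNhd ℂ (tFun n M ∘ ofComplex) {w : ℂ | 0 < w.im} :=
    ((tFun_memB' h).1.hol).analyticOnNhd hU0
  set f : ℂ → ℂ := fun w => (tFun n M ∘ ofComplex) w - tFun n M z with hf
  have han : AnalyticAt ℂ f z := (hanT _ z.im_pos).sub analyticAt_const
  have hfz : f z = 0 := by simp [hf, ofComplex_apply]
  have hnz : ¬ ∀ᶠ w in 𝓝 (z : ℂ), f w = 0 := by
    intro hc
    have hall := (hanT.sub analyticOnNhd_const).eqOn_zero_of_preconnected_of_eventuallyEq_zero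
      (convex_halfSpace_im_gt 0).isPreconnected z.im_pos hc
    have hconst : tFun n M = fun _ => tFun n M z := by
      funext w
      have := hall w.im_pos
      simpa [ofComplex_apply, sub_eq_zero] using this
    obtain ⟨-, u, -, hu⟩ := tFun_leading' h
    have hq : qser M (tFun n M) = HahnSeries.C (tFun n M z) := by
      conv_lhs => rw [hconst]
      exact qser_const _
    rw [hq, HahnSeries.C_apply, HahnSeries.coeff_single_of_ne
      (by have := level_k_pos h; omega), zero_mul] at hu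
    exact zero_ne_one hu
  obtain ⟨k, H, hH, hH0, hkH⟩ := han.exists_eventuallyEq_pow_smul_nonzero_iff.mpr hnz
  simp only [smul_eq_mul] at hkH
  have hk0 : k ≠ 0 := by
    rintro rfl
    have := hkH.self_of_nhds
    rw [hfz, pow_zero, one_mul] at this
    exact hH0 this.symm
  have hk1 : k ≠ 1 := by
    rintro rfl
    have hd : HasDerivAt (fun w => (w - (z : ℂ)) ^ 1 * H w) (H z) (z : ℂ) := by
      have := ((hasDerivAt_id (z : ℂ)).sub_const (z : ℂ)).fun_mul hH.differentiableAt.hasDerivAt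
      simpa using this
    have hd' : HasDerivAt f (H z) (z : ℂ) := hd.congr_of_eventuallyEq hkH
    have := hd'.deriv
    rw [hf, deriv_sub_const, hder] at this
    exact hH0 this.symm
  -- a local coordinate `g` with `f = g ^ k`
  set r : ℂ → ℂ := fun w => Complex.exp (Complex.log (H w / H z) / k) * H z ^ ((k : ℂ)⁻¹) with hr
  have hra : AnalyticAt ℂ r z := by
    refine AnalyticAt.mul (AnalyticAt.cexp ((AnalyticAt.clog (hH.div analyticAt_const hH0) ?_).div
      analyticAt_const (Nat.cast_ne_zero.mpr hk0))) analyticAt_const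
    rw [Pi.div_apply, div_self hH0]
    exact Complex.one_mem_slitPlane
  have hrn : ∀ᶠ w in 𝓝 (z : ℂ), r w ^ k = H w := by
    filter_upwards [hH.continuousAt.eventually_ne hH0] with w hw
    rw [hr, mul_pow, ← Complex.exp_nat_mul, mul_div_cancel₀ _ (Nat.cast_ne_zero.mpr hk0),
      Complex.exp_log (div_ne_zero hw hH0), Complex.cpow_nat_inv_pow _ hk0,
      div_mul_cancel₀ _ hH0]
  have hr0 : r z ≠ 0 := fun h0 => hH0 (by rw [← hrn.self_of_nhds, h0, zero_pow hk0])
  set g : ℂ → ℂ := fun w => (w - z) * r w with hg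
  have hgd : HasStrictDerivAt g (r z) (z : ℂ) := by
    have := HasStrictDerivAt.fun_mul ((hasStrictDerivAt_id (z : ℂ)).sub_const (z : ℂ))
      hra.hasStrictDerivAt
    simpa [hg] using this
  have hgn : ∀ᶠ w in 𝓝 (z : ℂ), f w = g w ^ k := by
    filter_upwards [hkH, hrn] with w h1 h2
    rw [h1, hg, mul_pow, h2]
  obtain ⟨U, hU, hUst⟩ := ProperlyDiscontinuousSMul.exists_nhds_image_smul_eq_self (𝒮ℒ) z
  have hUc : ∀ᶠ w in 𝓝 (z : ℂ), 0 < w.im ∧ ofComplex w ∈ U ∧ f w = g w ^ k := by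
    have h1 : Tendsto ofComplex (𝓝 (z : ℂ)) (𝓝 z) := by
      have := (UpperHalfPlane.contMDiffAt_ofComplex (n := ⊤) z.im_pos).continuousAt
      rwa [ContinuousAt, ofComplex_apply] at this
    exact Filter.Eventually.and (hU0.mem_nhds z.im_pos)
      (Filter.Eventually.and (h1.eventually hU) hgn)
  have himg : g '' {w | 0 < w.im ∧ ofComplex w ∈ U ∧ f w = g w ^ k} ∈ 𝓝 (0 : ℂ) := by
    have := hgd.map_nhds_eq hr0
    rw [show g z = 0 by simp [hg]] at this
    rw [← this]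
    exact image_mem_map hUc
  obtain ⟨ε, hε, hball⟩ := Metric.mem_nhds_iff.mp himg
  set ζ : ℂ := Complex.exp (2 * Real.pi * Complex.I / k) with hζdef
  have hζ : IsPrimitiveRoot ζ k := Complex.isPrimitiveRoot_exp k hk0
  have hpre : ∀ i : ℕ, ∃ w : ℍ, w ∈ U ∧ g (w : ℂ) = (ε / 2 : ℝ) * ζ ^ i ∧
      tFun n M w - tFun n M z = ((ε / 2 : ℝ) : ℂ) ^ k := by
    intro i
    obtain ⟨w, ⟨hw, hwU, hfw⟩, hgw⟩ := hball (show ((ε / 2 : ℝ) : ℂ) * ζ ^ i ∈ Metric.ball 0 ε by
      rw [mem_ball_zero_iff, norm_mul, norm_pow, hζ.norm'_eq_one hk0, one_pow, mul_one,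
        Complex.norm_real, Real.norm_of_nonneg (by linarith)]
      linarith)
    refine ⟨⟨w, hw⟩, ?_, hgw, ?_⟩
    · rwa [← ofComplex_apply_of_im_pos hw]
    · rw [hgw, mul_pow, ← pow_mul, mul_comm i, pow_mul, hζ.pow_eq_one, one_pow, mul_one,
        hf] at hfw
      simpa [ofComplex_apply_of_im_pos hw] using hfw
  choose p hpU hpg hpt using hpre
  obtain ⟨γ, hγ, hγp⟩ := tFun_fibre' h (z := p 0) (z' := p 1) (by linear_combination hpt 0 - hpt 1)
  have hfixz : γ • z = z :=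
    hUst ⟨(γ : GL (Fin 2) ℝ), γ, rfl⟩ ⟨p 1, ⟨p 0, hpU _, hγp⟩, hpU 1⟩
  rw [smul_eq_self_of_mem h hγ hfixz] at hγp
  have h1 := congrArg (fun w : ℍ => g (w : ℂ)) hγp
  simp only [hpg] at h1
  have h2 : ((ε / 2 : ℝ) : ℂ) ≠ 0 := by exact_mod_cast (by linarith : ε / 2 ≠ 0)
  have := hζ.pow_inj (i := 0) (j := 1) (by omega) (by omega) (mul_left_cancel₀ h2 h1)
  omega

end FLTAgent.Gamma1
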