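/-
Torsion values of `℘`: public statements.
-/
import Fermat.Agent.Gamma1.Defs
import Fermat.Agent.Gamma1.WpConj
import Fermat.Agent.Gamma1.WpFibre

/-!
# Torsion values of `℘`: summary of results

Restates, for `IsLevel n M`, the results of `WpSer`, `WpHaupt`, `WpFibre` and `WpConj`: ratios
are units over `ℤ[ζ, 1/M]` (`ratio_mem`) and behave under Galois (`ratio_conj`); the Hauptmodul
is invariant under `Γ(n)` (`tFun_memB`), with known pole, cusp values, fibres (`tFun_fibre`) and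
nonvanishing derivative (`tFun_deriv_ne_zero`).
-/

set_option autoImplicit false

noncomputable section

open UpperHalfPlane CongruenceSubgroup ModularCurve
open scoped MatrixGroups

namespace FLTAgent.Gamma1

open FLTAgent.Modular

variable {n M : ℕ}

theorem IsLevel.neZero (h : IsLevel n M) : NeZero M := ⟨by have := h.three_le; omega⟩

/-- Weight two homogeneity. -/
theorem wp_smul [NeZero M] (v : Vec M) (γ : SL(2, ℤ)) (z : ℍ) :
    wp v (γ • z) = (((γ 1 0 : ℤ) : ℂ) * z + ((γ 1 1 : ℤ) : ℂ)) ^ 2 * wp (vecMulZ v γ) z :=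
  wp_smul' v γ z

/-- `℘` separates torsion points up to sign. -/
theorem wpDiff_ne_zero [NeZero M] {v w : Vec M} (h : Sep v w) (z : ℍ) : wpDiff v w z ≠ 0 :=
  wpDiff_ne_zero' h z

theorem vecMulZ_mul (v : Vec M) (γ δ : SL(2, ℤ)) :
    vecMulZ v (γ * δ) = vecMulZ (vecMulZ v γ) δ :=
  vecMulZ_mul' v γ δ

theorem sep_vecMulZ {v w : Vec M} (h : Sep v w) (γ : SL(2, ℤ)) :
    Sep (vecMulZ v γ) (vecMulZ w γ) :=
  sep_vecMulZ' h γ

theorem ratio_comp [NeZero M] (v w v' w' : Vec M) (γ : SL(2, ℤ)) :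
    comp (ratio v w v' w') γ =
      ratio (vecMulZ v γ) (vecMulZ w γ) (vecMulZ v' γ) (vecMulZ w' γ) :=
  ratio_comp' v w v' w' γ

/-- Ratios are units of the ring of functions with coefficients in `ℤ[ζ, 1/M]`
(the inverse of a ratio being a ratio). -/
theorem ratio_mem (hM : 3 ≤ M) {v w v' w' : Vec M} (h : Sep v w) (h' : Sep v' w') :
    MemR M (zr M) (ratio v w v' w') := by
  have : NeZero M := ⟨by omega⟩
  exact ratio_mem' h h'

/-- Coefficientwise conjugation of a ratio. -/
theorem ratio_conj (hM : 3 ≤ M) {v w v' w' : Vec M} (h : Sep v w) (h' : Sep v' w')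
    (σ : ℂ →+* ℂ) (s : ℕ) (hs : σ (zeta M) = zeta M ^ s) :
    coeffMap σ (qser M (ratio v w v' w')) =
      qser M (ratio (v.1, (s : ZMod M) * v.2) (w.1, (s : ZMod M) * w.2)
        (v'.1, (s : ZMod M) * v'.2) (w'.1, (s : ZMod M) * w'.2)) := by
  have : NeZero M := ⟨by omega⟩
  have hu := isUnit_of_conj hs
  rw [qser_ratio h h', map_rser hs]
  exact (qser_ratio (sep_conjVec hu h) (sep_conjVec hu h')).symm

/-! ### The Hauptmodul of level `n` -/

theorem sep_base (h : IsLevel n M) :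
    Sep (base n M 0 1) (base n M 1 0) ∧ Sep (base n M 1 1) (base n M 1 0) := by
  have := h.neZero
  simp only [base_eq_bz, Nat.cast_zero, Nat.cast_one]
  exact ⟨sep01_10 h, sep11_10 h⟩

theorem tFun_memB (h : IsLevel n M) : MemB n M (zr M) (tFun n M) :=
  have := h.neZero; tFun_memB' h

/-- A pole of order `M / n` at `∞`, with unit leading coefficient. -/
theorem tFun_leading (h : IsLevel n M) :
    (∀ k < -((M / n : ℕ) : ℤ), (qser M (tFun n M)).coeff k = 0) ∧
      ∃ u ∈ zr M, (qser M (tFun n M)).coeff (-((M / n : ℕ) : ℤ)) * u = 1 :=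
  have := h.neZero; tFun_leading' h

/-- The poles form one class of cusps. -/
theorem tFun_pole_class (h : IsLevel n M) (γ : SL(2, ℤ))
    (hγ : ∃ k < (0 : ℤ), (qser M (comp (tFun n M) γ)).coeff k ≠ 0) :
    ∃ i : ℤ, γ * ModularGroup.T ^ i ∈ Gamma n ∨ -(γ * ModularGroup.T ^ i) ∈ Gamma n :=
  have := h.neZero; tFun_pole_class' h γ hγ

theorem cuspVals_finite (h : IsLevel n M) : (cuspVals n M).Finite :=
  have := h.neZero; cuspVals_finite' h

theorem cuspVals_mem (h : IsLevel n M) {c : ℂ} (hc : c ∈ cuspVals n M) : c ∈ zr M :=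
  have := h.neZero; cuspVals_mem' h hc

theorem cuspVals_sub_unit (h : IsLevel n M) {c c' : ℂ} (hc : c ∈ cuspVals n M)
    (hc' : c' ∈ cuspVals n M) (hne : c ≠ c') : ∃ u ∈ zr M, (c - c') * u = 1 :=
  have := h.neZero; cuspVals_sub_unit' h hc hc' hne

/-- The Hauptmodul omits its values at the cusps, with inverse differences of the same kind. -/
theorem tFun_sub_unit (h : IsLevel n M) {c : ℂ} (hc : c ∈ cuspVals n M) :
    (∀ z, tFun n M z ≠ c) ∧ MemB n M (zr M) (fun z => (tFun n M z - c)⁻¹) :=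
  have := h.neZero; tFun_sub_unit' h hc

theorem tFun_fibre (h : IsLevel n M) {z z' : ℍ} (he : tFun n M z = tFun n M z') :
    ∃ γ ∈ Gamma n, γ • z = z' :=
  have := h.neZero; tFun_fibre' h he

theorem tFun_deriv_ne_zero (h : IsLevel n M) (z : ℍ) :
    deriv (tFun n M ∘ ofComplex) (z : ℂ) ≠ 0 :=
  have := h.neZero; tFun_deriv_ne_zero' h z

end FLTAgent.Gamma1
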