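/-
The ring of the Hauptmodul of level `n`: `B(S) = S[t, 1/(t - c)]`, with an approximate version
modulo an ideal of `S`.
-/
import Fermat.Agent.Gamma1.Ser
import Fermat.Agent.Gamma1.WpAPI
import Fermat.Agent.Gamma1.MultAPI

/-!
# The ring of the Hauptmodul

With `t = tFun n M` and `h = ∏ (t - c)` over the finite cusp values: an element of `ringB n M S`
without poles at the finite cusps is a polynomial in `t` (`exists_evalT_eq`), and any element
times a power of `h` is one (`exists_cuspH_pow_mul_eq`), so `B(S) = S[t, 1/(t - c)]`.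
`exists_evalT_approx`: modulo an ideal of `S`, a bound on the pole at `∞` bounds the degree.
-/

set_option autoImplicit false
set_option linter.unusedSectionVars false

noncomputable section

open UpperHalfPlane CongruenceSubgroup ModularCurve Polynomial
open scoped MatrixGroups

namespace FLTAgent.Gamma1

open FLTAgent.Modular

variable {n M : ℕ} [NeZero M] {S : Subring ℂ}

section Series

variable {R : Type*} [CommRing R]

/-- All coefficients below `a` vanish. -/
def LowBd (y : LaurentSeries R) (a : ℤ) : Prop := ∀ k < a, y.coeff k = 0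

theorem LowBd.mul {y z : LaurentSeries R} {a b : ℤ} (hy : LowBd y a) (hz : LowBd z b) :
    LowBd (y * z) (a + b) := fun k hk => by
  rw [HahnSeries.coeff_mul]
  refine Finset.sum_eq_zero fun ij hij => ?_
  simp only [Finset.mem_antidiagonal, HahnSeries.mem_support] at hij
  rcases lt_or_ge ij.1 a with h | h
  · rw [hy _ h, zero_mul]
  · rw [hz _ (by omega), mul_zero]

theorem LowBd.mono {y : LaurentSeries R} {a b : ℤ} (hy : LowBd y a) (hb : b ≤ a) : LowBd y b :=
  fun k hk => hy k (lt_of_lt_of_le hk hb)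

theorem LowBd.add {y z : LaurentSeries R} {a : ℤ} (hy : LowBd y a) (hz : LowBd z a) :
    LowBd (y + z) a := fun k hk => by rw [HahnSeries.coeff_add, hy k hk, hz k hk, add_zero]

theorem LowBd.sub {y z : LaurentSeries R} {a : ℤ} (hy : LowBd y a) (hz : LowBd z a) :
    LowBd (y - z) a := fun k hk => by rw [HahnSeries.coeff_sub, hy k hk, hz k hk, sub_zero]

theorem LowBd.zero (a : ℤ) : LowBd (0 : LaurentSeries R) a := fun _ _ => HahnSeries.coeff_zero

theorem lowBd_C (r : R) : LowBd (HahnSeries.C r : LaurentSeries R) 0 := fun k hk => by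
  rw [HahnSeries.C_apply, HahnSeries.coeff_single_of_ne (by omega)]

theorem LowBd.pow {y : LaurentSeries R} {a : ℤ} (hy : LowBd y a) (e : ℕ) :
    LowBd (y ^ e) (e * a) := by
  induction e with
  | zero => simpa using lowBd_C (1 : R)
  | succ e ih =>
    rw [pow_succ]
    push_cast
    rw [add_mul, one_mul]
    exact ih.mul hy

theorem exists_lowBd (y : LaurentSeries R) : ∃ a : ℤ, LowBd y a :=
  ⟨y.order, fun _ hk => HahnSeries.coeff_eq_zero_of_lt_order hk⟩

/-- The coefficient of a product at the sum of the bounds. -/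
theorem coeff_mul_lowBd {y z : LaurentSeries R} {a b : ℤ} (hy : LowBd y a) (hz : LowBd z b) :
    (y * z).coeff (a + b) = y.coeff a * z.coeff b := by
  rw [HahnSeries.coeff_mul]
  refine Finset.sum_eq_single (a, b) (fun ij hij hne => ?_) fun h => ?_
  · simp only [Finset.mem_antidiagonal, HahnSeries.mem_support] at hij
    rcases lt_trichotomy ij.1 a with h | h | h
    · rw [hy _ h, zero_mul]
    · exact absurd (Prod.ext h (by omega)) hne
    · rw [hz _ (by omega), mul_zero]
  · simp only [Finset.mem_antidiagonal, HahnSeries.mem_support, ne_eq, not_and, and_true,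
      not_not] at h
    by_cases hya : y.coeff a = 0
    · rw [hya, zero_mul]
    · rw [h hya, mul_zero]

theorem coeff_pow_lowBd {y : LaurentSeries R} {a : ℤ} (hy : LowBd y a) (e : ℕ) :
    (y ^ e).coeff (e * a) = y.coeff a ^ e := by
  induction e with
  | zero => simp
  | succ e ih =>
    rw [pow_succ, pow_succ, ← ih]
    push_cast
    rw [add_mul, one_mul]
    exact coeff_mul_lowBd (hy.pow e) hy

end Series

/-- The finitely many finite cusp values. -/
def cuspSet (h : IsLevel n M) : Finset ℂ := (cuspVals_finite h).toFinset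

theorem mem_cuspSet {h : IsLevel n M} {c : ℂ} : c ∈ cuspSet h ↔ c ∈ cuspVals n M :=
  Set.Finite.mem_toFinset _

/-- A cusp given by `γ` at which the Hauptmodul has no pole. -/
def IsFiniteCusp (n M : ℕ) (γ : SL(2, ℤ)) : Prop :=
  LowBd (qser M (comp (tFun n M) γ)) 0

theorem memB_const {c : ℂ} (hc : c ∈ S) : MemB n M S fun _ => c :=
  ⟨memR_const hc, fun _ _ => rfl⟩

variable (n M S) in
/-- Constants. -/
def constB : S →+* ringB n M S where
  toFun c := ⟨fun _ => (c : ℂ), memB_const c.2⟩
  map_one' := rfl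
  map_mul' _ _ := rfl
  map_zero' := rfl
  map_add' _ _ := rfl

variable (n M S) in
/-- The expansion at a cusp, on `ringB`. -/
def serB (γ : SL(2, ℤ)) : ringB n M S →+* LaurentSeries ℂ :=
  (serHom M S γ).comp (Subring.inclusion ringB_le)

theorem serB_apply (γ : SL(2, ℤ)) (x : ringB n M S) :
    serB n M S γ x = qser M (comp (x : ℍ → ℂ) γ) := rfl

theorem serB_const (γ : SL(2, ℤ)) (c : S) :
    serB n M S γ (constB n M S c) = HahnSeries.C (c : ℂ) :=
  qser_const (M := M) (c : ℂ)

theorem serB_const_coeff_zero (γ : SL(2, ℤ)) (c : S) :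
    (serB n M S γ (constB n M S c)).coeff 0 = (c : ℂ) := by
  rw [serB_const, HahnSeries.C_apply, HahnSeries.coeff_single_same]

theorem serB_const_coeff_ne (γ : SL(2, ℤ)) (c : S) {k : ℤ} (hk : k ≠ 0) :
    (serB n M S γ (constB n M S c)).coeff k = 0 := by
  rw [serB_const, HahnSeries.C_apply, HahnSeries.coeff_single_of_ne hk]

theorem serB_coeff_mem (γ : SL(2, ℤ)) (x : ringB n M S) (k : ℤ) :
    (serB n M S γ x).coeff k ∈ S := (x.2.1.expansion γ).coeff_mem k

theorem serB_injective (γ : SL(2, ℤ)) : Function.Injective (serB n M S γ) :=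
  (serHom_injective γ).comp (Subring.inclusion_injective _)

theorem serB_left (x : ringB n M S) {δ : SL(2, ℤ)} (hδ : δ ∈ Gamma n) (γ : SL(2, ℤ)) :
    serB n M S (δ * γ) x = serB n M S γ x := by
  rw [serB_apply, serB_apply, ← comp_comp, x.2.2 δ hδ]

variable (h : IsLevel n M) (hS : zr M ≤ S)

/-- The Hauptmodul in `ringB`. -/
def tB : ringB n M S := ⟨tFun n M, (tFun_memB h).1.mono hS, (tFun_memB h).2⟩

/-- Polynomials in the Hauptmodul. -/
def evalT : S[X] →+* ringB n M S := eval₂RingHom (constB n M S) (tB h hS)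

theorem evalT_C (c : S) : evalT h hS (C c) = constB n M S c := eval₂_C _ _

theorem evalT_X : evalT h hS X = tB h hS := eval₂_X _ _

theorem serB_tB (γ : SL(2, ℤ)) :
    serB n M S γ (tB h hS) = qser M (comp (tFun n M) γ) := rfl

/-- The width of the cusp `∞`, in the variable of level `M`. -/
def width (n M : ℕ) : ℤ := ((M / n : ℕ) : ℤ)

include h in
theorem width_pos : 0 < width n M := by
  have hn : 0 < n := by rcases h.aux with rfl | rfl <;> norm_num
  have : 0 < M / n := Nat.div_pos (Nat.le_of_dvd (Nat.pos_of_ne_zero (NeZero.ne M)) h.dvd) hn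
  rw [width]
  exact_mod_cast this

theorem lowBd_tB : LowBd (serB n M S 1 (tB h hS)) (-width n M) := by
  rw [serB_tB, comp_one]
  exact (tFun_leading h).1

theorem tB_unit : ∃ u ∈ S, (serB n M S 1 (tB h hS)).coeff (-width n M) * u = 1 := by
  rw [serB_tB, comp_one]
  obtain ⟨u, hu, he⟩ := (tFun_leading h).2
  exact ⟨u, hS hu, he⟩

theorem lowBd_evalT (P : S[X]) (d : ℕ) (hd : P.natDegree ≤ d) :
    LowBd (serB n M S 1 (evalT h hS P)) (-(d * width n M)) ∧
      (serB n M S 1 (evalT h hS P)).coeff (-(d * width n M)) =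
        (P.coeff d : ℂ) * (serB n M S 1 (tB h hS)).coeff (-width n M) ^ d := by
  induction d generalizing P with
  | zero =>
    rw [eq_C_of_natDegree_le_zero hd, evalT_C, serB_const]
    refine ⟨by simpa using lowBd_C _, ?_⟩
    simp
  | succ d ih =>
    have hsplit : P = C (P.coeff (d + 1)) * X ^ (d + 1) + P.eraseLead.erase (d + 1) +
        (P - C (P.coeff (d + 1)) * X ^ (d + 1) - P.eraseLead.erase (d + 1)) := by ring
    clear hsplit
    set Q := P - C (P.coeff (d + 1)) * X ^ (d + 1) with hQ
    have hQd : Q.natDegree ≤ d := by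
      rw [natDegree_le_iff_coeff_eq_zero]
      intro m hm
      rcases eq_or_lt_of_le (Nat.succ_le_of_lt hm) with h' | h'
      · rw [hQ, coeff_sub, coeff_C_mul_X_pow, if_pos h'.symm, ← h']
        simp
      · rw [hQ, coeff_sub, coeff_C_mul_X_pow, if_neg (by omega),
          coeff_eq_zero_of_natDegree_lt (by omega), sub_zero]
    obtain ⟨hlo, -⟩ := ih Q hQd
    have hP : P = C (P.coeff (d + 1)) * X ^ (d + 1) + Q := by rw [hQ]; ring
    have he : serB n M S 1 (evalT h hS P) = HahnSeries.C ((P.coeff (d + 1) : S) : ℂ) *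
        serB n M S 1 (tB h hS) ^ (d + 1) + serB n M S 1 (evalT h hS Q) := by
      conv_lhs => rw [hP]
      simp [evalT_C, evalT_X, serB_const]
    have hw := width_pos h
    have hlo' : LowBd (serB n M S 1 (evalT h hS Q)) (-(((d + 1 : ℕ) : ℤ) * width n M)) :=
      hlo.mono (by push_cast; nlinarith)
    have hp : LowBd (HahnSeries.C ((P.coeff (d + 1) : S) : ℂ) *
        serB n M S 1 (tB h hS) ^ (d + 1)) (0 + ((d + 1 : ℕ) : ℤ) * -width n M) :=
      (lowBd_C _).mul ((lowBd_tB h hS).pow _)
    rw [zero_add, mul_neg] at hp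
    rw [he]
    refine ⟨hp.add hlo', ?_⟩
    rw [HahnSeries.coeff_add, hlo _ (by push_cast; nlinarith), add_zero]
    have := coeff_mul_lowBd (lowBd_C ((P.coeff (d + 1) : S) : ℂ))
      ((lowBd_tB h hS).pow (d + 1))
    rw [coeff_pow_lowBd (lowBd_tB h hS), zero_add, mul_neg] at this
    rw [this]
    simp

include h in
/-- Only multiples of the width occur at `∞`. -/
theorem width_dvd_of_coeff_ne_zero (x : ringB n M S) {k : ℤ}
    (hk : (serB n M S 1 x).coeff k ≠ 0) : width n M ∣ k := by
  have hn0 : (n : ℤ) ≠ 0 := by rcases h.aux with rfl | rfl <;> norm_num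
  have hTn : ModularGroup.T ^ (n : ℤ) ∈ Gamma n := ModularGroup_T_pow_mem_Gamma n n dvd_rfl
  have hinv := x.2.2 _ hTn
  have hc := qser_comp_T_zpow (hf := x.2.1.expansion 1) (n : ℤ) k
  rw [serB_apply] at hk
  simp only [comp_one] at hc hk
  rw [hinv] at hc
  have hz : zeta M ^ ((n : ℤ) * k) = 1 :=
    mul_right_cancel₀ hk (hc.symm.trans (one_mul _).symm)
  have hprim : IsPrimitiveRoot (zeta M) M := Complex.isPrimitiveRoot_exp M (NeZero.ne M)
  have hd : ((M : ℕ) : ℤ) ∣ (n : ℤ) * k := (hprim.zpow_eq_one_iff_dvd _).mp hz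
  have hM : ((M : ℕ) : ℤ) = (n : ℤ) * width n M := by
    rw [width]
    exact_mod_cast (Nat.mul_div_cancel' h.dvd).symm
  rw [hM] at hd
  exact (mul_dvd_mul_iff_left hn0).mp hd

include h in
/-- At a cusp where the Hauptmodul has a pole, functions of `ringB` look as at `∞`. -/
theorem lowBd_of_not_finite (x : ringB n M S) {a : ℤ} (hx : LowBd (serB n M S 1 x) a)
    {γ : SL(2, ℤ)} (hγ : ¬ IsFiniteCusp n M γ) : LowBd (serB n M S γ x) a := by
  rw [IsFiniteCusp, LowBd] at hγ
  push Not at hγ
  obtain ⟨i, hi⟩ := tFun_pole_class h γ hγ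
  have key : serB n M S γ x = serB n M S (ModularGroup.T ^ (-i)) x := by
    rcases hi with hi | hi
    · rw [← serB_left x hi (ModularGroup.T ^ (-i)), mul_assoc, ← zpow_add, add_neg_cancel, zpow_zero,
        mul_one]
    · rw [← serB_left x hi (ModularGroup.T ^ (-i)), neg_mul, mul_assoc, ← zpow_add, add_neg_cancel,
        zpow_zero, mul_one, serB_apply, serB_apply, comp_neg]
  intro k hk
  have h1 := hx k hk
  rw [serB_apply, comp_one] at h1
  rw [key, serB_apply, qser_comp_T_zpow (hf := (comp_one (x : ℍ → ℂ)) ▸ x.2.1.expansion 1), h1,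
    mul_zero]

/-- Without poles at the finite cusps, an element is a polynomial in the Hauptmodul. -/
theorem exists_evalT_eq (x : ringB n M S)
    (hx : ∀ γ, IsFiniteCusp n M γ → LowBd (serB n M S γ x) 0) :
    ∃ P : S[X], evalT h hS P = x := by
  obtain ⟨a, ha⟩ := exists_lowBd (serB n M S 1 x)
  obtain ⟨d, hd⟩ : ∃ d : ℕ, LowBd (serB n M S 1 x) (-((d : ℤ) * width n M)) := by
    refine ⟨(-a).toNat, ha.mono ?_⟩
    have := width_pos h
    nlinarith [Int.self_le_toNat (-a), Int.natCast_nonneg (-a).toNat, width_pos h]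
  clear ha
  induction d generalizing x with
  | zero =>
    have hall : ∀ γ : SL(2, ℤ), LowBd (serB n M S γ x) 0 := fun γ => by
      by_cases hγ : IsFiniteCusp n M γ
      · exact hx γ hγ
      · exact lowBd_of_not_finite h x (by simpa using hd) hγ
    obtain ⟨c, hc⟩ := eq_const_of_noPole h.three_le (x.2.1.mono le_top) fun γ k hk => hall γ k hk
    have hcS : c ∈ S := by
      have := (x.2.1.expansion 1).coeff_mem 0
      rwa [hc, show comp (fun _ : ℍ => c) 1 = fun _ => c from rfl, qser_const, HahnSeries.C_apply, HahnSeries.coeff_single_same] at this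
    exact ⟨C ⟨c, hcS⟩, by rw [evalT_C]; exact Subtype.ext hc.symm⟩
  | succ d ih =>
    obtain ⟨u, hu, hlu⟩ := tB_unit h hS
    set s : ℂ := (serB n M S 1 x).coeff (-(((d + 1 : ℕ) : ℤ) * width n M)) * u ^ (d + 1) with hs
    have hsS : s ∈ S := S.mul_mem (serB_coeff_mem _ _ _) (S.pow_mem hu _)
    set m : S[X] := monomial (d + 1) ⟨s, hsS⟩ with hm
    have hmd : m.natDegree ≤ d + 1 := natDegree_monomial_le _
    obtain ⟨hlo, htop⟩ := lowBd_evalT h hS m (d + 1) hmd
    set x' := x - evalT h hS m with hx'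
    have hfin : ∀ γ, IsFiniteCusp n M γ → LowBd (serB n M S γ x') 0 := fun γ hγ => by
      rw [hx', map_sub]
      refine (hx γ hγ).sub ?_
      rw [hm, ← C_mul_X_pow_eq_monomial, map_mul, map_mul, map_pow, map_pow, evalT_C, evalT_X,
        serB_const]
      have := (lowBd_C s).mul ((show LowBd (serB n M S γ (tB h hS)) 0 from hγ).pow (d + 1))
      simpa using this
    have hd' : LowBd (serB n M S 1 x') (-((d : ℤ) * width n M)) := by
      intro k hk
      have hw := width_pos h
      by_cases hk1 : k < -(((d + 1 : ℕ) : ℤ) * width n M)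
      · rw [hx', map_sub, HahnSeries.coeff_sub, hd k hk1, hlo k hk1, sub_zero]
      · by_contra hne
        obtain ⟨e, he⟩ := width_dvd_of_coeff_ne_zero h x' hne
        subst he
        push Not at hk1
        push_cast at hk1
        have h1 : -((d : ℤ) + 1) ≤ e := le_of_mul_le_mul_left (by linarith) hw
        have h2 : e < -(d : ℤ) := lt_of_mul_lt_mul_left (by linarith) hw.le
        obtain rfl : e = -((d : ℤ) + 1) := by omega
        apply hne
        have harg : width n M * -((d : ℤ) + 1) = -(((d + 1 : ℕ) : ℤ) * width n M) := by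
          push_cast; ring
        rw [harg, hx', map_sub, HahnSeries.coeff_sub, htop, hm, coeff_monomial, if_pos rfl]
        show _ - s * _ = 0
        rw [hs, mul_assoc, ← mul_pow, mul_comm u, hlu, one_pow, mul_one, sub_self]
    obtain ⟨P, hP⟩ := ih x' hfin hd'
    exact ⟨P + m, by rw [map_add, hP, hx', sub_add_cancel]⟩

include h hS in
theorem cusp_mem {c : ℂ} (hc : c ∈ cuspVals n M) : c ∈ S := hS (cuspVals_mem h hc)

/-- The inverse of `t - c`. -/
def invSub {c : ℂ} (hc : c ∈ cuspVals n M) : ringB n M S :=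
  ⟨fun z => (tFun n M z - c)⁻¹, (tFun_sub_unit h hc).2.1.mono hS, (tFun_sub_unit h hc).2.2⟩

theorem sub_mul_invSub {c : ℂ} (hc : c ∈ cuspVals n M) :
    (tB h hS - constB n M S ⟨c, cusp_mem h hS hc⟩) * invSub h hS hc = 1 :=
  Subtype.ext (funext fun z => mul_inv_cancel₀ (sub_ne_zero.mpr ((tFun_sub_unit h hc).1 z)))

/-- `h = ∏ (t - c)`. -/
def cuspH : ringB n M S :=
  ∏ c ∈ (cuspSet h).attach,
    (tB h hS - constB n M S ⟨c, cusp_mem h hS (mem_cuspSet.mp c.2)⟩)

theorem lowBd_sub_at {γ : SL(2, ℤ)} (hγ : IsFiniteCusp n M γ) {c : ℂ} (hc : c ∈ S) :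
    LowBd (serB n M S γ (tB h hS - constB n M S ⟨c, hc⟩)) 0 := by
  rw [map_sub, serB_const]
  exact (show LowBd (serB n M S γ (tB h hS)) 0 from hγ).sub (lowBd_C c)

theorem lowBd_sub_self {γ : SL(2, ℤ)} (hγ : IsFiniteCusp n M γ) {c : ℂ} (hc : c ∈ S)
    (he : c = (qser M (comp (tFun n M) γ)).coeff 0) :
    LowBd (serB n M S γ (tB h hS - constB n M S ⟨c, hc⟩)) 1 := by
  intro k hk
  rcases lt_or_eq_of_le (show k ≤ 0 by omega) with hk0 | rfl
  · exact lowBd_sub_at h hS hγ hc k hk0
  · rw [map_sub, serB_const, HahnSeries.coeff_sub, HahnSeries.C_apply,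
      HahnSeries.coeff_single_same, serB_tB, ← he, sub_self]

theorem cusp_val_mem {γ : SL(2, ℤ)} (hγ : IsFiniteCusp n M γ) :
    (qser M (comp (tFun n M) γ)).coeff 0 ∈ cuspVals n M := ⟨γ, hγ, rfl⟩

theorem lowBd_cuspH {γ : SL(2, ℤ)} (hγ : IsFiniteCusp n M γ) :
    LowBd (serB n M S γ (cuspH h hS)) 1 := by
  have hc := (mem_cuspSet (h := h)).mpr (cusp_val_mem hγ)
  rw [cuspH, map_prod,
    ← Finset.mul_prod_erase _ _ (Finset.mem_attach _ ⟨_, hc⟩)]
  have : ∀ s : Finset {x // x ∈ cuspSet h},
      LowBd (∏ c ∈ s, serB n M S γ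
        (tB h hS - constB n M S ⟨c, cusp_mem h hS (mem_cuspSet.mp c.2)⟩)) 0 := by
    intro s
    induction s using Finset.induction_on with
    | empty => simpa using lowBd_C (1 : ℂ)
    | insert a s ha ih =>
      rw [Finset.prod_insert ha]
      simpa using (lowBd_sub_at h hS hγ _).mul ih
  simpa using (lowBd_sub_self h hS hγ _ rfl).mul (this _)

/-- Representatives of all cusps. -/
def cuspReps (M : ℕ) [NeZero M] (g : SL(2, ZMod M)) : SL(2, ℤ) := (exists_lift_SL M g).choose

theorem exists_cuspRep (γ : SL(2, ℤ)) :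
    ∃ g : SL(2, ZMod M), ∀ (f : ℍ → ℂ) (T : Subring ℂ), MemR M T f →
      comp f (cuspReps M g) = comp f γ :=
  ⟨Matrix.SpecialLinearGroup.map (Int.castRingHom (ZMod M)) γ, fun _ _ hf =>
    hf.comp_eq_of_cast_eq fun i j => (exists_lift_SL M _).choose_spec i j⟩

/-- The structure of `ringB`. -/
theorem exists_cuspH_pow_mul_eq (x : ringB n M S) :
    ∃ (e : ℕ) (P : S[X]), cuspH h hS ^ e * x = evalT h hS P := by
  classical
  choose a ha using fun g : SL(2, ZMod M) => exists_lowBd (serB n M S (cuspReps M g) x)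
  set e : ℕ := Finset.univ.sup fun g : SL(2, ZMod M) => (-a g).toNat with he
  refine ⟨e, ?_⟩
  obtain ⟨P, hP⟩ := exists_evalT_eq h hS (cuspH h hS ^ e * x) fun γ hγ => by
    obtain ⟨g, hg⟩ := exists_cuspRep (M := M) γ
    have h1 : LowBd (serB n M S γ x) (a g) := by
      have := ha g
      rwa [serB_apply, hg _ _ x.2.1, ← serB_apply] at this
    rw [map_mul, map_pow]
    refine ((lowBd_cuspH h hS hγ).pow e).mul h1 |>.mono ?_
    have : (-a g).toNat ≤ e := he ▸ Finset.le_sup (f := fun g => (-a g).toNat) (Finset.mem_univ g)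
    omega
  exact ⟨P, hP.symm⟩

section Approx

/-- Congruence of series modulo an ideal of coefficients. -/
def CongMod (I : Ideal S) (γ : SL(2, ℤ)) (x : ringB n M S) (a : ℤ) : Prop :=
  LowBd (coeffMap (Ideal.Quotient.mk I) (serS M S γ (Subring.inclusion ringB_le x))) a

variable {I : Ideal S}

theorem congMod_iff {γ : SL(2, ℤ)} {x : ringB n M S} {a : ℤ} :
    CongMod I γ x a ↔ ∀ k < a, ⟨(serB n M S γ x).coeff k, serB_coeff_mem γ x k⟩ ∈ I := by
  refine forall₂_congr fun k _ => ?_
  rw [coeffMap_coeff, Ideal.Quotient.eq_zero_iff_mem]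
  rfl

theorem congMod_of_lowBd {γ : SL(2, ℤ)} {x : ringB n M S} {a : ℤ}
    (hx : LowBd (serB n M S γ x) a) : CongMod I γ x a :=
  congMod_iff.mpr fun k hk => by
    convert I.zero_mem
    exact hx k hk

theorem CongMod.mul {γ : SL(2, ℤ)} {x y : ringB n M S} {a b : ℤ} (hx : CongMod I γ x a)
    (hy : CongMod I γ y b) : CongMod I γ (x * y) (a + b) := by
  simp only [CongMod, map_mul] at *
  exact LowBd.mul hx hy

theorem CongMod.sub {γ : SL(2, ℤ)} {x y : ringB n M S} {a : ℤ} (hx : CongMod I γ x a)
    (hy : CongMod I γ y a) : CongMod I γ (x - y) a := by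
  simp only [CongMod, map_sub] at *
  exact LowBd.sub hx hy

/-- The product of `t - c` over a list of cusp values. -/
def cuspList (l : List {c : ℂ // c ∈ cuspVals n M}) : ringB n M S :=
  (l.map fun c => tB h hS - constB n M S ⟨c.1, cusp_mem h hS c.2⟩).prod

/-- The product of `(t - c)⁻¹` over a list of cusp values. -/
def cuspListInv (l : List {c : ℂ // c ∈ cuspVals n M}) : ringB n M S :=
  (l.map fun c => invSub h hS c.2).prod

theorem cuspList_mul_inv (l : List {c : ℂ // c ∈ cuspVals n M}) :
    cuspList h hS l * cuspListInv h hS l = 1 := by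
  induction l with
  | nil => simp [cuspList, cuspListInv]
  | cons c l ih =>
    simp only [cuspList, cuspListInv, List.map_cons, List.prod_cons] at ih ⊢
    rw [mul_mul_mul_comm, sub_mul_invSub, one_mul, ih]

variable (I) in
/-- All expansions lie in the ideal. -/
def RedZero (x : ringB n M S) : Prop :=
  ∀ γ, coeffMap (Ideal.Quotient.mk I) (serS M S γ (Subring.inclusion ringB_le x)) = 0

theorem RedZero.congMod {x : ringB n M S} (hx : RedZero I x) (γ : SL(2, ℤ)) (a : ℤ) :
    CongMod I γ x a := by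
  rw [CongMod, hx γ]
  exact LowBd.zero a

theorem RedZero.add {x y : ringB n M S} (hx : RedZero I x) (hy : RedZero I y) :
    RedZero I (x + y) := fun γ => by
  simp only [map_add, hx γ, hy γ, add_zero]

theorem redZero_const_mul {q : S} (hq : q ∈ I) (x : ringB n M S) :
    RedZero I (constB n M S q * x) := fun γ => by
  simp only [map_mul]
  have : coeffMap (Ideal.Quotient.mk I)
      (serS M S γ (Subring.inclusion ringB_le (constB n M S q))) = 0 := by
    ext k
    rw [coeffMap_coeff, HahnSeries.coeff_zero, Ideal.Quotient.eq_zero_iff_mem]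
    rcases eq_or_ne k 0 with rfl | hk
    · convert hq
      exact Subtype.ext (serB_const_coeff_zero γ q)
    · convert I.zero_mem
      exact Subtype.ext (serB_const_coeff_ne γ q hk)
  rw [this, zero_mul]

theorem congMod_cuspList {γ : SL(2, ℤ)} (hγ : IsFiniteCusp n M γ)
    (l : List {c : ℂ // c ∈ cuspVals n M}) : CongMod I γ (cuspList h hS l) 0 := by
  refine congMod_of_lowBd ?_
  induction l with
  | nil => simpa [cuspList] using lowBd_C (1 : ℂ)
  | cons c l ih =>
    simp only [cuspList, List.map_cons, List.prod_cons, map_mul] at ih ⊢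
    simpa using (lowBd_sub_at h hS hγ _).mul ih

theorem congMod_evalT {γ : SL(2, ℤ)} (hγ : IsFiniteCusp n M γ) (P : S[X]) :
    CongMod I γ (evalT h hS P) 0 := by
  refine congMod_of_lowBd ?_
  induction P using Polynomial.induction_on' with
  | add p q hp hq => rw [map_add, map_add]; exact hp.add hq
  | monomial d r =>
    rw [← C_mul_X_pow_eq_monomial, map_mul, map_mul, map_pow, map_pow, evalT_C, evalT_X,
      serB_const]
    simpa using (lowBd_C (r : ℂ)).mul ((show LowBd (serB n M S γ (tB h hS)) 0 from hγ).pow d)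

/-- Modulo an ideal, an element without poles at the finite cusps is a polynomial. -/
theorem exists_evalT_sub_list (l : List {c : ℂ // c ∈ cuspVals n M}) (x : ringB n M S)
    (P : S[X]) (hP : cuspList h hS l * x = evalT h hS P)
    (hx : ∀ γ, IsFiniteCusp n M γ → CongMod I γ x 0) :
    ∃ Q : S[X], RedZero I (x - evalT h hS Q) := by
  induction l generalizing x P with
  | nil =>
    refine ⟨P, ?_⟩
    simp only [cuspList, List.map_nil, List.prod_nil, one_mul] at hP
    rw [hP, sub_self]
    exact fun γ => by simp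
  | cons c l ih =>
    set c' : S := ⟨c.1, cusp_mem h hS c.2⟩ with hc'
    set q : S := P.eval c' with hq
    obtain ⟨P', hP'⟩ := X_sub_C_dvd_sub_C_eval (p := P) (a := c')
    rw [sub_eq_iff_eq_add] at hP'
    have hcons : cuspList h hS (c :: l) =
        (tB h hS - constB n M S c') * cuspList h hS l := by simp [cuspList, hc']
    have heq : (tB h hS - constB n M S c') * (cuspList h hS l * x - evalT h hS P') =
        constB n M S q := by
      rw [mul_sub, ← mul_assoc, ← hcons, hP, hP', map_add, map_mul, map_sub, evalT_X, evalT_C,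
        evalT_C]
      ring
    have hqI : q ∈ I := by
      obtain ⟨γ, hγ, hcγ⟩ := c.2
      have h1 : CongMod I γ (tB h hS - constB n M S c') 1 :=
        congMod_of_lowBd (lowBd_sub_self h hS hγ _ hcγ)
      have h2 := h1.mul (((congMod_cuspList h hS hγ l).mul (hx γ hγ)).sub
        (by simpa using congMod_evalT h hS hγ P'))
      rw [heq] at h2
      have h3 := congMod_iff.mp h2 0 (by norm_num)
      convert h3
      exact (serB_const_coeff_zero γ q).symm
    set x' := x - constB n M S q * (invSub h hS c.2 * cuspListInv h hS l) with hx'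
    have hP1 : cuspList h hS l * x' = evalT h hS P' := by
      have h1 : cuspList h hS l * x - evalT h hS P' = constB n M S q * invSub h hS c.2 := by
        rw [← heq, mul_comm (tB h hS - _), mul_assoc, sub_mul_invSub, mul_one]
      rw [hx', mul_sub, mul_left_comm (cuspList h hS l), mul_left_comm (cuspList h hS l),
        cuspList_mul_inv, mul_one, ← h1, sub_sub_cancel]
    have hz := redZero_const_mul hqI (invSub h hS c.2 * cuspListInv h hS l)
    obtain ⟨Q, hQ⟩ := ih x' P' hP1 fun γ hγ => (hx γ hγ).sub (hz.congMod γ 0)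
    refine ⟨Q, ?_⟩
    have := hQ.add hz
    rwa [hx', sub_right_comm, sub_add_cancel] at this

/-- Modulo an ideal, bounded poles give bounded degree. -/
theorem exists_evalT_approx (x : ringB n M S) (N : ℕ)
    (hx : ∀ γ, IsFiniteCusp n M γ → CongMod I γ x 0)
    (hinf : CongMod I 1 x (-((N : ℤ) * width n M))) :
    ∃ Q : S[X], Q.natDegree ≤ N ∧ RedZero I (x - evalT h hS Q) := by
  classical
  obtain ⟨e, P, hP⟩ := exists_cuspH_pow_mul_eq h hS x
  obtain ⟨l, hl⟩ : ∃ l, cuspList h hS l = cuspH h hS ^ e := by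
    clear hP
    induction e with
    | zero => exact ⟨[], by simp [cuspList]⟩
    | succ e ih =>
      obtain ⟨l, hl⟩ := ih
      refine ⟨(cuspSet h).attach.toList.map (fun c => ⟨c.1, mem_cuspSet.mp c.2⟩) ++ l, ?_⟩
      rw [pow_succ', ← hl]
      simp [cuspList, cuspH, List.map_map, Function.comp_def, Finset.prod_map_toList]
  obtain ⟨Q, hQ⟩ := exists_evalT_sub_list h hS l x P (by rw [hl, hP]) hx
  obtain ⟨D, hD⟩ : ∃ D, Q.natDegree ≤ N + D := ⟨Q.natDegree, by omega⟩
  induction D generalizing Q with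
  | zero => exact ⟨Q, hD, hQ⟩
  | succ D ih =>
    set d := N + (D + 1) with hd
    obtain ⟨-, htop⟩ := lowBd_evalT h hS Q d hD
    obtain ⟨u, hu, hlu⟩ := tB_unit h hS
    have hlt : -((d : ℤ) * width n M) < -((N : ℤ) * width n M) := by
      have := width_pos h
      have : (N : ℤ) < d := by omega
      nlinarith
    have h1 : CongMod I 1 (evalT h hS Q) (-((N : ℤ) * width n M)) := by
      have := hinf.sub (hQ.congMod 1 _)
      rwa [sub_sub_cancel] at this
    have h2 := congMod_iff.mp h1 _ hlt
    have hmem : Q.coeff d ∈ I := by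
      have := I.mul_mem_right (⟨u, hu⟩ ^ d) h2
      convert this
      refine Subtype.ext ?_
      show (Q.coeff d : ℂ) =
        (serB n M S 1 (evalT h hS Q)).coeff (-((d : ℤ) * width n M)) * u ^ d
      rw [htop, mul_assoc, ← mul_pow, hlu, one_pow, mul_one]
    refine ih (Q - monomial d (Q.coeff d)) ?_ ?_
    · have hz := redZero_const_mul hmem (tB h hS ^ d)
      have := hQ.add hz
      rw [map_sub, ← C_mul_X_pow_eq_monomial, map_mul, map_pow, evalT_C, evalT_X]
      convert this using 1
      ring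
    · rw [natDegree_le_iff_coeff_eq_zero]
      intro m hm
      rw [coeff_sub, coeff_monomial]
      by_cases hmd : d = m
      · rw [if_pos hmd, hmd, sub_self]
      · rw [if_neg hmd, sub_zero]
        exact coeff_eq_zero_of_natDegree_lt (by omega)

end Approx

end FLTAgent.Gamma1
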