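/-
Interpolation: an explicit frame of the functions of level `Γ(M)` over those of level `Γ(n)`.
-/
import Fermat.Agent.Gamma1.Base

/-!
# A frame of level `M` functions over level `n`

`exists_frame`: finitely many pairs `(eᵢ, mᵢ)` of functions generated by ratios with
`f = ∑ᵢ tr(f eᵢ) mᵢ` for all functions `f` of level `M`. It comes from a kernel (`HasKernel`) that
is `1` on the sheets `±1` and vanishes on the others: a product of interpolation factors in the
coordinates `xV` (`exists_kernel_sep`), normalised by the number of signs (`signs_card_unit`).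
-/

set_option autoImplicit false
set_option linter.unusedSectionVars false

noncomputable section

open UpperHalfPlane CongruenceSubgroup ModularCurve
open scoped MatrixGroups

namespace FLTAgent.Gamma1

open FLTAgent.Modular

variable {n M : ℕ} [NeZero M] {S : Subring ℂ}

/-- Reduction modulo `M`. -/
def redM (M : ℕ) : SL(2, ℤ) →* SL(2, ZMod M) :=
  Matrix.SpecialLinearGroup.map (Int.castRingHom (ZMod M))

theorem redM_apply (γ : SL(2, ℤ)) (i j : Fin 2) : redM M γ i j = ((γ i j : ℤ) : ZMod M) := rfl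

/-- The image of `Γ(n)` modulo `M`. -/
def sheetGrp (n M : ℕ) : Subgroup (SL(2, ZMod M)) := (Gamma n).map (redM M)

instance fintype_sheetGrp : Fintype (sheetGrp n M) := Fintype.ofFinite _

/-- A lift in `Γ(n)`. -/
def sheetLift (g : sheetGrp n M) : SL(2, ℤ) := g.2.choose

theorem sheetLift_mem (g : sheetGrp n M) : sheetLift g ∈ Gamma n := g.2.choose_spec.1

theorem redM_sheetLift (g : sheetGrp n M) : redM M (sheetLift g) = g := g.2.choose_spec.2

theorem MemR.comp_eq_of_redM_eq {f : ℍ → ℂ} (hf : MemR M S f) {γ δ : SL(2, ℤ)}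
    (h : redM M γ = redM M δ) : comp f γ = comp f δ :=
  hf.comp_eq_of_cast_eq fun i j => by rw [← redM_apply, h, redM_apply]

/-- The action of the sheets. -/
def act (g : sheetGrp n M) (f : ℍ → ℂ) : ℍ → ℂ := comp f (sheetLift g)

theorem act_eq_comp {f : ℍ → ℂ} (hf : MemR M S f) {γ : SL(2, ℤ)} {g : sheetGrp n M}
    (hg : redM M γ = g) : act g f = comp f γ :=
  hf.comp_eq_of_redM_eq ((redM_sheetLift g).trans hg.symm)

theorem act_one {f : ℍ → ℂ} (hf : MemR M S f) : act (1 : sheetGrp n M) f = f := by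
  rw [act_eq_comp hf (γ := 1) (by simp), comp_one]

theorem MemR.act (g : sheetGrp n M) {f : ℍ → ℂ} (hf : MemR M S f) :
    MemR M S (act g f) := hf.comp_sl _

/-- `g = ±1`. -/
def IsSign {n M : ℕ} (g : sheetGrp n M) : Prop :=
  ∀ (T : Subring ℂ) (f : ℍ → ℂ), MemR M T f → Gamma1.act g f = f

theorem isSign_of_pm {g : sheetGrp n M}
    (hg : (g : SL(2, ZMod M)) = 1 ∨ (g : SL(2, ZMod M)) = -1) : IsSign g := by
  intro T f hf
  rcases hg with hg | hg
  · rw [act_eq_comp hf (γ := 1) (by rw [map_one, hg]), comp_one]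
  · rw [act_eq_comp hf (γ := -1) ?_, comp_neg, comp_one]
    rw [hg]
    ext i j
    fin_cases i <;> fin_cases j <;> simp [redM]

/-- The right action on pairs modulo `M`. -/
def vecMulM (v : Vec M) (g : SL(2, ZMod M)) : Vec M :=
  (v.1 * g 0 0 + v.2 * g 1 0, v.1 * g 0 1 + v.2 * g 1 1)

theorem vecMulZ_eq (v : Vec M) (γ : SL(2, ℤ)) : vecMulZ v γ = vecMulM v (redM M γ) := rfl

theorem vecMulM_mul (v : Vec M) (g g' : SL(2, ZMod M)) :
    vecMulM v (g * g') = vecMulM (vecMulM v g) g' := by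
  ext <;> simp [vecMulM, Matrix.SpecialLinearGroup.coe_mul, Matrix.mul_apply, Fin.sum_univ_two] <;>
    ring

theorem vecMulM_one (v : Vec M) : vecMulM v 1 = v := by
  ext <;> simp [vecMulM]

theorem vecMulM_neg_left (v : Vec M) (g : SL(2, ZMod M)) :
    vecMulM (-v) g = -vecMulM v g := by
  ext <;> simp [vecMulM] <;> ring

theorem wp_neg (v : Vec M) (z : ℍ) : wp (-v) z = wp v z := by
  have h := wp_smul v (-1) z
  rw [ModularGroup.SL_neg_smul, one_smul] at h
  rw [h]
  simp [vecMulZ]
  rfl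

theorem ratio_zero_left {v w : Vec M} (hvw : v = w ∨ v = -w) (v' w' : Vec M) :
    ratio v w v' w' = 0 := by
  funext z
  rcases hvw with rfl | rfl <;> simp [ratio, wpDiff, wp_neg]

variable (h : IsLevel n M)

/-- The level `n` points used as references. -/
def refB (n M : ℕ) : Vec M := base n M 1 0

/-- The level `n` points used as references. -/
def refC (n M : ℕ) : Vec M := base n M 1 1

include h in
theorem sep_ref : Sep (refC n M) (refB n M) := (sep_base h).2

include h in
theorem sep_ref' : Sep (refB n M) (refC n M) := by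
  obtain ⟨h1, h2, h3, h4⟩ := sep_ref h
  exact ⟨h2, h1, fun e => h3 e.symm, fun e => h4 (by rw [e, neg_neg])⟩

include h in
theorem vecMulZ_base {γ : SL(2, ℤ)} (hγ : γ ∈ Gamma n) (x y : ℕ) :
    vecMulZ (base n M x y) γ = base n M x y := by
  have hM : ((n * (M / n) : ℕ) : ZMod M) = 0 := by
    rw [Nat.mul_div_cancel' h.dvd]; exact ZMod.natCast_self M
  push_cast at hM
  rw [Gamma_mem] at hγ
  obtain ⟨h00, h01, h10, h11⟩ := hγ
  have key : ∀ a b : ℤ, (a : ZMod n) = (b : ZMod n) →
      ((M / n : ℕ) : ZMod M) * (a : ZMod M) = ((M / n : ℕ) : ZMod M) * (b : ZMod M) := by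
    intro a b hab
    obtain ⟨k, hk⟩ := (ZMod.intCast_eq_intCast_iff_dvd_sub a b n).mp hab
    have hb : (b : ZMod M) = (a : ZMod M) + (n : ZMod M) * (k : ZMod M) := by
      rw [show b = a + (n : ℤ) * k by linarith]; push_cast; ring
    rw [hb]
    linear_combination -(k : ZMod M) * hM
  have e00 := key _ 1 (by exact_mod_cast h00)
  have e01 := key _ 0 (by exact_mod_cast h01)
  have e10 := key _ 0 (by exact_mod_cast h10)
  have e11 := key _ 1 (by exact_mod_cast h11)
  simp only [Int.cast_one, Int.cast_zero, mul_one, mul_zero] at e00 e01 e10 e11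
  ext <;> simp only [vecMulZ, base, Nat.cast_mul]
  · linear_combination (x : ZMod M) * e00 + (y : ZMod M) * e10
  · linear_combination (x : ZMod M) * e01 + (y : ZMod M) * e11

/-- The coordinate `(℘_v - ℘_b) / (℘_c - ℘_b)`. -/
def xV (n : ℕ) {M : ℕ} (v : Vec M) : ℍ → ℂ := ratio v (refB n M) (refC n M) (refB n M)

include h in
theorem memR_xV {v : Vec M} (hv : v ≠ 0) : MemR M (zr M) (xV n v) := by
  by_cases hd : v = refB n M ∨ v = -refB n M
  · rw [xV, ratio_zero_left hd]
    exact (ringR M (zr M)).zero_mem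
  · push Not at hd
    exact ratio_mem h.three_le ⟨hv, (sep_ref' h).1, hd.1, hd.2⟩ (sep_ref h)

include h in
theorem act_xV (g : sheetGrp n M) (v : Vec M) :
    act g (xV n v) = xV n (vecMulM v g) := by
  rw [act, xV, ratio_comp, vecMulZ_eq v, redM_sheetLift, refB, refC,
    vecMulZ_base h (sheetLift_mem g), vecMulZ_base h (sheetLift_mem g)]
  rfl

include h in
theorem xV_sub_mul {v w : Vec M} (hvw : Sep v w) :
    (xV n v - xV n w) * ratio (refC n M) (refB n M) v w = 1 := by
  funext z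
  have h1 := wpDiff_ne_zero hvw z
  have h2 := wpDiff_ne_zero (sep_ref h) z
  simp only [wpDiff] at h1 h2
  simp only [xV, ratio, wpDiff, Pi.mul_apply, Pi.sub_apply, Pi.one_apply]
  field_simp
  ring

/-- The functions generated by ratios and the constants of `ℤ[ζ, 1/M]`. -/
def genR (M : ℕ) : Subring (ℍ → ℂ) :=
  Subring.closure ({f | ∃ v w v' w' : Vec M, Sep v w ∧ Sep v' w' ∧ f = ratio v w v' w'} ∪
    {f | ∃ c ∈ zr M, f = fun _ => c})

include h in
theorem genR_le : genR M ≤ ringR M (zr M) := by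
  refine Subring.closure_le.mpr ?_
  rintro f (⟨v, w, v', w', h1, h2, rfl⟩ | ⟨c, hc, rfl⟩)
  exacts [ratio_mem h.three_le h1 h2, memR_const hc]

theorem ratio_mem_genR {v w v' w' : Vec M} (h1 : Sep v w) (h2 : Sep v' w') :
    ratio v w v' w' ∈ genR M :=
  Subring.subset_closure (Or.inl ⟨v, w, v', w', h1, h2, rfl⟩)

theorem const_mem_genR {c : ℂ} (hc : c ∈ zr M) : (fun _ => c) ∈ genR M :=
  Subring.subset_closure (Or.inr ⟨c, hc, rfl⟩)

include h in
theorem xV_mem_genR {v : Vec M} (hv : v ≠ 0) : xV n v ∈ genR M := by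
  by_cases hd : v = refB n M ∨ v = -refB n M
  · rw [xV, ratio_zero_left hd]
    exact (genR M).zero_mem
  · push Not at hd
    exact ratio_mem_genR ⟨hv, (sep_ref' h).1, hd.1, hd.2⟩ (sep_ref h)

/-- A family `(eᵢ, mᵢ)` with `Σ eᵢ(g z) mᵢ(z)` equal to `f g`. -/
def HasKernel (f : sheetGrp n M → ℍ → ℂ) : Prop :=
  ∃ (ι : Type) (_ : Fintype ι) (e m : ι → genR M),
    ∀ g : sheetGrp n M, (∑ i, act g (e i : ℍ → ℂ) * (m i : ℍ → ℂ)) = f g

theorem HasKernel.mul {f f' : sheetGrp n M → ℍ → ℂ} (hf : HasKernel f) (hf' : HasKernel f') :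
    HasKernel (f * f') := by
  obtain ⟨ι, _, e, m, hk⟩ := hf
  obtain ⟨ι', _, e', m', hk'⟩ := hf'
  refine ⟨ι × ι', inferInstance, fun i => e i.1 * e' i.2, fun i => m i.1 * m' i.2, fun g => ?_⟩
  rw [Pi.mul_apply, ← hk g, ← hk' g, Finset.sum_mul_sum, Fintype.sum_prod_type]
  refine Finset.sum_congr rfl fun i _ => Finset.sum_congr rfl fun j _ => ?_
  simp only [act, ← compHom_apply, Subring.coe_mul, map_mul]
  ring

theorem hasKernel_const {c : ℂ} (hc : c ∈ zr M) :
    HasKernel (fun (_ : sheetGrp n M) (_ : ℍ) => c) := by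
  refine ⟨Unit, inferInstance, fun _ => ⟨fun _ => c, const_mem_genR hc⟩, fun _ => 1, fun g => ?_⟩
  simp
  rfl

theorem HasKernel.prod {κ : Type} (s : Finset κ) (f : κ → sheetGrp n M → ℍ → ℂ)
    (hf : ∀ k ∈ s, HasKernel (f k)) : HasKernel (∏ k ∈ s, f k) := by
  classical
  induction s using Finset.induction_on with
  | empty =>
    rw [Finset.prod_empty]
    exact hasKernel_const (zr M).one_mem
  | insert a s ha ih =>
    rw [Finset.prod_insert ha]
    exact (hf a (Finset.mem_insert_self a s)).mul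
      (ih fun k hk => hf k (Finset.mem_insert_of_mem hk))

include h in
theorem two_ne_zero' : (2 : ZMod M) ≠ 0 := by
  intro h2
  have hd : M ∣ 2 := (ZMod.natCast_eq_zero_iff 2 M).mp (by exact_mod_cast h2)
  have := Nat.le_of_dvd two_pos hd
  have := h.three_le
  omega

include h in
/-- The two first vectors detect `±1`. -/
theorem eq_pm_one_of_fix {g : SL(2, ZMod M)}
    (h1 : vecMulM ((1 : ZMod M), (0 : ZMod M)) g = (1, 0) ∨
      vecMulM ((1 : ZMod M), (0 : ZMod M)) g = -((1 : ZMod M), (0 : ZMod M)))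
    (h2 : vecMulM ((0 : ZMod M), (1 : ZMod M)) g = (0, 1) ∨
      vecMulM ((0 : ZMod M), (1 : ZMod M)) g = -((0 : ZMod M), (1 : ZMod M))) :
    g = 1 ∨ g = -1 := by
  have hdet : g 0 0 * g 1 1 - g 0 1 * g 1 0 = 1 := by
    rw [← Matrix.det_fin_two]; exact g.2
  simp only [vecMulM, Prod.ext_iff, one_mul, zero_mul, add_zero, zero_add, Prod.fst_neg,
    Prod.snd_neg, neg_zero] at h1 h2
  have h20 := two_ne_zero' h
  rcases h1 with ⟨a, b⟩ | ⟨a, b⟩ <;> rcases h2 with ⟨c, d⟩ | ⟨c, d⟩
  · left; ext i j; fin_cases i <;> fin_cases j <;> simp [a, b, c, d]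
  · rw [a, b, c, d] at hdet
    exact absurd (by linear_combination -hdet) h20
  · rw [a, b, c, d] at hdet
    exact absurd (by linear_combination -hdet) h20
  · right; ext i j; fin_cases i <;> fin_cases j <;> simp [a, b, c, d]

include h in
theorem e10_ne_zero : ((1 : ZMod M), (0 : ZMod M)) ≠ 0 ∧ ((0 : ZMod M), (1 : ZMod M)) ≠ 0 := by
  have : Fact (1 < M) := ⟨by have := h.three_le; omega⟩
  constructor <;> simp [Prod.ext_iff]

include h in
theorem exists_moved {g₀ : sheetGrp n M}
    (hg₀ : ¬((g₀ : SL(2, ZMod M)) = 1 ∨ (g₀ : SL(2, ZMod M)) = -1)) :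
    ∃ v : Vec M, v ≠ 0 ∧ ¬(vecMulM v (g₀ : SL(2, ZMod M)) = v ∨
      vecMulM v (g₀ : SL(2, ZMod M)) = -v) := by
  by_contra hc
  push Not at hc
  refine hg₀ (eq_pm_one_of_fix h ?_ ?_)
  · exact hc _ (e10_ne_zero h).1
  · exact hc _ (e10_ne_zero h).2

include h in
theorem exists_kernel_sep (g₀ : sheetGrp n M)
    (hg₀ : ¬((g₀ : SL(2, ZMod M)) = 1 ∨ (g₀ : SL(2, ZMod M)) = -1)) :
    ∃ f : sheetGrp n M → ℍ → ℂ, HasKernel f ∧ f g₀ = 0 ∧ ∀ g, IsSign g → f g = 1 := by
  obtain ⟨v, hv, hmove⟩ := exists_moved h hg₀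
  set w : Vec M := vecMulM v (g₀ : SL(2, ZMod M))⁻¹ with hw
  have hwg : vecMulM w g₀ = v := by rw [hw, ← vecMulM_mul, inv_mul_cancel, vecMulM_one]
  have hw0 : w ≠ 0 := by
    intro e
    apply hv
    rw [← hwg, e]
    simp [vecMulM]
  have hsep : Sep v w := by
    refine ⟨hv, hw0, fun e => hmove (Or.inl ((congrArg (vecMulM · _) e).trans hwg)),
      fun e => hmove (Or.inr ?_)⟩
    refine (congrArg (vecMulM · _) e).trans ?_
    simp only [vecMulM_neg_left, hwg]
  let e1 : genR M :=
    ⟨ratio (refC n M) (refB n M) v w, ratio_mem_genR (sep_ref h) hsep⟩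
  let Xv : genR M := ⟨xV n v, xV_mem_genR h hv⟩
  let Xw : genR M := ⟨xV n w, xV_mem_genR h hw0⟩
  refine ⟨fun g => act g (e1 : ℍ → ℂ) * (xV n v - act g (xV n w)),
    ⟨Bool, inferInstance, fun b => bif b then e1 else -(Xw * e1),
      fun b => bif b then Xv else 1, fun g => ?_⟩, ?_, fun g hg => ?_⟩
  · simp only [Fintype.sum_bool, cond_true, cond_false, Subring.coe_neg, Subring.coe_mul,
      Subring.coe_one, Xv, Xw, act, ← compHom_apply, map_neg, map_mul]
    ring
  · simp only [act_xV h, hwg, sub_self, mul_zero]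
  · dsimp only
    rw [hg _ _ (genR_le h e1.2), hg _ (xV n w) (memR_xV h hw0), mul_comm]
    exact xV_sub_mul h hsep

include h in
theorem two_unit (hn : n = 2) : ∃ u ∈ zr M, (2 : ℂ) * u = 1 := by
  obtain ⟨m, hm⟩ := h.dvd
  refine ⟨(m : ℂ) * (M : ℂ)⁻¹, (zr M).mul_mem (natCast_mem _ m)
    (Subring.subset_closure (Set.mem_insert_of_mem _ rfl)), ?_⟩
  have hM : (M : ℂ) ≠ 0 := Nat.cast_ne_zero.mpr (NeZero.ne M)
  rw [← mul_assoc, show (2 : ℂ) * (m : ℂ) = (M : ℂ) by rw [hm, hn]; push_cast; ring,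
    mul_inv_cancel₀ hM]

open Classical in
/-- The signs among the sheets. -/
def signs (n M : ℕ) [NeZero M] : Finset (sheetGrp n M) :=
  Finset.univ.filter fun g => (g : SL(2, ZMod M)) = 1 ∨ (g : SL(2, ZMod M)) = -1

include h in
theorem signs_card_unit : ∃ u ∈ zr M, ((signs n M).card : ℂ) * u = 1 := by
  classical
  have h1 : (1 : sheetGrp n M) ∈ signs n M := by simp [signs]
  by_cases hm : (-1 : SL(2, ZMod M)) ∈ sheetGrp n M
  · have hne : (-1 : SL(2, ZMod M)) ≠ 1 := by
      intro e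
      apply two_ne_zero' h
      have := congrArg (fun g : SL(2, ZMod M) => g 0 0) e
      simp only [Matrix.SpecialLinearGroup.coe_neg, Matrix.SpecialLinearGroup.coe_one,
        Matrix.neg_apply, Matrix.one_apply_eq] at this
      linear_combination -this
    have hcard : (signs n M).card = 2 := by
      rw [show signs n M = {1, ⟨-1, hm⟩} from ?_]
      · exact Finset.card_pair fun e => hne (congrArg Subtype.val e).symm
      · ext g
        simp only [signs, Finset.mem_filter, Finset.mem_univ, true_and, Finset.mem_insert,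
          Finset.mem_singleton, Subtype.ext_iff, OneMemClass.coe_one]
    rcases h.aux with hn | hn
    · rw [hcard]
      exact_mod_cast two_unit h hn
    · exfalso
      obtain ⟨γ, hγ, he⟩ := hm
      have hγ0 : ((γ 0 0 : ℤ) : ZMod M) = -1 := by
        have := congrArg (fun g : SL(2, ZMod M) => g 0 0) he
        simpa [redM] using this
      have h3 := congrArg (ZMod.castHom h.dvd (ZMod n)) hγ0
      rw [map_intCast, map_neg, map_one, (Gamma_mem.mp hγ).1] at h3
      subst hn
      exact absurd h3 (by decide)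
  · refine ⟨1, (zr M).one_mem, ?_⟩
    rw [show signs n M = {1} from ?_]
    · simp
    · ext g
      simp only [signs, Finset.mem_filter, Finset.mem_univ, true_and, Finset.mem_singleton]
      constructor
      · rintro (e | e)
        · exact Subtype.ext e
        · exact absurd (e ▸ g.2) hm
      · rintro rfl
        exact Or.inl rfl

include h in
/-- The frame. -/
theorem exists_frame : ∃ (ι : Type) (_ : Fintype ι) (e m : ι → genR M),
    (∀ f T, MemR M T f →
      ∑ i, (∑ g : sheetGrp n M, act g (f * (e i : ℍ → ℂ))) * (m i : ℍ → ℂ) = f) ∧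
    ∀ g : sheetGrp n M, ¬IsSign g → (∑ i, act g (e i : ℍ → ℂ) * (m i : ℍ → ℂ)) = 0 := by
  classical
  have hk : ∀ g : {g : sheetGrp n M // g ∉ signs n M}, ∃ f : sheetGrp n M → ℍ → ℂ,
      HasKernel f ∧ f g.1 = 0 ∧ ∀ g', IsSign g' → f g' = 1 :=
    fun g => exists_kernel_sep h g.1 (by simpa [signs] using g.2)
  choose f hf hf0 hf1 using hk
  obtain ⟨u, hu, hcu⟩ := signs_card_unit h
  obtain ⟨ι, hι, e, m, hker⟩ :=
    (hasKernel_const (n := n) hu).mul (HasKernel.prod Finset.univ f fun g _ => hf g)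
  have hsign : ∀ g, g ∈ signs n M → IsSign g := fun g hg =>
    isSign_of_pm (by simpa [signs] using hg)
  have hval0 : ∀ g, g ∉ signs n M → (∑ i, act g (e i : ℍ → ℂ) * (m i : ℍ → ℂ)) = 0 :=
    fun g hg => by
      rw [hker g, Pi.mul_apply, Finset.prod_apply,
        Finset.prod_eq_zero (Finset.mem_univ ⟨g, hg⟩) (hf0 ⟨g, hg⟩), mul_zero]
  have hval1 : ∀ g, g ∈ signs n M →
      (∑ i, act g (e i : ℍ → ℂ) * (m i : ℍ → ℂ)) = fun _ => u := fun g hg => by
    rw [hker g, Pi.mul_apply, Finset.prod_apply,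
      Finset.prod_eq_one fun g' _ => hf1 g' g (hsign g hg), mul_one]
  refine ⟨ι, hι, e, m, fun x T hx => ?_, fun g hg => hval0 g fun hg' => hg (hsign g hg')⟩
  calc ∑ i, (∑ g : sheetGrp n M, act g (x * (e i : ℍ → ℂ))) * (m i : ℍ → ℂ)
      = ∑ g : sheetGrp n M, act g x * ∑ i, act g (e i : ℍ → ℂ) * (m i : ℍ → ℂ) := by
        simp only [Finset.sum_mul, Finset.mul_sum]
        rw [Finset.sum_comm]
        refine Finset.sum_congr rfl fun g _ => Finset.sum_congr rfl fun i _ => ?_
        simp only [act, ← compHom_apply, map_mul]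
        ring
    _ = ∑ g ∈ signs n M, x * fun _ => u := by
        rw [← Finset.sum_subset (Finset.subset_univ (signs n M)) fun g _ hg => by
          rw [hval0 g hg, mul_zero]]
        exact Finset.sum_congr rfl fun g hg => by rw [hval1 g hg, hsign g hg T x hx]
    _ = x := by
        funext z
        simp only [Finset.sum_const, Pi.smul_apply, nsmul_eq_mul, Pi.mul_apply]
        linear_combination x z * hcu

end FLTAgent.Gamma1
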