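/-
Traces to level `n` and coordinates in the frame.
-/
import Fermat.Agent.Gamma1.Frame

/-!
# Coordinates in the frame

`traceFun` is the trace from `Γ(M)` to `Γ(n)` and `coord` gives the coordinates in a fixed frame,
with `sum_coord_mul`. `mem_of_generators`: a subring containing the constants, the ratios and the
inverses `1/(t - c)` contains every function of level `M` over `S`.
-/

set_option autoImplicit false
set_option linter.unusedSectionVars false

noncomputable section

open UpperHalfPlane CongruenceSubgroup ModularCurve Polynomial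
open scoped MatrixGroups

namespace FLTAgent.Gamma1

open FLTAgent.Modular

variable {n M : ℕ} [NeZero M] {S : Subring ℂ}

variable (n) in
/-- The trace from level `Γ(M)` to level `Γ(n)`. -/
def traceFun (f : ℍ → ℂ) : ℍ → ℂ := ∑ g : sheetGrp n M, act g f

theorem memB_traceFun {f : ℍ → ℂ} (hf : MemR M S f) :
    MemB n M S (traceFun n (M := M) f) := by
  refine ⟨(sum_mem fun g _ => (hf.act g : act g f ∈ ringR M S) : traceFun n (M := M) f ∈ ringR M S),
    fun γ hγ => ?_⟩
  let g₀ : sheetGrp n M := ⟨redM M γ, γ, hγ, rfl⟩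
  rw [traceFun, ← compHom_apply, map_sum]
  refine Fintype.sum_equiv (Equiv.mulRight g₀) _ _ fun g => ?_
  rw [compHom_apply, act, comp_comp, Equiv.coe_mulRight]
  refine (act_eq_comp hf ?_).symm
  rw [map_mul, redM_sheetLift, Subgroup.coe_mul]

theorem act_const (g : sheetGrp n M) (c : ℂ) : act g (fun _ => c) = fun _ => c := rfl

variable (h : IsLevel n M)

/-- The index set of the frame. -/
def FIdx : Type := (exists_frame h).choose

instance : Fintype (FIdx h) := (exists_frame h).choose_spec.choose

/-- The dual elements of the frame. -/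
def fE : FIdx h → genR M := (exists_frame h).choose_spec.choose_spec.choose

/-- The elements of the frame. -/
def fM : FIdx h → genR M := (exists_frame h).choose_spec.choose_spec.choose_spec.choose

theorem frame_spec {f : ℍ → ℂ} {T : Subring ℂ} (hf : MemR M T f) :
    ∑ i, (∑ g : sheetGrp n M, act g (f * (fE h i : ℍ → ℂ))) * (fM h i : ℍ → ℂ) = f :=
  (exists_frame h).choose_spec.choose_spec.choose_spec.choose_spec.1 f T hf

theorem frame_kernel {g : sheetGrp n M} (hg : ¬IsSign g) :
    (∑ i, act g (fE h i : ℍ → ℂ) * (fM h i : ℍ → ℂ)) = 0 :=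
  (exists_frame h).choose_spec.choose_spec.choose_spec.choose_spec.2 g hg

theorem fE_mem (hS : zr M ≤ S) (i : FIdx h) : MemR M S (fE h i : ℍ → ℂ) :=
  MemR.mono (genR_le h (fE h i).2) hS

theorem fM_mem (hS : zr M ≤ S) (i : FIdx h) : MemR M S (fM h i : ℍ → ℂ) :=
  MemR.mono (genR_le h (fM h i).2) hS

variable (hS : zr M ≤ S)

/-- The coordinates of a function in the frame. -/
def coord (i : FIdx h) (f : ringR M S) : ringB n M S :=
  ⟨traceFun n (M := M) ((f : ℍ → ℂ) * (fE h i : ℍ → ℂ)),
    memB_traceFun (f.2.mul (fE_mem h hS i))⟩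

theorem sum_coord_mul (f : ringR M S) :
    ∑ i, (coord h hS i f : ℍ → ℂ) * (fM h i : ℍ → ℂ) = f := frame_spec h f.2

/-- The inclusion of the base. -/
abbrev inclB : ringB n M S →+* ringR M S := Subring.inclusion ringB_le

/-- The elements of the frame in `ringR`. -/
def fMR (i : FIdx h) : ringR M S := ⟨(fM h i : ℍ → ℂ), fM_mem h hS i⟩

theorem sum_coord_mul' (f : ringR M S) :
    ∑ i, inclB (coord h hS i f) * fMR h hS i = f :=
  Subtype.ext (by simpa [AddSubmonoidClass.coe_finsetSum, fMR] using sum_coord_mul h hS f)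

include h hS in
/-- A subring containing the constants, the ratios and the inverses `1/(t - c)` contains
everything. -/
theorem mem_of_generators {U : Subring (ℍ → ℂ)} (hc : ∀ c ∈ S, (fun _ => c) ∈ U)
    (hr : ∀ v w v' w' : Vec M, Sep v w → Sep v' w' → ratio v w v' w' ∈ U)
    (hi : ∀ c ∈ cuspVals n M, (fun z => (tFun n M z - c)⁻¹) ∈ U)
    {f : ℍ → ℂ} (hf : MemR M S f) : f ∈ U := by
  have hgen : genR M ≤ U := Subring.closure_le.mpr (by
    rintro f (⟨v, w, v', w', h1, h2, rfl⟩ | ⟨c, hc', rfl⟩)
    exacts [hr v w v' w' h1 h2, hc c (hS hc')])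
  have hB : ∀ x : ringB n M S, (x : ℍ → ℂ) ∈ U := by
    intro x
    obtain ⟨e, P, hP⟩ := exists_cuspH_pow_mul_eq h hS x
    let inv : ringB n M S :=
      ∏ c ∈ (cuspSet h).attach, invSub h hS (mem_cuspSet.mp c.2)
    have hinv : cuspH h hS * inv = 1 := by
      rw [cuspH, ← Finset.prod_mul_distrib]
      exact Finset.prod_eq_one fun c _ => sub_mul_invSub h hS _
    have hx : x = inv ^ e * evalT h hS P := by
      rw [← hP, ← mul_assoc, ← mul_pow, mul_comm inv, hinv, one_pow, one_mul]
    rw [hx]
    refine U.mul_mem (SubmonoidClass.coe_pow inv e ▸ U.pow_mem ?_ e) ?_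
    · rw [show (inv : ℍ → ℂ) = ((ringB n M S).subtype inv) from rfl, map_prod]
      exact prod_mem fun c _ => hi c (mem_cuspSet.mp c.2)
    · clear hP hx
      induction P using Polynomial.induction_on with
      | C a => rw [evalT_C]; exact hc a a.2
      | add p q hp hq => rw [map_add]; exact U.add_mem hp hq
      | monomial d a hp =>
        rw [pow_succ, ← mul_assoc, map_mul, evalT_X]
        exact U.mul_mem hp (hr _ _ _ _ (sep_base h).1 (sep_base h).2)
  have := sum_coord_mul h hS ⟨f, hf⟩
  rw [show f = _ from this.symm]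
  exact sum_mem fun i _ => U.mul_mem (hB _) (hgen (fM h i).2)

end FLTAgent.Gamma1
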