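/-
The algebra of the Hecke and diamond operators on homomorphisms of `Γ(M)`.
-/
import Fermat.Agent.Gamma1.Defs
import Fermat.Agent.Gamma1.Lift
import Fermat.Agent.Period.SL2

/-!
# Hecke and diamond operators on homomorphisms of `Γ(M)`

`repsT` shows that the representatives at `p` form a `Reps` system, so `heckeHom` is its transfer
(`heckeHom_eq`). The operators commute (`heckeHom_comm`, `heckeHom_conjLin`, `opMap_commute`),
preserve parabolic homomorphisms and characters (`opMap_mem_par`, `opMap_mem_chr`) and are natural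
in the coefficients. `chr_finite'`: there are finitely many characters, `Γ(M)` being finitely
generated.
-/

set_option autoImplicit false

noncomputable section

open CongruenceSubgroup Matrix.SpecialLinearGroup
open scoped MatrixGroups

namespace FLTAgent.Gamma1

open FLTAgent.HeckeH (M2 Reps matOf)

variable {M ℓ p q : ℕ}

/-! ### Congruence classes of integral matrices -/

/-- Reduction modulo `M`. -/
def redMat (M : ℕ) : M2 →+* Matrix (Fin 2) (Fin 2) (ZMod M) :=
  (Int.castRingHom (ZMod M)).mapMatrix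

theorem redMat_apply (X : M2) (i j : Fin 2) : redMat M X i j = ((X i j : ℤ) : ZMod M) := rfl

/-- The diagonal matrix `(1, m)` modulo `M`. -/
def diagM (M : ℕ) (m : ℕ) : Matrix (Fin 2) (Fin 2) (ZMod M) := !![1, 0; 0, (m : ZMod M)]

theorem diagM_mul (m m' : ℕ) : diagM M m * diagM M m' = diagM M (m * m') := by
  rw [diagM, diagM, diagM, Matrix.mul_fin_two]
  simp

theorem diagM_one : diagM M 1 = 1 := by
  rw [diagM, Nat.cast_one, Matrix.one_fin_two]

/-- Determinant `m` and congruent to the diagonal matrix `(1, m)`. -/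
def IsD (M m : ℕ) (X : M2) : Prop := X.det = (m : ℤ) ∧ redMat M X = diagM M m

theorem IsD.mul {m m' : ℕ} {X Y : M2} (hX : IsD M m X) (hY : IsD M m' Y) :
    IsD M (m * m') (X * Y) :=
  ⟨by rw [Matrix.det_mul, hX.1, hY.1, Nat.cast_mul], by rw [map_mul, hX.2, hY.2, diagM_mul]⟩

theorem isD_matOf (γ : Gamma M) : IsD M 1 (matOf γ) := by
  refine ⟨by rw [HeckeH.det_matOf, Nat.cast_one], ?_⟩
  rw [diagM_one]
  exact congrArg Subtype.val (Gamma_mem'.mp γ.2)

/-- An element of `Γ(M)` from a matrix congruent to `1` of determinant one. -/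
def IsD.toGamma {X : M2} (hX : IsD M 1 X) : Gamma M :=
  ⟨⟨X, hX.1.trans Nat.cast_one⟩, Gamma_mem'.mpr (Matrix.SpecialLinearGroup.ext _ _ fun i j =>
    congrFun (congrFun (hX.2.trans diagM_one) i) j)⟩

theorem IsD.matOf_toGamma {X : M2} (hX : IsD M 1 X) : matOf hX.toGamma = X := rfl

theorem coprime_of_not_dvd (hp : p.Prime) (hpM : ¬ p ∣ M) : p.Coprime M :=
  hp.coprime_iff_not_dvd.mpr hpM

theorem dia_spec' [NeZero M] (hp : p.Coprime M) :
    ((dia M p 0 1 : ℤ) : ZMod M) = 0 ∧ ((dia M p 1 0 : ℤ) : ZMod M) = 0 ∧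
      ((dia M p 1 1 : ℤ) : ZMod M) = (p : ZMod M) := by
  classical
  have h : ∃ γ : SL(2, ℤ), ((γ 0 1 : ℤ) : ZMod M) = 0 ∧ ((γ 1 0 : ℤ) : ZMod M) = 0 ∧
      ((γ 1 1 : ℤ) : ZMod M) = (p : ZMod M) := by
    set u := ZMod.unitOfCoprime p hp
    obtain ⟨γ, hγ⟩ := exists_lift_SL M ⟨!![((u⁻¹ : (ZMod M)ˣ) : ZMod M), 0; 0, (u : ZMod M)], by
      rw [Matrix.det_fin_two_of]; simp⟩
    exact ⟨γ, by simpa using hγ 0 1, by simpa using hγ 1 0, by simpa [u] using hγ 1 1⟩
  rw [dia, dif_pos h]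
  exact h.choose_spec

theorem dia_zero_zero [NeZero M] (hp : p.Coprime M) :
    ((dia M p 0 0 : ℤ) : ZMod M) * (p : ZMod M) = 1 := by
  obtain ⟨h01, h10, h11⟩ := dia_spec' hp
  have h := congrArg (Int.cast : ℤ → ZMod M) (dia M p).2
  rw [Matrix.det_fin_two] at h
  push_cast at h
  rw [h11, h01, zero_mul, sub_zero] at h
  exact h

theorem redM_dia [NeZero M] (hp : p.Coprime M) :
    redMat M ((dia M p : SL(2, ℤ)) : M2) =
      !![((dia M p 0 0 : ℤ) : ZMod M), 0; 0, (p : ZMod M)] := by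
  obtain ⟨h01, h10, h11⟩ := dia_spec' hp
  ext i j
  fin_cases i <;> fin_cases j <;> simp [redMat_apply, h01, h10, h11]

theorem commute_redM_dia [NeZero M] (hp : p.Coprime M) (m : ℕ) :
    Commute (redMat M ((dia M p : SL(2, ℤ)) : M2)) (diagM M m) := by
  rw [Commute, SemiconjBy, redM_dia hp, diagM, Matrix.mul_fin_two, Matrix.mul_fin_two]
  simp [mul_comm]

theorem redM_inv_mul (g : SL(2, ℤ)) : redMat M ((g⁻¹ : SL(2, ℤ)) : M2) * redMat M (g : M2) = 1 := by
  rw [← map_mul, ← Matrix.SpecialLinearGroup.coe_mul, inv_mul_cancel,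
    Matrix.SpecialLinearGroup.coe_one, map_one]

theorem redM_mul_inv (g : SL(2, ℤ)) : redMat M (g : M2) * redMat M ((g⁻¹ : SL(2, ℤ)) : M2) = 1 := by
  rw [← map_mul, ← Matrix.SpecialLinearGroup.coe_mul, mul_inv_cancel,
    Matrix.SpecialLinearGroup.coe_one, map_one]

theorem commute_redM_inv {g : SL(2, ℤ)} {D : Matrix (Fin 2) (Fin 2) (ZMod M)}
    (h : Commute (redMat M (g : M2)) D) : Commute (redMat M ((g⁻¹ : SL(2, ℤ)) : M2)) D := by
  rw [Commute, SemiconjBy]
  calc redMat M ((g⁻¹ : SL(2, ℤ)) : M2) * D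
      = redMat M ((g⁻¹ : SL(2, ℤ)) : M2) * (D * redMat M (g : M2)) *
          redMat M ((g⁻¹ : SL(2, ℤ)) : M2) := by
        rw [mul_assoc, mul_assoc, redM_mul_inv, mul_one]
    _ = D * redMat M ((g⁻¹ : SL(2, ℤ)) : M2) := by
        rw [← h.eq, ← mul_assoc, redM_inv_mul, one_mul]

/-! ### The representatives -/

theorem heckeRep_none (M p : ℕ) :
    heckeRep M p none = ((dia M p : SL(2, ℤ)) : M2) * !![(p : ℤ), 0; 0, 1] := rfl

theorem heckeRep_some (M : ℕ) {p : ℕ} (b : Fin p) :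
    heckeRep M p (some b) = !![1, (M : ℤ) * (b : ℤ); 0, (p : ℤ)] := rfl

theorem det_heckeRep (i : Option (Fin p)) : (heckeRep M p i).det = (p : ℤ) := by
  cases i with
  | none => rw [heckeRep_none, Matrix.det_mul, (dia M p).2, Matrix.det_fin_two_of]; ring
  | some b => rw [heckeRep_some, Matrix.det_fin_two_of]; ring

theorem isD_heckeRep [NeZero M] (hp : p.Prime) (hpM : ¬ p ∣ M) (i : Option (Fin p)) :
    IsD M p (heckeRep M p i) := by
  refine ⟨det_heckeRep i, ?_⟩
  cases i with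
  | none =>
    rw [heckeRep_none, map_mul, redM_dia (coprime_of_not_dvd hp hpM)]
    rw [show redMat M !![(p : ℤ), 0; 0, 1] = !![(p : ZMod M), 0; 0, 1] by
      ext i j; fin_cases i <;> fin_cases j <;> simp [redMat_apply]]
    rw [diagM, Matrix.mul_fin_two]
    simp [dia_zero_zero (coprime_of_not_dvd hp hpM)]
  | some b =>
    rw [heckeRep_some, diagM]
    ext i j
    fin_cases i <;> fin_cases j <;> simp [redMat_apply]

/-- A vector killed modulo `p` by one representative only. -/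
def kerVec (M : ℕ) {p : ℕ} : Option (Fin p) → Fin 2 → ℤ
  | none => ![1, 0]
  | some b => ![-((M : ℤ) * (b : ℤ)), 1]

theorem dvd_heckeRep_kerVec (j : Option (Fin p)) (r : Fin 2) :
    (p : ℤ) ∣ (heckeRep M p j).mulVec (kerVec M j) r := by
  cases j with
  | none =>
    rw [heckeRep_none, ← Matrix.mulVec_mulVec]
    have : (!![(p : ℤ), 0; 0, 1] : M2).mulVec (kerVec M (p := p) none) = ![(p : ℤ), 0] := by
      funext k; fin_cases k <;> simp [kerVec]
    rw [this]
    fin_cases r <;> simp [Matrix.mulVec, dotProduct]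
  | some b =>
    rw [heckeRep_some]
    fin_cases r <;> simp [kerVec, Matrix.mulVec, dotProduct]

theorem eq_of_dvd_kerVec (hp : p.Prime) (hpM : ¬ p ∣ M) {j k : Option (Fin p)}
    (h : ∀ r : Fin 2, (p : ℤ) ∣ (heckeRep M p k).mulVec (kerVec M j) r) : j = k := by
  have hp' : Prime (p : ℤ) := Nat.prime_iff_prime_int.mp hp
  have hpM' : ¬ (p : ℤ) ∣ (M : ℤ) := by exact_mod_cast hpM
  rcases j with _ | a <;> rcases k with _ | b
  · rfl
  · exfalso
    have h0 := h 0
    simp [heckeRep_some, kerVec, Matrix.mulVec, dotProduct] at h0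
    exact hp'.not_dvd_one h0
  · exfalso
    rw [heckeRep_none, ← Matrix.mulVec_mulVec] at h
    have : (!![(p : ℤ), 0; 0, 1] : M2).mulVec (kerVec M (some a)) =
        ![-((p : ℤ) * ((M : ℤ) * (a : ℤ))), 1] := by
      funext k; fin_cases k <;> simp [kerVec]
      ring
    rw [this] at h
    have h0 := h 0
    have h1 := h 1
    simp [Matrix.mulVec, dotProduct] at h0 h1
    have e0 : (p : ℤ) ∣ dia M p 0 1 := by
      have := dvd_add h0 (((dvd_mul_right (p : ℤ) ((M : ℤ) * (a : ℤ))).mul_left (dia M p 0 0)))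
      simpa using this
    have e1 : (p : ℤ) ∣ dia M p 1 1 := by
      have := dvd_add h1 (((dvd_mul_right (p : ℤ) ((M : ℤ) * (a : ℤ))).mul_left (dia M p 1 0)))
      simpa using this
    refine hp'.not_dvd_one ?_
    rw [← (dia M p).2, Matrix.det_fin_two]
    exact dvd_sub (e1.mul_left _) (e0.mul_right _)
  · congr 1
    have h0 := h 0
    simp [heckeRep_some, kerVec, Matrix.mulVec, dotProduct] at h0
    have h1 : (p : ℤ) ∣ (M : ℤ) * (((b : ℕ) : ℤ) - ((a : ℕ) : ℤ)) := by
      convert h0 using 1; ring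
    have h2 := (hp'.dvd_mul.mp h1).resolve_left hpM'
    have h3 : ((b : ℕ) : ℤ) - ((a : ℕ) : ℤ) = 0 := by
      refine Int.eq_zero_of_abs_lt_dvd h2 ?_
      rw [abs_lt]
      have := a.2
      have := b.2
      constructor <;> omega
    exact Fin.ext (by omega)

/-- Distinctness of the representatives, up to a factor invertible modulo `p`. -/
theorem eq_of_mul_heckeRep (hp : p.Prime) (hpM : ¬ p ∣ M) {X Y : M2} (hY : ¬ (p : ℤ) ∣ Y.det)
    {j k : Option (Fin p)} (h : X * heckeRep M p j = Y * heckeRep M p k) : j = k := by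
  refine eq_of_dvd_kerVec hp hpM fun r => ?_
  have h1 : ∀ s, (p : ℤ) ∣ Y.mulVec ((heckeRep M p k).mulVec (kerVec M j)) s := by
    intro s
    rw [Matrix.mulVec_mulVec, ← h, ← Matrix.mulVec_mulVec]
    simp only [Matrix.mulVec, dotProduct]
    exact Finset.dvd_sum fun i _ => (dvd_heckeRep_kerVec j i).mul_left _
  have h2 : (p : ℤ) ∣
      Y.adjugate.mulVec (Y.mulVec ((heckeRep M p k).mulVec (kerVec M j))) r := by
    simp only [Matrix.mulVec, dotProduct]
    exact Finset.dvd_sum fun i _ => (h1 i).mul_left _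
  rw [Matrix.mulVec_mulVec, Matrix.adjugate_mul, Matrix.smul_mulVec, Matrix.one_mulVec,
    Pi.smul_apply, smul_eq_mul] at h2
  exact ((Nat.prime_iff_prime_int.mp hp).dvd_mul.mp h2).resolve_left hY

/-- Division by a representative. -/
theorem IsD.exists_mul_heckeRep [NeZero M] (hp : p.Prime) (hpM : ¬ p ∣ M) {m : ℕ} {X : M2}
    (hX : IsD M (p * m) X) :
    ∃ (j : Option (Fin p)) (Y : M2), IsD M m Y ∧ X = Y * heckeRep M p j := by
  have : NeZero p := ⟨hp.ne_zero⟩
  have : Fact p.Prime := ⟨hp⟩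
  have hp0 : (p : ℤ) ≠ 0 := by exact_mod_cast hp.ne_zero
  suffices h : ∃ (j : Option (Fin p)) (Y : M2), X = Y * heckeRep M p j by
    obtain ⟨j, Y, hY⟩ := h
    refine ⟨j, Y, ⟨?_, ?_⟩, hY⟩
    · have h1 := congrArg Matrix.det hY
      rw [hX.1, Matrix.det_mul, det_heckeRep, Nat.cast_mul, mul_comm (p : ℤ)] at h1
      exact (mul_right_cancel₀ hp0 h1).symm
    · have h1 := congrArg (redMat M) hY
      rw [hX.2, map_mul, (isD_heckeRep hp hpM j).2, mul_comm p m, ← diagM_mul] at h1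
      have hu : IsUnit (diagM M p) := by
        rw [Matrix.isUnit_iff_isUnit_det, diagM, Matrix.det_fin_two_of, one_mul, mul_zero,
          sub_zero, ZMod.isUnit_iff_coprime]
        exact coprime_of_not_dvd hp hpM
      exact (hu.mul_right_cancel h1).symm
  have hdet : (p : ℤ) ∣ X.det := ⟨m, by rw [hX.1, Nat.cast_mul]⟩
  by_cases hcol : (p : ℤ) ∣ X 0 0 ∧ (p : ℤ) ∣ X 1 0
  · obtain ⟨⟨x, hx⟩, ⟨y, hy⟩⟩ := hcol
    refine ⟨none, !![x, X 0 1; y, X 1 1] * (((dia M p)⁻¹ : SL(2, ℤ)) : M2), ?_⟩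
    rw [heckeRep_none, Matrix.mul_assoc,
      ← Matrix.mul_assoc (((dia M p)⁻¹ : SL(2, ℤ)) : M2),
      ← Matrix.SpecialLinearGroup.coe_mul, inv_mul_cancel, Matrix.SpecialLinearGroup.coe_one,
      Matrix.one_mul]
    ext i j
    fin_cases i <;> fin_cases j <;> simp [Matrix.mul_apply, hx, hy, mul_comm]
  · obtain ⟨t, ht0, ht1⟩ : ∃ t : ZMod p,
        ((X 0 1 : ℤ) : ZMod p) = t * ((X 0 0 : ℤ) : ZMod p) ∧
          ((X 1 1 : ℤ) : ZMod p) = t * ((X 1 0 : ℤ) : ZMod p) := by
      rw [Matrix.det_fin_two, ← ZMod.intCast_zmod_eq_zero_iff_dvd] at hdet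
      push_cast at hdet
      by_cases hA : ((X 0 0 : ℤ) : ZMod p) = 0
      · have hC : ((X 1 0 : ℤ) : ZMod p) ≠ 0 := fun h => hcol
          ⟨(ZMod.intCast_zmod_eq_zero_iff_dvd _ _).mp hA,
            (ZMod.intCast_zmod_eq_zero_iff_dvd _ _).mp h⟩
        refine ⟨((X 1 1 : ℤ) : ZMod p) / (X 1 0 : ℤ), ?_, (div_mul_cancel₀ _ hC).symm⟩
        rw [hA, zero_mul, zero_sub, neg_eq_zero, mul_eq_zero] at hdet
        rw [hA, mul_zero]
        exact hdet.resolve_right hC
      · refine ⟨((X 0 1 : ℤ) : ZMod p) / (X 0 0 : ℤ), (div_mul_cancel₀ _ hA).symm, ?_⟩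
        field_simp
        linear_combination hdet
    have hM : ((M : ZMod p)) ≠ 0 := fun h => hpM ((ZMod.natCast_eq_zero_iff _ _).mp h)
    set b : Fin p := ⟨(t / (M : ZMod p)).val, ZMod.val_lt _⟩ with hbdef
    have hb : (((M : ℤ) * ((b : ℕ) : ℤ) : ℤ) : ZMod p) = t := by
      push_cast [hbdef]
      rw [ZMod.natCast_zmod_val, mul_div_cancel₀ _ hM]
    obtain ⟨u, hu⟩ : (p : ℤ) ∣ X 0 1 - (M : ℤ) * ((b : ℕ) : ℤ) * X 0 0 := by
      rw [← ZMod.intCast_zmod_eq_zero_iff_dvd, Int.cast_sub, Int.cast_mul, hb, ht0, sub_self]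
    obtain ⟨v, hv⟩ : (p : ℤ) ∣ X 1 1 - (M : ℤ) * ((b : ℕ) : ℤ) * X 1 0 := by
      rw [← ZMod.intCast_zmod_eq_zero_iff_dvd, Int.cast_sub, Int.cast_mul, hb, ht1, sub_self]
    refine ⟨some b, !![X 0 0, u; X 1 0, v], ?_⟩
    rw [heckeRep_some]
    ext i j
    fin_cases i <;> fin_cases j <;> simp [Matrix.mul_apply, Fin.sum_univ_two] <;>
      linarith [hu, hv]

/-- The representatives of the Hecke double coset at `p`. -/
def repsT [NeZero M] (hp : p.Prime) (hpM : ¬ p ∣ M) : Reps (Gamma M) (Option (Fin p)) where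
  β := heckeRep M p
  det_ne i := by rw [det_heckeRep]; exact_mod_cast hp.ne_zero
  exists_coc γ i := by
    have h : IsD M (p * 1) (heckeRep M p i * matOf γ) :=
      (isD_heckeRep hp hpM i).mul (isD_matOf γ)
    obtain ⟨j, Y, hY, e⟩ := h.exists_mul_heckeRep hp hpM
    exact ⟨hY.toGamma, j, e⟩
  inj δ i j h := eq_of_mul_heckeRep hp hpM (X := 1) (Y := matOf δ)
    (by rw [HeckeH.det_matOf]; exact (Nat.prime_iff_prime_int.mp hp).not_dvd_one)
    (by rwa [Matrix.one_mul])

@[simp] theorem repsT_β [NeZero M] (hp : p.Prime) (hpM : ¬ p ∣ M) :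
    (repsT (M := M) hp hpM).β = heckeRep M p := rfl

theorem heckeHom_eq [NeZero M] (hp : p.Prime) (hpM : ¬ p ∣ M) (A : Type*) [AddCommGroup A] :
    (heckeHom M p : (Additive (Gamma M) →+ A) →ₗ[ℤ] (Additive (Gamma M) →+ A)) =
      (repsT hp hpM).transfer ℤ := by
  classical
  have h : ∃ B : Reps (Gamma M) (Option (Fin p)), B.β = heckeRep M p := ⟨repsT hp hpM, rfl⟩
  rw [heckeHom, dif_pos h]
  refine LinearMap.ext fun φ => AddMonoidHom.ext fun γ => ?_
  show ∑ i, φ (Additive.ofMul (h.choose.coc γ.toMul i)) =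
    ∑ i, φ (Additive.ofMul ((repsT hp hpM).coc γ.toMul i))
  refine Finset.sum_congr rfl fun i _ => ?_
  rw [(h.choose.eq_of_mul (δ := (repsT hp hpM).coc γ.toMul i)
    (j := (repsT hp hpM).perm γ.toMul i) (by
      rw [h.choose_spec]; exact (repsT hp hpM).spec γ.toMul i)).1]

/-! ### Compositions -/

/-- Products of representatives. -/
def compReps {ι ι' : Type} {G : Subgroup SL(2, ℤ)} (B : Reps G ι) (B' : Reps G ι')
    (hinj : ∀ (δ : G) (i i' : ι) (j j' : ι'),
      B.β i * B'.β j = matOf δ * (B.β i' * B'.β j') → j = j') : Reps G (ι × ι') where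
  β x := B.β x.1 * B'.β x.2
  det_ne x := by rw [Matrix.det_mul]; exact mul_ne_zero (B.det_ne _) (B'.det_ne _)
  exists_coc γ x := by
    refine ⟨B.coc (B'.coc γ x.2) x.1, (B.perm (B'.coc γ x.2) x.1, B'.perm γ x.2), ?_⟩
    rw [Matrix.mul_assoc, B'.spec, ← Matrix.mul_assoc, B.spec, Matrix.mul_assoc]
  inj δ x y h := by
    obtain ⟨i, j⟩ := x
    obtain ⟨i', j'⟩ := y
    obtain rfl := hinj δ i i' j j' h
    have := B.inj δ i i' (HeckeH.mul_right_cancel_of_det_ne (B'.det_ne j)
      (by rw [Matrix.mul_assoc]; exact h))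
    rw [this]

theorem transfer_compReps {ι ι' : Type} [Fintype ι] [Fintype ι'] {G : Subgroup SL(2, ℤ)}
    (B : Reps G ι) (B' : Reps G ι') (hinj : ∀ (δ : G) (i i' : ι) (j j' : ι'),
      B.β i * B'.β j = matOf δ * (B.β i' * B'.β j') → j = j')
    {A : Type*} [AddCommGroup A] (φ : Additive G →+ A) :
    B'.transfer ℤ (B.transfer ℤ φ) = (compReps B B' hinj).transfer ℤ φ := by
  refine AddMonoidHom.ext fun γ => ?_
  show ∑ j, (B.transfer ℤ φ) (Additive.ofMul (B'.coc γ.toMul j)) =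
    ∑ x, φ (Additive.ofMul ((compReps B B' hinj).coc γ.toMul x))
  rw [Fintype.sum_prod_type_right]
  refine Finset.sum_congr rfl fun j _ => ?_
  rw [Reps.transfer_apply]
  refine Finset.sum_congr rfl fun i _ => ?_
  rw [((compReps B B' hinj).eq_of_mul (γ := γ.toMul) (i := (i, j))
    (δ := B.coc (B'.coc γ.toMul j) i) (j := (B.perm (B'.coc γ.toMul j) i, B'.perm γ.toMul j)) (by
      show B.β i * B'.β j * matOf γ.toMul = _ * (B.β _ * B'.β _)
      rw [Matrix.mul_assoc, B'.spec, ← Matrix.mul_assoc, B.spec, Matrix.mul_assoc])).1]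

variable [NeZero M]

theorem hinj_repsT (hp : p.Prime) (hpM : ¬ p ∣ M) (hq : q.Prime) (hqM : ¬ q ∣ M) (hne : p ≠ q)
    (δ : Gamma M) (i i' : Option (Fin p)) (j j' : Option (Fin q))
    (h : (repsT hp hpM).β i * (repsT hq hqM).β j =
      matOf δ * ((repsT hp hpM).β i' * (repsT hq hqM).β j')) : j = j' := by
  rw [← Matrix.mul_assoc] at h
  refine eq_of_mul_heckeRep hq hqM ?_ h
  rw [Matrix.det_mul, HeckeH.det_matOf, one_mul, repsT_β, det_heckeRep]
  rw [Int.natCast_dvd_natCast]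
  exact fun h' => hne ((Nat.prime_dvd_prime_iff_eq hq hp).mp h').symm

theorem heckeHom_comm (hp : p.Prime) (hpM : ¬ p ∣ M) (hq : q.Prime) (hqM : ¬ q ∣ M)
    {A : Type*} [AddCommGroup A] (φ : Additive (Gamma M) →+ A) :
    heckeHom M q (heckeHom M p φ) = heckeHom M p (heckeHom M q φ) := by
  by_cases hne : p = q
  · subst hne; rfl
  simp only [heckeHom_eq hp hpM, heckeHom_eq hq hqM]
  rw [transfer_compReps _ _ (hinj_repsT hp hpM hq hqM hne),
    transfer_compReps _ _ (hinj_repsT hq hqM hp hpM (Ne.symm hne))]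
  set C := compReps _ _ (hinj_repsT hp hpM hq hqM hne) with hC
  set D := compReps _ _ (hinj_repsT hq hqM hp hpM (Ne.symm hne)) with hD
  have hstep : ∀ x : Option (Fin p) × Option (Fin q), ∃ (ε : Gamma M)
      (y : Option (Fin q) × Option (Fin p)), C.β x = matOf ε * D.β y := by
    intro x
    have h : IsD M (p * q) (C.β x) := (isD_heckeRep hp hpM x.1).mul (isD_heckeRep hq hqM x.2)
    obtain ⟨i, Y, hY, e⟩ := h.exists_mul_heckeRep hp hpM
    rw [← mul_one q] at hY
    obtain ⟨j, Z, hZ, e'⟩ := hY.exists_mul_heckeRep hq hqM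
    exact ⟨hZ.toGamma, (j, i), by rw [e, e']; exact Matrix.mul_assoc _ _ _⟩
  choose ε e he using hstep
  have hinj : Function.Injective e := by
    intro x x' hxx
    refine C.inj (ε x * (ε x')⁻¹) x x' ?_
    rw [he x, he x', hxx, ← Matrix.mul_assoc, ← HeckeH.matOf_mul, inv_mul_cancel_right]
  let E := Equiv.ofBijective e ((Fintype.bijective_iff_injective_and_card e).mpr
    ⟨hinj, by simp [mul_comm]⟩)
  refine AddMonoidHom.ext fun γ => ?_
  exact (C.transfer_conj D 1 (by simp) (MonoidHom.id _) (fun γ => by simp) E ε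
    (fun x => by rw [Matrix.one_mul, Matrix.mul_one]; exact he x) ℤ φ γ.toMul).symm

/-- Conjugation of `Γ(M)`. -/
def conjG (g : SL(2, ℤ)) : Gamma M →* Gamma M where
  toFun δ := ⟨g * (δ : SL(2, ℤ)) * g⁻¹, (Gamma_normal M).conj_mem _ δ.2 g⟩
  map_one' := Subtype.ext (by simp)
  map_mul' δ δ' := Subtype.ext (by simp [mul_assoc])

omit [NeZero M] in
theorem coe_conjG (g : SL(2, ℤ)) (δ : Gamma M) :
    ((conjG g δ : Gamma M) : SL(2, ℤ)) = g * (δ : SL(2, ℤ)) * g⁻¹ := rfl

omit [NeZero M] in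
theorem conjLin_apply {A : Type*} [AddCommGroup A] (g : SL(2, ℤ))
    (φ : Additive (Gamma M) →+ A) (δ : Gamma M) :
    conjLin g φ (Additive.ofMul δ) = φ (Additive.ofMul (conjG g δ)) := rfl

omit [NeZero M] in
theorem conjLin_eq_comp {A : Type*} [AddCommGroup A] (g : SL(2, ℤ))
    (φ : Additive (Gamma M) →+ A) :
    conjLin g φ = φ.comp (MonoidHom.toAdditive (conjG g)) := AddMonoidHom.ext fun _ => rfl

/-- A matrix commuting with `(1, p)` modulo `M` permutes the representatives. -/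
theorem exists_perm_conj (hp : p.Prime) (hpM : ¬ p ∣ M) (g : SL(2, ℤ))
    (hg : Commute (redMat M (g : M2)) (diagM M p)) :
    ∃ (e : Option (Fin p) ≃ Option (Fin p)) (ε : Option (Fin p) → Gamma M),
      ∀ i, (g : M2) * heckeRep M p i = matOf (ε i) * heckeRep M p (e i) * (g : M2) := by
  have hstep : ∀ i, ∃ (ε : Gamma M) (j : Option (Fin p)),
      (g : M2) * heckeRep M p i = matOf ε * heckeRep M p j * (g : M2) := by
    intro i
    have h : IsD M (p * 1) ((g : M2) * heckeRep M p i * ((g⁻¹ : SL(2, ℤ)) : M2)) := by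
      rw [mul_one]
      refine ⟨?_, ?_⟩
      · rw [Matrix.det_mul, Matrix.det_mul, g.2, (g⁻¹).2, det_heckeRep, one_mul, mul_one]
      · rw [map_mul, map_mul, (isD_heckeRep hp hpM i).2, hg.eq, mul_assoc, redM_mul_inv, mul_one]
    obtain ⟨j, Y, hY, e⟩ := h.exists_mul_heckeRep hp hpM
    refine ⟨hY.toGamma, j, ?_⟩
    have h2 := congrArg (fun X : M2 => X * (g : M2)) e
    simp only [Matrix.mul_assoc, ← Matrix.SpecialLinearGroup.coe_mul, inv_mul_cancel,
      Matrix.SpecialLinearGroup.coe_one, Matrix.mul_one] at h2 ⊢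
    exact h2
  choose ε e he using hstep
  have hinj : Function.Injective e := by
    intro i i' hii
    refine (repsT hp hpM).inj (conjG g⁻¹ (ε i * (ε i')⁻¹)) i i' ?_
    have key : (g : M2) * heckeRep M p i =
        matOf (ε i * (ε i')⁻¹) * ((g : M2) * heckeRep M p i') := by
      rw [he i, he i', hii, ← Matrix.mul_assoc, ← Matrix.mul_assoc, ← HeckeH.matOf_mul,
        inv_mul_cancel_right]
    have key2 := congrArg (fun X : M2 => ((g⁻¹ : SL(2, ℤ)) : M2) * X) key
    simp only [← Matrix.mul_assoc, ← Matrix.SpecialLinearGroup.coe_mul, inv_mul_cancel,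
      Matrix.SpecialLinearGroup.coe_one, Matrix.one_mul] at key2
    rw [repsT_β, key2]
    simp only [matOf, coe_conjG, inv_inv, Matrix.SpecialLinearGroup.coe_mul]
  exact ⟨Equiv.ofBijective e (Finite.injective_iff_bijective.mp hinj), ε, he⟩

theorem heckeHom_conjLin (hp : p.Prime) (hpM : ¬ p ∣ M) (g : SL(2, ℤ))
    (hg : Commute (redMat M (g : M2)) (diagM M p)) {A : Type*} [AddCommGroup A]
    (φ : Additive (Gamma M) →+ A) :
    heckeHom M p (conjLin g φ) = conjLin g (heckeHom M p φ) := by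
  obtain ⟨e, ε, he⟩ := exists_perm_conj hp hpM g hg
  simp only [heckeHom_eq hp hpM]
  refine AddMonoidHom.ext fun γ => ?_
  rw [conjLin_eq_comp, conjLin_eq_comp]
  exact ((repsT hp hpM).transfer_conj (repsT hp hpM) (g : M2) (by rw [g.2]; exact one_ne_zero)
    (conjG g) (fun δ => by
      show (g : M2) * ((δ : SL(2, ℤ)) : M2) =
        ((g * (δ : SL(2, ℤ)) * g⁻¹ : SL(2, ℤ)) : M2) * (g : M2)
      rw [← Matrix.SpecialLinearGroup.coe_mul, ← Matrix.SpecialLinearGroup.coe_mul,
        inv_mul_cancel_right])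
    e ε he ℤ φ γ.toMul).symm

omit [NeZero M] in
theorem conjLin_conjLin {A : Type*} [AddCommGroup A] (g g' : SL(2, ℤ))
    (φ : Additive (Gamma M) →+ A) : conjLin g (conjLin g' φ) = conjLin (g' * g) φ := by
  refine AddMonoidHom.ext fun δ => ?_
  show φ (Additive.ofMul (conjG g' (conjG g δ.toMul))) =
    φ (Additive.ofMul (conjG (g' * g) δ.toMul))
  congr 2
  exact Subtype.ext (by simp [coe_conjG, mul_assoc])

omit [NeZero M] in
theorem conjLin_mem_left {A : Type*} [AddCommGroup A] {u : SL(2, ℤ)} (hu : u ∈ Gamma M)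
    (g : SL(2, ℤ)) (φ : Additive (Gamma M) →+ A) : conjLin (u * g) φ = conjLin g φ := by
  refine AddMonoidHom.ext fun δ => ?_
  show φ (Additive.ofMul (conjG (u * g) δ.toMul)) = φ (Additive.ofMul (conjG g δ.toMul))
  have e : conjG (u * g) δ.toMul = ⟨u, hu⟩ * conjG g δ.toMul * (⟨u, hu⟩ : Gamma M)⁻¹ :=
    Subtype.ext (by simp [coe_conjG, mul_assoc])
  rw [e, ofMul_mul, ofMul_mul, ofMul_inv, map_add, map_add, map_neg]
  abel

theorem conjLin_dia_comm (hp : p.Coprime M) (hq : q.Coprime M) {A : Type*} [AddCommGroup A]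
    (φ : Additive (Gamma M) →+ A) :
    conjLin (dia M p) (conjLin (dia M q) φ) = conjLin (dia M q) (conjLin (dia M p) φ) := by
  rw [conjLin_conjLin, conjLin_conjLin]
  set u := dia M q * dia M p * (dia M p * dia M q)⁻¹ with hu
  have hmem : u ∈ Gamma M := by
    rw [Gamma_mem', hu, map_mul, map_inv, mul_inv_eq_one]
    refine Subtype.ext ?_
    show redMat M ((dia M q * dia M p : SL(2, ℤ)) : M2) = redMat M ((dia M p * dia M q : SL(2, ℤ)) : M2)
    simp only [Matrix.SpecialLinearGroup.coe_mul, map_mul, redM_dia hp, redM_dia hq,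
      Matrix.mul_fin_two]
    simp [mul_comm]
  rw [show dia M q * dia M p = u * (dia M p * dia M q) by rw [hu, inv_mul_cancel_right],
    conjLin_mem_left hmem]

/-- The generators commute. -/
theorem opGen_commute {A : Type*} [AddCommGroup A] (x y : OpIndex M) :
    Commute (opGen M A x) (opGen M A y) := by
  obtain ⟨⟨p, hp, hpM⟩, _ | _⟩ := x <;> obtain ⟨⟨q, hq, hqM⟩, _ | _⟩ := y <;>
    refine LinearMap.ext fun φ => ?_
  · exact conjLin_dia_comm (coprime_of_not_dvd hp hpM) (coprime_of_not_dvd hq hqM) φ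
  · exact (heckeHom_conjLin hq hqM _ (commute_redM_dia (coprime_of_not_dvd hp hpM) q) φ).symm
  · exact heckeHom_conjLin hp hpM _ (commute_redM_dia (coprime_of_not_dvd hq hqM) p) φ
  · exact heckeHom_comm hq hqM hp hpM φ

theorem opMap_commute {A : Type*} [AddCommGroup A] (P Q : FreeAlgebra ℤ (OpIndex M)) :
    Commute (opMap M A P) (opMap M A Q) := by
  induction P using FreeAlgebra.induction with
  | grade0 r => rw [AlgHom.commutes]; exact Algebra.commutes r _
  | grade1 x =>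
    induction Q using FreeAlgebra.induction with
    | grade0 r => rw [AlgHom.commutes]; exact (Algebra.commutes r _).symm
    | grade1 y =>
      simp only [opMap, FreeAlgebra.lift_ι_apply]
      exact opGen_commute x y
    | mul P Q hP hQ => rw [map_mul]; exact hP.mul_right hQ
    | add P Q hP hQ => rw [map_add]; exact hP.add_right hQ
  | mul P P' hP hP' => rw [map_mul]; exact hP.mul_left hP'
  | add P P' hP hP' => rw [map_add]; exact hP.add_left hP'

/-! ### Stability of the parabolic homomorphisms -/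

omit [NeZero M] in
theorem mem_par {A : Type*} [AddCommGroup A] {φ : Additive (Gamma M) →+ A} :
    φ ∈ Par M A ↔ ∀ (γ : SL(2, ℤ)) (δ : Gamma M),
      (δ : SL(2, ℤ)) = γ * ModularGroup.T ^ (M : ℤ) * γ⁻¹ → φ (Additive.ofMul δ) = 0 := Iff.rfl

omit [NeZero M] in
theorem conjLin_mem_par {A : Type*} [AddCommGroup A] {φ : Additive (Gamma M) →+ A}
    (hφ : φ ∈ Par M A) (g : SL(2, ℤ)) : conjLin g φ ∈ Par M A := fun γ δ hδ =>
  hφ (g * γ) (conjG g δ) (by rw [coe_conjG, hδ]; group)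

omit [NeZero M] in
/-- Elements of trace two of `Γ(M)` are conjugate to powers of `T ^ M`. -/
theorem par_apply_of_trace {A : Type*} [AddCommGroup A] {φ : Additive (Gamma M) →+ A}
    (hφ : φ ∈ Par M A) (c : Gamma M) (hc : (matOf c).trace = 2) : φ (Additive.ofMul c) = 0 := by
  obtain ⟨g, n, e⟩ := Period.exists_conj_T_zpow_of_trace (γ := (c : SL(2, ℤ)))
    (by rw [show ((c : SL(2, ℤ)) : M2).trace = 2 from hc]; norm_num)
  rcases e with e | e
  · have hn : ModularGroup.T ^ n ∈ Gamma M := by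
      have h := (Gamma_normal M).conj_mem _ c.2 g⁻¹
      rw [e] at h
      simpa [mul_assoc] using h
    obtain ⟨k, hk⟩ : (M : ℤ) ∣ n := by
      rw [Gamma_mem, ModularGroup.coe_T_zpow] at hn
      simpa [ZMod.intCast_zmod_eq_zero_iff_dvd] using hn.2.1
    set d : Gamma M := ⟨g * ModularGroup.T ^ (M : ℤ) * g⁻¹,
      (Gamma_normal M).conj_mem _ (ModularGroup_T_pow_mem_Gamma M M dvd_rfl) g⟩ with hd
    have hcd : c = d ^ k := Subtype.ext (by
      rw [SubgroupClass.coe_zpow, hd, e, hk, zpow_mul]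
      exact map_zpow (MulAut.conj g) (ModularGroup.T ^ (M : ℤ)) k)
    rw [hcd, ofMul_zpow, map_zsmul, hφ g d rfl, smul_zero]
  · exfalso
    have h2 : ((-(g * ModularGroup.T ^ n * g⁻¹) : SL(2, ℤ)) : M2).trace = -2 := by
      rw [Matrix.SpecialLinearGroup.coe_neg, Matrix.trace_neg, Matrix.SpecialLinearGroup.coe_mul,
        Matrix.trace_mul_comm, ← Matrix.SpecialLinearGroup.coe_mul, inv_mul_cancel_left,
        ModularGroup.coe_T_zpow, Matrix.trace_fin_two]
      norm_num
    rw [← e] at h2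
    rw [show ((c : SL(2, ℤ)) : M2).trace = 2 from hc] at h2
    norm_num at h2

theorem heckeHom_mem_par {A : Type*} [AddCommGroup A] {φ : Additive (Gamma M) →+ A}
    (hφ : φ ∈ Par M A) (hp : p.Prime) (hpM : ¬ p ∣ M) : heckeHom M p φ ∈ Par M A := by
  intro γ δ hδ
  rw [heckeHom_eq hp hpM, Reps.transfer_apply]
  refine (repsT hp hpM).sum_coc_eq_zero φ δ fun i r _ hi => par_apply_of_trace hφ _ ?_
  have hs := (repsT hp hpM).spec (δ ^ r) i
  rw [hi] at hs
  rw [← HeckeH.trace_eq_of_semiconj ((repsT hp hpM).det_ne i) hs]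
  show (((δ ^ r : Gamma M) : SL(2, ℤ)) : M2).trace = 2
  rw [SubgroupClass.coe_pow, hδ]
  rw [show (γ * ModularGroup.T ^ (M : ℤ) * γ⁻¹) ^ r =
    γ * (ModularGroup.T ^ (M : ℤ)) ^ r * γ⁻¹ from conj_pow, ← zpow_natCast, ← zpow_mul,
    Matrix.SpecialLinearGroup.coe_mul, Matrix.trace_mul_comm,
    ← Matrix.SpecialLinearGroup.coe_mul, inv_mul_cancel_left, ModularGroup.coe_T_zpow,
    Matrix.trace_fin_two]
  norm_num

theorem opGen_mem_par {A : Type*} [AddCommGroup A] (x : OpIndex M)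
    {φ : Additive (Gamma M) →+ A} (hφ : φ ∈ Par M A) : opGen M A x φ ∈ Par M A := by
  obtain ⟨⟨p, hp, hpM⟩, _ | _⟩ := x
  · exact conjLin_mem_par hφ _
  · exact heckeHom_mem_par hφ hp hpM

theorem opMap_mem_par {A : Type*} [AddCommGroup A] (P : FreeAlgebra ℤ (OpIndex M))
    {φ : Additive (Gamma M) →+ A} (hφ : φ ∈ Par M A) : opMap M A P φ ∈ Par M A := by
  induction P using FreeAlgebra.induction generalizing φ with
  | grade0 r =>
    rw [AlgHom.commutes, Module.algebraMap_end_apply]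
    exact AddSubgroup.zsmul_mem _ hφ r
  | grade1 x => rw [opMap, FreeAlgebra.lift_ι_apply]; exact opGen_mem_par x hφ
  | mul P Q hP hQ => rw [map_mul, Module.End.mul_apply]; exact hP (hQ hφ)
  | add P Q hP hQ => rw [map_add, LinearMap.add_apply]; exact add_mem (hP hφ) (hQ hφ)

theorem opGen_natural {A B : Type*} [AddCommGroup A] [AddCommGroup B] (f : A →+ B)
    (x : OpIndex M) (φ : Additive (Gamma M) →+ A) :
    opGen M B x (f.comp φ) = f.comp (opGen M A x φ) := by
  obtain ⟨⟨p, hp, hpM⟩, _ | _⟩ := x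
  · exact AddMonoidHom.ext fun _ => rfl
  · simp only [opGen, heckeHom_eq hp hpM]
    exact (repsT hp hpM).transfer_comp ℤ f φ

theorem opMap_natural {A B : Type*} [AddCommGroup A] [AddCommGroup B] (f : A →+ B)
    (P : FreeAlgebra ℤ (OpIndex M)) (φ : Additive (Gamma M) →+ A) :
    opMap M B P (f.comp φ) = f.comp (opMap M A P φ) := by
  induction P using FreeAlgebra.induction generalizing φ with
  | grade0 r =>
    rw [AlgHom.commutes, AlgHom.commutes, Module.algebraMap_end_apply, Module.algebraMap_end_apply]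
    exact AddMonoidHom.ext fun x => (map_zsmul f r (φ x)).symm
  | grade1 x => simp only [opMap, FreeAlgebra.lift_ι_apply]; exact opGen_natural f x φ
  | mul P Q hP hQ =>
    rw [map_mul, map_mul, Module.End.mul_apply, Module.End.mul_apply, hQ, hP]
  | add P Q hP hQ =>
    rw [map_add, map_add, LinearMap.add_apply, LinearMap.add_apply, hP, hQ,
      AddMonoidHom.comp_add]

theorem opMap_mem_chr (P : FreeAlgebra ℤ (OpIndex M)) {φ : Additive (Gamma M) →+ Additive ℂˣ}
    (hφ : φ ∈ Chr M ℓ) : opMap M (Additive ℂˣ) P φ ∈ Chr M ℓ :=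
  ⟨opMap_mem_par P hφ.1, (map_nsmul (opMap M (Additive ℂˣ) P) ℓ φ).symm.trans (by rw [hφ.2, map_zero])⟩

/-! ### Finiteness -/

theorem fg_gammaM : Group.FG (Gamma M) := by
  have : Group.FG SL(2, ℤ) :=
    Group.fg_iff.mpr ⟨_, SpecialLinearGroup.SL2Z_generators, Set.toFinite _⟩
  exact Subgroup.fg_of_index_ne_zero _

/-- Homomorphisms are determined by their values at finitely many elements. -/
theorem exists_generators : ∃ s : Finset (Gamma M), ∀ (A : Type) [AddCommGroup A]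
    (φ ψ : Additive (Gamma M) →+ A),
      (∀ g ∈ s, φ (Additive.ofMul g) = ψ (Additive.ofMul g)) → φ = ψ := by
  obtain ⟨s, hs⟩ := (fg_gammaM (M := M)).out
  refine ⟨s, fun A _ φ ψ h => AddMonoidHom.ext fun x => ?_⟩
  suffices key : ∀ g : Gamma M, φ (Additive.ofMul g) = ψ (Additive.ofMul g) from key x.toMul
  intro g
  have h2 : g ∈ Subgroup.closure (s : Set (Gamma M)) := by rw [hs]; trivial
  induction h2 using Subgroup.closure_induction with
  | mem g hg => exact h g hg
  | one => exact (map_zero φ).trans (map_zero ψ).symm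
  | mul a b _ _ ha hb => rw [ofMul_mul, map_add, map_add, ha, hb]
  | inv a _ ha => rw [ofMul_inv, map_neg, map_neg, ha]

/-- There are only finitely many characters. -/
theorem chr_finite' [NeZero ℓ] : Finite (Chr M ℓ) := by
  obtain ⟨s, hs⟩ := exists_generators (M := M)
  refine Finite.of_injective (β := s → rootsOfUnity ℓ ℂ)
    (fun φ g => ⟨Additive.toMul ((φ : Additive (Gamma M) →+ Additive ℂˣ) (Additive.ofMul g.1)), ?_⟩)
    fun φ ψ h => Subtype.ext (hs _ _ _ fun g hg => ?_)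
  · rw [mem_rootsOfUnity, ← toMul_nsmul]
    exact congrArg Additive.toMul (DFunLike.congr_fun φ.2.2 (Additive.ofMul g.1))
  · exact Additive.toMul.injective (congrArg Subtype.val (congrFun h ⟨g, hg⟩))

end FLTAgent.Gamma1
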