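/-
The Hecke transform of multiplier functions of `Γ(M)`.
-/
import Fermat.Agent.Gamma1.HeckeComb
import Fermat.Agent.Gamma1.Ser
import Fermat.Agent.HeckeH.Growth

/-!
# The Hecke transform of multiplier functions

`isCFun_hecke'`: the product of the translates of a multiplier function is one for the transferred
character. `qScale_qser_hecke'`: its expansion after `q ↦ q^p`. `mem_par_of_isCFun`: a character
with a nonzero multiplier function kills parabolic elements.
-/

set_option autoImplicit false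

noncomputable section

open UpperHalfPlane CongruenceSubgroup ModularCurve Filter
open scoped MatrixGroups

namespace FLTAgent.Gamma1

open FLTAgent.Modular FLTAgent.ModularCosets
open FLTAgent.HeckeH (M2 Reps matOf glM)

variable {M ℓ p : ℕ}

/-- The translate of a point by a representative. -/
def repPt (hp : p.Prime) (M : ℕ) (i : Option (Fin p)) (z : ℍ) : ℍ :=
  glM (heckeRep M p i) (by rw [det_heckeRep]; exact_mod_cast hp.ne_zero) • z

theorem coe_repPt_some (hp : p.Prime) (b : Fin p) (z : ℍ) :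
    (repPt hp M (some b) z : ℂ) = ((z : ℂ) + ((M * (b : ℕ) : ℕ) : ℂ)) / (p : ℂ) := by
  rw [repPt, coe_smul_of_det_pos]
  · simp [num, denom, HeckeH.val_glM, heckeRep_some]
  · rw [Matrix.GeneralLinearGroup.val_det_apply]
    exact HeckeH.det_glM_pos _ (by rw [det_heckeRep]; exact_mod_cast hp.pos)

theorem im_natCast_mul_pos (hp : p.Prime) (z : ℍ) : 0 < ((p : ℂ) * (z : ℂ)).im := by
  have h1 : (0 : ℝ) < p := Nat.cast_pos.mpr hp.pos
  simpa using mul_pos h1 z.im_pos

theorem im_add_div_pos (hp : p.Prime) (x : ℕ) (z : ℍ) :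
    0 < (((z : ℂ) + (x : ℂ)) / (p : ℂ)).im := by
  have h1 : (0 : ℝ) < p := Nat.cast_pos.mpr hp.pos
  simpa [Complex.div_natCast_im] using div_pos z.im_pos h1

theorem repPt_some (hp : p.Prime) (b : Fin p) (z : ℍ) :
    repPt hp M (some b) z = ofComplex (((z : ℂ) + ((M * (b : ℕ) : ℕ) : ℂ)) / (p : ℂ)) := by
  refine UpperHalfPlane.ext ?_
  rw [coe_repPt_some, ofComplex_apply_of_im_pos (im_add_div_pos hp _ z)]

theorem repPt_none (hp : p.Prime) (z : ℍ) :
    repPt hp M none z = dia M p • ofComplex ((p : ℂ) * z) := by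
  have hd : (!![(p : ℤ), 0; 0, 1] : M2).det ≠ 0 := by simp [hp.ne_zero]
  have hL : ((dia M p : SL(2, ℤ)) : M2).det ≠ 0 := by rw [(dia M p).2]; exact one_ne_zero
  rw [repPt, HeckeH.glM_mul_smul hL hd _ (heckeRep_none M p), HeckeH.glM_SL _ hL]
  congr 1
  refine UpperHalfPlane.ext ?_
  rw [ofComplex_apply_of_im_pos (im_natCast_mul_pos hp z), coe_smul_of_det_pos]
  · simp [num, denom, HeckeH.val_glM]
  · rw [Matrix.GeneralLinearGroup.val_det_apply]
    exact HeckeH.det_glM_pos hd (by simpa using hp.pos)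

theorem heckeFun_eq_prod (hp : p.Prime) (y : ℍ → ℂ) (z : ℍ) :
    heckeFun M p y z = ∏ i : Option (Fin p), y (repPt hp M i z) := by
  rw [heckeFun, Fintype.prod_option, repPt_none]
  simp only [repPt_some]

variable [NeZero M]

theorem repPt_smul (hp : p.Prime) (hpM : ¬ p ∣ M) (γ : Gamma M) (i : Option (Fin p)) (z : ℍ) :
    repPt hp M i ((γ : SL(2, ℤ)) • z) =
      ((repsT hp hpM).coc γ i : SL(2, ℤ)) • repPt hp M ((repsT hp hpM).perm γ i) z :=
  HeckeH.glM_smul_comm _ _ ((repsT hp hpM).spec γ i) z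

omit [NeZero M] in
/-- Translates of a point, at a cusp. -/
theorem exists_repPt_smul (hp : p.Prime) (i : Option (Fin p)) (g : SL(2, ℤ)) :
    ∃ (δ : SL(2, ℤ)) (φ : ℍ → ℍ) (a b D : ℕ), a * D = p ∧
      (∀ z : ℍ, ((φ z : ℍ) : ℂ) = ((a : ℂ) * z + ((b : ℤ) : ℂ)) / D) ∧
      Tendsto φ atImInfty atImInfty ∧
      ∀ z : ℍ, repPt hp M i (g • z) = δ • φ z := by
  obtain ⟨δ, φ, a, b, D, haD, -, hφ, hM⟩ := HeckeH.exists_decomp (heckeRep M p i)
    (by rw [det_heckeRep]; exact_mod_cast hp.ne_zero) hp.ne_zero (det_heckeRep i) g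
  have ha : 0 < a := Nat.pos_of_ne_zero fun h => hp.ne_zero (by rw [← haD, h, zero_mul])
  have hD : 0 < D := Nat.pos_of_ne_zero fun h => hp.ne_zero (by rw [← haD, h, mul_zero])
  refine ⟨δ, φ, a, b, D, haD, fun z => ?_,
    tendsto_atImInfty_of_affine (a := (a : ℝ) / D) (b := (b : ℝ) / D)
      (div_pos (Nat.cast_pos.mpr ha) (Nat.cast_pos.mpr hD)) hφ, hM⟩
  rw [hφ z]
  push_cast
  ring

theorem chrVal_add_sum {ι : Type*} (s : Finset ι) (f : ι → Additive ℂˣ) :
    ((Additive.toMul (∑ i ∈ s, f i) : ℂˣ) : ℂ) = ∏ i ∈ s, ((Additive.toMul (f i) : ℂˣ) : ℂ) := by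
  rw [toMul_sum, Units.coe_prod]

theorem chrVal_heckeHom (hp : p.Prime) (hpM : ¬ p ∣ M)
    (φ : Additive (Gamma M) →+ Additive ℂˣ) (γ : Gamma M) :
    chrVal (heckeHom M p φ) γ = ∏ i, chrVal φ ((repsT hp hpM).coc γ i) := by
  rw [chrVal, heckeHom_eq hp hpM, Reps.transfer_apply, chrVal_add_sum]
  rfl

omit [NeZero M] in
theorem isCFun_comp' {φ : Additive (Gamma M) →+ Additive ℂˣ} {y : ℍ → ℂ}
    (hy : IsCFun M φ y) (g : SL(2, ℤ)) : IsCFun M (conjLin g φ) (comp y g) := by
  refine ⟨isHol_comp hy.hol g, fun γ z => ?_, fun γ => ?_⟩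
  · show y (g • ((γ : SL(2, ℤ)) • z)) = chrVal φ (conjG g γ) * y (g • z)
    rw [← hy.smul, coe_conjG, ← mul_smul, ← mul_smul, inv_mul_cancel_right]
  · rw [comp_comp]
    exact hy.expansion _

theorem T_zpow_smul_eq (k : ℤ) (z : ℍ) :
    ((ModularGroup.T ^ k • z : ℍ) : ℂ) = (z : ℂ) + k := by
  rw [modular_T_zpow_smul, coe_vadd]
  push_cast
  ring

/-- A nonzero multiplier function has trivial multipliers at parabolic elements. -/
theorem mem_par_of_isCFun {φ : Additive (Gamma M) →+ Additive ℂˣ} {y : ℍ → ℂ}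
    (hy : IsCFun M φ y) (hne : y ≠ 0) : φ ∈ Par M (Additive ℂˣ) := by
  intro g δ hδ
  have hh : (0 : ℝ) < (M : ℝ) := natM_pos
  obtain ⟨ys, hys, -⟩ := hy.expansion g
  have hys0 : ys ≠ 0 := by
    rintro rfl
    have h := congrArg (compHom g⁻¹)
      (eq_zero_of_hasQExp_zero (isHol_comp hy.hol g) hys)
    rw [compHom_apply, comp_comp, mul_inv_cancel, comp_one, map_zero] at h
    exact hne h
  obtain ⟨z, hz1, hz2⟩ :=
    ((hys.eventually_periodic hh.ne').and (hys.eventually_ne_zero hh hys0)).exists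
  have e : (δ : SL(2, ℤ)) • (g • z) = g • ((M : ℝ) +ᵥ z) := by
    rw [hδ, ← mul_smul, inv_mul_cancel_right, mul_smul, modular_T_zpow_smul]
    norm_num
  have h := hy.smul δ (g • z)
  rw [e] at h
  change comp y g ((M : ℝ) +ᵥ z) = chrVal φ δ * comp y g z at h
  rw [hz1] at h
  have h1 : chrVal φ δ = 1 := mul_right_cancel₀ hz2 (h.symm.trans (one_mul _).symm)
  exact Additive.toMul.injective (Units.ext h1)

omit [NeZero M] in
/-- Expansions in a finer variable supported on multiples. -/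
theorem hasQExp_of_qExpand {h : ℝ} {f : ℍ → ℂ} {y : LaurentSeries ℂ} (N : ℕ) [NeZero N]
    (hf : HasQExp ((N : ℝ) * h) f (ModularCurve.qExpand ℂ N y)) : HasQExp h f y := by
  obtain ⟨C, hC⟩ := hf
  refine ⟨C, fun z hz => ?_⟩
  have hinj : Function.Injective fun k : ℤ => (N : ℤ) * k :=
    mul_right_injective₀ (by exact_mod_cast NeZero.ne N)
  have h1 := (hinj.hasSum_iff (f := fun k => (ModularCurve.qExpand ℂ N y).coeff k *
    qPow ((N : ℝ) * h) k z) fun k hk => by
      rw [ModularCurve.qExpand_coeff_of_not_dvd N y, zero_mul]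
      rintro ⟨m, rfl⟩
      exact hk ⟨m, rfl⟩).mpr (hC z hz)
  convert h1 using 1
  funext k
  simp only [Function.comp_apply, ModularCurve.qExpand_coeff_mul,
    Modular.qPow_mul_period h (NeZero.ne N)]

/-- The Hecke transform of a multiplier function has the transferred multiplier. -/
theorem isCFun_hecke' {φ : Additive (Gamma M) →+ Additive ℂˣ} {y : ℍ → ℂ}
    (hy : IsCFun M φ y) (hp : p.Prime) (hpM : ¬ p ∣ M) :
    IsCFun M (heckeHom M p φ) (heckeFun M p y) := by
  have : NeZero p := ⟨hp.ne_zero⟩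
  have hsmul : ∀ (γ : Gamma M) (z : ℍ),
      heckeFun M p y ((γ : SL(2, ℤ)) • z) = chrVal (heckeHom M p φ) γ * heckeFun M p y z := by
    intro γ z
    rw [heckeFun_eq_prod hp, heckeFun_eq_prod hp, chrVal_heckeHom hp hpM,
      ← Equiv.prod_comp ((repsT hp hpM).permEquiv γ) (fun i => y (repPt hp M i z)),
      ← Finset.prod_mul_distrib]
    refine Finset.prod_congr rfl fun i _ => ?_
    rw [repPt_smul hp hpM, hy.smul]
    rfl
  refine ⟨?_, hsmul, fun g => ?_⟩
  · have e : heckeFun M p y = fun z => ∏ i : Option (Fin p), y (repPt hp M i z) :=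
      funext (heckeFun_eq_prod hp y)
    rw [e, IsHol]
    refine DifferentiableOn.congr (f := fun w => ∏ i : Option (Fin p),
      ((fun z => y (repPt hp M i z)) ∘ ofComplex) w) ?_ fun w _ => rfl
    refine DifferentiableOn.fun_finsetProd fun i _ => ?_
    have hy' := hy.hol
    rw [IsHol, ← UpperHalfPlane.mdifferentiable_iff] at hy'
    exact UpperHalfPlane.mdifferentiable_iff.mp (hy'.comp (UpperHalfPlane.mdifferentiable_smul
      (HeckeH.det_glM_pos _ (by rw [det_heckeRep]; exact_mod_cast hp.pos))))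
  · rcases eq_or_ne y 0 with rfl | hne
    · have e : comp (heckeFun M p (0 : ℍ → ℂ)) g = 0 := by
        funext z
        simp [comp, heckeFun]
      rw [e]
      exact ⟨0, hasQExp_zero _, fun _ => trivial⟩
    have hh : (0 : ℝ) < (p : ℝ) * (M : ℝ) :=
      mul_pos (Nat.cast_pos.mpr hp.pos) natM_pos
    have hfac : ∀ i : Option (Fin p), ∃ s : LaurentSeries ℂ,
        HasQExp ((p : ℝ) * (M : ℝ)) (fun z => y (repPt hp M i (g • z))) s := by
      intro i
      obtain ⟨δ, φ', a, b, D, haD, hφ', -, hδ⟩ := exists_repPt_smul (M := M) hp i g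
      have : NeZero a := ⟨fun h => hp.ne_zero (by rw [← haD, h, zero_mul])⟩
      have : NeZero D := ⟨fun h => hp.ne_zero (by rw [← haD, h, mul_zero])⟩
      obtain ⟨ys, hys, -⟩ := hy.expansion δ
      have h1 := (hys.comp_affine natM_pos.ne' a D (b : ℤ) hφ').qExpand a
      rw [show (a : ℝ) * ((D : ℝ) * (M : ℝ)) = (p : ℝ) * (M : ℝ) by
        rw [← haD, Nat.cast_mul]; ring] at h1
      exact ⟨_, h1.congr (Eventually.of_forall fun z => by simp only [hδ, comp])⟩
    choose s hs using hfac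
    set Y := ∏ i, s i with hYdef
    have hY : HasQExp ((p : ℝ) * (M : ℝ)) (comp (heckeFun M p y) g) Y := by
      refine (HasQExp.finprod Finset.univ fun i _ => hs i).congr (Eventually.of_forall fun z => ?_)
      rw [Finset.prod_apply]
      exact (heckeFun_eq_prod hp y _).symm
    have hpar := heckeHom_mem_par (mem_par_of_isCFun hy hne) hp hpM
    set d : Gamma M := ⟨g * ModularGroup.T ^ (M : ℤ) * g⁻¹,
      (Gamma_normal M).conj_mem _ (ModularGroup_T_pow_mem_Gamma M M dvd_rfl) g⟩ with hd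
    have hd1 : chrVal (heckeHom M p φ) d = 1 := by
      rw [chrVal, hpar g d rfl]
      rfl
    have hinv : ∀ z : ℍ, comp (heckeFun M p y) g (ModularGroup.T ^ (M : ℤ) • z) =
        comp (heckeFun M p y) g z := by
      intro z
      have h := hsmul d (g • z)
      rw [hd1, one_mul, ← mul_smul,
        show (d : SL(2, ℤ)) * g = g * ModularGroup.T ^ (M : ℤ) by
          rw [hd]; exact inv_mul_cancel_right _ _, mul_smul] at h
      exact h
    have hY2 := hY.comp_affine hh.ne' 1 1 (M : ℤ) (φ := fun z => ModularGroup.T ^ (M : ℤ) • z)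
      fun z => by rw [T_zpow_smul_eq]; simp
    simp only [Nat.cast_one, one_mul, ModularCurve.qExpand_one_apply] at hY2
    have heq := (hY2.congr (Eventually.of_forall hinv)).unique hh hY
    obtain ⟨Y0, hY0⟩ := exists_qScale_eq hp.ne_zero (x := Y) (fun k hk => by
      refine coeff_eq_zero_of_twist_eq (ζ := zetaU p) (zetaU_primitive p) ?_ hk
      refine (HahnSeries.ext (funext fun j => ?_)).trans heq
      rw [twist_coeff, twistSeries_coeff]
      congr 4
      refine Units.ext ?_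
      rw [zetaU, Units.val_mk0, Units.val_mk0]
      congr 1
      have hMC : ((M : ℕ) : ℂ) ≠ 0 := Nat.cast_ne_zero.mpr (NeZero.ne M)
      have hpC : ((p : ℕ) : ℂ) ≠ 0 := Nat.cast_ne_zero.mpr hp.ne_zero
      push_cast
      field_simp)
    rw [← hY0, qScale_eq] at hY
    exact ⟨Y0, hasQExp_of_qExpand p hY, fun _ => trivial⟩

/-- The expansion of the Hecke transform, after `q ↦ q^p`. -/
theorem qScale_qser_hecke' {φ : Additive (Gamma M) →+ Additive ℂˣ} {y : ℍ → ℂ}
    (hy : IsCFun M φ y) (hp : p.Prime) (hpM : ¬ p ∣ M) :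
    qScale ℂ p (qser M (heckeFun M p y)) =
      qScale ℂ (p * p) (qser M (comp y (dia M p))) *
        ∏ b : Fin p, twist (zetaU p ^ (b : ℕ)) (qser M y) := by
  have : NeZero p := ⟨hp.ne_zero⟩
  have hh : (0 : ℝ) < (p : ℝ) * (M : ℝ) := mul_pos (Nat.cast_pos.mpr hp.pos) natM_pos
  have hE : HasExpIn M ⊤ (heckeFun M p y) := by
    simpa using (isCFun_hecke' hy hp hpM).expansion 1
  have hy1 : HasExpIn M ⊤ y := by simpa using hy.expansion 1
  have hL := (hE.hasQExp).qExpand p
  rw [← qScale_eq] at hL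
  refine hL.unique hh ?_
  have h0 : HasQExp ((p : ℝ) * (M : ℝ)) (fun z => y (dia M p • ofComplex ((p : ℂ) * z)))
      (qScale ℂ (p * p) (qser M (comp y (dia M p)))) := by
    have h1 := ((hy.expansion (dia M p)).hasQExp.comp_mul p
      (φ := fun z => ofComplex ((p : ℂ) * z))
      (fun z => by rw [ofComplex_apply_of_im_pos (im_natCast_mul_pos hp z)])).qExpand p
    rw [← qScale_eq, qScale_qScale hp.ne_zero hp.ne_zero] at h1
    exact h1
  have hb : ∀ b : Fin p, HasQExp ((p : ℝ) * (M : ℝ))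
      (fun z => y (ofComplex (((z : ℂ) + ((M * (b : ℕ) : ℕ) : ℂ)) / (p : ℂ))))
      (twist (zetaU p ^ (b : ℕ)) (qser M y)) := by
    intro b
    have h1 := hy1.hasQExp.comp_affine natM_pos.ne' 1 p ((M * (b : ℕ) : ℕ) : ℤ)
      (φ := fun z => ofComplex (((z : ℂ) + ((M * (b : ℕ) : ℕ) : ℂ)) / (p : ℂ)))
      fun z => by rw [ofComplex_apply_of_im_pos (im_add_div_pos hp _ z)]; simp
    rw [ModularCurve.qExpand_one_apply] at h1
    convert h1 using 1
    refine HahnSeries.ext (funext fun j => ?_)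
    rw [twist_coeff, twistSeries_coeff]
    congr 4
    refine Units.ext ?_
    rw [Units.val_pow_eq_pow_val, zetaU, Units.val_mk0, Units.val_mk0, ← Complex.exp_nat_mul]
    congr 1
    have hMC : ((M : ℕ) : ℂ) ≠ 0 := Nat.cast_ne_zero.mpr (NeZero.ne M)
    have hpC : ((p : ℕ) : ℂ) ≠ 0 := Nat.cast_ne_zero.mpr hp.ne_zero
    push_cast
    field_simp
  refine (h0.mul (HasQExp.finprod Finset.univ fun b _ => hb b)).congr
    (Eventually.of_forall fun z => ?_)
  simp [heckeFun, Finset.prod_apply]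

end FLTAgent.Gamma1
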