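/-
Periods of a weight two eigenform with character modulo an ideal: a polynomial in the Hecke and
diamond operators killing all integral parabolic homomorphisms has eigenvalue zero.
-/
import Fermat.Agent.Gamma1.HeckeFun
import Fermat.Agent.DS.Defs
import Fermat.Agent.Period.Primitive
import Fermat.Prelude.Def_GaloisRep_Residual

/-!
# Eigenvalues from periods

`eigMap_eq_zero`: if a polynomial in the Hecke and diamond operators kills all integral parabolic
homomorphisms, its value at the mod `ℓ` eigensystem of the form `F` is zero. The periods of `F`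
satisfy a congruence (`Good`) that the operators multiply by their eigenvalues (`Good.hecke`,
`Good.dia`), and the zero homomorphism has factor zero (`Good.eq_zero`).
-/

set_option autoImplicit false

noncomputable section

open UpperHalfPlane CongruenceSubgroup Filter Topology Matrix.SpecialLinearGroup
open Function (Periodic)
open scoped MatrixGroups ModularForm Manifold

namespace FLTAgent.Gamma1

open FLTAgent.HeckeH (M2 Reps matOf glM)

variable {M M' p : ℕ} {k : Type} [CommRing k]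

/-- `exp (2πi τ)`. -/
def qOne (τ : ℂ) : ℂ := Function.Periodic.qParam 1 τ

theorem qOne_add (x y : ℂ) : qOne (x + y) = qOne x * qOne y := by
  simp [qOne, Function.Periodic.qParam, mul_add, Complex.exp_add]

theorem qOne_natCast_mul (n : ℕ) (x : ℂ) : qOne (n * x) = qOne x ^ n := by
  simp only [qOne, Function.Periodic.qParam]
  rw [← Complex.exp_nat_mul]
  congr 1
  push_cast
  ring

variable (M) in
/-- `ω` is the period homomorphism of a function with expansion `lam • A` modulo the kernel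
of `φ`. -/
def Good (R : Subring ℂ) (φ : R →+* k) (χ : DirichletCharacter ℂ M') (A : ℕ → R)
    (ω : Additive (Gamma M) →+ ℂ) (lam : k) : Prop :=
  ∃ (G f : ℍ → ℂ) (c : ℕ → R),
    (∀ τ : ℍ, HasDerivAt (G ∘ ofComplex) (f τ) (τ : ℂ)) ∧
    (∀ δ : SL(2, ℤ), ∃ L : ℂ, Tendsto (fun w : ℍ => G (δ • w)) atImInfty (𝓝 L)) ∧
    (∀ (γ : Gamma M) (z : ℍ), G ((γ : SL(2, ℤ)) • z) - G z = ω (Additive.ofMul γ)) ∧
    (∀ τ : ℍ, HasSum (fun m : ℕ => (c m : ℂ) * qOne (τ : ℂ) ^ m) (f τ)) ∧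
    (∀ q : ℕ, q.Prime → ¬ q ∣ M →
      ∃ c₀ : ℂ, ∀ z : ℍ, G (dia M q • z) = χ (q : ZMod M') * G z + c₀) ∧
    ∀ m : ℕ, φ (c m) = lam * φ (A m)

variable {R : Subring ℂ} {φ : R →+* k} {χ : DirichletCharacter ℂ M'} {A : ℕ → R}

theorem Good.add {ω ω' : Additive (Gamma M) →+ ℂ} {lam lam' : k}
    (h : Good M R φ χ A ω lam) (h' : Good M R φ χ A ω' lam') :
    Good M R φ χ A (ω + ω') (lam + lam') := by
  obtain ⟨G, f, c, hd, hl, hp, he, hs, hr⟩ := h
  obtain ⟨G', f', c', hd', hl', hp', he', hs', hr'⟩ := h'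
  refine ⟨fun z => G z + G' z, fun z => f z + f' z, fun m => c m + c' m,
    fun τ => (hd τ).add (hd' τ), fun δ => ?_, fun γ z => ?_, fun τ => ?_, fun q hq hqM => ?_,
    fun m => ?_⟩
  · obtain ⟨L, hL⟩ := hl δ
    obtain ⟨L', hL'⟩ := hl' δ
    exact ⟨L + L', hL.add hL'⟩
  · rw [AddMonoidHom.add_apply, ← hp γ z, ← hp' γ z]; ring
  · refine ((he τ).add (he' τ)).congr_fun fun m => ?_
    push_cast; ring
  · obtain ⟨a, ha⟩ := hs q hq hqM
    obtain ⟨a', ha'⟩ := hs' q hq hqM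
    exact ⟨a + a', fun z => by simp only [ha, ha']; ring⟩
  · rw [map_add, hr m, hr' m, add_mul]

theorem Good.zsmul {ω : Additive (Gamma M) →+ ℂ} {lam : k}
    (h : Good M R φ χ A ω lam) (r : ℤ) : Good M R φ χ A (r • ω) ((r : k) * lam) := by
  obtain ⟨G, f, c, hd, hl, hp, he, hs, hr⟩ := h
  refine ⟨fun z => (r : ℂ) * G z, fun z => (r : ℂ) * f z, fun m => (r : R) * c m,
    fun τ => (hd τ).const_mul _, fun δ => ?_, fun γ z => ?_, fun τ => ?_, fun q hq hqM => ?_,
    fun m => ?_⟩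
  · obtain ⟨L, hL⟩ := hl δ
    exact ⟨_, hL.const_mul _⟩
  · rw [AddMonoidHom.zsmul_apply, ← hp γ z, zsmul_eq_mul]; ring
  · refine ((he τ).mul_left (r : ℂ)).congr_fun fun m => ?_
    push_cast; ring
  · obtain ⟨a, ha⟩ := hs q hq hqM
    exact ⟨(r : ℂ) * a, fun z => by simp only [ha]; ring⟩
  · rw [map_mul, map_intCast, hr m, mul_assoc]

theorem Good.dia (χR : ℕ → R) (hχR : ∀ m : ℕ, (χR m : ℂ) = χ (m : ZMod M'))
    {ω : Additive (Gamma M) →+ ℂ} {lam : k}
    (h : Good M R φ χ A ω lam) (hp : p.Prime) (hpM : ¬ p ∣ M) :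
    Good M R φ χ A (conjLin (FLTAgent.Gamma1.dia M p) ω) (φ (χR p) * lam) := by
  obtain ⟨G, f, c, hd, hl, hper, he, hs, hr⟩ := h
  obtain ⟨a, ha⟩ := hs p hp hpM
  refine ⟨fun z => χ (p : ZMod M') * G z + a, fun z => χ (p : ZMod M') * f z,
    fun m => χR p * c m, fun τ => ((hd τ).const_mul _).add_const a, fun δ => ?_, fun γ z => ?_,
    fun τ => ?_, fun q hq hqM => ?_, fun m => ?_⟩
  · obtain ⟨L, hL⟩ := hl δ
    exact ⟨_, (hL.const_mul _).add_const a⟩
  · simp only [← ha]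
    rw [conjLin_apply, ← hper (conjG _ γ) (FLTAgent.Gamma1.dia M p • z), coe_conjG, ← mul_smul,
      ← mul_smul, inv_mul_cancel_right]
  · refine ((he τ).mul_left (χ (p : ZMod M'))).congr_fun fun m => ?_
    push_cast [hχR]; ring
  · obtain ⟨b, hb⟩ := hs q hq hqM
    exact ⟨χ (p : ZMod M') * b + a - χ (q : ZMod M') * a, fun z => by simp only [hb]; ring⟩
  · rw [map_mul, hr m, mul_assoc]

theorem hasDerivAt_affine {G f : ℍ → ℂ}
    (hd : ∀ τ : ℍ, HasDerivAt (G ∘ ofComplex) (f τ) (τ : ℂ)) (a b : ℂ)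
    (hpos : ∀ w : ℂ, 0 < w.im → 0 < (a * w + b).im) (τ : ℍ) :
    HasDerivAt ((fun z : ℍ => G (ofComplex (a * (z : ℂ) + b))) ∘ ofComplex)
      (a * f (ofComplex (a * (τ : ℂ) + b))) (τ : ℂ) := by
  have h1 : HasDerivAt (fun w : ℂ => a * w + b) a (τ : ℂ) := by
    simpa using ((hasDerivAt_id (τ : ℂ)).const_mul a).add_const b
  have h2 := (hd (ofComplex (a * (τ : ℂ) + b))).comp_of_eq (τ : ℂ) h1
    (by rw [ofComplex_apply_of_im_pos (hpos _ τ.im_pos)])
  rw [mul_comm]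
  refine h2.congr_of_eventuallyEq ?_
  filter_upwards [isOpen_upperHalfPlaneSet.mem_nhds τ.im_pos] with w hw
  simp only [Function.comp_apply]
  rw [ofComplex_apply_of_im_pos hw]

theorem sum_pow_eq [NeZero p] {ω : ℂ} (hω : IsPrimitiveRoot ω p) (m : ℕ) :
    ∑ b : Fin p, (ω ^ (b : ℕ)) ^ m = if p ∣ m then (p : ℂ) else 0 := by
  have e : ∀ b : ℕ, (ω ^ b) ^ m = (ω ^ m) ^ b := fun b => by
    rw [← pow_mul, ← pow_mul, mul_comm]
  simp only [e]
  rw [Fin.sum_univ_eq_sum_range (fun b => (ω ^ m) ^ b) p]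
  split_ifs with h
  · rw [(hω.pow_eq_one_iff_dvd m).mpr h]; simp
  · rw [geom_sum_eq (fun h' => h ((hω.pow_eq_one_iff_dvd m).mp h')), ← pow_mul, mul_comm, pow_mul,
      hω.pow_eq_one, one_pow, sub_self, zero_div]

variable [NeZero M]

omit [NeZero M] in
theorem hasSum_hecke {f : ℍ → ℂ} {c : ℕ → ℂ} (hp : p.Prime) (hpM : ¬ p ∣ M) (x : ℂ)
    (he : ∀ τ : ℍ, HasSum (fun m : ℕ => c m * qOne (τ : ℂ) ^ m) (f τ)) (τ : ℍ) :
    HasSum (fun m : ℕ => (c (p * m) + x * (p : ℂ) * (if p ∣ m then c (m / p) else 0)) *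
        qOne (τ : ℂ) ^ m)
      (x * ((p : ℂ) * f (ofComplex ((p : ℂ) * (τ : ℂ) + 0))) +
        ∑ b : Fin p, (p : ℂ)⁻¹ *
          f (ofComplex ((p : ℂ)⁻¹ * (τ : ℂ) + ((M * (b : ℕ) : ℕ) : ℂ) / (p : ℂ)))) := by
  have : NeZero p := ⟨hp.ne_zero⟩
  have hpC : ((p : ℕ) : ℂ) ≠ 0 := Nat.cast_ne_zero.mpr hp.ne_zero
  set q := qOne (τ : ℂ) with hq
  set u := qOne ((p : ℂ)⁻¹ * (τ : ℂ)) with hu
  have hup : u ^ p = q := by
    rw [hu, hq, ← qOne_natCast_mul, ← mul_assoc, mul_inv_cancel₀ hpC, one_mul]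
  set ω := qOne ((M : ℂ) / (p : ℂ)) with hωdef
  have hω : IsPrimitiveRoot ω p := by
    have h1 := Complex.isPrimitiveRoot_exp_of_coprime M p hp.ne_zero
      (Nat.Coprime.symm (coprime_of_not_dvd hp hpM))
    rw [hωdef, qOne, Function.Periodic.qParam, Complex.ofReal_one, div_one]
    exact h1
  -- the translates
  have hb : ∀ b : Fin p, HasSum (fun m : ℕ => (p : ℂ)⁻¹ * (c m * u ^ m * (ω ^ (b : ℕ)) ^ m))
      ((p : ℂ)⁻¹ *
        f (ofComplex ((p : ℂ)⁻¹ * (τ : ℂ) + ((M * (b : ℕ) : ℕ) : ℂ) / (p : ℂ)))) := by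
    intro b
    have him : 0 < ((p : ℂ)⁻¹ * (τ : ℂ) + ((M * (b : ℕ) : ℕ) : ℂ) / (p : ℂ)).im := by
      have := im_add_div_pos hp (M * (b : ℕ)) τ
      rwa [add_div, div_eq_inv_mul] at this
    refine ((he _).mul_left _).congr_fun fun m => ?_
    rw [ofComplex_apply_of_im_pos him]
    simp only []
    rw [qOne_add, mul_pow, hu, ← mul_assoc (c m),
      show ((M * (b : ℕ) : ℕ) : ℂ) / (p : ℂ) = ((b : ℕ) : ℂ) * ((M : ℂ) / (p : ℂ)) by
        push_cast; ring, qOne_natCast_mul, hωdef]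
  have hsum := hasSum_sum (s := Finset.univ) fun b _ => hb b
  have h1 : HasSum (fun m : ℕ => c (p * m) * q ^ m)
      (∑ b : Fin p, (p : ℂ)⁻¹ *
        f (ofComplex ((p : ℂ)⁻¹ * (τ : ℂ) + ((M * (b : ℕ) : ℕ) : ℂ) / (p : ℂ)))) := by
    have hinj : Function.Injective fun m : ℕ => p * m := mul_right_injective₀ hp.ne_zero
    have h2 := (hinj.hasSum_iff (f := fun m : ℕ =>
      ∑ b : Fin p, (p : ℂ)⁻¹ * (c m * u ^ m * (ω ^ (b : ℕ)) ^ m)) fun m hm => by
        rw [← Finset.mul_sum, ← Finset.mul_sum, sum_pow_eq hω, if_neg, mul_zero, mul_zero]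
        rintro ⟨j, rfl⟩
        exact hm ⟨j, rfl⟩).mpr hsum
    refine h2.congr_fun fun m => ?_
    simp only [Function.comp_apply]
    rw [← Finset.mul_sum, ← Finset.mul_sum, sum_pow_eq hω, if_pos (dvd_mul_right _ _), pow_mul,
      hup]
    field_simp
  have h3 : HasSum (fun m : ℕ => (if p ∣ m then c (m / p) else 0) * q ^ m)
      (f (ofComplex ((p : ℂ) * (τ : ℂ) + 0))) := by
    have hinj : Function.Injective fun m : ℕ => p * m := mul_right_injective₀ hp.ne_zero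
    refine (hinj.hasSum_iff fun m hm => ?_).mp ?_
    · rw [if_neg, zero_mul]
      rintro ⟨j, rfl⟩
      exact hm ⟨j, rfl⟩
    · refine (he _).congr_fun fun m => ?_
      simp only [Function.comp_apply]
      rw [if_pos (dvd_mul_right _ _), Nat.mul_div_cancel_left m hp.pos, add_zero,
        ofComplex_apply_of_im_pos (im_natCast_mul_pos hp τ)]
      simp only []
      rw [qOne_natCast_mul, pow_mul, hq]
  have h4 := ((h3.mul_left (p : ℂ)).mul_left x).add h1
  refine h4.congr_fun fun m => ?_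
  ring

omit [NeZero M] in
theorem repPt_dia_smul (hp : p.Prime) (g : SL(2, ℤ)) (ε : Gamma M) (i j : Option (Fin p))
    (h : heckeRep M p i * (g : M2) = (g : M2) * (matOf ε * heckeRep M p j)) (z : ℍ) :
    repPt hp M i (g • z) = g • ((ε : SL(2, ℤ)) • repPt hp M j z) := by
  have hd : ∀ l, (heckeRep M p l).det ≠ 0 := fun l => by
    rw [det_heckeRep]; exact_mod_cast hp.ne_zero
  have hg : ((g : M2)).det ≠ 0 := by rw [g.2]; exact one_ne_zero
  have hε : (matOf ε).det ≠ 0 := by rw [HeckeH.det_matOf]; exact one_ne_zero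
  have h1 : (heckeRep M p i * (g : M2)).det ≠ 0 := by
    rw [Matrix.det_mul]; exact mul_ne_zero (hd i) hg
  have h2 : (matOf ε * heckeRep M p j).det ≠ 0 := by
    rw [Matrix.det_mul]; exact mul_ne_zero hε (hd j)
  rw [repPt, ← HeckeH.glM_SL g hg, ← HeckeH.glM_mul_smul (hd i) hg h1 rfl,
    HeckeH.glM_mul_smul hg h2 h1 h, HeckeH.glM_mul_smul hε (hd j) h2 rfl, HeckeH.glM_SL g hg]
  exact congrArg (g • ·) (HeckeH.glM_SL (ε : SL(2, ℤ)) hε (repPt hp M j z))

theorem Good.hecke (χR : ℕ → R) (hχR : ∀ m : ℕ, (χR m : ℂ) = χ (m : ZMod M')) {a : ℕ → k}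
    (heig : ∀ p : ℕ, p.Prime → ¬ p ∣ M → ∀ m : ℕ,
      φ (A (p * m)) + φ (χR p) * (p : k) * (if p ∣ m then φ (A (m / p)) else 0) =
        a p * φ (A m))
    {ω : Additive (Gamma M) →+ ℂ} {lam : k} (h : Good M R φ χ A ω lam) (hp : p.Prime)
    (hpM : ¬ p ∣ M) : Good M R φ χ A (heckeHom M p ω) (a p * lam) := by
  obtain ⟨G, f, c, hd, hl, hper, he, hs, hr⟩ := h
  obtain ⟨a₀, ha₀⟩ := hs p hp hpM
  have hpC : ((p : ℕ) : ℂ) ≠ 0 := Nat.cast_ne_zero.mpr hp.ne_zero
  set x := χ (p : ZMod M') with hx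
  set G' : ℍ → ℂ := fun z => ∑ i : Option (Fin p), G (repPt hp M i z) with hG'
  have hG'eq : ∀ z : ℍ, G' z = (x * G (ofComplex ((p : ℂ) * (z : ℂ) + 0)) + a₀) +
      ∑ b : Fin p, G (ofComplex ((p : ℂ)⁻¹ * (z : ℂ) + ((M * (b : ℕ) : ℕ) : ℂ) / (p : ℂ))) := by
    intro z
    simp only [hG']
    rw [Fintype.sum_option, repPt_none, ha₀, add_zero]
    refine congrArg _ (Finset.sum_congr rfl fun b _ => ?_)
    rw [repPt_some, add_div, div_eq_inv_mul (z : ℂ)]
  refine ⟨G', fun τ => x * ((p : ℂ) * f (ofComplex ((p : ℂ) * (τ : ℂ) + 0))) +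
      ∑ b : Fin p, (p : ℂ)⁻¹ *
        f (ofComplex ((p : ℂ)⁻¹ * (τ : ℂ) + ((M * (b : ℕ) : ℕ) : ℂ) / (p : ℂ))),
    fun m => c (p * m) + χR p * (p : R) * (if p ∣ m then c (m / p) else 0),
    fun τ => ?_, fun δ => ?_, fun γ z => ?_, fun τ => ?_, fun q hq hqM => ?_, fun m => ?_⟩
  · have h1 := ((hasDerivAt_affine hd (p : ℂ) 0 (fun w hw => by
      rw [add_zero]; exact im_natCast_mul_pos hp ⟨w, hw⟩) τ).const_mul x).add_const a₀
    have h2 := HasDerivAt.fun_sum (u := (Finset.univ : Finset (Fin p))) fun b _ =>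
      hasDerivAt_affine hd (p : ℂ)⁻¹ (((M * (b : ℕ) : ℕ) : ℂ) / (p : ℂ)) (fun w hw => by
        have := im_add_div_pos hp (M * (b : ℕ)) ⟨w, hw⟩
        rwa [add_div, div_eq_inv_mul] at this) τ
    refine (h1.add h2).congr_of_eventuallyEq (Eventually.of_forall fun w => ?_)
    exact hG'eq (ofComplex w)
  · have hi : ∀ i : Option (Fin p), ∃ L : ℂ,
        Tendsto (fun w : ℍ => G (repPt hp M i (δ • w))) atImInfty (𝓝 L) := by
      intro i
      obtain ⟨δ', φ', _, _, _, -, -, ht, hδ⟩ := exists_repPt_smul (M := M) hp i δ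
      obtain ⟨L, hL⟩ := hl δ'
      exact ⟨L, (hL.comp ht).congr fun w => by simp only [Function.comp_apply, hδ]⟩
    choose L hL using hi
    exact ⟨∑ i, L i, tendsto_finsetSum _ fun i _ => hL i⟩
  · rw [heckeHom_eq hp hpM, Reps.transfer_apply]
    simp only [hG']
    rw [← Equiv.sum_comp ((repsT hp hpM).permEquiv γ) (fun i => G (repPt hp M i z)),
      ← Finset.sum_sub_distrib]
    refine Finset.sum_congr rfl fun i _ => ?_
    rw [repPt_smul hp hpM]
    exact hper _ _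
  · have := hasSum_hecke hp hpM x he τ
    refine this.congr_fun fun m => ?_
    push_cast [hχR, apply_ite, ZeroMemClass.coe_zero]
    rw [hx]
  · obtain ⟨b₀, hb₀⟩ := hs q hq hqM
    set σ := FLTAgent.Gamma1.dia M q with hσ
    obtain ⟨e, ε, hε⟩ := exists_perm_conj hp hpM σ⁻¹
      (commute_redM_inv (commute_redM_dia (coprime_of_not_dvd hq hqM) p))
    have hrep : ∀ i, heckeRep M p i * (σ : M2) = (σ : M2) * (matOf (ε i) * heckeRep M p (e i)) := by
      intro i
      have h := congrArg (fun X : M2 => (σ : M2) * X * (σ : M2)) (hε i)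
      simp only [← Matrix.mul_assoc, ← Matrix.SpecialLinearGroup.coe_mul, mul_inv_cancel,
        Matrix.SpecialLinearGroup.coe_one, Matrix.one_mul] at h
      rw [h]
      simp only [Matrix.mul_assoc, ← Matrix.SpecialLinearGroup.coe_mul, inv_mul_cancel,
        Matrix.SpecialLinearGroup.coe_one, Matrix.mul_one]
    refine ⟨∑ i, (χ (q : ZMod M') * ω (Additive.ofMul (ε i)) + b₀), fun z => ?_⟩
    simp only [hG']
    rw [← Equiv.sum_comp e (fun i => G (repPt hp M i z)), Finset.mul_sum, ← Finset.sum_add_distrib]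
    refine Finset.sum_congr rfl fun i _ => ?_
    rw [repPt_dia_smul hp σ (ε i) i (e i) (hrep i), hb₀, ← hper (ε i) (repPt hp M (e i) z)]
    ring
  · rw [map_add, map_mul, map_mul, map_natCast, apply_ite φ, map_zero, hr, hr]
    have := heig p hp hpM m
    split_ifs at this ⊢ <;> linear_combination lam * this

/-- An invariant primitive with limits at the cusps has constant value. -/
theorem deriv_eq_zero_of_invariant {G f : ℍ → ℂ}
    (hd : ∀ τ : ℍ, HasDerivAt (G ∘ ofComplex) (f τ) (τ : ℂ))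
    (hl : ∀ δ : SL(2, ℤ), ∃ L : ℂ, Tendsto (fun w : ℍ => G (δ • w)) atImInfty (𝓝 L))
    (hinv : ∀ (γ : Gamma M) (z : ℍ), G ((γ : SL(2, ℤ)) • z) = G z) (τ : ℍ) : f τ = 0 := by
  let F : ModularForm (Gamma M) 0 :=
    { toFun := G
      slash_action_eq' := by
        rintro _ ⟨γ, hγ, rfl⟩
        funext z
        show (G ∣[(0 : ℤ)] γ) z = G z
        rw [ModularForm.SL_slash_apply, neg_zero, zpow_zero, mul_one]
        exact hinv ⟨γ, hγ⟩ z
      holo' := UpperHalfPlane.mdifferentiable_iff.mpr fun w hw =>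
        (hd ⟨w, hw⟩).differentiableAt.differentiableWithinAt
      bdd_at_cusps' := fun {c} hc => by
        rw [OnePoint.isBoundedAt_iff_forall_SL2Z (Subgroup.IsArithmetic.isCusp_iff_isCusp_SL2Z _ |>.mp hc)]
        intro δ _
        obtain ⟨L, hL⟩ := hl δ
        have e : G ∣[(0 : ℤ)] δ = fun w : ℍ => G (δ • w) := by
          funext w
          rw [ModularForm.SL_slash_apply, neg_zero, zpow_zero, mul_one]
        show IsBoundedAtImInfty (G ∣[(0 : ℤ)] δ)
        rw [e]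
        exact hL.isBigO_one ℝ }
  obtain ⟨c, hc⟩ := ModularForm.eq_const_of_weight_zero F
  have hc' : G = Function.const ℍ c := hc
  refine (hd τ).unique ?_
  rw [hc']
  exact hasDerivAt_const (τ : ℂ) c

theorem Good.eq_zero (hA1 : φ (A 1) = 1) {lam : k} (h : Good M R φ χ A 0 lam) : lam = 0 := by
  obtain ⟨G, f, c, hd, hl, hper, he, -, hr⟩ := h
  have hf : f = 0 := funext fun τ =>
    deriv_eq_zero_of_invariant hd hl (fun γ z => sub_eq_zero.mp (hper γ z)) τ
  subst hf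
  have hper0 : Periodic ((0 : ℍ → ℂ) ∘ ofComplex) ((1 : ℝ) : ℂ) := fun _ => rfl
  have hhol0 : MDiff (0 : ℍ → ℂ) := mdifferentiable_const
  have han : AnalyticAt ℂ (UpperHalfPlane.cuspFunction 1 (0 : ℍ → ℂ)) 0 :=
    UpperHalfPlane.analyticAt_cuspFunction_zero one_pos hper0 hhol0 zero_form_isBoundedAtImInfty
  have hq : ∀ τ : ℍ, qOne (τ : ℂ) = Function.Periodic.qParam 1 (τ : ℂ) := fun _ => rfl
  have hs1 : ∀ τ : ℍ, HasSum (fun m : ℕ => (c m : ℂ) • Function.Periodic.qParam 1 (τ : ℂ) ^ m)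
      ((0 : ℍ → ℂ) τ) := fun τ => by
    simp only [smul_eq_mul, ← hq]
    exact he τ
  have hs2 : ∀ τ : ℍ, HasSum (fun m : ℕ => (0 : ℂ) • Function.Periodic.qParam 1 (τ : ℂ) ^ m)
      ((0 : ℍ → ℂ) τ) := fun τ => by
    simp only [zero_smul, Pi.zero_apply]
    exact hasSum_zero
  let Z : CuspForm ((Gamma1 1 : Subgroup SL(2, ℤ)) : Subgroup (GL (Fin 2) ℝ)) 2 := 0
  have hZ : (⇑Z : ℍ → ℂ) = 0 := rfl
  rw [← hZ] at han hs1 hs2
  have h1 := UpperHalfPlane.qExpansion_coeff_unique Z (c := fun m => (c m : ℂ)) one_pos han hs1 1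
  have h2 := UpperHalfPlane.qExpansion_coeff_unique Z (c := fun _ => (0 : ℂ)) one_pos han hs2 1
  have hc : c 1 = 0 := Subtype.ext (h1.trans h2.symm)
  have := hr 1
  rw [hc, map_zero, hA1, mul_one] at this
  exact this.symm

/-- The periods of the form. -/
theorem exists_good [NeZero M'] (hM' : M' ∣ M) (F : CuspForm (Gamma1 M') 2)
    (hF : DS.HasNebentypus 2 χ ⇑F)
    (hA : ∀ m : ℕ, (A m : ℂ) = ModularFormClass.qCoeff F m) :
    ∃ ω ∈ Par M ℂ, Good M R φ χ A ω 1 := by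
  have hsub : ∀ γ ∈ Gamma M, (⇑F : ℍ → ℂ) ∣[(2 : ℤ)] γ = ⇑F := fun γ hγ => by
    refine SlashInvariantFormClass.slash_action_eq F _ (Subgroup.mem_map_of_mem _ ?_)
    have h := Gamma_mem.mp hγ
    have hcast : ∀ (a : ℤ), ((a : ℤ) : ZMod M') = ZMod.castHom hM' (ZMod M') (a : ZMod M) :=
      fun a => (map_intCast _ a).symm
    rw [Gamma1_mem, hcast, hcast, hcast, h.1, h.2.2.1, h.2.2.2, map_one, map_zero]
    exact ⟨rfl, rfl, rfl⟩
  have hper : ∀ (δ : SL(2, ℤ)) (τ : ℍ),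
      ((⇑F : ℍ → ℂ) ∣[(2 : ℤ)] δ) ((M : ℝ) +ᵥ τ) = ((⇑F : ℍ → ℂ) ∣[(2 : ℤ)] δ) τ := by
    intro δ τ
    have h : ((⇑F : ℍ → ℂ) ∣[(2 : ℤ)] δ) ∣[(2 : ℤ)] (ModularGroup.T ^ (M : ℤ)) =
        (⇑F : ℍ → ℂ) ∣[(2 : ℤ)] δ := by
      rw [← SlashAction.slash_mul, show δ * ModularGroup.T ^ (M : ℤ) =
        (δ * ModularGroup.T ^ (M : ℤ) * δ⁻¹) * δ by group, SlashAction.slash_mul,
        hsub _ ((Gamma_normal M).conj_mem _ (ModularGroup_T_pow_mem_Gamma M M dvd_rfl) δ)]
    conv_rhs => rw [← h]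
    rw [ModularForm.SL_slash_apply (f := (⇑F : ℍ → ℂ) ∣[(2 : ℤ)] δ),
      UpperHalfPlane.modular_T_zpow_smul]
    have hden : denom (mapGL ℝ (ModularGroup.T ^ (M : ℤ))) τ = 1 := by
      simp only [denom, mapGL_coe_matrix, map_apply_coe, RingHom.mapMatrix_apply,
        ModularGroup.coe_T_zpow, Matrix.map_apply]
      simp
    erw [hden]
    simp
  have hdec : ∀ δ : SL(2, ℤ),
      ModSym.IsDecay M (fun t => ((⇑F : ℍ → ℂ) ∣[(2 : ℤ)] δ) (ofComplex t)) := by
    intro δ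
    set h : ℍ → ℂ := (⇑F : ℍ → ℂ) ∣[(2 : ℤ)] δ with hh
    have hpe : Periodic (h ∘ ofComplex) ((M : ℝ) : ℂ) := by
      intro t
      by_cases ht : 0 < t.im
      · simp only [Function.comp_apply]
        have ht' : 0 < (t + ((M : ℝ) : ℂ)).im := by simpa using ht
        rw [ofComplex_apply_of_im_pos ht, ofComplex_apply_of_im_pos ht']
        convert hper δ ⟨t, ht⟩ using 2
        ext
        simp [add_comm]
      · have ht' : (t + ((M : ℝ) : ℂ)).im ≤ 0 := by simpa using not_lt.mp ht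
        simp only [Function.comp_apply]
        rw [ofComplex_apply_of_im_nonpos (not_lt.mp ht), ofComplex_apply_of_im_nonpos ht']
    have hhol : MDiff h := by
      rw [hh, ModularForm.SL_slash]
      exact (CuspFormClass.holo F).slash _ _
    have hzero : IsZeroAtImInfty h := CuspFormClass.zero_at_infty_slash F δ
    have hM0 : (0 : ℝ) < (M : ℝ) := natM_pos
    refine ⟨UpperHalfPlane.cuspFunction M h,
      differentiableOn_cuspFunction_ball hM0 hpe hhol hzero.boundedAtFilter,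
      UpperHalfPlane.IsZeroAtImInfty.cuspFunction_apply_zero hzero hM0, fun t ht => ?_⟩
    show h (ofComplex t) = _
    rw [ofComplex_apply_of_im_pos ht]
    exact (UpperHalfPlane.eq_cuspFunction ⟨t, ht⟩ hM0.ne' hpe).symm
  have hprim : ∀ δ : SL(2, ℤ), ∃ K : ℍ → ℂ,
      (∀ τ : ℍ, HasDerivAt (K ∘ ofComplex) (((⇑F : ℍ → ℂ) ∣[(2 : ℤ)] δ) τ) (τ : ℂ)) ∧
      Tendsto K atImInfty (𝓝 0) := by
    intro δ
    obtain ⟨K, hKd, hK⟩ := (hdec δ).exists_prim
    refine ⟨fun τ => K τ, fun τ => ?_, hKd.zeroAtImInfty⟩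
    have h := hK (τ : ℂ) τ.im_pos
    rw [ofComplex_apply] at h
    refine h.congr_of_eventuallyEq ?_
    filter_upwards [isOpen_upperHalfPlaneSet.mem_nhds τ.im_pos] with z hz
    simp [ofComplex_apply_of_im_pos hz]
  obtain ⟨G, hG, -⟩ := hprim 1
  simp only [SlashAction.slash_one] at hG
  have hlim : ∀ δ : SL(2, ℤ), ∃ L : ℂ, Tendsto (fun w : ℍ => G (δ • w)) atImInfty (𝓝 L) := by
    intro δ
    obtain ⟨K, hK, hK0⟩ := hprim δ
    obtain ⟨c, hc⟩ := Period.exists_eq_add_of_hasDerivAt (F := fun w => G (δ • w)) (G := K)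
      (Period.hasDerivAt_comp_SL hG δ) hK
    exact ⟨0 + c, (hK0.add_const c).congr fun w => (hc w).symm⟩
  have hconst : ∀ γ : Gamma M, ∃ v : ℂ, ∀ z : ℍ, G ((γ : SL(2, ℤ)) • z) - G z = v := by
    intro γ
    have h : ∀ τ : ℍ,
        HasDerivAt ((fun w => G ((γ : SL(2, ℤ)) • w)) ∘ ofComplex) (F τ) (τ : ℂ) := fun τ => by
      have := Period.hasDerivAt_comp_SL hG (γ : SL(2, ℤ)) τ
      rwa [hsub _ γ.2] at this
    obtain ⟨c, hc⟩ := Period.exists_eq_add_of_hasDerivAt h hG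
    exact ⟨c, fun z => by rw [hc z]; ring⟩
  choose v hv using hconst
  let ω : Additive (Gamma M) →+ ℂ := AddMonoidHom.mk' (fun γ => v γ.toMul) fun γ γ' => by
    rw [toMul_add, ← hv (γ.toMul * γ'.toMul) UpperHalfPlane.I,
      ← hv γ.toMul ((γ'.toMul : SL(2, ℤ)) • UpperHalfPlane.I), ← hv γ'.toMul UpperHalfPlane.I,
      Subgroup.coe_mul, mul_smul]
    ring
  have hω : ∀ (γ : Gamma M) (z : ℍ), G ((γ : SL(2, ℤ)) • z) - G z = ω (Additive.ofMul γ) :=
    fun γ z => hv γ z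
  refine ⟨ω, fun g δ hδ => ?_, G, ⇑F, A, hG, hlim, hω, fun τ => ?_, fun q hq hqM => ?_,
    fun m => (one_mul _).symm⟩
  · exact Period.sub_eq_zero_of_parabolic (hω δ) (Or.inl hδ) (hlim g)
  · have h1 : (1 : ℝ) ∈ ((Gamma1 M' : Subgroup SL(2, ℤ)) : Subgroup (GL (Fin 2) ℝ)).strictPeriods := by
      simp
    have h2 := ModularForm.hasSum_qExpansion F one_pos h1 τ
    refine h2.congr_fun fun m => ?_
    rw [hA m]
    rfl
  · have h1 : FLTAgent.Gamma1.dia M q ∈ Gamma0 M' := by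
      rw [Gamma0_mem, ← map_intCast (ZMod.castHom hM' (ZMod M')),
        (dia_spec' (coprime_of_not_dvd hq hqM)).2.1, map_zero]
    have h2 : ((FLTAgent.Gamma1.dia M q 1 1 : ℤ) : ZMod M') = (q : ZMod M') := by
      rw [← map_intCast (ZMod.castHom hM' (ZMod M')),
        (dia_spec' (coprime_of_not_dvd hq hqM)).2.2, map_natCast]
    obtain ⟨c, hc⟩ := Period.exists_eq_add_of_hasDerivAt
      (F := fun w => G (FLTAgent.Gamma1.dia M q • w)) (G := fun w => χ (q : ZMod M') * G w)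
      (f := fun w => χ (q : ZMod M') * F w) (fun τ => by
        have := Period.hasDerivAt_comp_SL hG (FLTAgent.Gamma1.dia M q) τ
        rwa [hF _ h1, h2, Pi.smul_apply, smul_eq_mul] at this)
      fun τ => (hG τ).const_mul _
    exact ⟨c, hc⟩

/-- A complex homomorphism is a combination of integral ones. -/
theorem opMap_eq_zero_of_int {P : FreeAlgebra ℤ (OpIndex M)}
    (hP : ∀ c ∈ Par M ℤ, opMap M ℤ P c = 0) {ω : Additive (Gamma M) →+ ℂ} (hω : ω ∈ Par M ℂ) :
    opMap M ℂ P ω = 0 := by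
  classical
  have : Group.FG (Gamma M) := fg_gammaM
  have : AddGroup.FG ω.range :=
    AddGroup.fg_of_surjective (f := ω.rangeRestrict) ω.rangeRestrict_surjective
  have : Module.Finite ℤ ω.range := Module.Finite.iff_addGroup_fg.mpr inferInstance
  have : Module.IsTorsionFree ℤ ω.range :=
    Function.Injective.moduleIsTorsionFree (R := ℤ) (fun x : ω.range => (x : ℂ)) Subtype.val_injective
      fun _ _ => rfl
  have : Module.Free ℤ ω.range := inferInstance
  let b := Module.Free.chooseBasis ℤ ω.range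
  let c : Module.Free.ChooseBasisIndex ℤ ω.range → (Additive (Gamma M) →+ ℤ) := fun i =>
    (b.coord i).toAddMonoidHom.comp ω.rangeRestrict
  have hc : ∀ i, c i ∈ Par M ℤ := fun i g δ hδ => by
    show b.coord i (ω.rangeRestrict (Additive.ofMul δ)) = 0
    rw [show ω.rangeRestrict (Additive.ofMul δ) = 0 from Subtype.ext (hω g δ hδ), map_zero]
  have hsum : ω = ∑ i, (zmultiplesHom ℂ ((b i : ω.range) : ℂ)).comp (c i) := by
    refine AddMonoidHom.ext fun x => ?_
    rw [AddMonoidHom.finsetSum_apply]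
    have h := congrArg (fun y : ω.range => (y : ℂ)) (b.sum_repr (ω.rangeRestrict x))
    simp only [AddSubgroup.val_finsetSum, AddSubgroup.coe_zsmul,
      AddMonoidHom.coe_rangeRestrict] at h
    exact h.symm
  rw [hsum, map_sum]
  refine Finset.sum_eq_zero fun i _ => ?_
  rw [opMap_natural, hP _ (hc i), AddMonoidHom.comp_zero]

/-- Operators killing the integral parabolic homomorphisms have eigenvalue zero. -/
theorem eigMap_eq_zero [NeZero M'] (hM' : M' ∣ M) (χR : ℕ → R)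
    (hχR : ∀ m : ℕ, (χR m : ℂ) = χ (m : ZMod M'))
    (F : CuspForm (Gamma1 M') 2) (hF : DS.HasNebentypus 2 χ ⇑F)
    (hA : ∀ m : ℕ, (A m : ℂ) = ModularFormClass.qCoeff F m) (hA1 : φ (A 1) = 1) {a : ℕ → k}
    (heig : ∀ p : ℕ, p.Prime → ¬ p ∣ M → ∀ m : ℕ,
      φ (A (p * m)) + φ (χR p) * (p : k) * (if p ∣ m then φ (A (m / p)) else 0) =
        a p * φ (A m))
    {P : FreeAlgebra ℤ (OpIndex M)} (hP : ∀ c ∈ Par M ℤ, opMap M ℤ P c = 0) :
    eigMap M a (fun p => φ (χR p)) P = 0 := by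
  have key : ∀ (Q : FreeAlgebra ℤ (OpIndex M)) (ω : Additive (Gamma M) →+ ℂ) (lam : k),
      Good M R φ χ A ω lam →
      Good M R φ χ A (opMap M ℂ Q ω) (eigMap M a (fun p => φ (χR p)) Q * lam) := by
    intro Q
    induction Q using FreeAlgebra.induction with
    | grade0 r =>
      intro ω lam h
      rw [AlgHom.commutes, AlgHom.commutes, Module.algebraMap_end_apply, eq_intCast]
      exact h.zsmul r
    | grade1 x =>
      intro ω lam h
      rw [opMap, eigMap, FreeAlgebra.lift_ι_apply, FreeAlgebra.lift_ι_apply]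
      obtain ⟨⟨p, hp, hpM⟩, _ | _⟩ := x
      · exact h.dia χR hχR hp hpM
      · exact h.hecke χR hχR heig hp hpM
    | mul P Q hP hQ =>
      intro ω lam h
      rw [map_mul, map_mul, Module.End.mul_apply, mul_assoc]
      exact hP _ _ (hQ _ _ h)
    | add P Q hP hQ =>
      intro ω lam h
      rw [map_add, map_add, LinearMap.add_apply, add_mul]
      exact (hP _ _ h).add (hQ _ _ h)
  obtain ⟨ω, hω, hgood⟩ := exists_good (φ := φ) hM' F hF hA
  have h := key P ω 1 hgood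
  rw [opMap_eq_zero_of_int hP hω, mul_one] at h
  exact h.eq_zero hA1

end FLTAgent.Gamma1
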