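/-
An eigen system killing the annihilator of the integral parabolic homomorphisms occurs among the
characters of order `ℓ`.
-/
import Fermat.Agent.Gamma1.HeckeComb

/-!
# An eigensystem among the characters

`eig_eq_zero_of_kills_chr`: an operator killing all characters of order dividing `ℓ` has eigenvalue
zero if every operator killing the integral parabolic homomorphisms has.
`exists_ne_zero_eigChr_aux`: hence some nonzero character is an eigenvector with the given
eigenvalues, taken in a minimal orbit among the finitely many characters.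
-/

set_option autoImplicit false

noncomputable section

open CongruenceSubgroup Polynomial
open scoped MatrixGroups

namespace FLTAgent.Gamma1

variable {M ℓ : ℕ}

variable (M) in
/-- The lattice of integral parabolic homomorphisms. -/
def parL : Submodule ℤ (Additive (Gamma M) →+ ℤ) := AddSubgroup.toIntSubmodule (Par M ℤ)

theorem mem_parL {c : Additive (Gamma M) →+ ℤ} : c ∈ parL M ↔ c ∈ Par M ℤ := Iff.rfl

variable [NeZero M]

instance finite_parL : Module.Finite ℤ (parL M) := by
  obtain ⟨s, hs⟩ := exists_generators (M := M)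
  let ev : parL M →ₗ[ℤ] (s → ℤ) :=
    ({ toFun := fun c g => (c : Additive (Gamma M) →+ ℤ) (Additive.ofMul g.1)
       map_zero' := rfl
       map_add' := fun _ _ => rfl } : parL M →+ (s → ℤ)).toIntLinearMap
  refine Module.Finite.of_injective ev fun c c' h => Subtype.ext (hs _ _ _ fun g hg => ?_)
  exact congrFun h ⟨g, hg⟩

instance torsionFree_parL : Module.IsTorsionFree ℤ (parL M) :=
  Function.Injective.moduleIsTorsionFree (R := ℤ)
    (fun (c : parL M) (x : Additive (Gamma M)) => (c : Additive (Gamma M) →+ ℤ) x)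
    (fun _ _ h => Subtype.ext (DFunLike.coe_injective h)) fun _ _ => rfl

/-- `exp (2πi/ℓ)` to the power. -/
def expHom (ℓ : ℕ) : ℤ →+ Additive ℂˣ :=
  zmultiplesHom _ (Additive.ofMul
    (Units.mk0 (Complex.exp (2 * Real.pi * Complex.I / ℓ)) (Complex.exp_ne_zero _)))

theorem expHom_eq_zero_iff [NeZero ℓ] (x : ℤ) : expHom ℓ x = 0 ↔ (ℓ : ℤ) ∣ x := by
  have h : IsPrimitiveRoot
      (Units.mk0 (Complex.exp (2 * Real.pi * Complex.I / ℓ)) (Complex.exp_ne_zero _)) ℓ :=
    IsPrimitiveRoot.coe_units_iff.mp (Complex.isPrimitiveRoot_exp ℓ (NeZero.ne ℓ))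
  rw [expHom, zmultiplesHom_apply, ← ofMul_zpow, ofMul_eq_zero, h.zpow_eq_one_iff_dvd]

/-- An operator killing all characters has nilpotent image modulo `ℓ`. -/
theorem eig_eq_zero_of_kills_chr [NeZero ℓ] {k : Type} [Field k] [CharP k ℓ] {a c : ℕ → k}
    (h0 : ∀ P : FreeAlgebra ℤ (OpIndex M), (∀ v ∈ Par M ℤ, opMap M ℤ P v = 0) →
      eigMap M a c P = 0)
    {P : FreeAlgebra ℤ (OpIndex M)}
    (hP : ∀ ψ ∈ Chr M ℓ, opMap M (Additive ℂˣ) P ψ = 0) : eigMap M a c P = 0 := by
  have hℓ : (ℓ : ℤ) ≠ 0 := by exact_mod_cast NeZero.ne ℓ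
  have hdvd : ∀ v ∈ Par M ℤ, ∀ x, (ℓ : ℤ) ∣ opMap M ℤ P v x := by
    intro v hv x
    have hψ : (expHom ℓ).comp v ∈ Chr M ℓ := by
      refine ⟨fun g δ hδ => ?_, AddMonoidHom.ext fun y => ?_⟩
      · rw [AddMonoidHom.comp_apply, hv g δ hδ, map_zero]
      · rw [AddMonoidHom.nsmul_apply, AddMonoidHom.comp_apply, ← map_nsmul,
          AddMonoidHom.zero_apply, expHom_eq_zero_iff, nsmul_eq_mul]
        exact dvd_mul_right _ _
    have h := DFunLike.congr_fun (hP _ hψ) x
    rw [opMap_natural, AddMonoidHom.comp_apply, AddMonoidHom.zero_apply] at h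
    exact (expHom_eq_zero_iff _).mp h
  let sFun : (v : parL M) → parL M := fun v =>
    ⟨AddMonoidHom.mk' (fun x => opMap M ℤ P (v : Additive (Gamma M) →+ ℤ) x / (ℓ : ℤ))
      (fun x y => by
        rw [map_add, Int.add_ediv_of_dvd_left (hdvd _ v.2 x)]),
      fun g δ hδ => by
        show opMap M ℤ P (v : Additive (Gamma M) →+ ℤ) (Additive.ofMul δ) / (ℓ : ℤ) = 0
        rw [opMap_mem_par P v.2 g δ hδ, Int.zero_ediv]⟩
  let S : Module.End ℤ (parL M) :=
    (AddMonoidHom.mk' sFun fun v w => Subtype.ext (AddMonoidHom.ext fun x => by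
      show opMap M ℤ P ((v : Additive (Gamma M) →+ ℤ) + w) x / (ℓ : ℤ) = _
      rw [map_add, AddMonoidHom.add_apply, Int.add_ediv_of_dvd_left (hdvd _ v.2 x)]
      rfl)).toIntLinearMap
  have hS : ∀ v : parL M, (ℓ : ℤ) • ((S v : parL M) : Additive (Gamma M) →+ ℤ) =
      opMap M ℤ P (v : Additive (Gamma M) →+ ℤ) := fun v => AddMonoidHom.ext fun x => by
    rw [AddMonoidHom.zsmul_apply, smul_eq_mul]
    exact Int.mul_ediv_cancel' (hdvd _ v.2 x)
  have hpow : ∀ (i : ℕ) (v : parL M),
      opMap M ℤ (P ^ i) (v : Additive (Gamma M) →+ ℤ) =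
        ((ℓ : ℤ) ^ i) • (((S ^ i) v : parL M) : Additive (Gamma M) →+ ℤ) := by
    intro i
    induction i with
    | zero => intro v; simp
    | succ i ih =>
      intro v
      rw [pow_succ' P, map_mul, Module.End.mul_apply, ih, map_zsmul, ← hS, smul_smul,
        ← pow_succ, pow_succ' S, Module.End.mul_apply]
  set g := S.charpoly with hg
  have hmon : g.Monic := S.charpoly_monic
  set Q : FreeAlgebra ℤ (OpIndex M) :=
    ∑ i ∈ Finset.range (g.natDegree + 1),
      (g.coeff i * (ℓ : ℤ) ^ (g.natDegree - i)) • P ^ i with hQ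
  have hQ0 : eigMap M a c Q = 0 := by
    refine h0 Q fun v hv => ?_
    have h1 := congrArg (fun E : Module.End ℤ (parL M) => E ⟨v, hv⟩) S.aeval_self_charpoly
    rw [← hg, Polynomial.aeval_eq_sum_range] at h1
    simp only [LinearMap.sum_apply, LinearMap.smul_apply, LinearMap.zero_apply] at h1
    have h2 := congrArg (fun w : parL M => (w : Additive (Gamma M) →+ ℤ)) h1
    simp only [Submodule.coe_sum, Submodule.coe_smul, ZeroMemClass.coe_zero] at h2
    rw [hQ, map_sum, LinearMap.sum_apply]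
    calc ∑ i ∈ Finset.range (g.natDegree + 1),
          opMap M ℤ ((g.coeff i * (ℓ : ℤ) ^ (g.natDegree - i)) • P ^ i) v
        = (ℓ : ℤ) ^ g.natDegree • ∑ i ∈ Finset.range (g.natDegree + 1),
            g.coeff i • (((S ^ i) ⟨v, hv⟩ : parL M) : Additive (Gamma M) →+ ℤ) := by
          rw [Finset.smul_sum]
          refine Finset.sum_congr rfl fun i hi => ?_
          rw [Finset.mem_range] at hi
          rw [map_zsmul, LinearMap.smul_apply, hpow i ⟨v, hv⟩, smul_smul, smul_smul, mul_assoc,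
            ← pow_add, Nat.sub_add_cancel (by omega), mul_comm]
      _ = 0 := by rw [h2, smul_zero]
  rw [hQ, map_sum, Finset.sum_eq_single g.natDegree] at hQ0
  · rw [Nat.sub_self, pow_zero, mul_one, hmon.coeff_natDegree, one_smul, map_pow] at hQ0
    exact eq_zero_of_pow_eq_zero hQ0
  · intro i hi hne
    rw [Finset.mem_range] at hi
    rw [map_zsmul, zsmul_eq_mul, Int.cast_mul, Int.cast_pow, Int.cast_natCast, CharP.cast_eq_zero,
      zero_pow (by omega), mul_zero, zero_mul]
  · intro h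
    exact absurd (Finset.mem_range.mpr (Nat.lt_succ_self _)) h

/-- The eigen system occurs among the characters. -/
theorem exists_ne_zero_eigChr_aux [NeZero ℓ] {k : Type} [Field k] [CharP k ℓ] (a c : ℕ → k)
    (h0 : ∀ P : FreeAlgebra ℤ (OpIndex M), (∀ v ∈ Par M ℤ, opMap M ℤ P v = 0) →
      eigMap M a c P = 0) :
    ∃ ψ ∈ EigChr M ℓ a c, ψ ≠ 0 := by
  classical
  have : Finite (Chr M ℓ) := chr_finite'
  set op := opMap M (Additive ℂˣ) with hop
  set e := eigMap M a c with he
  -- elements whose annihilator lies in the kernel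
  let good : (Additive (Gamma M) →+ Additive ℂˣ) → Prop := fun ψ =>
    ∀ P, op P ψ = 0 → e P = 0
  have hcomm : ∀ P Q ψ, op P (op Q ψ) = op Q (op P ψ) := fun P Q ψ => by
    rw [← Module.End.mul_apply, ← Module.End.mul_apply, (opMap_commute P Q).eq]
  have hex : ∃ ψ, ψ ∈ Chr M ℓ ∧ good ψ := by
    by_contra hno
    push Not at hno
    have hw : ∀ w : Chr M ℓ, ∃ P, op P (w : Additive (Gamma M) →+ Additive ℂˣ) = 0 ∧ e P ≠ 0 := by
      intro w
      have := hno w w.2
      simp only [good] at this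
      push Not at this
      exact this
    choose P hP hne using hw
    have : Fintype (Chr M ℓ) := Fintype.ofFinite _
    have key : ∀ s : Finset (Chr M ℓ), ∃ Q, e Q ≠ 0 ∧
        ∀ w ∈ s, op Q (w : Additive (Gamma M) →+ Additive ℂˣ) = 0 := by
      intro s
      induction s using Finset.induction_on with
      | empty => exact ⟨1, by rw [map_one]; exact one_ne_zero, fun w hw => absurd hw (by simp)⟩
      | insert w s _ ih =>
        obtain ⟨Q, hQ, hQs⟩ := ih
        refine ⟨Q * P w, by rw [map_mul]; exact mul_ne_zero hQ (hne w), fun v hv => ?_⟩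
        rw [map_mul, Module.End.mul_apply]
        rcases Finset.mem_insert.mp hv with rfl | hv
        · rw [hP, map_zero]
        · rw [hcomm, hQs v hv, map_zero]
    obtain ⟨Q, hQ, hQall⟩ := key Finset.univ
    exact hQ (eig_eq_zero_of_kills_chr h0 fun ψ hψ => hQall ⟨ψ, hψ⟩ (Finset.mem_univ _))
  -- the orbit
  let orb : (Additive (Gamma M) →+ Additive ℂˣ) → Set (Additive (Gamma M) →+ Additive ℂˣ) :=
    fun ψ => Set.range fun P => op P ψ
  have horbfin : ∀ ψ ∈ Chr M ℓ, (orb ψ).Finite := fun ψ hψ =>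
    Set.Finite.subset (s := (Chr M ℓ : Set (Additive (Gamma M) →+ Additive ℂˣ))) (Set.toFinite _)
      (Set.range_subset_iff.mpr fun P => opMap_mem_chr P hψ)
  have hsub : ∀ P ψ, orb (op P ψ) ⊆ orb ψ := fun P ψ => Set.range_subset_iff.mpr fun Q =>
    ⟨Q * P, by simp only [map_mul, Module.End.mul_apply]⟩
  have hexn : ∃ N, ∃ ψ, (ψ ∈ Chr M ℓ ∧ good ψ) ∧ (orb ψ).ncard = N := by
    obtain ⟨ψ, hψ⟩ := hex
    exact ⟨_, ψ, hψ, rfl⟩
  obtain ⟨ψ, ⟨hψ, hgood⟩, hN⟩ := Nat.find_spec hexn
  have hmin : ∀ P, good (op P ψ) → ψ ∈ orb (op P ψ) := by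
    intro P hg
    have hle : (orb ψ).ncard ≤ (orb (op P ψ)).ncard := by
      rw [hN]
      exact Nat.find_min' hexn ⟨_, ⟨opMap_mem_chr P hψ, hg⟩, rfl⟩
    rw [Set.eq_of_subset_of_ncard_le (hsub P ψ) hle (horbfin ψ hψ)]
    exact ⟨1, by simp only [map_one, Module.End.one_apply]⟩
  refine ⟨ψ, ⟨hψ, fun r hr => ?_⟩, fun h => one_ne_zero ((map_one e).symm.trans
    (hgood 1 (by rw [h, map_zero])))⟩
  change op r ψ = 0
  by_cases hg : good (op r ψ)
  · obtain ⟨P, hP⟩ := hmin r hg
    simp only at hP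
    have := hgood (1 - P * r) (by
      rw [map_sub, map_one, map_mul, LinearMap.sub_apply, Module.End.one_apply,
        Module.End.mul_apply, hP, sub_self])
    rw [map_sub, map_one, map_mul, show e r = 0 from hr, mul_zero, sub_zero] at this
    exact absurd this one_ne_zero
  · simp only [good] at hg
    push Not at hg
    obtain ⟨s, hs, hse⟩ := hg
    have hg' : good (op s ψ) := fun P hP => by
      have := hgood (P * s) (by rw [map_mul, Module.End.mul_apply, hP])
      rw [map_mul] at this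
      exact (mul_eq_zero.mp this).resolve_right hse
    obtain ⟨Q, hQ⟩ := hmin s hg'
    simp only at hQ
    rw [← hQ, hcomm r Q, hcomm r s, hs, map_zero]

end FLTAgent.Gamma1
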