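/-
Hecke operators on homomorphisms of `Γ(M)`: public statements.
-/
import Fermat.Agent.Gamma1.Defs
import Fermat.Agent.Gamma1.HeckeComb
import Fermat.Agent.Gamma1.HeckeFun
import Fermat.Agent.Gamma1.HeckePrim
import Fermat.Agent.Gamma1.HeckeSocle
import Fermat.Agent.DS.Defs
import Fermat.Agent.ModularCosets.Series
import Fermat.Prelude.Def_GaloisRep_Residual

/-!
# Hecke operators on `Γ(M)`: summary of results

Restates the results of `HeckeComb` and `HeckeFun` (`exists_heckeReps`, `chr_finite`,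
`heckeHom_mem_chr`, `isCFun_hecke`, `qScale_qser_hecke`) and combines `HeckePrim` with
`HeckeSocle` in `exists_ne_zero_eigChr`: a mod `ℓ` eigensystem of weight two with character occurs
among the characters of `Γ(M)`.
-/

set_option autoImplicit false

noncomputable section

open UpperHalfPlane CongruenceSubgroup ModularCurve
open scoped MatrixGroups

namespace FLTAgent.Gamma1

open FLTAgent.Modular FLTAgent.ModularCosets

variable {n M ℓ p : ℕ}

theorem dia_spec [NeZero M] (hp : p.Coprime M) :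
    ((dia M p 0 1 : ℤ) : ZMod M) = 0 ∧ ((dia M p 1 0 : ℤ) : ZMod M) = 0 ∧
      ((dia M p 1 1 : ℤ) : ZMod M) = (p : ZMod M) := dia_spec' hp

theorem exists_heckeReps [NeZero M] (hp : p.Prime) (hpM : ¬ p ∣ M) :
    ∃ B : HeckeH.Reps (Gamma M) (Option (Fin p)), B.β = heckeRep M p := ⟨repsT hp hpM, rfl⟩

theorem chr_finite [NeZero M] [NeZero ℓ] :
    Finite (Chr M ℓ) := chr_finite'

theorem conjLin_mem_chr {φ : Additive (Gamma M) →+ Additive ℂˣ} (hφ : φ ∈ Chr M ℓ)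
    (g : SL(2, ℤ)) : conjLin g φ ∈ Chr M ℓ := 
  ⟨conjLin_mem_par hφ.1 g, (map_nsmul (conjLin g) ℓ φ).symm.trans (by rw [hφ.2, map_zero])⟩

theorem heckeHom_mem_chr [NeZero M] {φ : Additive (Gamma M) →+ Additive ℂˣ} (hφ : φ ∈ Chr M ℓ)
    (hp : p.Prime) (hpM : ¬ p ∣ M) : heckeHom M p φ ∈ Chr M ℓ := 
  ⟨heckeHom_mem_par hφ.1 hp hpM,
    (map_nsmul (heckeHom M p) ℓ φ).symm.trans (by rw [hφ.2, map_zero])⟩

theorem isCFun_comp [NeZero M] {φ : Additive (Gamma M) →+ Additive ℂˣ} {y : ℍ → ℂ}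
    (hy : IsCFun M φ y) (g : SL(2, ℤ)) : IsCFun M (conjLin g φ) (comp y g) := isCFun_comp' hy g

/-- The Hecke operator on multiplier functions has the transferred multiplier. -/
theorem isCFun_hecke [NeZero M] {φ : Additive (Gamma M) →+ Additive ℂˣ} {y : ℍ → ℂ}
    (hy : IsCFun M φ y) (hp : p.Prime) (hpM : ¬ p ∣ M) :
    IsCFun M (heckeHom M p φ) (heckeFun M p y) := isCFun_hecke' hy hp hpM

/-- `exp (2πi/p)` as a unit. -/
def zetaP (p : ℕ) : ℂˣ :=
  Units.mk0 (Complex.exp (2 * Real.pi * Complex.I / p)) (Complex.exp_ne_zero _)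

/-- The expansion of the Hecke transform, after `q ↦ q^p`. -/
theorem qScale_qser_hecke [NeZero M] {φ : Additive (Gamma M) →+ Additive ℂˣ} {y : ℍ → ℂ}
    (hy : IsCFun M φ y) (hp : p.Prime) (hpM : ¬ p ∣ M) :
    qScale ℂ p (qser M (heckeFun M p y)) =
      qScale ℂ (p * p) (qser M (comp y (dia M p))) *
        ∏ b : Fin p, twist (zetaP p ^ (b : ℕ)) (qser M y) := qScale_qser_hecke' hy hp hpM

/-- A mod `ℓ` eigen system of weight two with character occurs among the characters. -/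
theorem exists_ne_zero_eigChr (h : IsLevel n M) {M' : ℕ} [NeZero M'] (hM' : M' ∣ M)
    [Fact ℓ.Prime] (hℓM : ℓ ∣ M') {k : Type} [Field k] [Finite k] [CharP k ℓ]
    (R : Subring ℂ) (φ : R →+* k) (χ : DirichletCharacter ℂ M') (χR : ℕ → R)
    (hχR : ∀ m : ℕ, (χR m : ℂ) = χ (m : ZMod M'))
    (F : CuspForm (Gamma1 M') 2) (hF : DS.HasNebentypus 2 χ ⇑F) (A : ℕ → R)
    (hA : ∀ m : ℕ, (A m : ℂ) = ModularFormClass.qCoeff F m) (hA1 : φ (A 1) = 1) (a : ℕ → k)
    (heig : ∀ p : ℕ, p.Prime → ¬ p ∣ M → ∀ m : ℕ,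
      φ (A (p * m)) + φ (χR p) * (p : k) * (if p ∣ m then φ (A (m / p)) else 0) =
        a p * φ (A m)) :
    ∃ ψ ∈ EigChr M ℓ a (fun p => φ (χR p)), ψ ≠ 0 :=
  have : NeZero M := ⟨(lt_of_lt_of_le (by norm_num) h.three_le).ne'⟩
  have : NeZero ℓ := ⟨(Fact.out : ℓ.Prime).ne_zero⟩
  exists_ne_zero_eigChr_aux a _ fun _ hP =>
    eigMap_eq_zero hM' χR hχR F hF hA hA1 heig hP

end FLTAgent.Gamma1
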