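/-
Two-dimensional representations from a quadratic pseudo-character, over a finite field.
-/
import Mathlib
import Fermat.Agent.DS.Defs

/-!
# Two-dimensional representations from quadratic relations

`finrank_le_two_of_quadratic`: over a finite field a simple module over an algebra of quadratic
elements has dimension at most two. `exists_two_of_pseudo`: if `π g + d(g) π g⁻¹ = t(g)` for all
`g`, a minimal stable subspace yields a semisimple representation into `GL₂` with trace `t` and
determinant `d`.
-/

set_option autoImplicit false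
set_option linter.unusedSectionVars false
set_option linter.style.haveILetI false

noncomputable section

open Module (End finrank)

namespace FLTAgent.Gamma1

/-- A simple module over an algebra all of whose elements are quadratic has dimension at most
two, over a finite field. -/
theorem finrank_le_two_of_quadratic {k W : Type*} [Field k] [Finite k] [AddCommGroup W]
    [Module k W] [FiniteDimensional k W] [Nontrivial W] (A : Subalgebra k (End k W))
    (hsimp : ∀ U : Submodule k W, (∀ x ∈ A, ∀ u ∈ U, x u ∈ U) → U = ⊥ ∨ U = ⊤)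
    (hquad : ∀ x ∈ A, ∃ α β : k, x * x = α • x + β • 1) :
    finrank k W ≤ 2 := by
  classical
  haveI : Finite W := Module.finite_of_finite k
  haveI : IsSimpleModule A W :=
    (isSimpleModule_iff _ _).mpr {
      eq_bot_or_eq_top := fun U => by
        rcases hsimp (U.restrictScalars k) (fun x hx u hu => U.smul_mem (⟨x, hx⟩ : A) hu) with h | h
        · exact Or.inl ((Submodule.restrictScalars_eq_bot_iff k A W).mp h)
        · exact Or.inr ((Submodule.restrictScalars_eq_top_iff k A W).mp h) }
  haveI : Finite (End A W) := DFunLike.finite _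
  letI : DivisionRing (End A W) := Module.End.instDivisionRing
  haveI : Module.Finite (End A W) W := Module.Finite.of_finite
  -- endomorphisms commute with scalars
  have hlin : ∀ (e : End A W) (c : k) (w : W), e (c • w) = c • e w := by
    intro e c w
    have h := e.map_smul (algebraMap k A c) w
    rwa [algebraMap_smul, algebraMap_smul] at h
  -- every `End A W`-linear map is quadratic over `k`
  have hquad' : ∀ f : End (End A W) W, ∃ α β : k, ∀ w : W, f (f w) = α • f w + β • w := by
    intro f
    obtain ⟨⟨x, hx⟩, hxf⟩ := Module.Finite.toModuleEnd_moduleEnd_surjective (R := A) (M := W) f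
    obtain ⟨α, β, h⟩ := hquad x hx
    have hf : ∀ w, f w = x w := fun w => by rw [← hxf]; rfl
    refine ⟨α, β, fun w => ?_⟩
    rw [hf, hf]
    exact LinearMap.congr_fun h w
  obtain ⟨ι, b⟩ : Σ ι : Type _, Module.Basis ι (End A W) W :=
    ⟨_, Module.Free.chooseBasis (End A W) W⟩
  haveI : Finite ι := Module.Finite.finite_basis b
  haveI := Fintype.ofFinite ι
  have mkmap : ∀ g : ι → W, ∃ f : End (End A W) W, ∀ i, f (b i) = g i := fun g =>
    ⟨b.constr ℕ g, fun i => b.constr_basis ℕ g i⟩
  rcases le_or_gt 3 (Fintype.card ι) with h3 | h3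
  · exfalso
    obtain ⟨i1, i2, i3, h12, h13, h23⟩ := Fintype.two_lt_card_iff.mp h3
    obtain ⟨f, hf⟩ := mkmap (fun i => if i = i1 then b i2 else if i = i2 then b i3 else 0)
    obtain ⟨α, β, h⟩ := hquad' f
    have h1 := h (b i1)
    simp only [hf, if_true, if_neg h12.symm] at h1
    -- apply the coordinate at `i3`
    have h4 := congrArg (fun w => b.repr w i3) h1
    have hsc : ∀ c : k, ∃ e : End A W, ∀ w : W, e • w = c • w := fun c =>
      ⟨{ toFun := fun w => c • w
         map_add' := smul_add c
         map_smul' := fun a w => (a.1.map_smul c w).symm }, fun w => rfl⟩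
    obtain ⟨eα, heα⟩ := hsc α
    obtain ⟨eβ, heβ⟩ := hsc β
    simp only [← heα, ← heβ] at h4
    simp only [map_add, map_smul, Finsupp.add_apply, Finsupp.smul_apply, Module.Basis.repr_self,
      Finsupp.single_eq_same, Finsupp.single_eq_of_ne h23.symm, Finsupp.single_eq_of_ne h13.symm,
      smul_zero, add_zero, one_ne_zero] at h4
  -- small dimension
  rcases lt_or_eq_of_le (Nat.lt_succ_iff.mp h3) with h2 | h2
  · -- at most one basis vector: use a generator of the multiplicative group of `End A W`
    rcases Nat.lt_succ_iff.mp h2 |>.lt_or_eq with h0 | h1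
    · exfalso
      haveI : IsEmpty ι := Fintype.card_eq_zero_iff.mp (Nat.lt_one_iff.mp h0)
      exact (not_isEmpty_of_nonempty ι (h := b.index_nonempty)) inferInstance
    obtain ⟨i0, hi0⟩ := Fintype.card_eq_one_iff.mp h1
    obtain ⟨g, hg⟩ : ∃ g : End A W, ∀ e : End A W, e = 0 ∨ ∃ n : ℕ, e = g ^ n := by
      letI : Field (End A W) := littleWedderburn (End A W)
      obtain ⟨g, hg⟩ := IsCyclic.exists_generator (α := (End A W)ˣ)
      refine ⟨g, fun e => ?_⟩
      rcases eq_or_ne e 0 with he | he
      · exact Or.inl he
      · obtain ⟨n, hn⟩ := mem_powers_iff_mem_zpowers.mpr (hg (Units.mk0 e he))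
        exact Or.inr ⟨n, by rw [← Units.val_pow_eq_pow_val]; exact (congrArg Units.val hn).symm⟩
    obtain ⟨f, hf⟩ := mkmap (fun _ => g (b i0))
    have hfc : ∀ w, f (g w) = g (f w) := fun w => f.map_smul g w
    obtain ⟨α, β, h⟩ := hquad' f
    have hgg : g (g (b i0)) = α • g (b i0) + β • b i0 := by
      have := h (b i0)
      rwa [hf, hfc, hf] at this
    have hmem : ∀ n : ℕ, (g ^ n) (b i0) ∈ Submodule.span k ({b i0, g (b i0)} : Set W) := by
      intro n
      induction n with
      | zero => exact Submodule.subset_span (Or.inl (by simp))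
      | succ n ih =>
        obtain ⟨c, c', hc⟩ := Submodule.mem_span_pair.mp ih
        rw [pow_succ', End.mul_apply, ← hc, map_add, hlin, hlin, hgg]
        exact add_mem (Submodule.smul_mem _ _ (Submodule.subset_span (Or.inr rfl)))
          (Submodule.smul_mem _ _ (add_mem
            (Submodule.smul_mem _ _ (Submodule.subset_span (Or.inr rfl)))
            (Submodule.smul_mem _ _ (Submodule.subset_span (Or.inl rfl)))))
    have htop : (⊤ : Submodule k W) ≤ Submodule.span k ({b i0, g (b i0)} : Set W) := by
      intro w _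
      rw [← b.sum_repr w]
      refine Submodule.sum_mem _ fun i _ => ?_
      show (b.repr w i) (b i) ∈ _
      rw [hi0 i]
      rcases hg (b.repr w i0) with he | ⟨n, he⟩
      · rw [he]; exact zero_mem _
      · rw [he]; exact hmem n
    have h5 := Submodule.finrank_mono htop
    rw [finrank_top] at h5
    refine h5.trans ?_
    rw [← Set.pair_comm, ← Finset.coe_pair]
    exact (finrank_span_finset_le_card _).trans Finset.card_le_two
  · obtain ⟨i1, i2, h12⟩ := Fintype.exists_pair_of_one_lt_card (h2 ▸ one_lt_two)
    have hscal : ∀ e : End A W, ∃ c : k, ∀ w : W, e w = c • w := by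
      intro e
      by_cases he : e = 0
      · exact ⟨0, fun w => by simp [he]⟩
      obtain ⟨f, hf⟩ := mkmap (fun i => if i = i1 then e (b i1) else 0)
      have hfc : ∀ w, f (e w) = e (f w) := fun w => f.map_smul e w
      obtain ⟨α, β, h⟩ := hquad' f
      have h2' := h (b i2)
      simp only [hf, if_neg h12.symm, map_zero, smul_zero, zero_add] at h2'
      have hβ : β = 0 := (smul_eq_zero.mp h2'.symm).resolve_right (b.ne_zero i2)
      have h1' := h (b i1)
      simp only [hf, if_true, hfc, hβ, zero_smul, add_zero, ← hlin] at h1'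
      have hinj : Function.Injective e :=
        (LinearMap.injective_or_eq_zero e).resolve_right he
      have h1'' : e (b i1) = α • b i1 := hinj h1'
      refine ⟨α, fun w => ?_⟩
      have : (e - α • (1 : End A W)) = 0 := by
        refine (LinearMap.injective_or_eq_zero _).resolve_left fun hi => b.ne_zero i1 (hi ?_)
        simp [h1'']
      exact sub_eq_zero.mp (LinearMap.congr_fun this w)
    have htop : (⊤ : Submodule k W) ≤ Submodule.span k (Set.range b) := by
      intro w _
      rw [← b.sum_repr w]
      refine Submodule.sum_mem _ fun i _ => ?_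
      obtain ⟨c, hc⟩ := hscal (b.repr w i)
      show (b.repr w i) (b i) ∈ _
      rw [hc]
      exact Submodule.smul_mem _ _ (Submodule.subset_span ⟨i, rfl⟩)
    have := finrank_range_le_card (R := k) (b := (b : ι → W))
    rw [Set.finrank, top_le_iff.mp htop, finrank_top] at this
    omega

/-- Every element of the algebra generated by the image is quadratic. -/
theorem quadratic_of_pseudo {G k V : Type*} [Group G] [Field k] [AddCommGroup V] [Module k V]
    (h2 : (2 : k) ≠ 0) (π : G →* End k V) (d : G →* kˣ) (t : G → k)
    (hrel : ∀ g, π g + (d g : k) • π g⁻¹ = t g • 1) {x : End k V}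
    (hx : x ∈ Algebra.adjoin k (Set.range π)) :
    ∃ α β : k, x * x = α • x + β • 1 := by
  have hx' : x ∈ Submodule.span k (Set.range π) := by
    have := Algebra.adjoin_eq_span (R := k) (s := (Set.range π))
    rw [← Subalgebra.mem_toSubmodule, this, ← MonoidHom.coe_mrange,
      Submonoid.closure_eq, MonoidHom.coe_mrange] at hx
    exact hx
  obtain ⟨c, rfl⟩ := Finsupp.mem_span_range_iff_exists_finsupp.mp hx'
  set x : End k V := ∑ g ∈ c.support, c g • π g with hxdef
  set y : End k V := ∑ g ∈ c.support, (c g * (d g : k)) • π g⁻¹ with hy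
  set T : k := ∑ g ∈ c.support, c g * t g with hT
  have hsum : y = T • 1 - x := by
    rw [eq_sub_iff_add_eq', hy, hxdef, hT, ← Finset.sum_add_distrib, Finset.sum_smul]
    refine Finset.sum_congr rfl fun g _ => ?_
    rw [mul_smul, mul_smul, ← smul_add, hrel]
  set N : k := ∑ g ∈ c.support, ∑ h ∈ c.support, c g * c h * (d h : k) * t (g * h⁻¹) with hN
  have hxy : (2 : k) • (x * y) = N • 1 := by
    have h1 : x * y = ∑ g ∈ c.support, ∑ h ∈ c.support, (c g * c h * (d h : k)) • π (g * h⁻¹) := by
      rw [hxdef, hy, Finset.sum_mul_sum]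
      refine Finset.sum_congr rfl fun g _ => Finset.sum_congr rfl fun h _ => ?_
      rw [smul_mul_smul_comm, map_mul, mul_assoc]
    have h1' : x * y = ∑ g ∈ c.support, ∑ h ∈ c.support, (c h * c g * (d g : k)) • π (h * g⁻¹) := by
      rw [h1, Finset.sum_comm]
    rw [two_smul]
    nth_rewrite 1 [h1]
    rw [h1', ← Finset.sum_add_distrib, hN, Finset.sum_smul]
    refine Finset.sum_congr rfl fun g _ => ?_
    rw [← Finset.sum_add_distrib, Finset.sum_smul]
    refine Finset.sum_congr rfl fun h _ => ?_
    have hd : (d g : k) = (d h : k) * (d (g * h⁻¹) : k) := by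
      rw [← Units.val_mul, map_mul, map_inv, mul_left_comm, mul_inv_cancel, mul_one]
    rw [mul_smul _ (t (g * h⁻¹)), ← hrel, smul_add, smul_smul, mul_inv_rev, inv_inv, hd]
    congr 2
    ring
  have hxy' : x * y = (2⁻¹ * N) • (1 : End k V) := by
    rw [mul_smul, ← hxy, smul_smul, inv_mul_cancel₀ h2, one_smul]
  refine ⟨T, -(2⁻¹ * N), ?_⟩
  rw [hsum, mul_sub, mul_smul_comm, mul_one, sub_eq_iff_eq_add] at hxy'
  show x * x = T • x + (-(2⁻¹ * N)) • 1
  rw [hxy', neg_smul]
  abel

/-- In dimension two a monoid hom satisfying a quadratic relation has that characteristic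
polynomial, unless it is scalar. -/
theorem eq_trace_det_or_scalar {k : Type*} [Field k] (M : Matrix (Fin 2) (Fin 2) k) (t d : k)
    (h : M * M + d • 1 = t • M) :
    (M.trace = t ∧ M.det = d) ∨ ∃ c : k, M = c • 1 := by
  have hCH : M * M + M.det • 1 = M.trace • M := by
    ext i j
    fin_cases i <;> fin_cases j <;>
      simp [Matrix.mul_apply, Fin.sum_univ_two, Matrix.det_fin_two, Matrix.trace_fin_two] <;> ring
  have hdiff : (M.trace - t) • M = (M.det - d) • (1 : Matrix (Fin 2) (Fin 2) k) := by
    rw [sub_smul, sub_smul, ← hCH, ← h]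
    abel
  rcases eq_or_ne M.trace t with htr | htr
  · left
    refine ⟨htr, ?_⟩
    rw [htr, sub_self, zero_smul] at hdiff
    have := congrFun (congrFun hdiff.symm 0) 0
    simpa [sub_eq_zero] using this
  · right
    refine ⟨(M.trace - t)⁻¹ * (M.det - d), ?_⟩
    rw [mul_smul, ← hdiff, smul_smul, inv_mul_cancel₀ (sub_ne_zero.mpr htr), one_smul]

/-- A representation satisfying a quadratic pseudo-character relation gives a semisimple
two-dimensional representation with that pseudo-character. -/
theorem exists_two_of_pseudo {G k V : Type*} [Group G] [Field k] [Finite k] [AddCommGroup V]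
    [Module k V] [FiniteDimensional k V] [Nontrivial V] (h2 : (2 : k) ≠ 0)
    (π : G →* End k V) (d : G →* kˣ) (t : G → k)
    (hrel : ∀ g, π g + (d g : k) • π g⁻¹ = t g • 1) :
    ∃ ρ : G →* GL (Fin 2) k, DS.SemisimpleTwo ρ ∧ (∀ g, π g = 1 → d g = 1 → ρ g = 1) ∧
      ∀ g, ((ρ g : GL (Fin 2) k) : Matrix (Fin 2) (Fin 2) k).trace = t g ∧
        ((ρ g : GL (Fin 2) k) : Matrix (Fin 2) (Fin 2) k).det = d g := by
  classical
  -- a minimal stable subspace
  let P : ℕ → Prop := fun n => ∃ W : Submodule k V, W ≠ ⊥ ∧ (∀ g, ∀ w ∈ W, π g w ∈ W) ∧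
    finrank k W = n
  have hP : ∃ n, P n := ⟨_, ⊤, top_ne_bot, fun _ _ _ => trivial, rfl⟩
  obtain ⟨W, hW0, hWst, hWn⟩ := Nat.find_spec hP
  haveI : Nontrivial W := Submodule.nontrivial_iff_ne_bot.mpr hW0
  have hsimp : ∀ U : Submodule k W,
      (∀ g, ∀ u ∈ U, (⟨π g (u : V), hWst g u u.2⟩ : W) ∈ U) → U = ⊥ ∨ U = ⊤ := by
    intro U hU
    refine or_iff_not_imp_left.mpr fun hU0 => ?_
    have hfr : Nat.find hP ≤ finrank k U := by
      refine Nat.find_min' hP ⟨U.map W.subtype, ?_, ?_, ?_⟩
      · exact fun h => hU0 (Submodule.map_injective_of_injective W.injective_subtype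
          (by rw [h, Submodule.map_bot]))
      · rintro g _ ⟨u, hu, rfl⟩
        exact ⟨_, hU g u hu, rfl⟩
      · exact LinearEquiv.finrank_eq (Submodule.equivMapOfInjective _ W.injective_subtype U).symm
    rw [← hWn] at hfr
    exact Submodule.eq_top_of_finrank_eq (le_antisymm (Submodule.finrank_le U) hfr)
  let π' : G →* End k W :=
    { toFun := fun g => (π g).restrict (hWst g)
      map_one' := LinearMap.ext fun w => Subtype.ext (by simp [LinearMap.restrict_apply])
      map_mul' := fun g h => LinearMap.ext fun w => Subtype.ext (by simp [LinearMap.restrict_apply]) }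
  have hπ' : ∀ g, π g = 1 → π' g = 1 := fun g hg =>
    LinearMap.ext fun w => Subtype.ext (by simp [π', LinearMap.restrict_apply, hg])
  have hrel' : ∀ g, π' g + (d g : k) • π' g⁻¹ = t g • 1 := fun g => LinearMap.ext fun w =>
    Subtype.ext (by simpa [π', LinearMap.restrict_apply] using LinearMap.congr_fun (hrel g) (w : V))
  have hinv : ∀ g, π' g * π' g⁻¹ = 1 := fun g => by rw [← map_mul, mul_inv_cancel, map_one]
  -- the dimension is at most two
  have hle : finrank k W ≤ 2 := by
    refine finrank_le_two_of_quadratic (Algebra.adjoin k (Set.range π')) (fun U hU => hsimp U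
      fun g u hu => hU _ (Algebra.subset_adjoin ⟨g, rfl⟩) u hu)
      fun x hx => quadratic_of_pseudo h2 π' d t hrel' hx
  have hpos : 0 < finrank k W := Module.finrank_pos
  rcases (show finrank k W = 1 ∨ finrank k W = 2 by omega) with h1 | h2'
  · -- a character
    let lam : G →* kˣ := ((LinearMap.det (M := W)).comp π').toHomUnits
    obtain ⟨w, hw⟩ := exists_ne (0 : W)
    have hlam : ∀ g, π' g = (lam g : k) • 1 := by
      intro g
      have hsp : ∀ v : W, ∃ c : k, c • w = v := fun v => (finrank_eq_one_iff_of_nonzero' w hw).mp h1 v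
      obtain ⟨c, hc⟩ := hsp (π' g w)
      have hg : π' g = c • 1 := LinearMap.ext fun v => by
        obtain ⟨a, rfl⟩ := hsp v
        rw [map_smul, ← hc, LinearMap.smul_apply, End.one_apply, smul_comm]
      have : (lam g : k) = c := by
        show LinearMap.det (π' g) = c
        rw [hg, LinearMap.det_smul, h1, pow_one, Module.End.one_eq_id, LinearMap.det_id, mul_one]
      rw [this]; exact hg
    let M : G →* Matrix (Fin 2) (Fin 2) k :=
      { toFun := fun g => Matrix.diagonal ![(lam g : k), (d g : k) * (lam g⁻¹ : k)]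
        map_one' := by
          ext i j; fin_cases i <;> fin_cases j <;> simp
        map_mul' := fun g h => by
          have e1 : (lam (g * h) : k) = lam g * lam h := by rw [map_mul, Units.val_mul]
          have e2 : (lam (g * h)⁻¹ : k) = lam h⁻¹ * lam g⁻¹ := by
            rw [mul_inv_rev, map_mul, Units.val_mul]
          have e3 : (d (g * h) : k) = d g * d h := by rw [map_mul, Units.val_mul]
          rw [Matrix.diagonal_mul_diagonal, e1, e2, e3]
          congr 1
          funext i
          fin_cases i
          · rfl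
          · show (d g : k) * d h * (lam h⁻¹ * lam g⁻¹) = d g * lam g⁻¹ * (d h * lam h⁻¹)
            ring }
    refine ⟨M.toHomUnits, ?_, fun g hg hd => ?_, fun g => ⟨?_, ?_⟩⟩
    · intro v hv hst
      by_cases hv0 : v 0 = 0
      · refine ⟨![1, 0], fun c hc => ?_, fun g => ⟨(lam g : k), ?_⟩⟩
        · simpa [hv0] using congrFun hc 0
        · funext i; fin_cases i <;> simp [M, Matrix.mulVec_diagonal]
      · refine ⟨![0, 1], fun c hc => ?_, fun g => ⟨(d g : k) * (lam g⁻¹ : k), ?_⟩⟩
        · have e0 := congrFun hc 0
          have e1 := congrFun hc 1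
          simp [hv0] at e0 e1
          simp [e0] at e1
        · funext i; fin_cases i <;> simp [M, Matrix.mulVec_diagonal]
    · have hl : ∀ g', π g' = 1 → (lam g' : k) = 1 := fun g' hg' => by
        show LinearMap.det (π' g') = 1
        rw [hπ' g' hg', map_one]
      have hgi : π g⁻¹ = 1 := by
        simpa [hg] using (map_mul π g g⁻¹).symm
      refine Units.ext ?_
      show Matrix.diagonal ![(lam g : k), (d g : k) * (lam g⁻¹ : k)] = 1
      rw [hl g hg, hl g⁻¹ hgi, hd]
      ext i j; fin_cases i <;> fin_cases j <;> simp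
    · have h := LinearMap.congr_fun (hrel' g) w
      rw [hlam g, hlam g⁻¹, smul_smul, ← add_smul, LinearMap.smul_apply, LinearMap.smul_apply] at h
      rw [← smul_left_injective k hw h]
      simp [M]
    · show (Matrix.diagonal ![(lam g : k), (d g : k) * (lam g⁻¹ : k)]).det = _
      rw [Matrix.det_diagonal, Fin.prod_univ_two]
      show (lam g : k) * ((d g : k) * (lam g⁻¹ : k)) = d g
      rw [mul_left_comm, ← Units.val_mul (lam g), ← map_mul, mul_inv_cancel, map_one, Units.val_one,
        mul_one]
  · -- an irreducible plane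
    let b := Module.finBasisOfFinrankEq k W h2'
    let M : G →* Matrix (Fin 2) (Fin 2) k :=
      (LinearMap.toMatrixAlgEquiv b).toAlgHom.toRingHom.toMonoidHom.comp π'
    have hnostable : ∀ v : Fin 2 → k, v ≠ 0 → ¬ ∀ g, ∃ c : k, (M g).mulVec v = c • v := by
      intro v hv hst
      have hu : b.equivFun.symm v ≠ 0 := fun h =>
        hv ((LinearEquiv.map_eq_zero_iff _).mp h)
      have hst' : ∀ g, ∀ u ∈ Submodule.span k {b.equivFun.symm v},
          (⟨π g (u : V), hWst g u u.2⟩ : W) ∈ Submodule.span k {b.equivFun.symm v} := by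
        intro g u hu'
        obtain ⟨a, rfl⟩ := Submodule.mem_span_singleton.mp hu'
        obtain ⟨c, hc⟩ := hst g
        refine Submodule.mem_span_singleton.mpr ⟨a * c, ?_⟩
        show _ = π' g (a • b.equivFun.symm v)
        refine b.equivFun.injective ?_
        rw [map_smul, map_smul, map_smul, LinearEquiv.apply_symm_apply, mul_smul, ← hc]
        congr 1
        have := LinearMap.toMatrix_mulVec_repr b b (π' g) (b.equivFun.symm v)
        simp only [← Module.Basis.equivFun_apply, LinearEquiv.apply_symm_apply] at this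
        exact this
      rcases hsimp _ hst' with h | h
      · exact hu (Submodule.span_singleton_eq_bot.mp h)
      · have := finrank_span_singleton (K := k) hu
        rw [h, finrank_top, h2'] at this
        omega
    have hone : ∀ g, π g = 1 → M g = 1 := fun g hg => by
      show LinearMap.toMatrixAlgEquiv b (π' g) = 1
      rw [hπ' g hg, map_one]
    have hq : ∀ g, M g * M g + (d g : k) • 1 = t g • M g := by
      intro g
      have h := congrArg (fun f => LinearMap.toMatrixAlgEquiv b (π' g * f)) (hrel' g)
      simp only [mul_add, mul_smul_comm, hinv, mul_one, map_add, map_smul, map_mul, map_one] at h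
      exact h
    -- some element is not scalar
    obtain ⟨g0, hg0⟩ : ∃ g0, ∀ c : k, M g0 ≠ c • 1 := by
      by_contra hall
      push Not at hall
      refine hnostable ![1, 0] (fun h => one_ne_zero (congrFun h 0)) fun g => ?_
      obtain ⟨c, hc⟩ := hall g
      exact ⟨c, by rw [hc, Matrix.smul_mulVec, Matrix.one_mulVec]⟩
    have hns : ∀ g, (∀ c : k, M g ≠ c • 1) → (M g).trace = t g ∧ (M g).det = (d g : k) := fun g hg =>
      (eq_trace_det_or_scalar _ _ _ (hq g)).resolve_right fun ⟨c, hc⟩ => hg c hc
    have hdet : ∀ g, (M g).det = (d g : k) := by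
      intro g
      by_cases hg : ∀ c : k, M g ≠ c • 1
      · exact (hns g hg).2
      push Not at hg
      obtain ⟨c, hc⟩ := hg
      have hgg : ∀ c' : k, M (g0 * g) ≠ c' • 1 := by
        intro c' h'
        rw [map_mul, hc, mul_smul_comm, mul_one] at h'
        have hc0 : c ≠ 0 := fun h0 => by
          have := hq g
          rw [hc, h0] at this
          simp at this
        exact hg0 (c⁻¹ * c') (by rw [mul_smul, ← h', smul_smul, inv_mul_cancel₀ hc0, one_smul])
      have e1 := (hns _ hgg).2
      rw [map_mul, Matrix.det_mul, (hns g0 hg0).2, map_mul, Units.val_mul] at e1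
      exact mul_left_cancel₀ (d g0).ne_zero e1
    refine ⟨M.toHomUnits, fun v hv hst => absurd hst (hnostable v hv),
      fun g hg _ => Units.ext (hone g hg), fun g => ⟨?_, hdet g⟩⟩
    show (M g).trace = t g
    by_cases hg : ∀ c : k, M g ≠ c • 1
    · exact (hns g hg).1
    push Not at hg
    obtain ⟨c, hc⟩ := hg
    have hdc : c * c = (d g : k) := by
      rw [← hdet g, hc, Matrix.det_smul, Matrix.det_one, Fintype.card_fin, mul_one, sq]
    have hc0 : c ≠ 0 := fun h0 => (d g).ne_zero (by rw [← hdc, h0, mul_zero])
    have e := congrFun (congrFun (hq g) 0) 0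
    rw [hc] at e ⊢
    simp [← hdc] at e
    simp
    exact mul_right_cancel₀ hc0 (by linear_combination e)

end FLTAgent.Gamma1
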