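/-
Two-dimensional representations from modules killed by the Eichler-Shimura quadratic.
-/
import Fermat.Agent.DS.Defs
import Fermat.Agent.Gamma1.RepPseudo
import Fermat.Agent.Density.Main
import Fermat.Agent.GalCommon.Frobenius
import Fermat.Prelude.Def_GaloisRep_Residual

/-!
# Representations from Frobenius relations

`exists_rep_of_module`: if every Frobenius at `p ∤ M` satisfies `X² - a_p X + χ(p) p` on a nonzero
finite module, there is a semisimple two-dimensional representation with these characteristic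
polynomials; Chebotarev density spreads the relation to all elements, then `exists_two_of_pseudo`
applies. `eq_of_frobenius_eq`: semisimple representations with the same characteristic polynomials
at almost all primes have the same kernel and characteristic polynomials.
-/

set_option autoImplicit false
set_option linter.unusedSectionVars false
set_option linter.unusedVariables false
set_option linter.style.haveILetI false

noncomputable section

local notation "Γℚ" => (AlgebraicClosure ℚ ≃ₐ[ℚ] AlgebraicClosure ℚ)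

namespace FLTAgent.Gamma1

/-- The Lucas sums of a two-term quadratic relation stay scalar. -/
theorem exists_scalar_pow_add_pow {k A : Type*} [Field k] [Ring A] [Algebra k A] (x y : A) (t e : k)
    (hsum : x + y = t • 1) (hxy : x * y = e • 1) (hyx : y * x = e • 1) :
    ∀ n : ℕ, ∃ c : k, x ^ n + y ^ n = c • 1 := by
  intro n
  induction n using Nat.twoStepInduction with
  | zero => exact ⟨2, by rw [pow_zero, pow_zero, two_smul]⟩
  | one => exact ⟨t, by rw [pow_one, pow_one, hsum]⟩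
  | more n ih ih' =>
    obtain ⟨c, hc⟩ := ih
    obtain ⟨c', hc'⟩ := ih'
    refine ⟨t * c' - e * c, ?_⟩
    have key : (x + y) * (x ^ (n + 1) + y ^ (n + 1)) =
        (x ^ (n + 2) + y ^ (n + 2)) + ((x * y) * y ^ n + (y * x) * x ^ n) := by
      rw [add_mul, mul_add, mul_add, ← pow_succ', ← pow_succ', pow_succ' y n, pow_succ' x n,
        ← mul_assoc, ← mul_assoc]
      abel
    rw [hsum, hc', hxy, hyx, smul_one_mul, smul_one_mul, smul_one_mul, ← smul_add, add_comm (y ^ n),
      hc, smul_smul, smul_smul] at key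
    rw [sub_smul, key, add_sub_cancel_right]

/-- Trace and determinant of powers of a two by two matrix depend only on those of the matrix. -/
theorem trace_det_pow_eq {k : Type*} [Field k] (A B : Matrix (Fin 2) (Fin 2) k)
    (ht : A.trace = B.trace) (hd : A.det = B.det) :
    ∀ n : ℕ, (A ^ n).trace = (B ^ n).trace ∧ (A ^ n).det = (B ^ n).det := by
  have hCH : ∀ M : Matrix (Fin 2) (Fin 2) k, M * M = M.trace • M - M.det • 1 := by
    intro M
    ext i j
    fin_cases i <;> fin_cases j <;>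
      simp [Matrix.mul_apply, Fin.sum_univ_two, Matrix.det_fin_two, Matrix.trace_fin_two] <;> ring
  have hrec : ∀ (M : Matrix (Fin 2) (Fin 2) k) (n : ℕ),
      (M ^ (n + 2)).trace = M.trace * (M ^ (n + 1)).trace - M.det * (M ^ n).trace := by
    intro M n
    rw [pow_add, pow_two, hCH M, mul_sub, mul_smul_comm, mul_smul_comm, mul_one, ← pow_succ,
      Matrix.trace_sub, Matrix.trace_smul, Matrix.trace_smul, smul_eq_mul, smul_eq_mul]
  intro n
  refine ⟨?_, by rw [Matrix.det_pow, Matrix.det_pow, hd]⟩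
  induction n using Nat.twoStepInduction with
  | zero => simp
  | one => simpa using ht
  | more n ih ih' => rw [hrec, hrec, ih, ih', ht, hd]

/-- If every Frobenius satisfies its quadratic on a nonzero module, there is a semisimple
two-dimensional representation with these characteristic polynomials. -/
theorem exists_rep_of_module {M ℓ : ℕ} [NeZero M] [Fact ℓ.Prime] (hℓ : ℓ ≠ 2) (hℓM : ℓ ∣ M)
    {k₀ k : Type} [Field k₀] [Finite k₀] [CharP k₀ ℓ] [Field k] [Finite k] (j : k₀ →+* k)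
    {V : Type} [AddCommGroup V] [Module k₀ V] [Finite V] [Nontrivial V]
    (π : Γℚ →* Module.End k₀ V)
    (hπ : ∃ L : IntermediateField ℚ (AlgebraicClosure ℚ), FiniteDimensional ℚ L ∧
      ∀ σ : Γℚ, (∀ x ∈ L, σ x = x) → π σ = 1)
    (χ : (ZMod M)ˣ →* k₀ˣ) (hχ : χ (-1) = 1) (a : ℕ → k₀)
    (hrel : ∀ (p : ℕ) (hp : p.Prime) (hpM : ¬ p ∣ M),
      ∀ P : ValuationSubring (AlgebraicClosure ℚ), P.LiesOverPrime p →
        (∀ σ ∈ P.inertiaSubgroupIn ℚ, π σ = 1) ∧
        ∀ σ : Γℚ, P.IsFrobeniusAt σ p →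
          π σ * π σ - a p • π σ +
            ((χ (ZMod.unitOfCoprime p ((Nat.Prime.coprime_iff_not_dvd hp).mpr hpM)) : k₀) * p) •
              (1 : Module.End k₀ V) = 0) :
    ∃ ρ : Γℚ →* GL (Fin 2) k, GaloisFactorsThroughFiniteLevel ρ ∧ DS.SemisimpleTwo ρ ∧
      ∀ (p : ℕ) (hp : p.Prime) (hpM : ¬ p ∣ M),
        ∀ P : ValuationSubring (AlgebraicClosure ℚ), P.LiesOverPrime p →
          (∀ σ ∈ P.inertiaSubgroupIn ℚ, ρ σ = 1) ∧
          ∀ σ : Γℚ, P.IsFrobeniusAt σ p →
            ((ρ σ : GL (Fin 2) k) : Matrix (Fin 2) (Fin 2) k).trace = j (a p) ∧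
            ((ρ σ : GL (Fin 2) k) : Matrix (Fin 2) (Fin 2) k).det =
              j (χ (ZMod.unitOfCoprime p ((Nat.Prime.coprime_iff_not_dvd hp).mpr hpM)) * p) := by
  classical
  haveI : CharP k ℓ := charP_of_injective_ringHom j.injective ℓ
  have hℓk : (2 : k) ≠ 0 := by
    intro h
    have h' : ((2 : ℕ) : k) = 0 := by simpa using h
    rw [CharP.cast_eq_zero_iff k ℓ] at h'
    exact hℓ ((Nat.prime_dvd_prime_iff_eq Fact.out Nat.prime_two).mp h')
  -- the determinant character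
  haveI : NeZero ((M : ℕ) : AlgebraicClosure ℚ) := ⟨Nat.cast_ne_zero.mpr (NeZero.ne M)⟩
  haveI : HasEnoughRootsOfUnity (AlgebraicClosure ℚ) M := IsSepClosed.hasEnoughRootsOfUnity _ _
  obtain ⟨ζ, hζ⟩ := HasEnoughRootsOfUnity.exists_primitiveRoot (AlgebraicClosure ℚ) M
  let ε : Γℚ →* (ZMod M)ˣ := hζ.autToPow ℚ
  have hεspec : ∀ (σ : Γℚ) (i : ℕ), σ ζ = ζ ^ i → ((ε σ : (ZMod M)ˣ) : ZMod M) = i := by
    intro σ i hi
    have h1 := hζ.autToPow_spec ℚ σ
    rw [hi] at h1
    have hfin : IsOfFinOrder ζ := isOfFinOrder_iff_pow_eq_one.mpr ⟨M, NeZero.pos M, hζ.pow_eq_one⟩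
    rw [hfin.pow_eq_pow_iff_modEq, ← hζ.eq_orderOf, ← ZMod.natCast_eq_natCast_iff,
      ZMod.natCast_zmod_val] at h1
    exact h1
  let d₀ : Γℚ →* k₀ˣ :=
    (χ * Units.map (ZMod.castHom hℓM k₀).toMonoidHom).comp ε
  have hd₀frob : ∀ (p : ℕ) (hp : p.Prime) (hpM : ¬ p ∣ M),
      ∀ P : ValuationSubring (AlgebraicClosure ℚ), P.LiesOverPrime p →
        ∀ σ : Γℚ, P.IsFrobeniusAt σ p → (d₀ σ : k₀) =
          (χ (ZMod.unitOfCoprime p ((Nat.Prime.coprime_iff_not_dvd hp).mpr hpM)) : k₀) * p := by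
    intro p hp hpM P hP σ hσ
    have h1 : ε σ = ZMod.unitOfCoprime p ((Nat.Prime.coprime_iff_not_dvd hp).mpr hpM) := by
      refine Units.ext ?_
      rw [hεspec σ p (GalCommon.frobenius_apply_of_pow_eq_one hp hP hpM hσ hζ.pow_eq_one),
        ZMod.coe_unitOfCoprime]
    show ((χ (ε σ) * Units.map (ZMod.castHom hℓM k₀).toMonoidHom (ε σ) : k₀ˣ) : k₀) = _
    rw [h1, Units.val_mul, Units.coe_map]
    simp
  have hd₀inert : ∀ (p : ℕ), p.Prime → ¬ p ∣ M →
      ∀ P : ValuationSubring (AlgebraicClosure ℚ), P.LiesOverPrime p →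
        ∀ σ ∈ P.inertiaSubgroupIn ℚ, d₀ σ = 1 := by
    intro p hp hpM P hP σ hσ
    have h1 : ε σ = 1 := by
      refine Units.ext ?_
      rw [hεspec σ 1 (by rw [pow_one]; exact
        GalCommon.inertia_apply_of_pow_eq_one hp hP hpM hσ hζ.pow_eq_one), Nat.cast_one,
        Units.val_one]
    rw [MonoidHom.comp_apply, h1, map_one]
  -- the finite level
  obtain ⟨L₁, hL₁, hπ₁⟩ := hπ
  haveI := hL₁
  haveI : FiniteDimensional ℚ (IntermediateField.adjoin ℚ {ζ}) :=
    IntermediateField.adjoin.finiteDimensional ((hζ.isIntegral (NeZero.pos M)).tower_top)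
  let L : IntermediateField ℚ (AlgebraicClosure ℚ) := L₁ ⊔ IntermediateField.adjoin ℚ {ζ}
  have hLπ : ∀ u : Γℚ, (∀ x ∈ L, u x = x) → π u = 1 ∧ d₀ u = 1 := by
    intro u hu
    refine ⟨hπ₁ u fun x hx => hu x ((le_sup_left : L₁ ≤ L) hx), ?_⟩
    have h1 : ε u = 1 := by
      refine Units.ext ?_
      rw [hεspec u 1 (by rw [pow_one]; exact hu ζ ((le_sup_right : _ ≤ L)
        (IntermediateField.mem_adjoin_simple_self ℚ ζ))), Nat.cast_one, Units.val_one]
    rw [MonoidHom.comp_apply, h1, map_one]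
  have hinv : ∀ σ, π σ * π σ⁻¹ = 1 := fun σ => by rw [← map_mul, mul_inv_cancel, map_one]
  have hinv' : ∀ σ, π σ⁻¹ * π σ = 1 := fun σ => by rw [← map_mul, inv_mul_cancel, map_one]
  -- the relation at Frobenius elements
  have hfrob : ∀ (p : ℕ) (hp : p.Prime) (hpM : ¬ p ∣ M),
      ∀ P : ValuationSubring (AlgebraicClosure ℚ), P.LiesOverPrime p →
        ∀ σ : Γℚ, P.IsFrobeniusAt σ p → π σ + (d₀ σ : k₀) • π σ⁻¹ = a p • 1 := by
    intro p hp hpM P hP σ hσ
    have h := (hrel p hp hpM P hP).2 σ hσ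
    rw [← hd₀frob p hp hpM P hP σ hσ] at h
    have h' := congrArg (fun f => π σ⁻¹ * f) h
    simp only [mul_add, mul_sub, mul_smul_comm, mul_one, mul_zero, ← mul_assoc, hinv', one_mul] at h'
    rw [sub_add_eq_add_sub, sub_eq_zero] at h'
    exact h'
  -- the relation everywhere
  have hall : ∀ σ : Γℚ, ∃ t : k₀, π σ + (d₀ σ : k₀) • π σ⁻¹ = t • 1 := by
    intro σ
    refine Density.forall_of_forall_isFrobeniusAt
      (P := fun σ => ∃ t : k₀, π σ + (d₀ σ : k₀) • π σ⁻¹ = t • 1)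
      L.fixingSubgroup L.fixingSubgroup_isOpen M.primeFactors ?_ ?_ ?_ σ
    · rintro g u hu ⟨t, ht⟩
      obtain ⟨h1, h2⟩ := hLπ u ((IntermediateField.mem_fixingSubgroup_iff _ _).mp hu)
      obtain ⟨h3, -⟩ := hLπ u⁻¹ ((IntermediateField.mem_fixingSubgroup_iff _ _).mp (inv_mem hu))
      exact ⟨t, by rw [mul_inv_rev, map_mul, map_mul, map_mul, h1, h2, h3, mul_one, mul_one,
        one_mul, ht]⟩
    · rintro g n ⟨t, ht⟩
      obtain ⟨c, hc⟩ := exists_scalar_pow_add_pow (π g) ((d₀ g : k₀) • π g⁻¹) t (d₀ g) ht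
        (by rw [mul_smul_comm, hinv]) (by rw [smul_mul_assoc, hinv']) n
      exact ⟨c, by rw [smul_pow, ← map_pow, ← map_pow, inv_pow] at hc
                   rw [map_pow d₀, Units.val_pow_eq_pow_val]
                   exact hc⟩
    · intro p hp hpS P hP τ hτ
      have hpM : ¬ p ∣ M := fun h => hpS (Nat.mem_primeFactors.mpr ⟨hp, h, NeZero.ne M⟩)
      exact ⟨a p, hfrob p hp hpM P hP τ hτ⟩
  choose t ht using hall
  have htfrob : ∀ (p : ℕ) (hp : p.Prime) (hpM : ¬ p ∣ M),
      ∀ P : ValuationSubring (AlgebraicClosure ℚ), P.LiesOverPrime p →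
        ∀ σ : Γℚ, P.IsFrobeniusAt σ p → t σ = a p := by
    intro p hp hpM P hP σ hσ
    have h : t σ • (1 : Module.End k₀ V) = a p • 1 := (ht σ).symm.trans (hfrob p hp hpM P hP σ hσ)
    obtain ⟨v, hv⟩ := exists_ne (0 : V)
    exact smul_left_injective k₀ hv (LinearMap.congr_fun h v)
  -- base change to `k`
  let bV := Module.finBasis k₀ V
  let Φ : Module.End k₀ V →+* Module.End k (Fin (Module.finrank k₀ V) → k) :=
    (Matrix.toLinAlgEquiv' (R := k) (n := Fin (Module.finrank k₀ V))).toRingEquiv.toRingHom.comp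
      (j.mapMatrix.comp (LinearMap.toMatrixAlgEquiv bV).toRingEquiv.toRingHom)
  have hΦ : ∀ (c : k₀) (f : Module.End k₀ V), Φ (c • f) = j c • Φ f := by
    intro c f
    show Matrix.toLinAlgEquiv' ((LinearMap.toMatrixAlgEquiv bV (c • f)).map j) = _
    rw [map_smul, Matrix.map_smul' _ _ _ (map_mul j), map_smul]
    rfl
  haveI : NeZero (Module.finrank k₀ V) := ⟨Module.finrank_pos.ne'⟩
  let d : Γℚ →* kˣ := (Units.map (j : k₀ →* k)).comp d₀
  obtain ⟨ρ, hss, hker, hρ⟩ := exists_two_of_pseudo hℓk (Φ.toMonoidHom.comp π) d (fun σ => j (t σ))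
    (fun σ => by
      show Φ (π σ) + j (d₀ σ : k₀) • Φ (π σ⁻¹) = j (t σ) • 1
      rw [← hΦ, ← map_add, ht, hΦ, map_one])
  have hone : ∀ σ, π σ = 1 → d₀ σ = 1 → ρ σ = 1 := fun σ h1 h2 =>
    hker σ (by show Φ (π σ) = 1; rw [h1, map_one])
      (by show Units.map (j : k₀ →* k) (d₀ σ) = 1; rw [h2, map_one])
  refine ⟨ρ, ⟨L, inferInstance, fun σ hσ => hone σ (hLπ σ hσ).1 (hLπ σ hσ).2⟩, hss,
    fun p hp hpM P hP => ⟨fun σ hσ => hone σ ((hrel p hp hpM P hP).1 σ hσ)
      (hd₀inert p hp hpM P hP σ hσ), fun σ hσ => ⟨?_, ?_⟩⟩⟩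
  · rw [(hρ σ).1, htfrob p hp hpM P hP σ hσ]
  · rw [(hρ σ).2]
    show j (d₀ σ : k₀) = _
    rw [hd₀frob p hp hpM P hP σ hσ]

/-- Semisimple representations with the same characteristic polynomials at almost all primes
have the same kernel and the same characteristic polynomials everywhere. -/
theorem eq_of_frobenius_eq {k : Type} [Field k] [Finite k] (ρ ρ' : Γℚ →* GL (Fin 2) k)
    (hρ : GaloisFactorsThroughFiniteLevel ρ) (hρ' : GaloisFactorsThroughFiniteLevel ρ')
    (hs : DS.SemisimpleTwo ρ) (hs' : DS.SemisimpleTwo ρ') (h2 : (2 : k) ≠ 0) (S : Finset ℕ)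
    (h : ∀ p : ℕ, p.Prime → p ∉ S → ∀ P : ValuationSubring (AlgebraicClosure ℚ),
      P.LiesOverPrime p → ∀ σ : Γℚ, P.IsFrobeniusAt σ p →
        ((ρ σ : GL (Fin 2) k) : Matrix (Fin 2) (Fin 2) k).trace =
            ((ρ' σ : GL (Fin 2) k) : Matrix (Fin 2) (Fin 2) k).trace ∧
          ((ρ σ : GL (Fin 2) k) : Matrix (Fin 2) (Fin 2) k).det =
            ((ρ' σ : GL (Fin 2) k) : Matrix (Fin 2) (Fin 2) k).det) :
    ∀ σ : Γℚ, (ρ' σ = 1 → ρ σ = 1) ∧
      ((ρ σ : GL (Fin 2) k) : Matrix (Fin 2) (Fin 2) k).trace =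
          ((ρ' σ : GL (Fin 2) k) : Matrix (Fin 2) (Fin 2) k).trace ∧
        ((ρ σ : GL (Fin 2) k) : Matrix (Fin 2) (Fin 2) k).det =
          ((ρ' σ : GL (Fin 2) k) : Matrix (Fin 2) (Fin 2) k).det := by
  classical
  obtain ⟨L₁, hL₁, h1⟩ := hρ
  obtain ⟨L₂, hL₂, h2'⟩ := hρ'
  haveI := hL₁
  haveI := hL₂
  let L : IntermediateField ℚ (AlgebraicClosure ℚ) := L₁ ⊔ L₂
  have hall : ∀ σ : Γℚ, ((ρ σ : GL (Fin 2) k) : Matrix (Fin 2) (Fin 2) k).trace =
          ((ρ' σ : GL (Fin 2) k) : Matrix (Fin 2) (Fin 2) k).trace ∧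
        ((ρ σ : GL (Fin 2) k) : Matrix (Fin 2) (Fin 2) k).det =
          ((ρ' σ : GL (Fin 2) k) : Matrix (Fin 2) (Fin 2) k).det := by
    intro σ
    refine Density.forall_of_forall_isFrobeniusAt
      (P := fun σ => ((ρ σ : GL (Fin 2) k) : Matrix (Fin 2) (Fin 2) k).trace =
          ((ρ' σ : GL (Fin 2) k) : Matrix (Fin 2) (Fin 2) k).trace ∧
        ((ρ σ : GL (Fin 2) k) : Matrix (Fin 2) (Fin 2) k).det =
          ((ρ' σ : GL (Fin 2) k) : Matrix (Fin 2) (Fin 2) k).det)
      L.fixingSubgroup L.fixingSubgroup_isOpen S ?_ ?_ (fun p hp hpS P hP τ hτ => h p hp hpS P hP τ hτ) σ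
    · intro g u hu hg
      have hu' := (IntermediateField.mem_fixingSubgroup_iff _ _).mp hu
      rwa [map_mul, map_mul, h1 u fun x hx => hu' x ((le_sup_left : L₁ ≤ L) hx),
        h2' u fun x hx => hu' x ((le_sup_right : L₂ ≤ L) hx), mul_one, mul_one]
    · intro g n hg
      rw [map_pow, map_pow, Units.val_pow_eq_pow_val, Units.val_pow_eq_pow_val]
      exact trace_det_pow_eq _ _ hg.1 hg.2 n
  intro σ
  refine ⟨fun hσ => ?_, hall σ⟩
  -- kernel
  by_contra hne
  let N : Matrix (Fin 2) (Fin 2) k := ((ρ σ : GL (Fin 2) k) : Matrix (Fin 2) (Fin 2) k) - 1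
  have huni : ∀ τ, ρ' τ = 1 →
      ((ρ τ : GL (Fin 2) k) : Matrix (Fin 2) (Fin 2) k).trace = 2 ∧
      ((ρ τ : GL (Fin 2) k) : Matrix (Fin 2) (Fin 2) k).det = 1 := by
    intro τ hτ
    have := hall τ
    rw [hτ, Units.val_one, Matrix.trace_one, Matrix.det_one, Fintype.card_fin, Nat.cast_two] at this
    exact this
  have hN0 : N ≠ 0 := fun h0 => hne (Units.ext (by rw [Units.val_one]; exact sub_eq_zero.mp h0))
  have hNtr : ∀ τ, ρ' τ = 1 → (((ρ τ : GL (Fin 2) k) : Matrix (Fin 2) (Fin 2) k) - 1).trace = 0 := by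
    intro τ hτ
    rw [Matrix.trace_sub, (huni τ hτ).1, Matrix.trace_one, Fintype.card_fin, Nat.cast_two, sub_self]
  have hNsq : N * N = 0 := by
    have h3 := huni σ hσ
    simp only [Matrix.trace_fin_two, Matrix.det_fin_two] at h3
    ext i j
    fin_cases i <;> fin_cases j <;>
      simp [N, Matrix.mul_apply, Fin.sum_univ_two] <;>
      first
        | linear_combination (((ρ σ : GL (Fin 2) k) : Matrix (Fin 2) (Fin 2) k) 0 0) * h3.1 - h3.2
        | linear_combination (((ρ σ : GL (Fin 2) k) : Matrix (Fin 2) (Fin 2) k) 0 1) * h3.1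
        | linear_combination (((ρ σ : GL (Fin 2) k) : Matrix (Fin 2) (Fin 2) k) 1 0) * h3.1
        | linear_combination (((ρ σ : GL (Fin 2) k) : Matrix (Fin 2) (Fin 2) k) 1 1) * h3.1 - h3.2
  obtain ⟨v, hv, hNv, hline⟩ : ∃ v : Fin 2 → k, v ≠ 0 ∧ N.mulVec v = 0 ∧
      ∀ w : Fin 2 → k, N.mulVec w = 0 → ∃ c : k, w = c • v := by
    obtain ⟨x, hx⟩ : ∃ x, N.mulVec x ≠ 0 := by
      by_contra hall0
      push Not at hall0
      exact hN0 (Matrix.ext_of_mulVec_single fun i => by rw [hall0, Matrix.zero_mulVec])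
    refine ⟨N.mulVec x, hx, by rw [Matrix.mulVec_mulVec, hNsq, Matrix.zero_mulVec], fun w hw => ?_⟩
    have hli : LinearIndependent k ![N.mulVec x, x] := by
      rw [LinearIndependent.pair_iff]
      intro s u hsu
      have := congrArg N.mulVec hsu
      rw [Matrix.mulVec_add, Matrix.mulVec_smul, Matrix.mulVec_smul, Matrix.mulVec_mulVec, hNsq,
        Matrix.zero_mulVec, smul_zero, zero_add, Matrix.mulVec_zero] at this
      have hu0 : u = 0 := (smul_eq_zero.mp this).resolve_right hx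
      rw [hu0, zero_smul, add_zero] at hsu
      exact ⟨(smul_eq_zero.mp hsu).resolve_right hx, hu0⟩
    have hspan : w ∈ Submodule.span k (Set.range ![N.mulVec x, x]) := by
      rw [hli.span_eq_top_of_card_eq_finrank (by simp)]
      trivial
    obtain ⟨c, hc⟩ := (Submodule.mem_span_range_iff_exists_fun k).mp hspan
    rw [Fin.sum_univ_two] at hc
    simp only [Matrix.cons_val_zero, Matrix.cons_val_one] at hc
    rw [← hc, Matrix.mulVec_add, Matrix.mulVec_smul, Matrix.mulVec_smul, Matrix.mulVec_mulVec,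
      hNsq, Matrix.zero_mulVec, smul_zero, zero_add] at hw
    exact ⟨c 0, by rw [← hc, (smul_eq_zero.mp hw).resolve_right hx, zero_smul, add_zero]⟩
  -- every unipotent element of the kernel of `ρ'` fixes `v`
  have hfix : ∀ τ, ρ' τ = 1 →
      (((ρ τ : GL (Fin 2) k) : Matrix (Fin 2) (Fin 2) k) - 1).mulVec v = 0 := by
    intro τ hτ
    set X := ((ρ τ : GL (Fin 2) k) : Matrix (Fin 2) (Fin 2) k) - 1 with hX
    have htr : (N * X).trace = 0 := by
      have h4 := hNtr (σ * τ) (by rw [map_mul, hσ, hτ, mul_one])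
      have h5 := hNtr σ hσ
      have h6 := hNtr τ hτ
      have e : ((ρ (σ * τ) : GL (Fin 2) k) : Matrix (Fin 2) (Fin 2) k) - 1 = N * X + N + X := by
        rw [map_mul, Units.val_mul, hX]
        simp only [N]
        noncomm_ring
      rw [e, Matrix.trace_add, Matrix.trace_add, h5, h6, add_zero, add_zero] at h4
      exact h4
    have hXX : X * X = 0 := by
      have h3 := huni τ hτ
      simp only [Matrix.trace_fin_two, Matrix.det_fin_two] at h3
      ext i j
      fin_cases i <;> fin_cases j <;>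
        simp [hX, Matrix.mul_apply, Fin.sum_univ_two] <;>
        first
          | linear_combination (((ρ τ : GL (Fin 2) k) : Matrix (Fin 2) (Fin 2) k) 0 0) * h3.1 - h3.2
          | linear_combination (((ρ τ : GL (Fin 2) k) : Matrix (Fin 2) (Fin 2) k) 0 1) * h3.1
          | linear_combination (((ρ τ : GL (Fin 2) k) : Matrix (Fin 2) (Fin 2) k) 1 0) * h3.1
          | linear_combination (((ρ τ : GL (Fin 2) k) : Matrix (Fin 2) (Fin 2) k) 1 1) * h3.1 - h3.2
    -- `N X + X N = 0`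
    have hanti : N * X + X * N = 0 := by
      have h5 : N.trace = 0 := hNtr σ hσ
      have h6 : X.trace = 0 := hNtr τ hτ
      simp only [Matrix.trace_fin_two, Matrix.mul_apply, Fin.sum_univ_two] at htr h5 h6
      ext i j
      fin_cases i <;> fin_cases j <;>
        simp only [Fin.zero_eta, Fin.mk_one, Matrix.add_apply, Matrix.mul_apply, Fin.sum_univ_two,
          Matrix.zero_apply] <;>
        first
          | linear_combination htr + (X 0 0) * h5 - (N 1 1) * h6
          | linear_combination htr - (X 0 0) * h5 + (N 1 1) * h6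
          | linear_combination (N 0 1) * h6 + (X 0 1) * h5
          | linear_combination (N 1 0) * h6 + (X 1 0) * h5
    have hNX : N.mulVec (X.mulVec v) = 0 := by
      rw [Matrix.mulVec_mulVec, eq_neg_of_add_eq_zero_left hanti, Matrix.neg_mulVec,
        ← Matrix.mulVec_mulVec, hNv, Matrix.mulVec_zero, neg_zero]
    obtain ⟨c, hc⟩ := hline _ hNX
    have := congrArg X.mulVec hc
    rw [Matrix.mulVec_mulVec, hXX, Matrix.zero_mulVec, Matrix.mulVec_smul, hc, smul_smul] at this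
    rcases smul_eq_zero.mp this.symm with h0 | h0
    · rw [hc, mul_self_eq_zero.mp h0, zero_smul]
    · exact absurd h0 hv
  -- hence the line through `v` is stable
  obtain ⟨w, hw, hwst⟩ := hs v hv fun g => by
    have hconj : ρ' (g⁻¹ * σ * g) = 1 := by
      rw [map_mul, map_mul, hσ, mul_one, ← map_mul, inv_mul_cancel, map_one]
    have h7 := hfix _ hconj
    rw [Matrix.sub_mulVec, Matrix.one_mulVec, sub_eq_zero] at h7
    obtain ⟨c, hc⟩ := hline (((ρ g : GL (Fin 2) k) : Matrix (Fin 2) (Fin 2) k).mulVec v) (by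
      show (((ρ σ : GL (Fin 2) k) : Matrix (Fin 2) (Fin 2) k) - 1).mulVec _ = 0
      rw [Matrix.sub_mulVec, Matrix.one_mulVec, sub_eq_zero]
      conv_rhs => rw [← h7]
      rw [Matrix.mulVec_mulVec, Matrix.mulVec_mulVec, ← Units.val_mul, ← Units.val_mul, ← map_mul,
        ← map_mul, ← mul_assoc, ← mul_assoc, mul_inv_cancel, one_mul])
    exact ⟨c, hc⟩
  obtain ⟨c, hc⟩ := hwst σ
  have hNw : N.mulVec w = (c - 1) • w := by
    simp only [N]
    rw [Matrix.sub_mulVec, Matrix.one_mulVec, hc, sub_smul, one_smul]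
  have := congrArg N.mulVec hNw
  rw [Matrix.mulVec_mulVec, hNsq, Matrix.zero_mulVec, Matrix.mulVec_smul, hNw, smul_smul] at this
  rcases smul_eq_zero.mp this.symm with h0 | h0
  · rw [mul_self_eq_zero.mp h0, zero_smul] at hNw
    obtain ⟨e, he⟩ := hline w hNw
    exact hw e he
  · exact hw 0 (by rw [h0, zero_smul])

end FLTAgent.Gamma1
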