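/-
The representation at one auxiliary level.
-/
import Fermat.Agent.Gamma1.WpAPI
import Fermat.Agent.Gamma1.MultAPI
import Fermat.Agent.Gamma1.HeckeAPI
import Fermat.Agent.Gamma1.RepAPI
import Fermat.Agent.Gamma1.Lv.GalFrob
import Fermat.Agent.Gamma1.Lv.GalAssembly
import Fermat.Agent.Gamma1.Lv.GalHecke

/-!
# The representation at one auxiliary level

`exists_rep_of_level`: for `IsLevel n M` a mod `ℓ` eigensystem of level `M' ∣ M` has a semisimple
representation unramified at `p ∤ M` with the expected characteristic polynomials of Frobenius.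
It is `Lv.exists_rep_of_action` applied to the Galois action `Lv.galAct` on characters.
-/

set_option autoImplicit false

noncomputable section

open CongruenceSubgroup

local notation "Γℚ" => (AlgebraicClosure ℚ ≃ₐ[ℚ] AlgebraicClosure ℚ)

namespace FLTAgent.Gamma1

/-- The residual representation at one auxiliary level. -/
theorem exists_rep_of_level {n M M' : ℕ} [NeZero M'] (h : IsLevel n M) (hM' : M' ∣ M)
    {ℓ : ℕ} [Fact ℓ.Prime] (hℓ : ℓ ≠ 2) (hℓM : ℓ ∣ M')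
    {k : Type} [Field k] [Finite k] [CharP k ℓ]
    (R : Subring ℂ) (φ : R →+* k) (χ : DirichletCharacter ℂ M') (χR : ℕ → R)
    (hχR : ∀ m : ℕ, (χR m : ℂ) = χ (m : ZMod M'))
    (F : CuspForm (Gamma1 M') 2) (hF : DS.HasNebentypus 2 χ ⇑F) (A : ℕ → R)
    (hA : ∀ m : ℕ, (A m : ℂ) = ModularFormClass.qCoeff F m) (hA1 : φ (A 1) = 1) (a : ℕ → k)
    (heig : ∀ p : ℕ, p.Prime → ¬ p ∣ M → ∀ m : ℕ,
      φ (A (p * m)) + φ (χR p) * (p : k) * (if p ∣ m then φ (A (m / p)) else 0) =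
        a p * φ (A m)) :
    ∃ ρ : Γℚ →* GL (Fin 2) k, GaloisFactorsThroughFiniteLevel ρ ∧ DS.SemisimpleTwo ρ ∧
      ∀ p : ℕ, p.Prime → ¬ p ∣ M →
        ∀ P : ValuationSubring (AlgebraicClosure ℚ), P.LiesOverPrime p →
          (∀ σ ∈ P.inertiaSubgroupIn ℚ, ρ σ = 1) ∧
          ∀ σ : Γℚ, P.IsFrobeniusAt σ p →
            ((ρ σ : GL (Fin 2) k) : Matrix (Fin 2) (Fin 2) k).trace = a p ∧
            ((ρ σ : GL (Fin 2) k) : Matrix (Fin 2) (Fin 2) k).det = φ (χR p) * (p : k) := by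
  have : NeZero M := ⟨fun h0 => by have := h.three_le; omega⟩
  have : NeZero ℓ := ⟨(Fact.out : ℓ.Prime).ne_zero⟩
  have : Algebra.IsAlgebraic ℚ (AlgebraicClosure ℚ) := AlgebraicClosure.isAlgebraic ℚ
  obtain ⟨ι⟩ : Nonempty (AlgebraicClosure ℚ →+* ℂ) :=
    ⟨(IsAlgClosed.lift (R := ℚ)).toRingHom⟩
  have hℓM' : ℓ ∣ M := hℓM.trans hM'
  refine Lv.exists_rep_of_action h hM' hℓ hℓM R φ χ χR hχR F hF A hA hA1 a heig
    (Lv.galAct h ι) (Lv.galAct_finite h ι) (Lv.galAct_comm h ι) fun p hp hpM P hP => ?_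
  let pl : Lv.Plc M := ⟨ι, P, p, hp, hP, hpM⟩
  exact ⟨fun σ hσ => Lv.galAct_inertia h hℓM' pl hσ,
    fun σ hσ ψ => Lv.galAct_frobenius h hℓM' pl hσ ψ⟩

end FLTAgent.Gamma1
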