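/-
Residual representations attached to mod `ℓ` eigen systems of weight two on `Γ₁(M)`, `ℓ` odd:
gluing of the auxiliary levels `2` and `3`.
-/
import Fermat.Agent.Gamma1.Level

/-!
# Residual representations of weight two eigensystems on `Γ₁(M)`

`exists_residualRep`: a mod `ℓ` eigensystem (`ℓ` odd, `ℓ ∣ M`) has a semisimple two-dimensional
representation unramified at `p ∤ M` with trace `a p` and determinant `χ(p) p` at Frobenius. The
representations from the auxiliary levels `lcm(M, 2)` and `lcm(M, 3)` agree by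
`eq_of_frobenius_eq`, which covers `p = 2`.
-/

set_option autoImplicit false

noncomputable section

open CongruenceSubgroup

local notation "Γℚ" => (AlgebraicClosure ℚ ≃ₐ[ℚ] AlgebraicClosure ℚ)

namespace FLTAgent.Gamma1

/-- The residual representation of a mod `ℓ` weight two eigensystem on `Γ₁(M)`, `ℓ` odd. -/
theorem exists_residualRep {M : ℕ} [NeZero M] {ℓ : ℕ} [hℓp : Fact ℓ.Prime] (hℓ : ℓ ≠ 2)
    (hℓM : ℓ ∣ M) {k : Type} [Field k] [Finite k] [CharP k ℓ]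
    (R : Subring ℂ) (φ : R →+* k) (χ : DirichletCharacter ℂ M) (χR : ℕ → R)
    (hχR : ∀ n : ℕ, (χR n : ℂ) = χ (n : ZMod M))
    (F : CuspForm (Gamma1 M) 2) (hF : DS.HasNebentypus 2 χ ⇑F) (A : ℕ → R)
    (hA : ∀ n : ℕ, (A n : ℂ) = ModularFormClass.qCoeff F n) (hA1 : φ (A 1) = 1) (a : ℕ → k)
    (heig : ∀ p : ℕ, p.Prime → ¬ p ∣ M → ∀ n : ℕ,
      φ (A (p * n)) + φ (χR p) * (p : k) * (if p ∣ n then φ (A (n / p)) else 0) =
        a p * φ (A n)) :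
    ∃ ρ : Γℚ →* GL (Fin 2) k, GaloisFactorsThroughFiniteLevel ρ ∧ DS.SemisimpleTwo ρ ∧
      ∀ p : ℕ, p.Prime → ¬ p ∣ M →
        ∀ P : ValuationSubring (AlgebraicClosure ℚ), P.LiesOverPrime p →
          (∀ σ ∈ P.inertiaSubgroupIn ℚ, ρ σ = 1) ∧
          ∀ σ : Γℚ, P.IsFrobeniusAt σ p →
            ((ρ σ : GL (Fin 2) k) : Matrix (Fin 2) (Fin 2) k).trace = a p ∧
            ((ρ σ : GL (Fin 2) k) : Matrix (Fin 2) (Fin 2) k).det = φ (χR p) * (p : k) := by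
  have hℓ3 : 3 ≤ ℓ := by
    have := hℓp.out.two_le
    omega
  have hle : ∀ n : ℕ, 0 < n → 3 ≤ Nat.lcm M n := fun n hn =>
    hℓ3.trans (Nat.le_of_dvd (Nat.pos_of_ne_zero (Nat.lcm_ne_zero (NeZero.ne M) hn.ne'))
      (hℓM.trans (Nat.dvd_lcm_left M n)))
  have hlev : ∀ n : ℕ, (n = 2 ∨ n = 3) → IsLevel n (Nat.lcm M n) := fun n hn =>
    ⟨hn, Nat.dvd_lcm_right M n, hle n (by omega)⟩
  have hweak : ∀ n : ℕ, ∀ p : ℕ, p.Prime → ¬ p ∣ Nat.lcm M n → ∀ m : ℕ,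
      φ (A (p * m)) + φ (χR p) * (p : k) * (if p ∣ m then φ (A (m / p)) else 0) =
        a p * φ (A m) :=
    fun n p hp hpn => heig p hp fun hd => hpn (hd.trans (Nat.dvd_lcm_left M n))
  obtain ⟨ρ, hρ, hs, hP⟩ := exists_rep_of_level (hlev 2 (Or.inl rfl)) (Nat.dvd_lcm_left M 2) hℓ hℓM
    R φ χ χR hχR F hF A hA hA1 a (hweak 2)
  obtain ⟨ρ', hρ', hs', hP'⟩ := exists_rep_of_level (hlev 3 (Or.inr rfl)) (Nat.dvd_lcm_left M 3)
    hℓ hℓM R φ χ χR hχR F hF A hA hA1 a (hweak 3)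
  have h2 : (2 : k) ≠ 0 := by
    intro h
    have : ℓ ∣ 2 := (CharP.cast_eq_zero_iff k ℓ 2).mp (by exact_mod_cast h)
    have := Nat.le_of_dvd two_pos this
    omega
  have hnd : ∀ {n p : ℕ}, n.Prime → p.Prime → ¬ p ∣ M → p ≠ n → ¬ p ∣ Nat.lcm M n :=
    fun {n p} hn hp hpM hne hd => (hp.dvd_mul.mp (hd.trans (Nat.lcm_dvd_mul M n))).elim hpM
      fun h => hne ((Nat.prime_dvd_prime_iff_eq hp hn).mp h)
  have key := eq_of_frobenius_eq ρ ρ' hρ hρ' hs hs' h2 ({2, 3} ∪ M.primeFactors)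
    fun p hp hpS P hP0 σ hσ => by
      simp only [Finset.mem_union, Finset.mem_insert, Finset.mem_singleton, Nat.mem_primeFactors,
        not_or] at hpS
      have hpM : ¬ p ∣ M := fun hd => hpS.2 ⟨hp, hd, NeZero.ne M⟩
      obtain ⟨ht, hd⟩ := (hP p hp (hnd Nat.prime_two hp hpM hpS.1.1) P hP0).2 σ hσ
      obtain ⟨ht', hd'⟩ := (hP' p hp (hnd Nat.prime_three hp hpM hpS.1.2) P hP0).2 σ hσ
      exact ⟨ht.trans ht'.symm, hd.trans hd'.symm⟩
  refine ⟨ρ, hρ, hs, fun p hp hpM P hP0 => ?_⟩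
  by_cases hp2 : p = 2
  · subst hp2
    obtain ⟨hi, hf⟩ := hP' 2 hp (hnd Nat.prime_three hp hpM (by omega)) P hP0
    refine ⟨fun σ hσ => (key σ).1 (hi σ hσ), fun σ hσ => ?_⟩
    exact ⟨(key σ).2.1.trans (hf σ hσ).1, (key σ).2.2.trans (hf σ hσ).2⟩
  · exact hP p hp (hnd Nat.prime_two hp hpM hp2) P hP0

end FLTAgent.Gamma1
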